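import Fermat.Agent.Corollaries.KW.Kap

set_option autoImplicit false

/-!
# Kronecker-Weber (H): the conductor

* `inertia_surj` : the inertia group at `q` maps onto `(ZMod (q ^ k))ˣ` (Minkowski: the quotient
  would be an everywhere unramified extension of `ℚ`).
* `Fix_inf`, `Fix_sup` : `Fix m ⊓ Fix n = Fix (lcm m n)`, `Fix m ⊔ Fix n = Fix (gcd m n)`, i.e.
  `ℚ(μ_m) ∩ ℚ(μ_n) = ℚ(μ_{gcd m n})`.
* `exists_conductor` : a character of finite conductor which is unramified outside `S` is trivial on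
  `Fix m` for some `m` whose prime factors are in `S`.
* `conductor` : there is a smallest such `m`; its prime factors are the ramified primes.
-/

namespace Fermat.Agent.Cor.KW

open Fermat.Agent.Frob Fermat.Agent.Minkowski Fermat.Agent.TW

/-! ### Inertia -/

/-- **The inertia group at `q` surjects onto `(ZMod (q ^ k))ˣ`.** -/
theorem inertia_surj {q : ℕ} (hq : q.Prime) (k : ℕ) [NeZero (q ^ k)] {A : ValuationSubring Qbar}
    (hA : A.LiesOverPrime q) (u : (ZMod (q ^ k))ˣ) :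
    ∃ σ ∈ A.inertiaSubgroupIn ℚ, Kap.kap (q ^ k) σ = u := by
  let J : Subgroup (ZMod (q ^ k))ˣ := (A.inertiaSubgroupIn ℚ).map (Kap.kap (q ^ k))
  let ψ : GQ →* (ZMod (q ^ k))ˣ ⧸ J := (QuotientGroup.mk' J).comp (Kap.kap (q ^ k))
  have hψ : ψ = 1 := by
    refine eq_one_of_unrAt ((Kap.lev_kap (q ^ k)).comp _) fun ℓ hℓ => ?_
    by_cases h : ℓ = q
    · rw [h]
      refine unrAt_of_place (M := (ZMod (q ^ k))ˣ ⧸ J) (χ := ψ) hA hq fun σ hσ => ?_
      exact (QuotientGroup.eq_one_iff _).mpr ⟨σ, hσ, rfl⟩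
    · refine UnrAt.comp (Kap.unrAt_kap (q ^ k) hℓ fun hd => h ?_) _
      exact (Nat.prime_dvd_prime_iff_eq hℓ hq).mp (hℓ.dvd_of_dvd_pow hd)
  obtain ⟨τ, rfl⟩ := Kap.kap_surjective (q ^ k) u
  have h1 : ψ τ = 1 := by rw [hψ]; rfl
  have h2 : Kap.kap (q ^ k) τ ∈ J := (QuotientGroup.eq_one_iff _).mp h1
  obtain ⟨σ, hσ, h3⟩ := h2
  exact ⟨σ, hσ, h3⟩

/-! ### The lattice of the groups `Fix m` -/

lemma mem_Fix_iff_kap {m : ℕ} [NeZero m] {σ : GQ} : σ ∈ Fix m ↔ Kap.kap m σ = 1 := by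
  rw [← Kap.kap_ker m, MonoidHom.mem_ker]

/-- A multiplicative relation for an element fixed by `σ`. -/
lemma fix_zpow {σ : GQ} {x : Qbar} (h : σ x = x) (k : ℤ) : σ (x ^ k) = x ^ k := by
  rw [map_zpow₀, h]

/-- `ℚ(μ_m) ℚ(μ_n) = ℚ(μ_{lcm m n})`. -/
theorem Fix_inf (m n : ℕ) (hm : m ≠ 0) (hn : n ≠ 0) : Fix m ⊓ Fix n = Fix (Nat.lcm m n) := by
  apply le_antisymm
  · rintro σ ⟨h1, h2⟩ ζ hζ
    have hζ0 : ζ ≠ 0 := by
      rintro rfl
      rw [zero_pow (Nat.lcm_ne_zero hm hn)] at hζ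
      exact zero_ne_one hζ
    obtain ⟨a, ha⟩ := Nat.dvd_lcm_left m n
    obtain ⟨b, hb⟩ := Nat.dvd_lcm_right m n
    have hcop : Nat.gcd a b = 1 := by
      have hg : Nat.gcd m n ≠ 0 := Nat.gcd_ne_zero_left hm
      have hl : Nat.lcm m n ≠ 0 := Nat.lcm_ne_zero hm hn
      -- lcm(m, n) = lcm (l / a, l / b) so gcd (a, b) = 1
      by_contra hne
      obtain ⟨p, hp, hpa, hpb⟩ := Nat.Prime.not_coprime_iff_dvd.mp hne
      obtain ⟨a', rfl⟩ := hpa
      obtain ⟨b', rfl⟩ := hpb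
      have h3 : Nat.lcm m n ∣ m * a' := by
        apply Nat.lcm_dvd (Dvd.intro _ rfl)
        have : n * b' * p = m * a' * p := by
          rw [mul_assoc, mul_assoc, mul_comm b' p, mul_comm a' p, ← ha, ← hb]
        have := Nat.eq_of_mul_eq_mul_right hp.pos this
        exact ⟨b', this.symm⟩
      have h4 : m * a' * p = Nat.lcm m n := by rw [mul_assoc, mul_comm a' p, ← ha]
      have h5 := Nat.le_of_dvd (Nat.pos_of_ne_zero (by
        rintro h0
        rw [h0, zero_mul] at h4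
        exact hl h4.symm)) h3
      have h6 : 0 < m * a' := Nat.pos_of_ne_zero (by
        rintro h0
        rw [h0, zero_mul] at h4
        exact hl h4.symm)
      have h7 : m * a' * 2 ≤ m * a' * p := Nat.mul_le_mul_left _ hp.two_le
      omega
    have hbez := Nat.gcd_eq_gcd_ab a b
    rw [hcop] at hbez
    have e1 : σ (ζ ^ a) = ζ ^ a := h1 _ (by rw [← pow_mul, mul_comm, ← ha, hζ])
    have e2 : σ (ζ ^ b) = ζ ^ b := h2 _ (by rw [← pow_mul, mul_comm, ← hb, hζ])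
    have e3 : ζ = (ζ ^ a) ^ (Nat.gcdA a b) * (ζ ^ b) ^ (Nat.gcdB a b) := by
      rw [← zpow_natCast ζ a, ← zpow_natCast ζ b, ← zpow_mul, ← zpow_mul, ← zpow_add₀ hζ0,
        ← hbez, Nat.cast_one, zpow_one]
    conv_lhs => rw [e3]
    rw [map_mul, fix_zpow e1, fix_zpow e2, ← e3]
  · exact le_inf (Fix_le (Nat.dvd_lcm_left m n)) (Fix_le (Nat.dvd_lcm_right m n))

/-- `kap m` in terms of `kap n`, `m ∣ n`. -/
lemma kap_eq_castHom {m n : ℕ} [NeZero m] [NeZero n] (h : m ∣ n) (σ : GQ) :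
    ((Kap.kap m σ : (ZMod m)ˣ) : ZMod m) =
      ZMod.castHom h (ZMod m) ((Kap.kap n σ : (ZMod n)ˣ) : ZMod n) := by
  have h1 : σ (Kap.zet m) = Kap.zet m ^ ((Kap.kap n σ : (ZMod n)ˣ) : ZMod n).val := by
    apply Kap.kap_spec n
    obtain ⟨k, rfl⟩ := h
    rw [pow_mul, (Kap.zet_spec m).pow_eq_one, one_pow]
  rw [Kap.kap_eq m h1, ZMod.castHom_apply, ZMod.natCast_val]

/-- **`ℚ(μ_m) ∩ ℚ(μ_n) = ℚ(μ_{gcd m n})`.** -/
theorem Fix_sup (m n : ℕ) (hm : m ≠ 0) (hn : n ≠ 0) : Fix m ⊔ Fix n = Fix (Nat.gcd m n) := by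
  apply le_antisymm
  · exact sup_le (Fix_le (Nat.gcd_dvd_left m n)) (Fix_le (Nat.gcd_dvd_right m n))
  · intro σ hσ
    have : NeZero m := ⟨hm⟩
    have : NeZero n := ⟨hn⟩
    have : NeZero (Nat.gcd m n) := ⟨Nat.gcd_ne_zero_left hm⟩
    have : NeZero (Nat.lcm m n) := ⟨Nat.lcm_ne_zero hm hn⟩
    -- an integer congruent to `κ_m σ` modulo `m` and to `1` modulo `n`
    have h1 : ((Kap.kap m σ : (ZMod m)ˣ) : ZMod m).val ≡ 1 [MOD Nat.gcd m n] := by
      rw [mem_Fix_iff_kap] at hσ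
      have h2 := kap_eq_castHom (Nat.gcd_dvd_left m n) σ
      rw [hσ, Units.val_one, ZMod.castHom_apply, ZMod.cast_eq_val] at h2
      rw [← ZMod.natCast_eq_natCast_iff, Nat.cast_one]
      exact h2.symm
    obtain ⟨c, hc1, hc2⟩ := Nat.chineseRemainder' h1
    have hcm : Nat.Coprime c m := by
      have h2 : Nat.Coprime ((Kap.kap m σ : (ZMod m)ˣ) : ZMod m).val m :=
        ZMod.val_coe_unit_coprime _
      rw [Nat.Coprime, hc1.gcd_eq]
      exact h2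
    have hcn : Nat.Coprime c n := by
      rw [Nat.Coprime, hc2.gcd_eq]
      exact Nat.gcd_one_left n
    have hcl : Nat.Coprime c (Nat.lcm m n) :=
      Nat.Coprime.coprime_dvd_right (Nat.lcm_dvd_mul m n) (Nat.Coprime.mul_right hcm hcn)
    obtain ⟨τ, hτ⟩ := Kap.kap_surjective (Nat.lcm m n) (ZMod.unitOfCoprime c hcl)
    have hτm : Kap.kap m τ = Kap.kap m σ := by
      apply Units.ext
      rw [kap_eq_castHom (Nat.dvd_lcm_left m n) τ, hτ, ZMod.coe_unitOfCoprime, map_natCast,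
        ← ZMod.natCast_zmod_val ((Kap.kap m σ : (ZMod m)ˣ) : ZMod m),
        ZMod.natCast_eq_natCast_iff]
      exact hc1
    have hτn : Kap.kap n τ = 1 := by
      apply Units.ext
      rw [kap_eq_castHom (Nat.dvd_lcm_right m n) τ, hτ, ZMod.coe_unitOfCoprime, map_natCast,
        Units.val_one, ← Nat.cast_one, ZMod.natCast_eq_natCast_iff]
      exact hc2
    have h3 : σ * τ⁻¹ ∈ Fix m := by
      rw [mem_Fix_iff_kap, map_mul, map_inv, hτm, mul_inv_cancel]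
    have h4 : τ ∈ Fix n := mem_Fix_iff_kap.mpr hτn
    have h5 : σ = σ * τ⁻¹ * τ := by rw [inv_mul_cancel_right]
    rw [h5]
    exact Subgroup.mul_mem_sup h3 h4

/-! ### The conductor -/

section Conductor

variable {M : Type*} [Group M] {χ : GQ →* M}

/-- A character unramified at `q` and trivial on `Fix (q ^ k * m)`, `q ∤ m`, is trivial on
`Fix m`. -/
theorem Fix_le_of_unrAt {q k m : ℕ} (hq : q.Prime) (hm : m ≠ 0) (hqm : ¬ q ∣ m)
    (h : Fix (q ^ k * m) ≤ χ.ker) (hun : UnrAt χ q) : Fix m ≤ χ.ker := by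
  intro σ hσ
  have : NeZero m := ⟨hm⟩
  have : NeZero (q ^ k) := ⟨pow_ne_zero k hq.ne_zero⟩
  obtain ⟨A, hA⟩ := exists_liesOverPrime q hq
  obtain ⟨τ, hτI, hτ⟩ := inertia_surj hq k hA (Kap.kap (q ^ k) σ)
  have hτm : τ ∈ Fix m := mem_Fix_iff_kap.mpr (Kap.unrAt_kap m hq hqm A hA τ hτI)
  have h1 : τ⁻¹ * σ ∈ Fix (q ^ k * m) := by
    have hcop : Nat.Coprime (q ^ k) m :=
      Nat.Coprime.pow_left k ((Nat.Prime.coprime_iff_not_dvd hq).mpr hqm)
    rw [← hcop.lcm_eq_mul, ← Fix_inf _ _ (NeZero.ne _) hm]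
    refine ⟨?_, (Fix m).mul_mem ((Fix m).inv_mem hτm) hσ⟩
    show τ⁻¹ * σ ∈ Fix (q ^ k)
    rw [mem_Fix_iff_kap, map_mul, map_inv, hτ, inv_mul_cancel]
  have h2 : χ (τ⁻¹ * σ) = 1 := h h1
  have h3 : χ τ = 1 := hun A hA τ hτI
  show χ σ = 1
  rw [map_mul, map_inv, h3, inv_one, one_mul] at h2
  exact h2

/-- **A character of finite conductor which is unramified outside `S` is trivial on `Fix m` for an
`m` all of whose prime factors are in `S`.** -/
theorem exists_conductor (hc : IsCyc χ) (S : Set ℕ)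
    (h : ∀ q : ℕ, q.Prime → q ∉ S → UnrAt χ q) :
    ∃ m : ℕ, m ≠ 0 ∧ (∀ q : ℕ, q.Prime → q ∣ m → q ∈ S) ∧ Fix m ≤ χ.ker := by
  obtain ⟨m, hm, hle⟩ := hc
  induction m using Nat.strong_induction_on with
  | _ m ih =>
    by_cases hS : ∀ q : ℕ, q.Prime → q ∣ m → q ∈ S
    · exact ⟨m, hm, hS, hle⟩
    · push Not at hS
      obtain ⟨q, hq, hqm, hqS⟩ := hS
      have hm' : m / q ^ m.factorization q ≠ 0 := (Nat.ordCompl_pos q hm).ne'
      have hlt : m / q ^ m.factorization q < m := by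
        apply Nat.div_lt_self (Nat.pos_of_ne_zero hm)
        exact Nat.one_lt_pow (hq.factorization_pos_of_dvd hm hqm).ne' hq.one_lt
      refine ih _ hlt hm' ?_
      refine Fix_le_of_unrAt (k := m.factorization q) hq hm' (Nat.not_dvd_ordCompl hq hm) ?_
        (h q hq hqS)
      rw [Nat.ordProj_mul_ordCompl_eq_self]
      exact hle

/-- **The conductor** `f` of a character of finite conductor: `χ` is trivial on `Fix n` iff
`f ∣ n`, and the primes dividing `f` are the ramified ones. -/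
theorem conductor (hc : IsCyc χ) : ∃ f : ℕ, f ≠ 0 ∧ Fix f ≤ χ.ker ∧
    (∀ n : ℕ, n ≠ 0 → (Fix n ≤ χ.ker ↔ f ∣ n)) ∧ ∀ q : ℕ, q.Prime → (q ∣ f ↔ ¬ UnrAt χ q) := by
  classical
  have hex : ∃ m : ℕ, m ≠ 0 ∧ Fix m ≤ χ.ker := hc
  obtain ⟨hf0, hf⟩ := Nat.find_spec hex
  set f := Nat.find hex with hfdef
  have hmin : ∀ n : ℕ, n ≠ 0 → Fix n ≤ χ.ker → f ∣ n := by
    intro n hn hle
    have h1 : Fix (Nat.gcd f n) ≤ χ.ker := by
      rw [← Fix_sup f n hf0 hn]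
      exact sup_le hf hle
    have h2 : f ≤ Nat.gcd f n := Nat.find_min' hex ⟨Nat.gcd_ne_zero_left hf0, h1⟩
    have h3 : Nat.gcd f n = f :=
      le_antisymm (Nat.le_of_dvd (Nat.pos_of_ne_zero hf0) (Nat.gcd_dvd_left f n)) h2
    rw [← h3]
    exact Nat.gcd_dvd_right f n
  have hiff : ∀ n : ℕ, n ≠ 0 → (Fix n ≤ χ.ker ↔ f ∣ n) :=
    fun n hn => ⟨hmin n hn, fun hd => (Fix_le hd).trans hf⟩
  refine ⟨f, hf0, hf, hiff, fun q hq => ⟨fun hqf hun => ?_, fun hun => ?_⟩⟩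
  · obtain ⟨m, hm, hmS, hmle⟩ := exists_conductor hc {ℓ | ¬ ℓ = q} (fun ℓ _ hℓ => by
      have h1 : ℓ = q := by simpa using hℓ
      rw [h1]; exact hun)
    exact hmS q hq (hqf.trans (hmin m hm hmle)) rfl
  · by_contra hqf
    have : NeZero f := ⟨hf0⟩
    exact hun (UnrAt.of_ker_le (Kap.unrAt_kap f hq hqf) (by rw [Kap.kap_ker]; exact hf))

/-- The conductor is unique. -/
theorem conductor_unique {f f' : ℕ} (hf : f ≠ 0) (hf' : f' ≠ 0)
    (h : ∀ n : ℕ, n ≠ 0 → (Fix n ≤ χ.ker ↔ f ∣ n))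
    (h' : ∀ n : ℕ, n ≠ 0 → (Fix n ≤ χ.ker ↔ f' ∣ n)) : f = f' :=
  Nat.dvd_antisymm ((h f' hf').mp ((h' f' hf').mpr dvd_rfl))
    ((h' f hf).mp ((h f hf).mpr dvd_rfl))

/-- A homomorphism to an abelian group trivial on `Fix m` factors through the cyclotomic
character modulo `m`. -/
theorem exists_factor {m : ℕ} [NeZero m] (h : Fix m ≤ χ.ker) :
    ∃ ψ : (ZMod m)ˣ →* M, χ = ψ.comp (Kap.kap m) := by
  have hk : (Kap.kap m).ker ≤ χ.ker := by rw [Kap.kap_ker]; exact h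
  refine ⟨(Kap.kap m).liftOfRightInverse (Function.surjInv (Kap.kap_surjective m))
    (Function.rightInverse_surjInv _) ⟨χ, hk⟩, ?_⟩
  exact (MonoidHom.liftOfRightInverse_comp (Kap.kap m) _ _ ⟨χ, hk⟩).symm

end Conductor

end Fermat.Agent.Cor.KW
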