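import Fermat.Agent.Corollaries.KW.Defs
import Mathlib.RingTheory.ZMod.UnitsCyclic

/-!
# Kronecker-Weber: homomorphisms from unit groups to cyclic groups

`homStmt` : the unit groups `(ℤ/q)ˣ`, `(ℤ/p^(n+1))ˣ`, `(ℤ/2^(n+2))ˣ` have surjective homomorphisms
to cyclic groups of the expected orders.
-/

set_option autoImplicit false

namespace Fermat.Agent.Cor.KW

namespace Homs

/-- A finite cyclic group maps onto `ℤ/m` for every divisor `m` of its order. -/
theorem exists_surj {G : Type*} [Group G] [Finite G] (hG : IsCyclic G) {m : ℕ}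
    (hm : m ∣ Nat.card G) : ∃ f : G →* C m, Function.Surjective f := by
  let e : Multiplicative (ZMod (Nat.card G)) ≃* G := zmodCyclicMulEquiv hG
  refine ⟨(AddMonoidHom.toMultiplicative (ZMod.castHom hm (ZMod m)).toAddMonoidHom).comp
    e.symm.toMonoidHom, ?_⟩
  refine Function.Surjective.comp (g := AddMonoidHom.toMultiplicative
    (ZMod.castHom hm (ZMod m)).toAddMonoidHom) ?_ e.symm.surjective
  intro x
  obtain ⟨y, hy⟩ := ZMod.castHom_surjective hm (Multiplicative.toAdd x)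
  exact ⟨Multiplicative.ofAdd y, congrArg Multiplicative.ofAdd hy⟩

/-- The quotient of a group of order `2 m` by a subgroup of order `≥ 2` which meets the powers of an
element of order `m` trivially. -/
theorem quot_part {G : Type*} [CommGroup G] [Finite G] (N : Subgroup G) {m : ℕ} (hm : 0 < m)
    (hcG : Nat.card G = m * 2) (hcN : 2 ≤ Nat.card N) (u : G) (hou : orderOf u = m)
    (hd : ∀ k : ℕ, u ^ k ∈ N → u ^ k = 1) :
    ∃ f : G →* C m, Function.Surjective f ∧ (∀ x ∈ N, f x = 1) ∧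
      ∀ g : G →* C 2, (∀ x ∈ N, g x = 1) → ∃ h : C m →* C 2, g = h.comp f := by
  have hcard : Nat.card G = Nat.card (G ⧸ N) * Nat.card N :=
    Subgroup.card_eq_card_quotient_mul_card_subgroup N
  have hmk : m ∣ orderOf (QuotientGroup.mk' N u) := by
    rw [← hou]
    apply orderOf_dvd_of_pow_eq_one
    have h1 : QuotientGroup.mk' N (u ^ orderOf (QuotientGroup.mk' N u)) = 1 := by
      rw [map_pow, pow_orderOf_eq_one]
    exact hd _ ((QuotientGroup.eq_one_iff _).mp h1)
  have hcH : Nat.card (G ⧸ N) = m := by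
    have h1 : m ∣ Nat.card (G ⧸ N) := hmk.trans (orderOf_dvd_natCard _)
    have h2 : Nat.card (G ⧸ N) ≤ m := by
      have h3 : Nat.card (G ⧸ N) * 2 ≤ m * 2 := by
        calc Nat.card (G ⧸ N) * 2 ≤ Nat.card (G ⧸ N) * Nat.card N := Nat.mul_le_mul_left _ hcN
          _ = m * 2 := by rw [← hcard, hcG]
      exact Nat.le_of_mul_le_mul_right h3 two_pos
    exact le_antisymm h2 (Nat.le_of_dvd Nat.card_pos h1)
  have hcyc : IsCyclic (G ⧸ N) := by
    refine isCyclic_of_orderOf_eq_card (QuotientGroup.mk' N u) ?_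
    exact Nat.dvd_antisymm (orderOf_dvd_natCard _) (by rw [hcH]; exact hmk)
  subst hcH
  let e : C (Nat.card (G ⧸ N)) ≃* G ⧸ N := zmodCyclicMulEquiv hcyc
  refine ⟨e.symm.toMonoidHom.comp (QuotientGroup.mk' N), ?_, fun x hx => ?_, fun g hg => ?_⟩
  · exact e.symm.surjective.comp (QuotientGroup.mk'_surjective N)
  · have h1 : QuotientGroup.mk' N x = 1 := (QuotientGroup.eq_one_iff _).mpr hx
    change e.symm (QuotientGroup.mk' N x) = 1
    rw [h1, map_one]
  · refine ⟨(QuotientGroup.lift N g hg).comp e.toMonoidHom, MonoidHom.ext fun x => ?_⟩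
    change g x = QuotientGroup.lift N g hg (e (e.symm (QuotientGroup.mk' N x)))
    rw [MulEquiv.apply_symm_apply]
    rfl

section Two

variable (n : ℕ)

/-- the subgroup `{1, -1}` -/
def pm (m : ℕ) : Subgroup (ZMod m)ˣ where
  carrier := {x | x = 1 ∨ x = -1}
  one_mem' := Or.inl rfl
  mul_mem' := by
    rintro a b (rfl | rfl) (rfl | rfl)
    · exact Or.inl (one_mul 1)
    · exact Or.inr (one_mul _)
    · exact Or.inr (mul_one _)
    · exact Or.inl (by rw [neg_mul_neg, one_mul])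
  inv_mem' := by
    rintro a (rfl | rfl)
    · exact Or.inl inv_one
    · exact Or.inr (by rw [inv_neg, inv_one])

theorem mem_pm {m : ℕ} {x : (ZMod m)ˣ} : x ∈ pm m ↔ x = 1 ∨ x = -1 := Iff.rfl

/-- `-1` is not a power of `5` modulo `2 ^ (n + 2)`. -/
theorem five_pow_ne (k : ℕ) : (5 : ZMod (2 ^ (n + 2))) ^ k ≠ -1 := by
  intro h
  have hd : 4 ∣ 2 ^ (n + 2) := by
    rw [pow_add]
    exact dvd_mul_left _ _
  have h1 := congrArg (ZMod.castHom hd (ZMod 4)) h
  rw [map_pow, map_neg, map_one, map_ofNat] at h1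
  have h2 : (OfNat.ofNat 5 : ZMod 4) = 1 := by decide
  rw [h2, one_pow] at h1
  exact absurd h1 (by decide)

theorem exists_five : ∃ u : (ZMod (2 ^ (n + 2)))ˣ, (u : ZMod (2 ^ (n + 2))) = 5 := by
  have h : Nat.Coprime 5 (2 ^ (n + 2)) := Nat.Coprime.pow_right _ (by decide)
  exact ⟨ZMod.unitOfCoprime 5 h, by rw [ZMod.coe_unitOfCoprime]; rfl⟩

theorem two_part : ∃ f : (ZMod (2 ^ (n + 2)))ˣ →* C (2 ^ n), Function.Surjective f ∧
    f (-1) = 1 ∧ ∀ g : (ZMod (2 ^ (n + 2)))ˣ →* C 2, g (-1) = 1 →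
      ∃ h : C (2 ^ n) →* C 2, g = h.comp f := by
  obtain ⟨u, hu⟩ := exists_five n
  have hcG : Nat.card (ZMod (2 ^ (n + 2)))ˣ = 2 ^ n * 2 := by
    rw [Nat.card_eq_fintype_card, ZMod.card_units_eq_totient,
      Nat.totient_prime_pow Nat.prime_two (by omega), ← pow_succ]
    simp
  have hcN : 2 ≤ Nat.card (pm (2 ^ (n + 2))) := by
    have h1 : (1 : (ZMod (2 ^ (n + 2)))ˣ) ≠ -1 := by
      intro h
      have h2 := congrArg Units.val h
      have h3 := five_pow_ne n 0
      rw [pow_zero] at h3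
      exact h3 h2
    have : Nontrivial (pm (2 ^ (n + 2))) := ⟨⟨⟨1, mem_pm.mpr (Or.inl rfl)⟩,
      ⟨-1, mem_pm.mpr (Or.inr rfl)⟩, fun h => h1 (congrArg Subtype.val h)⟩⟩
    exact Finite.one_lt_card
  have hou : orderOf u = 2 ^ n := by
    rw [← ZMod.orderOf_five n, ← hu, orderOf_units]
  obtain ⟨f, h1, h2, h3⟩ := quot_part (pm (2 ^ (n + 2))) (m := 2 ^ n) (by positivity) hcG hcN u hou
    (fun k hk => by
      rcases mem_pm.mp hk with h3 | h3
      · exact h3
      · exfalso
        have h4 := congrArg Units.val h3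
        rw [Units.val_pow_eq_pow_val, hu] at h4
        exact five_pow_ne n _ h4)
  refine ⟨f, h1, h2 _ (mem_pm.mpr (Or.inr rfl)), fun g hg => h3 g fun x hx => ?_⟩
  rcases mem_pm.mp hx with rfl | rfl
  · exact map_one g
  · exact hg

end Two

end Homs

/-- (B) -/
theorem homStmt : HomStmt := by
  refine ⟨fun q p n hq hp hd => ?_, fun p n hp hp2 => ?_, fun n _ => Homs.two_part n⟩
  · have : Fact q.Prime := ⟨hq⟩
    refine Homs.exists_surj (ZMod.isCyclic_units_prime hq) ?_
    rwa [Nat.card_eq_fintype_card, ZMod.card_units]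
  · have : Fact p.Prime := ⟨hp⟩
    have : NeZero (p ^ (n + 1)) := ⟨pow_ne_zero _ hp.ne_zero⟩
    refine Homs.exists_surj (ZMod.isCyclic_units_of_prime_pow p hp hp2 (n + 1)) ?_
    rw [Nat.card_eq_fintype_card, ZMod.card_units_eq_totient,
      Nat.totient_prime_pow hp (Nat.succ_pos n)]
    exact dvd_mul_right _ _

end Fermat.Agent.Cor.KW
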