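import Fermat.Agent.Corollaries.KW.Defs
import Fermat.Agent.GW.LocalFinal
import Fermat.Agent.TW.LocalOrd

set_option autoImplicit false

/-!
# Kronecker-Weber, piece (D): characters of order `p` at the prime `p`

For `p` odd the continuous homomorphisms from the absolute Galois group of `ℚ_p` to `ℤ/p` form a
space of dimension at most two: local duality embeds it in the dual of `H¹(ℚ_p, μ_p)`, and the
latter has dimension at most two by Kummer theory.  One dimension is taken by the unramified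
characters, hence any two ramified characters are proportional on the inertia group.
-/

namespace Fermat.Agent.Cor.KW

namespace AtP

open Module
open Fermat.Agent.PT Fermat.Agent.PT.Frozen Fermat.Agent.CFTLocal Fermat.Agent.GW ExtCitation
open Fermat.Agent.CFT.Kum Fermat.Agent.CFT.Bridge
open Fermat.Agent.Frob Fermat.Agent.Minkowski Fermat.Agent.TW

section Dual

variable {p : ℕ} [hp : Fact p.Prime]

/-- the local cyclotomic character modulo `p` -/
noncomputable abbrev om (p : ℕ) [Fact p.Prime] (v : Nat.Primes) :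
    primeLocalGaloisGroup v →* (ZMod p)ˣ :=
  (cycloChar p).comp (primeLocalToGlobal v)

lemma om_ker_mem (v : Nat.Primes) : (om p v).ker ∈ rLevels (primeLocalToGlobal v) := by
  have h : (cycloChar p).ker ∈ galLevels ℚ (AlgebraicClosure ℚ) := by
    obtain ⟨ζ, hζ⟩ := Fermat.Agent.PT.Frozen.exists_primitive p
    rw [ker_cycloChar hζ]
    exact ⟨IntermediateField.adjoin ℚ {ζ}, inferInstance, le_rfl⟩
  have h2 := LevelSys.compat_comap (𝓛 := galLevels ℚ (AlgebraicClosure ℚ))
    (primeLocalToGlobal v) _ h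
  rwa [MonoidHom.comap_ker] at h2

lemma discrete_triv {G : Type} [Group G] (𝓛 : LevelSys G) :
    Discrete 𝓛 (trivRep (ZMod p) G) := fun _ => ⟨⊤, 𝓛.top_mem, fun _ _ => rfl⟩

lemma discrete_om (v : Nat.Primes) :
    Discrete (rLevels (primeLocalToGlobal v)) (chiRep (om p v)) := fun m =>
  ⟨(om p v).ker, om_ker_mem v, fun s hs => by
    rw [chiRep_apply, MonoidHom.mem_ker.1 hs, Units.val_one, one_mul]⟩

/-- Local duality: `H¹(ℚ_v, ℤ/p)` embeds in the dual of `H¹(ℚ_v, μ_p)`. -/
theorem exists_dual (hp2 : p ≠ 2) (v : Nat.Primes) :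
    ∃ Φ : PT.H1 (rLevels (primeLocalToGlobal v)) (trivRep (ZMod p) (primeLocalGaloisGroup v))
      →ₗ[ZMod p] (PT.H1 (rLevels (primeLocalToGlobal v)) (chiRep (om p v)) →ₗ[ZMod p] ZMod p),
      Function.Injective Φ := by
  have hone : finrank (ZMod p) (PT.H2 (rLevels (primeLocalToGlobal v)) (chiRep (om p v))) = 1 :=
    finrank_H2_rLevels hp2 v
  obtain ⟨inv, hinv⟩ : ∃ inv : PT.H2 (rLevels (primeLocalToGlobal v)) (chiRep (om p v))
      →ₗ[ZMod p] ZMod p, inv ≠ 0 := by
    by_contra hcon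
    push Not at hcon
    have hn : Nontrivial (PT.H2 (rLevels (primeLocalToGlobal v)) (chiRep (om p v))) :=
      Module.nontrivial_of_finrank_pos (R := ZMod p) (by omega)
    obtain ⟨x, hx⟩ := exists_ne (0 : PT.H2 (rLevels (primeLocalToGlobal v)) (chiRep (om p v)))
    apply hx
    rw [← Module.forall_dual_apply_eq_zero_iff (ZMod p)]
    intro φ
    rw [hcon φ]
    rfl
  have hp' : Perf (LinearMap.mul (ZMod p) (ZMod p)) :=
    { inj := fun m hm => by
        have h1 := hm 1
        rwa [LinearMap.mul_apply', mul_one] at h1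
      surj := fun z => ⟨z 1, LinearMap.ext fun x => by
        rw [LinearMap.mul_apply', mul_comm, ← smul_eq_mul, ← map_smul, smul_eq_mul, mul_one]⟩ }
  have hB : Bilin (trivRep (ZMod p) (primeLocalGaloisGroup v)) (chiRep (om p v))
      (chiRep (om p v)) (LinearMap.mul (ZMod p) (ZMod p)) := by
    intro g m n
    rw [LinearMap.mul_apply', LinearMap.mul_apply', chiRep_apply, chiRep_apply]
    show m * _ = _
    ring
  have key := fun (x : PT.H1 (rLevels (primeLocalToGlobal v))
      (trivRep (ZMod p) (primeLocalGaloisGroup v))) =>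
    h1_nondeg_chi (χ := om p v) (inv := inv) (rightExact_rLevels hp2 v) hinv (om_ker_mem v) hone
      (loc_dim_rLevels hp2 v)
      (fun _ hW hWk => symbNondeg_rLevels hp2 v hW fun g hg => hWk hg) hp' hB
      (discrete_triv _) (discrete_om v) x
  refine ⟨(cup11 (discrete_om v) _ hB).compr₂ inv, ?_⟩
  rw [injective_iff_map_eq_zero]
  intro x hx
  exact key x fun y => LinearMap.congr_fun hx y

end Dual

section Kummer

variable {p : ℕ} [hp : Fact p.Prime]

/-- the prime `p` -/
def vp (p : ℕ) [hp : Fact p.Prime] : Nat.Primes := ⟨p, hp.out⟩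

/-- the map from the local to the global Galois group -/
noncomputable abbrev J (p : ℕ) [hp : Fact p.Prime] : primeLocalGaloisGroup (vp p) →* GQ :=
  primeLocalToGlobal (vp p)

lemma range_J : (J p).range = (padicPlace p).decompositionSubgroup ℚ :=
  range_localGaloisToGlobal p

lemma J_mem (g : primeLocalGaloisGroup (vp p)) :
    J p g ∈ (padicPlace p).decompositionSubgroup ℚ := by
  rw [← range_J]
  exact ⟨g, rfl⟩

lemma exists_J (g : (padicPlace p).decompositionSubgroup ℚ) :
    ∃ h : primeLocalGaloisGroup (vp p), J p h = g := by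
  have h : (g : GQ) ∈ (J p).range := by
    rw [range_J]
    exact g.2
  exact h

/-- a section of `J` -/
noncomputable def pre (g : (padicPlace p).decompositionSubgroup ℚ) :
    primeLocalGaloisGroup (vp p) := (exists_J g).choose

lemma J_pre (g : (padicPlace p).decompositionSubgroup ℚ) : J p (pre g) = g :=
  (exists_J g).choose_spec

/-- level-constant functions are constant on the fibres of `J`. -/
lemma lc_eq {X : Type*} {f : primeLocalGaloisGroup (vp p) → X} (hf : LC1 (rLevels (J p)) f)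
    {g h : primeLocalGaloisGroup (vp p)} (hgh : J p g = J p h) : f g = f h := by
  obtain ⟨U, ⟨W, hW, hWU⟩, hU⟩ := hf
  have h1 : g⁻¹ * h ∈ U := by
    apply hWU
    rw [Subgroup.mem_comap, map_mul, map_inv, hgh, inv_mul_cancel]
    exact W.one_mem
  rw [← hU g _ h1, mul_inv_cancel_left]

lemma pow_val_add {ζ : Qbar} (hζ : ζ ^ p = 1) (a b : ZMod p) :
    ζ ^ (a + b).val = ζ ^ a.val * ζ ^ b.val := by
  rw [ZMod.val_add, ← pow_add, ← pow_eq_pow_mod _ hζ]

lemma pow_val_mul {ζ : Qbar} (hζ : ζ ^ p = 1) (a b : ZMod p) :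
    ζ ^ (a * b).val = (ζ ^ a.val) ^ b.val := by
  rw [ZMod.val_mul, ← pow_mul, ← pow_eq_pow_mod _ hζ]

/-- From a cocycle with values in the twisted `ℤ/p` to a cocycle with values in `μ_p`. -/
noncomputable def toMu {ζ : Qbar} (hζ : ζ ^ p = 1)
    (f : PT.Z1 (rLevels (J p)) (chiRep (om p (vp p)))) : MuCocyc (padicPlace p) p := by
  refine ⟨fun g => ζ ^ (f.1 (pre g)).val, ?_, ?_, ?_⟩
  · intro g
    rw [← pow_mul, mul_comm, pow_mul, hζ, one_pow]
  · intro g h
    have h1 : f.1 (pre (g * h)) = f.1 (pre g * pre h) := by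
      apply lc_eq f.2.1
      rw [map_mul, J_pre, J_pre, J_pre]
      rfl
    have h2 := f.2.2 (pre g) (pre h)
    show ζ ^ (f.1 (pre (g * h))).val = ζ ^ (f.1 (pre g)).val * (g : GQ) (ζ ^ (f.1 (pre h)).val)
    rw [h1, h2, chiRep_apply, add_comm, pow_val_add hζ, pow_val_mul hζ, map_pow]
    congr 2
    have h3 := Fermat.Agent.PT.Frozen.cycloChar_spec (p := p) (g : GQ) hζ
    rw [h3]
    show ζ ^ ((cycloChar p (J p (pre g)) : (ZMod p)ˣ) : ZMod p).val = _
    rw [J_pre]
  · obtain ⟨⟨U, ⟨W, ⟨L, hL, hLW⟩, hWU⟩, hU⟩, hc⟩ := f.2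
    refine ⟨L, hL, fun g hg => ?_⟩
    have h1 : pre g ∈ U := by
      apply hWU
      rw [Subgroup.mem_comap]
      apply hLW
      rw [IntermediateField.mem_fixingSubgroup_iff]
      intro x hx
      rw [J_pre]
      exact hg x hx
    have h2 := hU 1 _ h1
    have h3 : f.1 1 = 0 := by
      have h4 := hc 1 1
      rw [mul_one, map_one, Module.End.one_apply] at h4
      exact left_eq_add.mp h4
    show ζ ^ (f.1 (pre g)).val = 1
    rw [one_mul] at h2
    rw [h2, h3, ZMod.val_zero, pow_zero]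

lemma toMu_injective {ζ : Qbar} (hζ : IsPrimitiveRoot ζ p) :
    Function.Injective (toMu (p := p) hζ.pow_eq_one) := by
  intro f f' h
  apply Subtype.ext
  funext τ
  have h1 := congrFun (congrArg Subtype.val h) ⟨J p τ, J_mem τ⟩
  change ζ ^ (f.1 (pre _)).val = ζ ^ (f'.1 (pre _)).val at h1
  have h2 := hζ.pow_inj (ZMod.val_lt _) (ZMod.val_lt _) h1
  have h3 := ZMod.val_injective p h2
  rw [lc_eq f.2.1 (g := pre ⟨J p τ, J_mem τ⟩) (h := τ) (J_pre _),
    lc_eq f'.2.1 (g := pre ⟨J p τ, J_mem τ⟩) (h := τ) (J_pre _)] at h3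
  exact h3

/-- The cocycles with values in `μ_p` form a space of dimension at most three. -/
theorem finrank_Z1_om (hp2 : p ≠ 2) :
    Module.Finite (ZMod p) (PT.Z1 (rLevels (J p)) (chiRep (om p (vp p)))) ∧
    finrank (ZMod p) (PT.Z1 (rLevels (J p)) (chiRep (om p (vp p)))) ≤ 3 := by
  obtain ⟨ζ, hζ⟩ := Fermat.Agent.PT.Frozen.exists_primitive p
  obtain ⟨h1, h2⟩ := card_muCocyc_le hp.out hp2 (padicPlace_liesOverPrime p)
  have hfin : Finite (PT.Z1 (rLevels (J p)) (chiRep (om p (vp p)))) :=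
    Finite.of_injective _ (toMu_injective hζ)
  have hcard := Nat.card_le_card_of_injective _ (toMu_injective hζ)
  refine ⟨Module.Finite.of_finite, ?_⟩
  have h3 := Module.natCard_eq_pow_finrank (K := ZMod p)
    (V := PT.Z1 (rLevels (J p)) (chiRep (om p (vp p))))
  rw [Nat.card_zmod] at h3
  rw [h3] at hcard
  exact (Nat.pow_le_pow_iff_right hp.out.one_lt).mp (hcard.trans h2)

lemma exists_om_ne (hp2 : p ≠ 2) : ∃ g, om p (vp p) g ≠ 1 := by
  obtain ⟨ζ, hζ⟩ := Fermat.Agent.PT.Frozen.exists_primitive p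
  obtain ⟨σ, hσ, hσζ⟩ := exists_inertia_ne hp.out hp2 (padicPlace_liesOverPrime p) hζ.pow_eq_one
    (hζ.ne_one hp.out.one_lt)
  refine ⟨pre ⟨σ, inertia_le_decomp hσ⟩, fun h => hσζ ?_⟩
  have h1 : cycloChar p (J p (pre ⟨σ, inertia_le_decomp hσ⟩)) = 1 := h
  rw [J_pre] at h1
  exact (cycloChar_eq_one_iff hζ _).mp h1

/-- `H¹(ℚ_p, μ_p)` has dimension at most two. -/
theorem finrank_H1_om (hp2 : p ≠ 2) :
    Module.Finite (ZMod p) (PT.H1 (rLevels (J p)) (chiRep (om p (vp p)))) ∧
    finrank (ZMod p) (PT.H1 (rLevels (J p)) (chiRep (om p (vp p)))) ≤ 2 := by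
  obtain ⟨h1, h2⟩ := finrank_Z1_om hp2
  refine ⟨inferInstance, ?_⟩
  have h3 := Submodule.finrank_quotient_add_finrank
    ((PT.B1 (chiRep (om p (vp p)))).comap (PT.Z1 (rLevels (J p)) (chiRep (om p (vp p)))).subtype)
  have h4 : 0 < finrank (ZMod p) ↥((PT.B1 (chiRep (om p (vp p)))).comap
      (PT.Z1 (rLevels (J p)) (chiRep (om p (vp p)))).subtype) := by
    rw [Module.finrank_pos_iff]
    obtain ⟨g, hg⟩ := exists_om_ne hp2
    refine ⟨⟨⟨⟨d01 (chiRep (om p (vp p))) 1, d01_mem_Z1 (discrete_om (vp p)) 1⟩, ⟨1, rfl⟩⟩, 0,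
      fun h => hg ?_⟩⟩
    have h5 := congrFun (congrArg (fun x => x.1.1) h) g
    have h6 : ((om p (vp p) g : (ZMod p)ˣ) : ZMod p) * 1 - 1 = 0 := h5
    rw [mul_one, sub_eq_zero] at h6
    exact Units.ext h6
  have h5 : finrank (ZMod p) (PT.H1 (rLevels (J p)) (chiRep (om p (vp p)))) + finrank (ZMod p)
      ↥((PT.B1 (chiRep (om p (vp p)))).comap
        (PT.Z1 (rLevels (J p)) (chiRep (om p (vp p)))).subtype) =
      finrank (ZMod p) (PT.Z1 (rLevels (J p)) (chiRep (om p (vp p)))) := h3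
  omega

/-- The characters of order `p` of the local Galois group form a space of dimension at most
two. -/
theorem finrank_Z1_triv (hp2 : p ≠ 2) :
    Module.Finite (ZMod p) (PT.Z1 (rLevels (J p)) (trivRep (ZMod p) _)) ∧
    finrank (ZMod p) (PT.Z1 (rLevels (J p)) (trivRep (ZMod p) _)) ≤ 2 := by
  obtain ⟨Φ, hΦ⟩ := exists_dual hp2 (vp p)
  obtain ⟨h1, h2⟩ := finrank_H1_om hp2
  have hinj : Function.Injective (Φ ∘ₗ (PT.H1mk (rLevels (J p)) (trivRep (ZMod p) _))) := by
    rw [LinearMap.coe_comp]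
    refine hΦ.comp ?_
    rw [injective_iff_map_eq_zero]
    intro f hf
    rw [H1mk_eq_zero] at hf
    obtain ⟨m, hm⟩ := hf
    apply Subtype.ext
    funext g
    rw [hm g]
    exact sub_self _
  refine ⟨Module.Finite.of_injective _ hinj, ?_⟩
  refine (LinearMap.finrank_le_finrank_of_injective hinj).trans ?_
  exact (Subspace.dual_finrank_eq (K := ZMod p)
    (V := PT.H1 (rLevels (J p)) (chiRep (om p (vp p))))).le.trans h2

end Kummer

section Unr

variable {p : ℕ} [hp : Fact p.Prime]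

/-- A homomorphism which is trivial on a level subgroup as a cocycle. -/
def ofHom {G : Type} [Group G] {𝓛 : LevelSys G} (f : G →* C p) (hf : f.ker ∈ 𝓛) :
    PT.Z1 𝓛 (trivRep (ZMod p) G) :=
  ⟨fun g => Multiplicative.toAdd (f g), ⟨f.ker, hf, fun g s hs => by
    show Multiplicative.toAdd (f (g * s)) = Multiplicative.toAdd (f g)
    rw [map_mul, MonoidHom.mem_ker.mp hs, mul_one]⟩, fun g h => by
      show Multiplicative.toAdd (f (g * h)) = Multiplicative.toAdd (f h) + Multiplicative.toAdd (f g)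
      rw [map_mul, toAdd_mul, add_comm]⟩

/-- There is a non-trivial unramified character of order `p` of the local Galois group. -/
theorem exists_unr (p : ℕ) [hp : Fact p.Prime] :
    ∃ u : PT.Z1 (rLevels (J p)) (trivRep (ZMod p) _), u ≠ 0 ∧
      ∀ g, J p g ∈ (padicPlace p).inertiaSubgroupIn ℚ → u.1 g = 0 := by
  have hpp : p.Prime := hp.out
  have hA := padicPlace_liesOverPrime p
  set N := p ^ p - 1 with hN
  have h1n : 1 < p ^ p := Nat.one_lt_pow hpp.ne_zero hpp.one_lt
  have hN0 : N ≠ 0 := by omega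
  have hcop : Nat.Coprime p N := by
    have h2 : Nat.Coprime (p ^ p) (p ^ p - 1) := by
      rw [Nat.coprime_comm]
      exact (Nat.coprime_self_sub_left h1n.le).2 (Nat.coprime_one_left _)
    exact Nat.Coprime.coprime_dvd_left (dvd_pow_self p hpp.ne_zero) h2
  set V := (rootsFix N).comap (J p) with hV
  have hVl : V ∈ rLevels (J p) := ⟨rootsFix N, rootsFix_mem hN0, le_rfl⟩
  have : V.Normal := by rw [hV]; infer_instance
  have hidx : V.index ≠ 0 := (LevelSys.finiteIndex hVl).index_ne_zero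
  have hdvd : p ∣ V.index := by
    obtain ⟨φ, hφ⟩ := Fermat.Agent.Frob.exists_isFrobeniusAt hpp hA
    have hφD := hφ.mem_decompositionSubgroup
    rw [← range_J] at hφD
    obtain ⟨τ, hτ⟩ := hφD
    have h1 := dvd_orderOf hpp hN hpp.ne_zero hA hφ
    refine h1.trans ?_
    rw [Subgroup.index_eq_card]
    refine dvd_trans ?_ (orderOf_dvd_natCard (QuotientGroup.mk' V τ))
    rw [orderOf_dvd_iff_pow_eq_one, ← map_pow, QuotientGroup.mk'_apply, QuotientGroup.eq_one_iff]
    have h2 : QuotientGroup.mk' V (τ ^ orderOf (QuotientGroup.mk' V τ)) = 1 := by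
      rw [map_pow, pow_orderOf_eq_one]
    rw [QuotientGroup.mk'_apply, QuotientGroup.eq_one_iff] at h2
    have h3 : J p (τ ^ orderOf (QuotientGroup.mk' V τ)) ∈ rootsFix N := h2
    rwa [map_pow, hτ] at h3
  obtain ⟨χ, hχ, hker⟩ := exists_char_of_comm (p := p) V hidx (fun x y => by
    rw [hV, Subgroup.mem_comap]
    simp only [map_mul, map_inv]
    have := rootsFix_comm N hN0 (J p x) (J p y)
    simpa using this) hdvd
  refine ⟨ofHom χ (LevelSys.mono hVl hker), fun h => hχ ?_, fun g hg => ?_⟩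
  · refine MonoidHom.ext fun g => ?_
    exact congrFun (congrArg Subtype.val h) g
  · have h1 : g ∈ V := by
      rw [hV, Subgroup.mem_comap]
      exact fun x hx => Fermat.Agent.GalRep.inertia_fix_rootOfUnity hA hcop hN0 hg hx
    exact MonoidHom.mem_ker.mp (hker h1)

/-- restriction of the characters to the inertia group -/
def resI (p : ℕ) [hp : Fact p.Prime] : PT.Z1 (rLevels (J p)) (trivRep (ZMod p) _) →ₗ[ZMod p]
    ({g : primeLocalGaloisGroup (vp p) // J p g ∈ (padicPlace p).inertiaSubgroupIn ℚ} →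
      ZMod p) where
  toFun f g := f.1 g.1
  map_add' _ _ := rfl
  map_smul' _ _ := rfl

/-- The characters of order `p` of the inertia group at `p` coming from the decomposition group
form a space of dimension at most one. -/
theorem finrank_range_le (hp2 : p ≠ 2) :
    Module.Finite (ZMod p) (LinearMap.range (resI p)) ∧
    finrank (ZMod p) (LinearMap.range (resI p)) ≤ 1 := by
  obtain ⟨h1, h2⟩ := finrank_Z1_triv (p := p) hp2
  refine ⟨inferInstance, ?_⟩
  have h3 := LinearMap.finrank_range_add_finrank_ker (resI p)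
  have h4 : 0 < finrank (ZMod p) (LinearMap.ker (resI p)) := by
    rw [Module.finrank_pos_iff]
    obtain ⟨u, hu, hu0⟩ := exists_unr p
    refine ⟨⟨⟨u, ?_⟩, 0, fun h => hu (congrArg Subtype.val h)⟩⟩
    rw [LinearMap.mem_ker]
    funext g
    exact hu0 g.1 g.2
  omega

lemma comap_ker_mem {χ : GQ →* C p} (hχ : Lev χ) : (χ.comp (J p)).ker ∈ rLevels (J p) := by
  obtain ⟨L, hL, h⟩ := hχ
  refine ⟨L.fixingSubgroup, ⟨L, hL, le_rfl⟩, fun g hg => ?_⟩
  exact h _ ((IntermediateField.mem_fixingSubgroup_iff L _).mp hg)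

/-- Proportionality on the inertia group. -/
theorem exists_prop (hp2 : p ≠ 2) {χ c : GQ →* C p} (hχ : Lev χ) (hc : Lev c)
    {σ : GQ} (hσ : σ ∈ (padicPlace p).inertiaSubgroupIn ℚ) (hcσ : c σ ≠ 1) :
    ∃ β : ZMod p, ∀ τ ∈ (padicPlace p).inertiaSubgroupIn ℚ,
      Multiplicative.toAdd (χ τ) = β * Multiplicative.toAdd (c τ) := by
  obtain ⟨h1, h2⟩ := finrank_range_le (p := p) hp2
  obtain ⟨v, hv⟩ := (finrank_le_one_iff).mp h2
  obtain ⟨a, ha⟩ := hv ⟨resI p (ofHom (c.comp (J p)) (comap_ker_mem hc)), ⟨_, rfl⟩⟩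
  obtain ⟨b, hb⟩ := hv ⟨resI p (ofHom (χ.comp (J p)) (comap_ker_mem hχ)), ⟨_, rfl⟩⟩
  have key : ∀ τ (hτ : τ ∈ (padicPlace p).inertiaSubgroupIn ℚ),
      ∃ g : {g : primeLocalGaloisGroup (vp p) // J p g ∈ (padicPlace p).inertiaSubgroupIn ℚ},
        Multiplicative.toAdd (c τ) = a * v.1 g ∧ Multiplicative.toAdd (χ τ) = b * v.1 g := by
    intro τ hτ
    have h3 := J_pre (p := p) ⟨τ, inertia_le_decomp hτ⟩
    set g := pre (p := p) ⟨τ, inertia_le_decomp hτ⟩ with hg
    have hτ' : J p g ∈ (padicPlace p).inertiaSubgroupIn ℚ := by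
      rw [h3]
      exact hτ
    refine ⟨⟨g, hτ'⟩, ?_, ?_⟩
    · have h4 := congrFun (congrArg Subtype.val ha) ⟨g, hτ'⟩
      have h5 : a * v.1 ⟨g, hτ'⟩ = Multiplicative.toAdd (c (J p g)) := h4
      rw [h5, h3]
    · have h4 := congrFun (congrArg Subtype.val hb) ⟨g, hτ'⟩
      have h5 : b * v.1 ⟨g, hτ'⟩ = Multiplicative.toAdd (χ (J p g)) := h4
      rw [h5, h3]
  have ha0 : a ≠ 0 := by
    rintro rfl
    obtain ⟨g, hg, -⟩ := key σ hσ
    rw [zero_mul] at hg
    exact hcσ hg
  refine ⟨b * a⁻¹, fun τ hτ => ?_⟩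
  obtain ⟨g, hg1, hg2⟩ := key τ hτ
  rw [hg1, hg2]
  field_simp

end Unr

end AtP

open AtP in
/-- **(D)** at `p` odd: the characters of order `p` of the inertia group at `p` coming from
the decomposition group are the multiples of any ramified one. -/
theorem atPStmt : AtPStmt := by
  intro p hp hp2 χ c hχ hc hram
  have : Fact p.Prime := ⟨hp⟩
  have hA := Fermat.Agent.CFT.Bridge.padicPlace_liesOverPrime p
  obtain ⟨σ, hσ, hcσ⟩ : ∃ σ ∈ (padicPlace p).inertiaSubgroupIn ℚ, c σ ≠ 1 := by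
    by_contra hcon
    push Not at hcon
    exact hram (unrAt_of_place hA hp hcon)
  obtain ⟨β, hβ⟩ := exists_prop hp2 hχ hc hσ hcσ
  refine ⟨(-β).val, unrAt_of_place hA hp fun τ hτ => ?_⟩
  apply Multiplicative.toAdd.injective
  rw [MonoidHom.mul_apply, MonoidHom.pow_apply, toAdd_mul, toAdd_pow, hβ τ hτ, toAdd_one,
    nsmul_eq_mul, ZMod.natCast_zmod_val]
  ring

end Fermat.Agent.Cor.KW
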