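import Fermat.Agent.Corollaries.KW.Defs

/-!
# Kronecker-Weber: from characters to fields (piece (G), helper55)

Everything is deduced from `CharStmt`: characters of `G_ℚ` of prime power order have finite conductor.

* `Fld.isCyc_of_finite` : the same for homomorphisms to every finite commutative group;
* `Fld.exists_le_cyc` : a finite abelian extension of `ℚ` in `Qbar` is contained in `ℚ(μ_n)`;
* `Fld.isAbelianGalois_iff_le_cycAll` : an extension of `ℚ` in `Qbar` (of any degree) is abelian if and
  only if it is contained in `ℚ(μ_∞)`;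
* `Fld.exists_algHom`, `Fld.isAbelianGalois_iff` : an abstract number field is abelian over `ℚ` if and
  only if it embeds into some `CyclotomicField n ℚ`;
* `fieldStmt : FieldStmt`.
-/

set_option autoImplicit false

namespace Fermat.Agent.Cor.KW

open Fermat.Agent.Frob Fermat.Agent.Minkowski Fermat.Agent.TW
open scoped DirectSum

namespace Fld

/-! ### Characters -/

/-- A homomorphism of `G_ℚ` to a finite commutative group has finite conductor. -/
theorem isCyc_of_finite (h : CharStmt) {A : Type*} [CommGroup A] [Finite A]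
    {χ : GQ →* A} (hχ : Lev χ) : IsCyc χ := by
  classical
  obtain ⟨ι, _, p, hp, e, ⟨f⟩⟩ := AddCommGroup.equiv_directSum_zmod_of_finite (Additive A)
  -- the components
  let π : ∀ i, A →* C (p i ^ e i) := fun i => AddMonoidHom.toMultiplicativeRight
    ((DFinsupp.evalAddMonoidHom i : (⨁ i : ι, ZMod (p i ^ e i)) →+ ZMod (p i ^ e i)).comp
      f.toAddMonoidHom)
  have hπ : ∀ a : A, (∀ i, π i a = 1) → a = 1 := by
    intro a ha
    have h1 : f (Additive.ofMul a) = 0 := by
      refine DFinsupp.ext fun i => ?_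
      exact congrArg Multiplicative.toAdd (ha i)
    have h2 : Additive.ofMul a = 0 := f.injective (by rw [h1, map_zero])
    exact h2
  have hc : ∀ i, IsCyc ((π i).comp χ) := fun i => h (p i) (e i) (hp i) _ (hχ.comp (π i))
  choose m hm0 hm using hc
  refine ⟨∏ i, m i, Finset.prod_ne_zero_iff.mpr fun i _ => hm0 i, fun σ hσ => ?_⟩
  refine hπ _ fun i => ?_
  exact hm i (Fix_le (Finset.dvd_prod_of_mem m (Finset.mem_univ i)) hσ)

/-! ### Generalities on abelian extensions

The statements over `ℚ` below do not depend on the choice of the `ℚ`-algebra structures. -/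

section General

universe u v

variable {F : Type u} {E : Type v} [Field F] [Field E] [Algebra F E]

theorem restrict_eq_one_iff (L : IntermediateField F E) [Normal F L] (σ : E ≃ₐ[F] E) :
    AlgEquiv.restrictNormalHom L σ = 1 ↔ ∀ x ∈ L, σ x = x := by
  rw [← MonoidHom.mem_ker, IntermediateField.restrictNormalHom_ker,
    IntermediateField.mem_fixingSubgroup_iff]

open scoped IsMulCommutative in
/-- The restriction to a finite abelian extension, as a homomorphism to a finite commutative
group. -/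
theorem exists_hom (L : IntermediateField F E) [FiniteDimensional F L] [IsAbelianGalois F L] :
    ∃ (A : Type v) (_ : CommGroup A) (_ : Finite A) (χ : (E ≃ₐ[F] E) →* A),
      ∀ σ, χ σ = 1 ↔ ∀ x ∈ L, σ x = x :=
  ⟨Gal(L/F), inferInstance, inferInstance, AlgEquiv.restrictNormalHom L, restrict_eq_one_iff L⟩

theorem isAbelianGalois_of_le {L L' : IntermediateField F E} (h : L ≤ L')
    [IsAbelianGalois F L'] : IsAbelianGalois F L :=
  IsAbelianGalois.of_algHom (IntermediateField.inclusion h)

theorem isAbelianGalois_rat {K : Type*} [Field K] {i j : Algebra ℚ K}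
    (h : @IsAbelianGalois ℚ K _ _ i) : @IsAbelianGalois ℚ K _ _ j :=
  Subsingleton.elim i j ▸ h

end General

/-! ### Subfields of the algebraic closure -/

/-- `ℚ(μ_n, n ∈ S)`, as a subfield of the algebraic closure. -/
noncomputable def cycS (S : Set ℕ) : IntermediateField ℚ Qbar :=
  IntermediateField.adjoin ℚ {x : Qbar | ∃ n ∈ S, n ≠ 0 ∧ x ^ n = 1}

/-- `ℚ(μ_n)`. -/
noncomputable abbrev cyc (n : ℕ) : IntermediateField ℚ Qbar := cycS {n}

/-- `ℚ(μ_∞)`. -/
noncomputable abbrev cycAll : IntermediateField ℚ Qbar := cycS Set.univ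

theorem isCyclotomicExtension_cycS (S : Set ℕ) :
    @IsCyclotomicExtension S ℚ (cycS S) _ _ (cycS S).algebra' :=
  IntermediateField.isCyclotomicExtension_adjoin_of_exists_isPrimitiveRoot S ℚ Qbar
    fun n _ hn => by
      have : NeZero n := ⟨hn⟩
      have : NeZero ((n : ℕ) : Qbar) := ⟨Nat.cast_ne_zero.mpr hn⟩
      exact HasEnoughRootsOfUnity.exists_primitiveRoot Qbar n

theorem cycS_mono {S T : Set ℕ} (h : S ⊆ T) : cycS S ≤ cycS T :=
  IntermediateField.adjoin.mono ℚ _ _ fun _ ⟨n, hn, h1⟩ => ⟨n, h hn, h1⟩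

theorem isAbelianGalois_cycS (S : Set ℕ) : @IsAbelianGalois ℚ (cycS S) _ _ (cycS S).algebra' :=
  @IsCyclotomicExtension.isAbelianGalois S ℚ (cycS S) _ _ (cycS S).algebra'
    (isCyclotomicExtension_cycS S)

/-- Galois theory: the automorphisms fixing `μ_n` fix `L` only if `L ≤ ℚ(μ_n)`. -/
theorem le_cyc_of_Fix_le {n : ℕ} (hn : n ≠ 0) {L : IntermediateField ℚ Qbar}
    (h : Fix n ≤ L.fixingSubgroup) : L ≤ cyc n := by
  have h1 : (cyc n).fixingSubgroup ≤ L.fixingSubgroup := by
    refine le_trans (fun σ hσ => ?_) h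
    rw [IntermediateField.mem_fixingSubgroup_iff] at hσ
    intro ζ hζ
    exact hσ ζ (IntermediateField.subset_adjoin ℚ _ ⟨n, rfl, hn, hζ⟩)
  rw [← InfiniteGalois.fixedField_fixingSubgroup L, ← InfiniteGalois.fixedField_fixingSubgroup
    (cyc n)]
  exact IntermediateField.fixedField_antitone h1

/-- **Kronecker-Weber in the algebraic closure**: a finite abelian extension of `ℚ` is contained
in some `ℚ(μ_n)`. -/
theorem exists_le_cyc (h : CharStmt) (L : IntermediateField ℚ Qbar) [hf : FiniteDimensional ℚ L]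
    (hab : @IsAbelianGalois ℚ L _ _ L.algebra') : ∃ n : ℕ, 0 < n ∧ L ≤ cyc n := by
  obtain ⟨A, _, _, χ, hχ⟩ := @exists_hom ℚ Qbar _ _ _ L hf hab
  obtain ⟨n, hn, hle⟩ := isCyc_of_finite h (χ := χ) ⟨L, hf, fun σ hσ => (hχ σ).mpr hσ⟩
  refine ⟨n, Nat.pos_of_ne_zero hn, le_cyc_of_Fix_le hn fun σ hσ => ?_⟩
  rw [IntermediateField.mem_fixingSubgroup_iff]
  exact (hχ σ).mp (hle hσ)

/-- **Every extension of `ℚ` in the algebraic closure is abelian if and only if it is contained in
`ℚ(μ_∞)`**: the maximal abelian extension of `ℚ` is generated by the roots of unity. -/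
theorem isAbelianGalois_iff_le_cycAll (h : CharStmt) (L : IntermediateField ℚ Qbar) :
    IsAbelianGalois ℚ L ↔ L ≤ cycAll := by
  constructor
  · intro hL x hx
    have hle : IntermediateField.adjoin ℚ {x} ≤ L := by
      rw [IntermediateField.adjoin_le_iff, Set.singleton_subset_iff]
      exact hx
    have : FiniteDimensional ℚ (IntermediateField.adjoin ℚ {x} : IntermediateField ℚ Qbar) :=
      IntermediateField.adjoin.finiteDimensional (Algebra.IsIntegral.isIntegral x)
    obtain ⟨n, -, hn⟩ := exists_le_cyc h (IntermediateField.adjoin ℚ {x})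
      (@isAbelianGalois_of_le ℚ Qbar _ _ _ _ L hle (isAbelianGalois_rat hL))
    exact cycS_mono (Set.subset_univ _) (hn (IntermediateField.mem_adjoin_simple_self ℚ x))
  · intro hL
    exact isAbelianGalois_rat
      (@isAbelianGalois_of_le ℚ Qbar _ _ _ L cycAll hL (isAbelianGalois_cycS _))

/-! ### Abstract number fields -/

/-- `ℚ(μ_n) ⊆ Qbar` and the cyclotomic field are isomorphic. -/
theorem exists_ringHom_cyc (n : ℕ) [NeZero n] : Nonempty (cyc n →+* CyclotomicField n ℚ) := by
  have h1 : NeZero ((n : ℕ) : ℚ) := ⟨Nat.cast_ne_zero.mpr (NeZero.ne n)⟩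
  have h2 := CyclotomicField.isCyclotomicExtension n ℚ
  exact ⟨(@IsCyclotomicExtension.algEquiv {n} ℚ (cyc n) _ _ (cyc n).algebra'
    (isCyclotomicExtension_cycS _) (CyclotomicField n ℚ) _ _ h2 :
      @AlgEquiv ℚ (cyc n) (CyclotomicField n ℚ) _ _ _ (cyc n).algebra' _).toRingEquiv.toRingHom⟩

/-- **Kronecker-Weber**: an abelian number field embeds into a cyclotomic field. -/
theorem exists_algHom (h : CharStmt) (K : Type*) [Field K] [NumberField K]
    [hK : IsAbelianGalois ℚ K] : ∃ n : ℕ, 0 < n ∧ Nonempty (K →ₐ[ℚ] CyclotomicField n ℚ) := by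
  let i : K →ₐ[ℚ] Qbar := IsAlgClosed.lift
  let e := AlgEquiv.ofInjectiveField i
  have h1 : @IsAbelianGalois ℚ i.fieldRange _ _ i.fieldRange.algebra' :=
    IsAbelianGalois.of_algHom e.symm.toAlgHom
  have : FiniteDimensional ℚ i.fieldRange := Module.Finite.equiv e.toLinearEquiv
  obtain ⟨n, hn, hle⟩ := exists_le_cyc h i.fieldRange h1
  have : NeZero n := ⟨hn.ne'⟩
  obtain ⟨e'⟩ := exists_ringHom_cyc n
  exact ⟨n, hn, ⟨RingHom.toRatAlgHom ((e'.comp (IntermediateField.inclusion hle).toRingHom).comp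
    e.toAlgHom.toRingHom)⟩⟩

/-- **Kronecker-Weber**: a number field is abelian over `ℚ` if and only if it embeds into a
cyclotomic field. -/
theorem isAbelianGalois_iff (h : CharStmt) (K : Type*) [Field K] [NumberField K] :
    IsAbelianGalois ℚ K ↔ ∃ n : ℕ, 0 < n ∧ Nonempty (K →ₐ[ℚ] CyclotomicField n ℚ) := by
  constructor
  · intro _
    exact exists_algHom h K
  · rintro ⟨n, hn, ⟨f⟩⟩
    have : NeZero n := ⟨hn.ne'⟩
    have h1 : NeZero ((n : ℕ) : ℚ) := ⟨Nat.cast_ne_zero.mpr (NeZero.ne n)⟩
    have h2 := CyclotomicField.isCyclotomicExtension n ℚ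
    have h3 := @IsCyclotomicExtension.isAbelianGalois {n} ℚ (CyclotomicField n ℚ) _ _ _ h2
    have h4 : IsAbelianGalois ℚ (CyclotomicField n ℚ) := isAbelianGalois_rat h3
    exact IsAbelianGalois.of_algHom f

end Fld

/-- (G) -/
theorem fieldStmt : FieldStmt := fun h K _ _ _ => Fld.exists_algHom h K

end Fermat.Agent.Cor.KW
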