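import Fermat.Agent.Corollaries.KW.Defs
import Fermat.Agent.GalRep.Cyclo

set_option autoImplicit false

/-!
# Kronecker-Weber (A): the cyclotomic character modulo `m`

`kap m : Gal(ℚ̄/ℚ) →* (ZMod m)ˣ`, `σ ζ = ζ ^ kap m σ` for `ζ ^ m = 1`. It is surjective (the
cyclotomic polynomial is irreducible), its kernel is `Fix m`, it is unramified outside `m`, and
complex conjugation goes to `-1`.
-/

namespace Fermat.Agent.Cor.KW

open Fermat.Agent.Frob Fermat.Agent.Minkowski Fermat.Agent.TW

noncomputable section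

namespace Kap

variable (m : ℕ) [NeZero m]

lemma exists_root : ∃ ζ : Qbar, IsPrimitiveRoot ζ m := by
  have : NeZero ((m : ℕ) : Qbar) := ⟨by exact_mod_cast NeZero.ne m⟩
  exact HasEnoughRootsOfUnity.exists_primitiveRoot Qbar m

/-- a primitive `m`-th root of unity -/
def zet : Qbar := (exists_root m).choose

lemma zet_spec : IsPrimitiveRoot (zet m) m := (exists_root m).choose_spec

/-- the cyclotomic character modulo `m` -/
def kap : GQ →* (ZMod m)ˣ := (zet_spec m).autToPow ℚ

lemma kap_zet (σ : GQ) : σ (zet m) = zet m ^ ((kap m σ : (ZMod m)ˣ) : ZMod m).val :=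
  ((zet_spec m).autToPow_spec ℚ σ).symm

/-- `σ ζ = ζ ^ kap m σ` on the `m`-th roots of unity. -/
theorem kap_spec (σ : GQ) (ζ : Qbar) (hζ : ζ ^ m = 1) :
    σ ζ = ζ ^ ((kap m σ : (ZMod m)ˣ) : ZMod m).val := by
  obtain ⟨i, -, rfl⟩ := (zet_spec m).eq_pow_of_pow_eq_one hζ
  rw [map_pow, kap_zet, ← pow_mul, ← pow_mul, mul_comm]

/-- A power `c` with `σ ζ = ζ ^ c` for one primitive root is `kap m σ`. -/
theorem kap_eq {σ : GQ} {c : ℕ} (h : σ (zet m) = zet m ^ c) :
    ((kap m σ : (ZMod m)ˣ) : ZMod m) = (c : ZMod m) := by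
  have hζ := zet_spec m
  rw [kap_zet, ← Nat.mod_add_div c m, pow_add, pow_mul, hζ.pow_eq_one, one_pow, mul_one] at h
  have h2 := hζ.pow_inj (ZMod.val_lt _) (Nat.mod_lt _ (NeZero.pos m)) h
  rw [← ZMod.natCast_zmod_val ((kap m σ : (ZMod m)ˣ) : ZMod m), h2, ZMod.natCast_mod]

/-- **The cyclotomic character is surjective.** -/
theorem kap_surjective : Function.Surjective (kap m) := by
  intro u
  have hζ := zet_spec m
  have hcop : Nat.Coprime (u : ZMod m).val m := ZMod.val_coe_unit_coprime u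
  have h1 : IsConjRoot ℚ (zet m ^ (u : ZMod m).val) (zet m) := by
    rw [IsConjRoot, ← Polynomial.cyclotomic_eq_minpoly_rat hζ (NeZero.pos m),
      ← Polynomial.cyclotomic_eq_minpoly_rat (hζ.pow_of_coprime _ hcop) (NeZero.pos m)]
  obtain ⟨σ, hσ⟩ := (isConjRoot_iff_exists_algEquiv (K := ℚ) (L := Qbar)).1 h1
  refine ⟨σ, Units.ext ?_⟩
  have h2 : σ (zet m) = zet m ^ (u : ZMod m).val := hσ
  rw [kap_eq m h2, ZMod.natCast_zmod_val]

/-- The kernel is the group of automorphisms fixing the `m`-th roots of unity. -/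
theorem kap_ker : (kap m).ker = Fix m := by
  ext σ
  rw [MonoidHom.mem_ker, mem_Fix]
  constructor
  · intro h ζ hζ
    rw [kap_spec m σ ζ hζ, h, Units.val_one]
    rcases eq_or_ne m 1 with rfl | hm
    · rw [pow_one] at hζ
      rw [hζ, one_pow]
    · have : Fact (1 < m) := ⟨by have := NeZero.pos m; omega⟩
      rw [ZMod.val_one, pow_one]
  · intro h
    refine Units.ext ?_
    have h1 : σ (zet m) = zet m ^ 1 := by rw [pow_one]; exact h _ (zet_spec m).pow_eq_one
    rw [kap_eq m h1, Nat.cast_one, Units.val_one]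

theorem lev_kap : Lev (kap m) := by
  have hint : IsIntegral ℚ (zet m) := Algebra.IsIntegral.isIntegral _
  refine ⟨IntermediateField.adjoin ℚ {zet m}, IntermediateField.adjoin.finiteDimensional hint,
    fun σ hσ => ?_⟩
  refine Units.ext ?_
  have h1 : σ (zet m) = zet m ^ 1 := by
    rw [pow_one]
    exact hσ _ (IntermediateField.mem_adjoin_simple_self ℚ _)
  rw [kap_eq m h1, Nat.cast_one, Units.val_one]

/-- The cyclotomic character modulo `m` is unramified at the primes `q ∤ m`. -/
theorem unrAt_kap {q : ℕ} (hq : q.Prime) (hqm : ¬ q ∣ m) : UnrAt (kap m) q := by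
  intro A hA σ hσ
  have h1 : σ ∈ Fix m := fun ζ hζ =>
    GalRep.inertia_fix_rootOfUnity hA ((Nat.Prime.coprime_iff_not_dvd hq).mpr hqm) (NeZero.ne m)
      hσ hζ
  rw [← kap_ker m] at h1
  exact h1

/-- Complex conjugation inverts roots of unity. -/
lemma conj_root {n : ℕ} (hn : n ≠ 0) {μ : Qbar} (hμ : μ ^ n = 1) :
    complexConjugation μ = μ ^ (n - 1) := by
  have h0 : complexEmbedding (complexConjugation μ) = complexEmbedding (μ ^ (n - 1)) := by
    rw [complexEmbedding_complexConjugation, map_pow]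
    have h1 : (complexEmbedding μ) ^ n = 1 := by rw [← map_pow, hμ, map_one]
    have h2 : ‖complexEmbedding μ‖ = 1 := Complex.norm_eq_one_of_pow_eq_one h1 hn
    have h3 : complexEmbedding μ ≠ 0 := by
      rintro h
      rw [h, zero_pow hn] at h1
      exact zero_ne_one h1
    have h4 : starRingEnd ℂ (complexEmbedding μ) = (complexEmbedding μ)⁻¹ := by
      rw [Complex.inv_def, Complex.normSq_eq_norm_sq, h2]
      simp
    rw [h4]
    apply mul_right_cancel₀ h3
    rw [inv_mul_cancel₀ h3, ← pow_succ, Nat.sub_add_cancel (Nat.pos_of_ne_zero hn), h1]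
  exact complexEmbedding.toRingHom.injective h0

theorem kap_conj : kap m complexConjugation = -1 := by
  refine Units.ext ?_
  rw [kap_eq m (conj_root (NeZero.ne m) (zet_spec m).pow_eq_one), Units.val_neg, Units.val_one,
    Nat.cast_sub (NeZero.pos m), ZMod.natCast_self, Nat.cast_one, zero_sub]

end Kap

/-- **(A)** -/
theorem kapStmt : KapStmt := fun m _ =>
  ⟨Kap.kap m, Kap.kap_spec m, Kap.kap_surjective m, Kap.kap_ker m, Kap.lev_kap m,
    fun _ hq hqm => Kap.unrAt_kap m hq hqm, Kap.kap_conj m⟩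

end

end Fermat.Agent.Cor.KW
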