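import Fermat.Agent.Corollaries.KW.Kap
import Fermat.Agent.Corollaries.KW.Field

set_option autoImplicit false

/-!
# Kronecker-Weber for elements of `ℚ̄`

`Max.commute_iff_of` : two automorphisms of `ℚ̄` always commute on `x` if and only if `x` lies in a
cyclotomic field; `Max.mem_closure_commutator_iff_of` : the closure of the commutator subgroup of the
absolute Galois group of `ℚ` is the group of automorphisms which fix all roots of unity.
-/

namespace Fermat.Agent.Cor.KW

open scoped Pointwise commutatorElement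
open Fermat.Agent.Frob Fermat.Agent.Minkowski Fermat.Agent.TW

namespace Max

lemma mem_fixingSubgroup_cyc {m : ℕ} (hm : m ≠ 0) {σ : GQ} :
    σ ∈ (Fld.cyc m).fixingSubgroup ↔ σ ∈ Fix m := by
  rw [Fld.cyc, Fld.cycS, IntermediateField.mem_fixingSubgroup_iff]
  constructor
  · intro h ζ hζ
    exact h ζ (IntermediateField.subset_adjoin ℚ _ ⟨m, rfl, hm, hζ⟩)
  · intro h x hx
    have hle : IntermediateField.adjoin ℚ {ζ : Qbar | ∃ n ∈ ({m} : Set ℕ), n ≠ 0 ∧ ζ ^ n = 1} ≤
        IntermediateField.fixedField (Subgroup.zpowers σ) := by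
      rw [IntermediateField.adjoin_le_iff]
      rintro ζ ⟨n, rfl, -, hζ⟩
      rw [SetLike.mem_coe, IntermediateField.mem_fixedField_iff]
      intro τ hτ
      exact (Subgroup.zpowers_le.mpr h : Subgroup.zpowers σ ≤ Fix n) hτ ζ hζ
    have h1 := hle hx
    rw [IntermediateField.mem_fixedField_iff] at h1
    exact h1 σ (Subgroup.mem_zpowers σ)

lemma fixingSubgroup_cyc {m : ℕ} (hm : m ≠ 0) : (Fld.cyc m).fixingSubgroup = Fix m :=
  Subgroup.ext fun _ => mem_fixingSubgroup_cyc hm

lemma mem_cyc_iff {m : ℕ} (hm : m ≠ 0) {x : Qbar} : x ∈ Fld.cyc m ↔ ∀ σ ∈ Fix m, σ x = x := by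
  rw [← fixingSubgroup_cyc hm]
  constructor
  · intro h σ hσ
    exact (IntermediateField.mem_fixingSubgroup_iff _ σ).mp hσ x h
  · intro h
    rw [← InfiniteGalois.fixedField_fixingSubgroup (Fld.cyc m), IntermediateField.mem_fixedField_iff]
    exact h

/-- Commutators fix roots of unity. -/
lemma commutator_mem_Fix {m : ℕ} (hm : m ≠ 0) (σ τ : GQ) : (σ * τ)⁻¹ * (τ * σ) ∈ Fix m := by
  have : NeZero m := ⟨hm⟩
  rw [← Kap.kap_ker m, MonoidHom.mem_ker, map_mul, map_inv, map_mul, map_mul,
    mul_comm (Kap.kap m τ), inv_mul_cancel]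

/-- The automorphisms which act trivially on the conjugates of `x`. -/
def stab (x : Qbar) : Subgroup GQ where
  carrier := {σ | ∀ τ : GQ, σ (τ x) = τ x}
  mul_mem' := by
    intro a b ha hb τ
    rw [AlgEquiv.mul_apply, hb τ, ha τ]
  one_mem' := fun τ => rfl
  inv_mem' := by
    intro a ha τ
    have h1 := ha τ
    calc a⁻¹ (τ x) = a⁻¹ (a (τ x)) := by rw [h1]
      _ = τ x := a.symm_apply_apply _

lemma mem_stab {x : Qbar} {σ : GQ} : σ ∈ stab x ↔ ∀ τ : GQ, σ (τ x) = τ x := Iff.rfl

instance normal_stab (x : Qbar) : (stab x).Normal := by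
  refine ⟨fun σ hσ g τ => ?_⟩
  have h1 := hσ (g⁻¹ * τ)
  rw [AlgEquiv.mul_apply] at h1
  rw [AlgEquiv.mul_apply, AlgEquiv.mul_apply, h1]
  exact g.apply_symm_apply _

/-- The field generated by the conjugates of `x`. -/
noncomputable def conjField (x : Qbar) : IntermediateField ℚ Qbar :=
  IntermediateField.adjoin ℚ ((minpoly ℚ x).rootSet Qbar)

instance finiteDimensional_conjField (x : Qbar) : FiniteDimensional ℚ (conjField x) :=
  IntermediateField.finiteDimensional_adjoin fun y _ => Algebra.IsIntegral.isIntegral y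

lemma mem_conjField (x : Qbar) (τ : GQ) : τ x ∈ conjField x := by
  refine IntermediateField.subset_adjoin ℚ _ ?_
  rw [Polynomial.mem_rootSet]
  refine ⟨minpoly.ne_zero (Algebra.IsIntegral.isIntegral x), ?_⟩
  rw [Polynomial.aeval_algHom_apply, minpoly.aeval, map_zero]

lemma fixingSubgroup_le_stab (x : Qbar) : (conjField x).fixingSubgroup ≤ stab x := by
  intro σ hσ τ
  exact (IntermediateField.mem_fixingSubgroup_iff _ σ).mp hσ _ (mem_conjField x τ)

instance finiteIndex_stab (x : Qbar) : (stab x).FiniteIndex := by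
  have h1 : (conjField x).fixingSubgroup.FiniteIndex := ⟨by
    rw [← IntermediateField.finrank_eq_fixingSubgroup_index]
    exact Module.finrank_pos.ne'⟩
  exact Subgroup.finiteIndex_of_le (fixingSubgroup_le_stab x)

lemma lev_stab (x : Qbar) : Lev (QuotientGroup.mk' (stab x)) :=
  ⟨conjField x, inferInstance, fun σ hσ => (QuotientGroup.eq_one_iff σ).mpr
    (fixingSubgroup_le_stab x ((IntermediateField.mem_fixingSubgroup_iff _ σ).mpr hσ))⟩

/-- **Kronecker-Weber, elements**: the automorphisms of `ℚ̄` commute on `x` if and only if `x` is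
in a cyclotomic field. -/
theorem commute_iff_of (hC : CharStmt) (x : Qbar) :
    (∀ σ τ : GQ, σ (τ x) = τ (σ x)) ↔ ∃ m : ℕ, m ≠ 0 ∧ x ∈ Fld.cyc m := by
  constructor
  · intro h
    have hcomm : ∀ a b : GQ ⧸ stab x, a * b = b * a := by
      intro a b
      obtain ⟨σ, rfl⟩ := QuotientGroup.mk_surjective a
      obtain ⟨τ, rfl⟩ := QuotientGroup.mk_surjective b
      rw [← QuotientGroup.mk_mul, ← QuotientGroup.mk_mul, QuotientGroup.eq]
      intro ρ
      have key : ∀ σ τ ρ : GQ, σ (τ (ρ x)) = τ (σ (ρ x)) := by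
        intro σ τ ρ
        have h1 := h σ (τ * ρ)
        rw [AlgEquiv.mul_apply, AlgEquiv.mul_apply] at h1
        rw [h1, h ρ σ]
      rw [AlgEquiv.mul_apply, AlgEquiv.mul_apply, key τ σ ρ]
      exact (σ * τ).symm_apply_apply _
    let _ : CommGroup (GQ ⧸ stab x) :=
      { (inferInstance : Group (GQ ⧸ stab x)) with mul_comm := hcomm }
    obtain ⟨m, hm, hle⟩ := Fld.isCyc_of_finite hC (lev_stab x)
    refine ⟨m, hm, (mem_cyc_iff hm).mpr fun σ hσ => ?_⟩
    have h1 : σ ∈ stab x := (QuotientGroup.eq_one_iff σ).mp (hle hσ)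
    exact h1 1
  · rintro ⟨m, hm, hx⟩ σ τ
    have h2 := (mem_cyc_iff hm).mp hx _ (commutator_mem_Fix hm τ σ)
    rw [AlgEquiv.mul_apply] at h2
    have h3 := congrArg (τ * σ) h2
    have h4 : (τ * σ) ((τ * σ)⁻¹ ((σ * τ) x)) = (σ * τ) x := (τ * σ).apply_symm_apply _
    rw [h4] at h3
    exact h3

/-- The closure of the commutator subgroup of `G_ℚ` consists of the automorphisms which fix all
roots of unity. -/
theorem closure_commutator_of (hC : CharStmt) :
    (commutator GQ).topologicalClosure = ⨅ (m : ℕ) (_ : m ≠ 0), Fix m := by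
  apply le_antisymm
  · refine le_iInf₂ fun m hm => ?_
    have : NeZero m := ⟨hm⟩
    refine Subgroup.topologicalClosure_minimal _ ?_ ?_
    · rw [← Kap.kap_ker m]
      exact Abelianization.commutator_subset_ker (Kap.kap m)
    · rw [← Kap.kap_ker m]
      exact (Kap.kap m).ker.isClosed_of_isOpen (Kap.lev_kap m).isOpen_ker
  · intro σ hσ
    have hcl : IsClosed ((commutator GQ).topologicalClosure : Set GQ) :=
      (commutator GQ).isClosed_topologicalClosure
    have h1 := InfiniteGalois.fixingSubgroup_fixedField (k := ℚ) (K := Qbar)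
      ⟨(commutator GQ).topologicalClosure, hcl⟩
    have h2 : σ ∈ (IntermediateField.fixedField ((⟨(commutator GQ).topologicalClosure, hcl⟩ :
        ClosedSubgroup GQ) : Subgroup GQ)).fixingSubgroup := by
      rw [IntermediateField.mem_fixingSubgroup_iff]
      intro x hx
      rw [IntermediateField.mem_fixedField_iff] at hx
      obtain ⟨m, hm, hxm⟩ := (commute_iff_of hC x).mp fun σ τ => by
        have h3 : (σ * τ)⁻¹ * (τ * σ) ∈ (commutator GQ).topologicalClosure := by
          refine (commutator GQ).le_topologicalClosure ?_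
          have h4 : (σ * τ)⁻¹ * (τ * σ) = ⁅τ⁻¹, σ⁻¹⁆ := by
            rw [commutatorElement_def, inv_inv, inv_inv, mul_inv_rev]
            simp only [mul_assoc]
          rw [h4]
          exact Subgroup.commutator_mem_commutator (Subgroup.mem_top _) (Subgroup.mem_top _)
        have h5 := hx _ h3
        rw [AlgEquiv.mul_apply] at h5
        have h6 := congrArg (σ * τ) h5
        have h7 : (σ * τ) ((σ * τ)⁻¹ ((τ * σ) x)) = (τ * σ) x := (σ * τ).apply_symm_apply _
        rw [h7] at h6
        exact h6.symm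
      exact (mem_cyc_iff hm).mp hxm σ ((Subgroup.mem_iInf.mp (Subgroup.mem_iInf.mp hσ m)) hm)
    rw [h1] at h2
    exact h2

end Max

end Fermat.Agent.Cor.KW
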