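import Fermat.Agent.Corollaries.KW.Defs
import Fermat.Agent.CFT.Bridge.Ram

set_option autoImplicit false

/-!
# Kronecker-Weber: the induction
-/

namespace Fermat.Agent.Cor.KW

open scoped Pointwise
open Fermat.Agent.Frob Fermat.Agent.Minkowski Fermat.Agent.TW

section Cyclic

/-- Reduction modulo `p`. -/
def red (p n : ℕ) : C (p ^ (n + 1)) →* C p :=
  (ZMod.castHom (dvd_pow_self p n.succ_ne_zero) (ZMod p)).toAddMonoidHom.toMultiplicative

lemma red_ofAdd_one (p n : ℕ) : red p n (Multiplicative.ofAdd 1) = Multiplicative.ofAdd 1 := by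
  show Multiplicative.ofAdd (ZMod.castHom (dvd_pow_self p n.succ_ne_zero) (ZMod p) 1) = _
  rw [map_one]

lemma card_C (m : ℕ) : Nat.card (C m) = m := by
  rw [Nat.card_eq_of_bijective _ Multiplicative.toAdd.bijective, Nat.card_zmod]

variable {p : ℕ}

lemma pow_eq_one_C {m : ℕ} (x : C m) : x ^ m = 1 := by
  have h : x ^ Nat.card (C m) = 1 := pow_card_eq_one'
  rwa [card_C] at h

lemma exists_pow_C {m : ℕ} [NeZero m] (x : C m) : x = (Multiplicative.ofAdd 1) ^ (x.toAdd.val) := by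
  rw [← ofAdd_nsmul, nsmul_one, ZMod.natCast_zmod_val, ofAdd_toAdd]

lemma exists_pow_C' {m : ℕ} [NeZero m] (x : C m) : ∃ k : ℕ, x = (Multiplicative.ofAdd 1) ^ k :=
  ⟨_, exists_pow_C x⟩

lemma pow_ofAdd_eq_one_iff {m : ℕ} (k : ℕ) :
    (Multiplicative.ofAdd (1 : ZMod m)) ^ k = 1 ↔ m ∣ k := by
  rw [← ofAdd_nsmul, nsmul_one, ofAdd_eq_one, ZMod.natCast_eq_zero_iff]

lemma red_eq_one_iff [hp : Fact p.Prime] (n : ℕ) (x : C (p ^ (n + 1))) :
    red p n x = 1 ↔ x ^ (p ^ n) = 1 := by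
  have : NeZero (p ^ (n + 1)) := ⟨pow_ne_zero _ hp.out.ne_zero⟩
  obtain ⟨k, rfl⟩ := exists_pow_C' x
  rw [map_pow, red_ofAdd_one, pow_ofAdd_eq_one_iff, ← pow_mul, pow_ofAdd_eq_one_iff, pow_succ',
    Nat.mul_dvd_mul_iff_right (pow_pos hp.out.pos n)]

lemma orderOf_of_red_ne [hp : Fact p.Prime] {n : ℕ} {x : C (p ^ (n + 1))} (hx : red p n x ≠ 1) :
    orderOf x = p ^ (n + 1) := by
  rw [Ne, red_eq_one_iff] at hx
  exact orderOf_eq_prime_pow hx (pow_eq_one_C x)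

lemma exists_pow_of_red_ne [hp : Fact p.Prime] {n : ℕ} {x : C (p ^ (n + 1))} (hx : red p n x ≠ 1)
    (y : C (p ^ (n + 1))) : ∃ b : ℕ, x ^ b = y := by
  have : NeZero (p ^ (n + 1)) := ⟨pow_ne_zero _ hp.out.ne_zero⟩
  have : Finite (C (p ^ (n + 1))) := inferInstance
  have h1 : Nat.card (Subgroup.zpowers x) = Nat.card (C (p ^ (n + 1))) := by
    rw [Nat.card_zpowers, orderOf_of_red_ne hx, card_C]
  have h2 : Subgroup.zpowers x = ⊤ := Subgroup.eq_top_of_card_eq _ h1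
  have h3 : y ∈ Submonoid.powers x := by
    rw [mem_powers_iff_mem_zpowers, h2]
    exact Subgroup.mem_top y
  exact h3

lemma red_ofAdd_one_ne [hp : Fact p.Prime] (n : ℕ) :
    red p n (Multiplicative.ofAdd 1) ≠ 1 := by
  rw [red_ofAdd_one, Ne, ofAdd_eq_one]
  exact one_ne_zero

lemma exists_div_hom (p n : ℕ) [hp : Fact p.Prime] : ∃ j : C (p ^ n) →* C (p ^ (n + 1)),
    Function.Injective j ∧ ∀ x, red p n x = 1 → x ∈ j.range := by
  have : NeZero (p ^ (n + 1)) := ⟨pow_ne_zero _ hp.out.ne_zero⟩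
  have : NeZero (p ^ n) := ⟨pow_ne_zero _ hp.out.ne_zero⟩
  let j₀ : ZMod (p ^ n) →+ ZMod (p ^ (n + 1)) :=
    ZMod.lift (p ^ n) ⟨zmultiplesHom _ (p : ZMod (p ^ (n + 1))), by
      rw [zmultiplesHom_apply, natCast_zsmul, nsmul_eq_mul, ← Nat.cast_mul,
        ZMod.natCast_eq_zero_iff, pow_succ]⟩
  let j : C (p ^ n) →* C (p ^ (n + 1)) := j₀.toMultiplicative
  have hj1 : j (Multiplicative.ofAdd 1) = Multiplicative.ofAdd 1 ^ p := by
    show Multiplicative.ofAdd (j₀ 1) = _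
    have h1 : j₀ 1 = (p : ZMod (p ^ (n + 1))) := by
      have := ZMod.lift_coe (p ^ n) (⟨zmultiplesHom _ (p : ZMod (p ^ (n + 1))), by
        rw [zmultiplesHom_apply, natCast_zsmul, nsmul_eq_mul, ← Nat.cast_mul,
          ZMod.natCast_eq_zero_iff, pow_succ]⟩ :
          { f : ℤ →+ ZMod (p ^ (n + 1)) // f (p ^ n : ℕ) = 0 }) 1
      rw [Int.cast_one] at this
      rw [this]
      exact one_zsmul _
    rw [h1, ← ofAdd_nsmul, nsmul_one]
  refine ⟨j, ?_, ?_⟩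
  · rw [injective_iff_map_eq_one]
    intro x hx
    obtain ⟨k, rfl⟩ := exists_pow_C' x
    rw [map_pow, hj1, ← pow_mul, pow_ofAdd_eq_one_iff, pow_succ',
      Nat.mul_dvd_mul_iff_left hp.out.pos] at hx
    rwa [pow_ofAdd_eq_one_iff]
  · intro x hx
    obtain ⟨k, rfl⟩ := exists_pow_C' x
    rw [map_pow, red_ofAdd_one, pow_ofAdd_eq_one_iff] at hx
    obtain ⟨l, rfl⟩ := hx
    exact ⟨Multiplicative.ofAdd 1 ^ l, by rw [map_pow, hj1, ← pow_mul]⟩

end Cyclic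

section Step

variable {p : ℕ}

/-- Division by `p`. -/
theorem exists_div [hp : Fact p.Prime] {n : ℕ} {δ : GQ →* C (p ^ (n + 1))} (hL : Lev δ)
    (h : ∀ σ, red p n (δ σ) = 1) : ∃ δ' : GQ →* C (p ^ n), Lev δ' ∧ δ'.ker ≤ δ.ker := by
  obtain ⟨j, hj, hr⟩ := exists_div_hom p n
  let e : C (p ^ n) ≃* j.range := MonoidHom.ofInjective hj
  let δ₁ : GQ →* j.range := δ.codRestrict j.range fun σ => hr _ (h σ)
  have hk : ∀ σ, e.symm (δ₁ σ) = 1 ↔ δ σ = 1 := by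
    intro σ
    rw [MulEquiv.map_eq_one_iff, Subtype.ext_iff]
    rfl
  refine ⟨e.symm.toMonoidHom.comp δ₁, ?_, ?_⟩
  · obtain ⟨L, hL, hL'⟩ := hL
    exact ⟨L, hL, fun σ hσ => (hk σ).mpr (hL' σ hσ)⟩
  · intro σ hσ
    exact (hk σ).mp hσ

lemma unrAt_red_iff [hp : Fact p.Prime] {n q : ℕ} {χ : GQ →* C (p ^ (n + 1))} :
    UnrAt ((red p n).comp χ) q ↔ UnrAt (χ ^ (p ^ n)) q := by
  constructor
  · intro h A hA σ hσ
    exact (red_eq_one_iff n _).mp (h A hA σ hσ)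
  · intro h A hA σ hσ
    exact (red_eq_one_iff n _).mpr (h A hA σ hσ)

/-- The characters of conductor `q ≠ p`. -/
lemma exists_char_q (hA : KapStmt) (hB : HomStmt) [hp : Fact p.Prime] {q n : ℕ} (hq : q.Prime)
    (hdvd : p ^ (n + 1) ∣ q - 1) {τ : GQ}
    (hτ : ∀ (n : ℕ) (ψ : GQ →* C (p ^ n)), Lev ψ → (ψ τ = 1 → UnrAt ψ q) ∧ ψ τ ^ (q - 1) = 1) :
    ∃ ψ : GQ →* C (p ^ (n + 1)), Lev ψ ∧ IsCyc ψ ∧ (∀ q' : ℕ, q'.Prime → q' ≠ q → UnrAt ψ q') ∧
      red p n (ψ τ) ≠ 1 := by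
  have : NeZero q := ⟨hq.ne_zero⟩
  obtain ⟨κ, -, hsurj, hker, hlev, hunr, -⟩ := hA q
  obtain ⟨f, hf⟩ := hB.1 q p (n + 1) hq hp.out hdvd
  have hu : ∀ q' : ℕ, q'.Prime → q' ≠ q → UnrAt (f.comp κ) q' := fun q' hq' hne =>
    (hunr q' hq' fun h => hne ((Nat.prime_dvd_prime_iff_eq hq' hq).mp h)).comp f
  refine ⟨f.comp κ, hlev.comp f, ⟨q, hq.ne_zero, ?_⟩, hu, fun h1 => ?_⟩
  · rw [← hker]
    intro σ hσ
    show f (κ σ) = 1
    rw [show κ σ = 1 from hσ, map_one]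
  · have h2 : (f.comp κ ^ (p ^ n)) τ = 1 := (red_eq_one_iff n _).mp h1
    have h3 := (hτ _ _ ((hlev.comp f).pow (p ^ n))).1 h2
    have h4 : f.comp κ ^ (p ^ n) = 1 := eq_one_of_unrAt ((hlev.comp f).pow _) fun q' hq' => by
      by_cases h : q' = q
      · rwa [h]
      · exact (hu q' hq' h).pow _
    obtain ⟨u, hu⟩ := hf (Multiplicative.ofAdd 1)
    obtain ⟨σ, rfl⟩ := hsurj u
    apply red_ofAdd_one_ne (p := p) n
    rw [red_eq_one_iff, ← hu]
    exact DFunLike.congr_fun h4 σ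

/-- Correction at the primes different from `p`. -/
theorem tame_step (hA : KapStmt) (hB : HomStmt) (hC : TameStmt) [hp : Fact p.Prime] {n : ℕ}
    {χ : GQ →* C (p ^ (n + 1))} (hχ : Lev χ) (T : Finset ℕ) :
    (∀ q ∈ T, q.Prime ∧ q ≠ p) → ∃ ψ : GQ →* C (p ^ (n + 1)), Lev ψ ∧ IsCyc ψ ∧
      (∀ q : ℕ, q.Prime → q ∉ T → UnrAt ψ q) ∧
      ∀ q ∈ T, UnrAt ((red p n).comp (χ * ψ⁻¹)) q := by
  classical
  induction T using Finset.induction_on with
  | empty =>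
    intro _
    exact ⟨1, lev_one, isCyc_one, fun q _ _ => unrAt_one q, fun q hq => by simp at hq⟩
  | insert q T hqT ih =>
    intro hT
    obtain ⟨ψ, h1, h2, h3, h4⟩ := ih fun q' hq' => hT q' (Finset.mem_insert_of_mem hq')
    obtain ⟨hq, hqp⟩ := hT q (Finset.mem_insert_self q T)
    obtain ⟨τ, -, hτ⟩ := hC q p hq hp.out hqp
    have hL1 : Lev (χ * ψ⁻¹) := hχ.mul h1.inv
    by_cases hr : red p n ((χ * ψ⁻¹) τ) = 1
    · refine ⟨ψ, h1, h2, fun q' hq' hn => h3 q' hq' fun h => hn (Finset.mem_insert_of_mem h),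
        fun q' hq' => ?_⟩
      rcases Finset.mem_insert.mp hq' with rfl | hq'
      · rw [unrAt_red_iff]
        exact (hτ _ _ (hL1.pow _)).1 ((red_eq_one_iff n _).mp hr)
      · exact h4 q' hq'
    · have hdvd : p ^ (n + 1) ∣ q - 1 := by
        rw [← orderOf_of_red_ne hr]
        exact orderOf_dvd_of_pow_eq_one (hτ _ _ hL1).2
      obtain ⟨ε, g1, g2, g3, g4⟩ := exists_char_q hA hB hq hdvd hτ
      obtain ⟨b, hb⟩ := exists_pow_of_red_ne g4 ((χ * ψ⁻¹) τ)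
      have hval : (χ * (ψ * ε ^ b)⁻¹) τ = 1 := by
        rw [MonoidHom.mul_apply, MonoidHom.inv_apply] at hb
        rw [MonoidHom.mul_apply, MonoidHom.inv_apply, MonoidHom.mul_apply, MonoidHom.pow_apply, hb,
          mul_left_comm, mul_inv_cancel, mul_one, mul_inv_cancel]
      refine ⟨ψ * ε ^ b, h1.mul (g1.pow b), h2.mul (g2.pow b), fun q' hq' hn => ?_,
        fun q' hq' => ?_⟩
      · refine (h3 q' hq' fun h => hn (Finset.mem_insert_of_mem h)).mul ((g3 q' hq' ?_).pow b)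
        rintro rfl
        exact hn (Finset.mem_insert_self _ T)
      · rcases Finset.mem_insert.mp hq' with rfl | hq'
        · exact ((hτ _ _ (hχ.mul (h1.mul (g1.pow b)).inv)).1 hval).comp _
        · have hne : q' ≠ q := fun h => hqT (h ▸ hq')
          have hq'p : q'.Prime := (hT q' (Finset.mem_insert_of_mem hq')).1
          have h5 : χ * (ψ * ε ^ b)⁻¹ = (χ * ψ⁻¹) * (ε ^ b)⁻¹ := by
            rw [mul_inv, mul_assoc]
          rw [unrAt_red_iff, h5, mul_pow]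
          exact (unrAt_red_iff.mp (h4 q' hq')).mul (((g3 q' hq'p hne).pow b).inv.pow _)

/-- A surjective character has a ramified reduction. -/
lemma exists_not_unr [hp : Fact p.Prime] {n : ℕ} {ψ : GQ →* C (p ^ (n + 1))} (hL : Lev ψ)
    (hs : Function.Surjective ψ) (h : ∀ q : ℕ, q.Prime → q ≠ p → UnrAt ψ q) :
    ¬ UnrAt ((red p n).comp ψ) p := by
  intro hp'
  have h1 : (red p n).comp ψ = 1 := eq_one_of_unrAt (hL.comp _) fun q hq => by
    by_cases hqp : q = p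
    · rwa [hqp]
    · exact (h q hq hqp).comp _
  obtain ⟨σ, hσ⟩ := hs (Multiplicative.ofAdd 1)
  apply red_ofAdd_one_ne (p := p) n
  rw [← hσ]
  exact DFunLike.congr_fun h1 σ

/-- Correction at `p` odd. -/
theorem p_step (hA : KapStmt) (hB : HomStmt) (hD : AtPStmt) [hp : Fact p.Prime] (hp2 : p ≠ 2)
    {n : ℕ} {χ : GQ →* C (p ^ (n + 1))} (hχ : Lev χ)
    (h : ∀ q : ℕ, q.Prime → q ≠ p → UnrAt ((red p n).comp χ) q) :
    ∃ ψ : GQ →* C (p ^ (n + 1)), Lev ψ ∧ IsCyc ψ ∧ (red p n).comp χ = (red p n).comp ψ := by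
  have : NeZero (p ^ (n + 1 + 1)) := ⟨pow_ne_zero _ hp.out.ne_zero⟩
  obtain ⟨κ, -, hsurj, hker, hlev, hunr, -⟩ := hA (p ^ (n + 1 + 1))
  obtain ⟨f, hf⟩ := hB.2.1 p (n + 1) hp.out hp2
  have hu : ∀ q : ℕ, q.Prime → q ≠ p → UnrAt (f.comp κ) q := fun q hq hne =>
    (hunr q hq fun h => hne ((Nat.prime_dvd_prime_iff_eq hq hp.out).mp
      (hq.dvd_of_dvd_pow h))).comp f
  have hLf : Lev (f.comp κ) := hlev.comp f
  have hcyc : IsCyc (f.comp κ) := by
    refine ⟨p ^ (n + 1 + 1), pow_ne_zero _ hp.out.ne_zero, ?_⟩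
    rw [← hker]
    intro σ hσ
    show f (κ σ) = 1
    rw [show κ σ = 1 from hσ, map_one]
  have hram := exists_not_unr hLf (hf.comp hsurj) hu
  obtain ⟨b, hb⟩ := hD p hp.out hp2 ((red p n).comp χ) ((red p n).comp (f.comp κ)) (hχ.comp _)
    (hLf.comp _) hram
  have h1 : (red p n).comp χ * ((red p n).comp (f.comp κ)) ^ b = 1 := by
    refine eq_one_of_unrAt ((hχ.comp _).mul ((hLf.comp _).pow b)) fun q hq => ?_
    by_cases hqp : q = p
    · rwa [hqp]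
    · exact (h q hq hqp).mul (((hu q hq hqp).comp _).pow b)
  refine ⟨(f.comp κ ^ b)⁻¹, (hLf.pow b).inv, (hcyc.pow b).inv, ?_⟩
  ext σ
  have h2 := DFunLike.congr_fun h1 σ
  rw [MonoidHom.mul_apply, MonoidHom.pow_apply, MonoidHom.one_apply] at h2
  rw [MonoidHom.comp_apply (red p n) (f.comp κ ^ b)⁻¹, MonoidHom.inv_apply, MonoidHom.pow_apply,
    map_inv, map_pow]
  exact congrArg Multiplicative.toAdd (eq_inv_of_mul_eq_one_left h2)

lemma pow_two_pow_succ {M : Type*} [Monoid M] {x : M} (h : x ^ 2 = 1) (n : ℕ) :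
    x ^ 2 ^ (n + 1) = 1 := by
  rw [pow_succ', pow_mul, h, one_pow]

/-- Correction at `p = 2`. -/
theorem two_step (hA : KapStmt) (hB : HomStmt) (hE : TwoStmt)
    {n : ℕ} {χ : GQ →* C (2 ^ (n + 1))} (hχ : Lev χ)
    (h : ∀ q : ℕ, q.Prime → q ≠ 2 → UnrAt ((red 2 n).comp χ) q) :
    ∃ ψ : GQ →* C (2 ^ (n + 1)), Lev ψ ∧ IsCyc ψ ∧ (red 2 n).comp χ = (red 2 n).comp ψ := by
  have : Fact (Nat.Prime 2) := ⟨Nat.prime_two⟩
  have h8 := hE ((red 2 n).comp χ) (hχ.comp _) h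
  rcases n with _ | n
  · refine ⟨χ, hχ, ⟨8, by norm_num, fun σ hσ => ?_⟩, rfl⟩
    have h1 : χ σ ^ 2 ^ 0 = 1 := (red_eq_one_iff 0 _).mp (h8 hσ)
    exact (pow_one (χ σ)).symm.trans h1
  · have : NeZero (2 ^ (n + 1 + 1 + 2)) := ⟨pow_ne_zero _ two_ne_zero⟩
    obtain ⟨κ, -, hsurj, hker, hlev, hunr, hconj⟩ := hA (2 ^ (n + 1 + 1 + 2))
    obtain ⟨f, hf, hf1, hfac⟩ := hB.2.2 (n + 1 + 1) (by omega)
    have hdvd : 8 ∣ 2 ^ (n + 1 + 1 + 2) := by
      have : (8 : ℕ) = 2 ^ 3 := by norm_num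
      rw [this]
      exact pow_dvd_pow 2 (by omega)
    have hle : κ.ker ≤ ((red 2 (n + 1)).comp χ).ker := by
      rw [hker]
      exact (Fix_le hdvd).trans h8
    let g : (ZMod (2 ^ (n + 1 + 1 + 2)))ˣ →* C 2 :=
      κ.liftOfRightInverse _ (Function.rightInverse_surjInv hsurj) ⟨(red 2 (n + 1)).comp χ, hle⟩
    have hg : ∀ σ, g (κ σ) = red 2 (n + 1) (χ σ) := fun σ =>
      MonoidHom.liftOfRightInverse_comp_apply κ _ (Function.rightInverse_surjInv hsurj)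
        ⟨(red 2 (n + 1)).comp χ, hle⟩ σ
    have hg1 : g (-1) = 1 := by
      rw [← hconj, hg, red_eq_one_iff]
      exact pow_two_pow_succ (by rw [← map_pow, complexConjugation_sq, map_one]) n
    obtain ⟨h', hh'⟩ := hfac g hg1
    obtain ⟨b, hb⟩ := exists_pow_C' (h' (Multiplicative.ofAdd 1))
    have : NeZero (2 ^ (n + 1 + 1)) := ⟨pow_ne_zero _ two_ne_zero⟩
    have hred : h' = red 2 (n + 1) ^ b := by
      refine MonoidHom.ext fun x => ?_
      obtain ⟨k, rfl⟩ := exists_pow_C' x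
      rw [map_pow, map_pow, MonoidHom.pow_apply, red_ofAdd_one, hb]
    refine ⟨f.comp κ ^ b, (hlev.comp f).pow b, ?_, ?_⟩
    · refine IsCyc.pow ⟨2 ^ (n + 1 + 1 + 2), pow_ne_zero _ two_ne_zero, ?_⟩ b
      rw [← hker]
      intro σ hσ
      show f (κ σ) = 1
      rw [show κ σ = 1 from hσ, map_one]
    · ext σ
      refine congrArg Multiplicative.toAdd ?_
      rw [MonoidHom.comp_apply, ← hg, hh', MonoidHom.comp_apply, hred, MonoidHom.pow_apply,
        MonoidHom.comp_apply, MonoidHom.pow_apply, map_pow, MonoidHom.comp_apply]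

end Step

/-- **Characters of prime power order have finite conductor.** -/
theorem charStmt_of (hA : KapStmt) (hB : HomStmt) (hC : TameStmt) (hD : AtPStmt) (hE : TwoStmt) :
    CharStmt := by
  intro p n hp
  have : Fact p.Prime := ⟨hp⟩
  induction n with
  | zero =>
    intro χ _
    have : χ = 1 := MonoidHom.ext fun σ => by
      exact (pow_one (χ σ)).symm.trans (pow_eq_one_C (χ σ))
    rw [this]
    exact isCyc_one
  | succ n ih =>
    intro χ hχ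
    obtain ⟨L, hL, hLχ⟩ := id hχ
    obtain ⟨S, hS⟩ := Fermat.Agent.CFT.Bridge.exists_isUnramifiedOutside L
    let T : Finset ℕ := (S.image fun q : Nat.Primes => (q : ℕ)).erase p
    have hT : ∀ q ∈ T, q.Prime ∧ q ≠ p := by
      intro q hq
      obtain ⟨h1, h2⟩ := Finset.mem_erase.mp hq
      obtain ⟨q', -, rfl⟩ := Finset.mem_image.mp h2
      exact ⟨q'.2, h1⟩
    have hunr : ∀ q : ℕ, q.Prime → q ≠ p → q ∉ T → UnrAt χ q := by
      intro q hq hqp hqT A hA σ hσ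
      have h1 : (⟨q, hq⟩ : Nat.Primes) ∉ S := fun hmem => hqT (Finset.mem_erase.mpr
        ⟨hqp, Finset.mem_image.mpr ⟨⟨q, hq⟩, hmem, rfl⟩⟩)
      have h2 := hS.2 ⟨q, hq⟩ h1 A hA hσ
      exact hLχ σ ((IntermediateField.mem_fixingSubgroup_iff L σ).mp h2)
    obtain ⟨ψ, h1, h2, h3, h4⟩ := tame_step hA hB hC hχ T hT
    have hL1 : Lev (χ * ψ⁻¹) := hχ.mul h1.inv
    have hu1 : ∀ q : ℕ, q.Prime → q ≠ p → UnrAt ((red p n).comp (χ * ψ⁻¹)) q := by
      intro q hq hqp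
      by_cases hqT : q ∈ T
      · exact h4 q hqT
      · exact ((hunr q hq hqp hqT).mul (h3 q hq hqT).inv).comp _
    obtain ⟨ε, g1, g2, g3⟩ : ∃ ε : GQ →* C (p ^ (n + 1)), Lev ε ∧ IsCyc ε ∧
        (red p n).comp (χ * ψ⁻¹) = (red p n).comp ε := by
      by_cases hp2 : p = 2
      · subst hp2
        exact two_step hA hB hE hL1 hu1
      · exact p_step hA hB hD hp2 hL1 hu1
    obtain ⟨δ', d1, d2⟩ := exists_div (δ := χ * ψ⁻¹ * ε⁻¹) (hL1.mul g1.inv) fun σ => by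
      have h5 := DFunLike.congr_fun g3 σ
      rw [MonoidHom.comp_apply, MonoidHom.comp_apply] at h5
      rw [MonoidHom.mul_apply, map_mul, h5, ← map_mul, MonoidHom.inv_apply, mul_inv_cancel, map_one]
    have h6 : IsCyc (χ * ψ⁻¹ * ε⁻¹) := (ih δ' d1).of_ker_le d2
    have h7 : χ = χ * ψ⁻¹ * ε⁻¹ * (ε * ψ) := by
      rw [mul_assoc, inv_mul_cancel_left, inv_mul_cancel_right]
    rw [h7]
    exact h6.mul (g2.mul h2)

end Fermat.Agent.Cor.KW
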