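import Fermat.Agent.Corollaries.KW.Defs
import Fermat.Agent.Mazur.Count

/-!
# Kronecker-Weber: quadratic characters unramified outside `2`

`twoStmt` : they have conductor dividing `8`: by Kummer theory the character is given by `√d`, and
`d` is `±1`, `±2` up to squares.
-/

set_option autoImplicit false

namespace Fermat.Agent.Cor.KW

open Fermat.Agent.Frob Fermat.Agent.Minkowski Fermat.Agent.TW

namespace Two

theorem mul_eq_one_of_ne : ∀ a b : C 2, a ≠ 1 → b ≠ 1 → a * b = 1 := by decide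

/-- the sign of an element of `C 2` -/
noncomputable def sgn (a : C 2) : Qbarˣ := if a = 1 then 1 else -1

theorem sgn_one : sgn 1 = 1 := if_pos rfl

theorem sgn_of_ne {a : C 2} (h : a ≠ 1) : sgn a = -1 := if_neg h

theorem sgn_mul (a b : C 2) : sgn (a * b) = sgn a * sgn b := by
  by_cases ha : a = 1
  · rw [ha, one_mul, sgn_one, one_mul]
  · by_cases hb : b = 1
    · rw [hb, mul_one, sgn_one, mul_one]
    · rw [mul_eq_one_of_ne a b ha hb, sgn_one, sgn_of_ne ha, sgn_of_ne hb, neg_mul_neg, one_mul]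

theorem smul_sgn (σ : GQ) (a : C 2) : σ • sgn a = sgn a := by
  by_cases ha : a = 1
  · rw [ha, sgn_one, smul_one]
  · rw [sgn_of_ne ha]
    refine Units.ext ?_
    change σ ((-1 : Qbarˣ) : Qbar) = ((-1 : Qbarˣ) : Qbar)
    rw [Units.val_neg, Units.val_one, map_neg, map_one]

theorem sgn_sq (a : C 2) : sgn a ^ 2 = 1 := by
  by_cases ha : a = 1
  · rw [ha, sgn_one, one_pow]
  · rw [sgn_of_ne ha, neg_one_sq]

theorem one_ne_neg_one : (1 : Qbarˣ) ≠ -1 := by
  intro h
  have h1 := congrArg Units.val h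
  rw [Units.val_neg, Units.val_one] at h1
  have h2 : (2 : Qbar) = 0 := by linear_combination h1
  exact two_ne_zero h2

theorem eq_one_of_sgn {a : C 2} (h : sgn a = 1) : a = 1 := by
  by_contra ha
  rw [sgn_of_ne ha] at h
  exact one_ne_neg_one h.symm

/-- **Kummer theory**: a quadratic character is `σ ↦ σ(x)/x` with `x² ∈ ℚ`. -/
theorem exists_sqrt {χ : GQ →* C 2} (hχ : Lev χ) : ∃ (x : Qbar) (d : ℚ), x ≠ 0 ∧ x ^ 2 = (d : Qbar) ∧
    ∀ σ : GQ, χ σ = 1 ↔ σ x = x := by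
  obtain ⟨x, hx⟩ := Fermat.Agent.Mazur.hilbert90 (fun σ => sgn (χ σ)) (fun σ τ => by
    rw [smul_sgn, map_mul, sgn_mul]) χ.ker hχ.isOpen_ker (fun σ hσ => by
      have h1 : χ σ = 1 := hσ
      rw [h1, sgn_one])
  have hσx : ∀ σ : GQ, σ (x : Qbar) = ((sgn (χ σ) : Qbarˣ) : Qbar) * x := by
    intro σ
    have h1 := hx σ
    rw [eq_div_iff_mul_eq'] at h1
    have h2 := congrArg Units.val h1
    rw [Units.val_mul] at h2
    rw [h2]
    rfl
  obtain ⟨d, hd⟩ := Fermat.Agent.Mazur.exists_rat_of_fixed (x := (x : Qbar) ^ 2) (fun σ => by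
    rw [map_pow, hσx σ, mul_pow, ← Units.val_pow_eq_pow_val, sgn_sq, Units.val_one, one_mul])
  refine ⟨x, d, x.ne_zero, hd.symm, fun σ => ⟨fun h => ?_, fun h => ?_⟩⟩
  · rw [hσx σ, h, sgn_one, Units.val_one, one_mul]
  · rw [hσx σ] at h
    apply eq_one_of_sgn
    refine Units.ext ?_
    rw [Units.val_one]
    exact mul_right_cancel₀ x.ne_zero (h.trans (one_mul _).symm)

/-- `d` is `±1` or `±2` up to squares. -/
theorem exists_eq {χ : GQ →* C 2} (hunr : ∀ q : ℕ, q.Prime → q ≠ 2 → UnrAt χ q) {x : Qbar} {d : ℚ}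
    (hx : x ≠ 0) (hd : x ^ 2 = (d : Qbar)) (h : ∀ σ : GQ, χ σ = 1 ↔ σ x = x) :
    ∃ w : ℚ, w ≠ 0 ∧ (d = w ^ 2 ∨ d = - w ^ 2 ∨ d = 2 * w ^ 2 ∨ d = - (2 * w ^ 2)) := by
  have hd0 : d ≠ 0 := by
    rintro rfl
    rw [Rat.cast_zero] at hd
    exact pow_ne_zero 2 hx hd
  have hodd : ∀ q : ℕ, q.Prime → q ≠ 2 → (2 : ℤ) ∣ padicValRat q d := by
    intro q hq hq2
    obtain ⟨A, hA⟩ := Fermat.Agent.Frob.exists_liesOverPrime q hq
    obtain ⟨k, hk⟩ := Fermat.Agent.Mazur.exists_valuation_of_inertia_fixed hq hA hx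
      (fun σ hσ => (h σ).mp (hunr q hq hq2 A hA σ hσ))
    exact Fermat.Agent.Mazur.dvd_padicValRat_of_pow hq hA (n := 2) hd0 hd hk
  by_cases h2 : (2 : ℤ) ∣ padicValRat 2 d
  · obtain ⟨w, hw0, hw⟩ := Fermat.Agent.Mazur.exists_rat_pow_of_dvd (q := 2) two_ne_zero hd0
      (fun ℓ hℓ => by
        by_cases hℓ2 : ℓ = 2
        · rw [hℓ2]
          exact h2
        · exact hodd ℓ hℓ hℓ2)
    refine ⟨w, hw0, ?_⟩
    rcases hw with hw | hw
    · exact Or.inl hw
    · exact Or.inr (Or.inl hw)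
  · have hval : ∀ ℓ : ℕ, ℓ.Prime → padicValRat ℓ (d / 2) = padicValRat ℓ d - padicValRat ℓ 2 := by
      intro ℓ hℓ
      have : Fact ℓ.Prime := ⟨hℓ⟩
      exact padicValRat.div hd0 two_ne_zero
    obtain ⟨w, hw0, hw⟩ := Fermat.Agent.Mazur.exists_rat_pow_of_dvd (q := 2) (u := d / 2)
      two_ne_zero (div_ne_zero hd0 two_ne_zero) (fun ℓ hℓ => by
        rw [hval ℓ hℓ]
        have : Fact ℓ.Prime := ⟨hℓ⟩
        by_cases hℓ2 : ℓ = 2
        · subst hℓ2
          have h3 : padicValRat 2 (2 : ℚ) = 1 := by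
            have := padicValRat.self (p := 2) (by norm_num)
            exact_mod_cast this
          rw [h3]
          push_cast
          omega
        · have h3 : padicValRat ℓ (2 : ℚ) = 0 := by
            have h4 : ((2 : ℕ) : ℚ) = (2 : ℚ) := by norm_num
            rw [← h4, padicValRat.of_nat, padicValNat.eq_zero_of_not_dvd, Nat.cast_zero]
            intro h5
            exact hℓ2 ((Nat.prime_dvd_prime_iff_eq hℓ Nat.prime_two).mp h5)
          rw [h3, sub_zero]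
          exact hodd ℓ hℓ hℓ2)
    refine ⟨w, hw0, ?_⟩
    rcases hw with hw | hw
    · refine Or.inr (Or.inr (Or.inl ?_))
      field_simp at hw
      linear_combination hw
    · refine Or.inr (Or.inr (Or.inr ?_))
      field_simp at hw
      linear_combination hw

/-- `√ε` for `ε = ±1, ±2` is fixed by `Fix 8`. -/
theorem fix_of_sq {σ : GQ} (hσ : σ ∈ Fix 8) {y : Qbar}
    (hy : y ^ 2 = 1 ∨ y ^ 2 = -1 ∨ y ^ 2 = 2 ∨ y ^ 2 = -2) : σ y = y := by
  obtain ⟨ζ, hζ⟩ := IsAlgClosed.exists_pow_nat_eq (-1 : Qbar) (n := 4) (by norm_num)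
  have hζ0 : ζ ≠ 0 := by
    rintro rfl
    norm_num at hζ
  have hfix : σ ζ = ζ := hσ ζ (by
    rw [show (8 : ℕ) = 4 * 2 from rfl, pow_mul, hζ]
    norm_num)
  have hinv : σ ζ⁻¹ = ζ⁻¹ := by rw [map_inv₀, hfix]
  have h2 : ζ ^ 2 + (ζ⁻¹) ^ 2 = 0 := by
    field_simp
    linear_combination hζ
  have key : ∀ z : Qbar, σ z = z → y ^ 2 = z ^ 2 → σ y = y := by
    intro z hz h
    rcases sq_eq_sq_iff_eq_or_eq_neg.mp h with h | h
    · rw [h, hz]
    · rw [h, map_neg, hz]
  rcases hy with hy | hy | hy | hy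
  · exact key 1 (map_one σ) (by rw [hy, one_pow])
  · refine hσ y ?_
    rw [show (8 : ℕ) = 2 * 4 from rfl, pow_mul, hy]
    norm_num
  · refine key (ζ + ζ⁻¹) (by rw [map_add, hfix, hinv]) ?_
    have h3 : ζ * ζ⁻¹ = 1 := mul_inv_cancel₀ hζ0
    linear_combination hy - h2 - 2 * h3
  · refine key (ζ - ζ⁻¹) (by rw [map_sub, hfix, hinv]) ?_
    have h3 : ζ * ζ⁻¹ = 1 := mul_inv_cancel₀ hζ0
    linear_combination hy - h2 + 2 * h3

end Two

/-- (E) -/
theorem twoStmt : TwoStmt := by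
  intro χ hχ hunr σ hσ
  obtain ⟨x, d, hx, hd, h⟩ := Two.exists_sqrt hχ
  obtain ⟨w, hw0, hw⟩ := Two.exists_eq hunr hx hd h
  have hw0' : (w : Qbar) ≠ 0 := by exact_mod_cast hw0
  have hy : σ (x / w) = x / w := by
    refine Two.fix_of_sq hσ ?_
    rw [div_pow, hd]
    rcases hw with hw | hw | hw | hw
    · left
      rw [hw]
      push_cast
      field_simp
    · right; left
      rw [hw]
      push_cast
      field_simp
    · right; right; left
      rw [hw]
      push_cast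
      field_simp
    · right; right; right
      rw [hw]
      push_cast
      field_simp
  have hwσ : σ (w : Qbar) = w := map_ratCast σ w
  rw [map_div₀, hwσ] at hy
  have h1 : σ x = x := by
    rw [div_left_inj' hw0'] at hy
    exact hy
  exact (h σ).mpr h1

end Fermat.Agent.Cor.KW
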