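import Fermat.Agent.Corollaries.KW.Tame
import Fermat.Agent.Corollaries.KW.Step
import Fermat.Agent.Corollaries.KW.Kap
import Fermat.Agent.Corollaries.KW.Homs
import Fermat.Agent.Corollaries.KW.Two
import Fermat.Agent.Corollaries.KW.AtP
import Fermat.Agent.Corollaries.KW.Field
import Fermat.Agent.Corollaries.KW.Max
import Fermat.Agent.Corollaries.KW.Cond

set_option autoImplicit false

/-!
# The Kronecker-Weber theorem
-/

namespace Fermat.Agent.Cor.KW

open Fermat.Agent.Frob Fermat.Agent.TW

/-- **Characters of prime power order of `G_ℚ` have finite conductor.** -/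
theorem charStmt : CharStmt := charStmt_of kapStmt homStmt tameStmt atPStmt twoStmt

/-- **Characters of finite level of `G_ℚ` have finite conductor**: a homomorphism of finite level
from the absolute Galois group of `ℚ` to a finite commutative group is trivial on the automorphisms
which fix the `m`-th roots of unity, for some `m`. -/
theorem isCyc {M : Type*} [CommGroup M] [Finite M] {χ : GQ →* M} (hχ : Lev χ) : IsCyc χ :=
  Fld.isCyc_of_finite charStmt hχ

/-- **The Kronecker-Weber theorem**: every abelian extension of `ℚ` of finite degree is contained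
in a cyclotomic field. -/
theorem kronecker_weber (K : Type*) [Field K] [NumberField K] [IsAbelianGalois ℚ K] :
    ∃ n : ℕ, 0 < n ∧ Nonempty (K →ₐ[ℚ] CyclotomicField n ℚ) :=
  Fld.exists_algHom charStmt K

/-- **The Kronecker-Weber theorem**: a number field is an abelian extension of `ℚ` if and only if
it is contained in a cyclotomic field. -/
theorem isAbelianGalois_iff (K : Type*) [Field K] [NumberField K] :
    IsAbelianGalois ℚ K ↔ ∃ n : ℕ, 0 < n ∧ Nonempty (K →ₐ[ℚ] CyclotomicField n ℚ) :=
  Fld.isAbelianGalois_iff charStmt K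

/-- **The maximal abelian extension of `ℚ` is `ℚ(μ_∞)`.** -/
theorem isAbelianGalois_iff_le_cycAll (L : IntermediateField ℚ (AlgebraicClosure ℚ)) :
    IsAbelianGalois ℚ L ↔
      L ≤ IntermediateField.adjoin ℚ {x : AlgebraicClosure ℚ | ∃ n : ℕ, n ≠ 0 ∧ x ^ n = 1} := by
  have h : IntermediateField.adjoin ℚ {x : AlgebraicClosure ℚ | ∃ n : ℕ, n ≠ 0 ∧ x ^ n = 1} =
      Fld.cycAll := by
    rw [Fld.cycAll, Fld.cycS]
    congr 1
    ext x
    simp
  rw [h]
  exact Fld.isAbelianGalois_iff_le_cycAll charStmt L

/-- **The Kronecker-Weber theorem for elements**: any two automorphisms of `ℚ̄` commute on `x` if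
and only if `x` lies in the field generated by the `m`-th roots of unity for some `m`. -/
theorem commute_iff (x : AlgebraicClosure ℚ) :
    (∀ σ τ : AlgebraicClosure ℚ ≃ₐ[ℚ] AlgebraicClosure ℚ, σ (τ x) = τ (σ x)) ↔
      ∃ m : ℕ, m ≠ 0 ∧ x ∈ IntermediateField.adjoin ℚ {ζ : AlgebraicClosure ℚ | ζ ^ m = 1} := by
  rw [Max.commute_iff_of charStmt x]
  refine exists_congr fun m => and_congr_right fun hm => ?_
  have h : IntermediateField.adjoin ℚ {ζ : AlgebraicClosure ℚ | ζ ^ m = 1} = Fld.cyc m := by
    rw [Fld.cyc, Fld.cycS]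
    congr 1
    ext x
    simp [hm]
  rw [h]

/-- **The closure of the commutator subgroup of `G_ℚ` is the group of the automorphisms which fix
all roots of unity.** -/
theorem closure_commutator :
    (commutator (AlgebraicClosure ℚ ≃ₐ[ℚ] AlgebraicClosure ℚ)).topologicalClosure =
      ⨅ (m : ℕ) (_ : m ≠ 0), Fix m :=
  Max.closure_commutator_of charStmt

/-- **Abelian extensions of `ℚ` unramified outside `S`**: a homomorphism of finite level to a finite
commutative group which is unramified outside `S` is trivial on the automorphisms which fix the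
`m`-th roots of unity, for some `m` all of whose prime factors are in `S`. -/
theorem exists_conductor_of_unrAt {M : Type*} [CommGroup M] [Finite M] {χ : GQ →* M} (hχ : Lev χ)
    (S : Set ℕ) (h : ∀ q : ℕ, q.Prime → q ∉ S → UnrAt χ q) :
    ∃ m : ℕ, m ≠ 0 ∧ (∀ q : ℕ, q.Prime → q ∣ m → q ∈ S) ∧ Fix m ≤ χ.ker :=
  exists_conductor (isCyc hχ) S h

end Fermat.Agent.Cor.KW
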