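import Fermat.Agent.Corollaries.KW.ArtinOne
import Fermat.Agent.Corollaries.KW.Final

set_option autoImplicit false

/-!
# The one-dimensional representations of `Gal(ℚ̄/ℚ)`

* `lev_iff_continuous` : a character `Gal(ℚ̄/ℚ) →* ℂˣ` has finite level if and only if it is
  continuous (`ℂˣ` has no small subgroups);
* `galoisDirichletEquiv` : the continuous characters of `Gal(ℚ̄/ℚ)` are the primitive Dirichlet
  characters; `exists_primitive_dirichlet` : the same, elementary, with the ramification and the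
  Frobenius elements;
* `artin_conjecture_dim_one` : Artin's conjecture in dimension one over `ℚ`, with the functional
  equation.
-/

namespace Fermat.Agent.Cor.KW

open Fermat.Agent.Frob Fermat.Agent.Minkowski Fermat.Agent.TW
open Kap Dir DirichletCharacter

noncomputable section

/-- `ℂˣ` has no small subgroups. -/
theorem eq_one_of_pow_mem_ball {z : ℂ} (h : ∀ k : ℕ, ‖z ^ 2 ^ k - 1‖ < 1 / 2) : z = 1 := by
  have h1 : ∀ k : ℕ, (3 / 2 : ℝ) ^ k * ‖z - 1‖ ≤ ‖z ^ 2 ^ k - 1‖ := by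
    intro k
    induction k with
    | zero => rw [pow_zero, pow_zero, pow_one, one_mul]
    | succ k ih =>
      have h2 : z ^ 2 ^ (k + 1) - 1 = (z ^ 2 ^ k + 1) * (z ^ 2 ^ k - 1) := by
        rw [pow_succ, pow_mul]
        ring
      have h3 : (3 / 2 : ℝ) ≤ ‖z ^ 2 ^ k + 1‖ := by
        have h4 : ‖(2 : ℂ)‖ ≤ ‖z ^ 2 ^ k + 1‖ + ‖z ^ 2 ^ k - 1‖ := by
          have h5 : (2 : ℂ) = (z ^ 2 ^ k + 1) - (z ^ 2 ^ k - 1) := by ring
          calc ‖(2 : ℂ)‖ = ‖(z ^ 2 ^ k + 1) - (z ^ 2 ^ k - 1)‖ := by rw [← h5]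
            _ ≤ _ := norm_sub_le _ _
        have h6 : ‖(2 : ℂ)‖ = 2 := by norm_num
        have h7 := h k
        linarith
      rw [h2, norm_mul, pow_succ, mul_comm ((3 / 2 : ℝ) ^ k), mul_assoc]
      exact mul_le_mul h3 ih (by positivity) (norm_nonneg _)
  by_contra hz
  have hpos : 0 < ‖z - 1‖ := norm_pos_iff.mpr (sub_ne_zero.mpr hz)
  obtain ⟨k, hk⟩ := pow_unbounded_of_one_lt (1 / ‖z - 1‖) (by norm_num : (1 : ℝ) < 3 / 2)
  have h2 : 1 < (3 / 2 : ℝ) ^ k * ‖z - 1‖ := by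
    rwa [div_lt_iff₀ hpos] at hk
  have h3 := h1 k
  have h4 := h k
  linarith

/-- A character of `Gal(ℚ̄/ℚ)` with values in `ℂˣ` has finite level if and only if it is
continuous. -/
theorem lev_iff_continuous (χ : GQ →* ℂˣ) : Lev χ ↔ Continuous χ := by
  constructor
  · intro h
    refine continuous_of_continuousAt_one χ ?_
    rw [ContinuousAt, map_one]
    refine Filter.Tendsto.congr' ?_ tendsto_const_nhds
    filter_upwards [h.isOpen_ker.mem_nhds χ.ker.one_mem] with σ hσ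
    exact hσ.symm
  · intro h
    have h1 : {σ : GQ | ‖(χ σ : ℂ) - 1‖ < 1 / 2} ∈ nhds (1 : GQ) := by
      have h2 : Continuous fun σ : GQ => ‖(χ σ : ℂ) - 1‖ :=
        ((Units.continuous_val.comp h).sub continuous_const).norm
      refine (isOpen_Iio.preimage h2).mem_nhds ?_
      rw [Set.mem_preimage, map_one, Units.val_one, sub_self, norm_zero]
      exact Set.mem_Iio.mpr (by norm_num)
    obtain ⟨L, hL, hLs⟩ := (krullTopology_mem_nhds_one_iff ℚ Qbar _).mp h1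
    refine ⟨L, hL, fun σ hσ => Units.ext ?_⟩
    rw [Units.val_one]
    refine eq_one_of_pow_mem_ball fun k => ?_
    have h2 : σ ^ 2 ^ k ∈ L.fixingSubgroup :=
      Subgroup.pow_mem _ ((IntermediateField.mem_fixingSubgroup_iff L σ).mpr hσ) _
    have h3 := hLs h2
    rw [Set.mem_ofPred_eq, map_pow, Units.val_pow_eq_pow_val] at h3
    exact h3

/-- **The one-dimensional representations of `Gal(ℚ̄/ℚ)` are the primitive Dirichlet characters**
(class field theory over `ℚ`). -/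
def galoisDirichletEquiv : Prim ≃ (GQ →ₜ* ℂˣ) :=
  (dirichletEquiv charStmt).trans
    { toFun := fun χ => ⟨χ.1, (lev_iff_continuous χ.1).mp χ.2⟩
      invFun := fun χ => ⟨χ.toMonoidHom, (lev_iff_continuous _).mpr χ.continuous_toFun⟩
      left_inv := fun _ => rfl
      right_inv := fun _ => rfl }

/-- **The one-dimensional representations of `Gal(ℚ̄/ℚ)` are the primitive Dirichlet characters**,
elementary form: for a continuous `χ : Gal(ℚ̄/ℚ) → ℂˣ` there is a primitive Dirichlet character `ψ`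
modulo `m` such that `χ(σ) = ψ(a)` when `σ` acts on the `m`-th roots of unity as `ζ ↦ ζ ^ a`. The
character `χ` is ramified exactly at the primes dividing `m`, and takes the value `ψ(p)` on the
Frobenius elements at `p ∤ m`. -/
theorem exists_primitive_dirichlet {χ : GQ →* ℂˣ} (hχ : Continuous χ) :
    ∃ (m : ℕ) (_ : NeZero m) (ψ : DirichletCharacter ℂ m), ψ.IsPrimitive ∧
      (∀ (σ : GQ) (a : ℕ), (∀ ζ : AlgebraicClosure ℚ, ζ ^ m = 1 → σ ζ = ζ ^ a) →
        (χ σ : ℂ) = ψ (a : ZMod m)) ∧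
      (∀ q : ℕ, q.Prime → (UnrAt χ q ↔ ¬ q ∣ m)) ∧
      ∀ p : ℕ, p.Prime → ¬ p ∣ m → ∀ A : ValuationSubring (AlgebraicClosure ℚ),
        A.LiesOverPrime p → ∀ φ : GQ, A.IsFrobeniusAt φ p → (χ φ : ℂ) = ψ (p : ZMod m) := by
  obtain ⟨m, hm, ψ, hψ, h1, h2, h3⟩ :=
    exists_dirichlet (isCyc_of_lev charStmt ((lev_iff_continuous χ).mpr hχ))
  refine ⟨m, hm, ψ, hψ, fun σ a ha => ?_, h2, h3⟩
  rw [h1 σ, kap_eq m (ha _ (zet_spec m).pow_eq_one)]

/-- **Artin's conjecture in dimension one over `ℚ`, with the functional equation**: let `χ ≠ 1` be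
a continuous character of `Gal(ℚ̄/ℚ)` and `f` its conductor. The Artin `L`-functions of `χ` and `χ⁻¹`
are entire, and `Λ(s) = f ^ (s / 2) Γ(s) L(s)` satisfies `Λ(1 - s, χ) = W Λ(s, χ⁻¹)` with `|W| = 1`. -/
theorem artin_conjecture_dim_one {χ : GQ →* ℂˣ} (hχ : Continuous χ) (h1 : χ ≠ 1) :
    ∃ (f : ℕ) (W : ℂ) (L L' Λ Λ' : ℂ → ℂ), f ≠ 0 ∧ (∀ n : ℕ, n ≠ 0 → (Fix n ≤ χ.ker ↔ f ∣ n)) ∧
      (∀ q : ℕ, q.Prime → (UnrAt χ q ↔ ¬ q ∣ f)) ∧ IsArtinL χ L ∧ IsArtinL χ⁻¹ L' ∧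
      Differentiable ℂ Λ ∧ Differentiable ℂ Λ' ∧
      (∀ s, L s = Λ s / ((f : ℂ) ^ (s / 2) * gammaConj χ s)) ∧
      (∀ s, L' s = Λ' s / ((f : ℂ) ^ (s / 2) * gammaConj χ⁻¹ s)) ∧
      ‖W‖ = 1 ∧ ∀ s, Λ (1 - s) = W * Λ' s :=
  artin_dim_one charStmt ((lev_iff_continuous χ).mpr hχ) h1

end

end Fermat.Agent.Cor.KW
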