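import Fermat.Agent.Corollaries.KW.Final

set_option autoImplicit false

/-!
# The Artin map of an abelian extension of `ℚ`
-/

namespace Fermat.Agent.Cor.KW

open NumberField

namespace ArtinMap

lemma coe_smul {K : Type*} [Field K] [NumberField K] (σ : Gal(K/ℚ)) (x : 𝓞 K) :
    ((σ • x : 𝓞 K) : K) = σ x := rfl

section Cyclotomic

variable (n : ℕ) [NeZero n] (L : Type*) [Field L] [NumberField L] [IsCyclotomicExtension {n} ℚ L]

/-- The automorphism `ζ ↦ ζ ^ a` of the field of the `n`-th roots of unity. -/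
noncomputable def cycAut : (ZMod n)ˣ ≃* Gal(L/ℚ) :=
  (IsCyclotomicExtension.Rat.galEquivZMod n L).symm

lemma cycAut_zeta (a : (ZMod n)ˣ) :
    cycAut n L a (IsCyclotomicExtension.zeta n ℚ L) =
      IsCyclotomicExtension.zeta n ℚ L ^ (a : ZMod n).val := by
  have hz := IsCyclotomicExtension.zeta_spec n ℚ L
  have h1 := hz.autToPow_spec ℚ (cycAut n L a)
  have h2 : hz.autToPow ℚ (cycAut n L a) = a :=
    (IsCyclotomicExtension.autEquivPow L
      (Polynomial.cyclotomic.irreducible_rat (NeZero.pos n))).apply_symm_apply a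
  rw [← h1, h2]

/-- `cycAut a` raises the `n`-th roots of unity to the `a`-th power. -/
lemma cycAut_apply (a : (ZMod n)ˣ) {m : ℕ} (ha : (a : ZMod n) = m) {ζ : L} (hζ : ζ ^ n = 1) :
    cycAut n L a ζ = ζ ^ m := by
  have hz := IsCyclotomicExtension.zeta_spec n ℚ L
  obtain ⟨i, -, rfl⟩ := hz.eq_pow_of_pow_eq_one hζ
  rw [map_pow, ← pow_mul, mul_comm i m, pow_mul]
  congr 1
  rw [cycAut_zeta, ha, ZMod.val_natCast]
  exact (pow_eq_pow_mod m hz.pow_eq_one).symm

/-- **The Frobenius automorphism of a cyclotomic field**: for a prime `p` not dividing `n`, the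
automorphism `σ : ζ ↦ ζ ^ p` satisfies `σ x ≡ x ^ p` modulo `p` for all the integers `x`. -/
theorem dvd_cycAut_smul_sub_pow {p : ℕ} (hp : p.Prime) (a : (ZMod n)ˣ) (ha : (a : ZMod n) = p)
    (x : 𝓞 L) : (p : 𝓞 L) ∣ cycAut n L a • x - x ^ p := by
  have : Fact p.Prime := ⟨hp⟩
  have hz := IsCyclotomicExtension.zeta_spec n ℚ L
  have hnu : (p : 𝓞 L) ∈ nonunits (𝓞 L) := by
    intro hu
    have h2 : IsUnit (algebraMap ℤ (𝓞 L) (p : ℤ)) := by simpa using hu
    have h1 : IsUnit ((p : ℤ)) := isUnit_of_map_unit _ _ h2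
    exact hp.one_lt.ne' (by simpa [Int.isUnit_iff] using h1)
  have := CharP.quotient (𝓞 L) p hnu
  set I : Ideal (𝓞 L) := Ideal.span {(p : 𝓞 L)} with hI
  have key : (((Ideal.Quotient.mk I).comp
      (MulSemiringAction.toRingHom Gal(L/ℚ) (𝓞 L) (cycAut n L a))).toIntAlgHom) =
      ((frobenius (𝓞 L ⧸ I) p).comp (Ideal.Quotient.mk I)).toIntAlgHom := by
    refine AlgHom.ext_of_adjoin_eq_top
      (IsCyclotomicExtension.Rat.adjoin_singleton_eq_top hz) ?_
    rintro x rfl
    have h1 : cycAut n L a • hz.toInteger = hz.toInteger ^ p := by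
      ext
      exact cycAut_apply n L a ha hz.pow_eq_one
    simp [h1, frobenius_def]
  have h1 := DFunLike.congr_fun key x
  simp only [RingHom.toIntAlgHom_apply, RingHom.comp_apply, frobenius_def,
    MulSemiringAction.toRingHom_apply] at h1
  rw [← map_pow, Ideal.Quotient.eq, hI, Ideal.mem_span_singleton] at h1
  exact h1

end Cyclotomic

section Descent

variable {K : Type*} [Field K] [NumberField K] {L : Type*} [Field L] [NumberField L]
  [Algebra K L] [Normal ℚ K]

/-- The restriction of a Frobenius congruence to a normal subfield. -/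
theorem dvd_restrictNormal_smul_sub_pow {p : ℕ} {σ : Gal(L/ℚ)}
    (h : ∀ x : 𝓞 L, (p : 𝓞 L) ∣ σ • x - x ^ p) (hp : p ≠ 0) (x : 𝓞 K) :
    (p : 𝓞 K) ∣ AlgEquiv.restrictNormalHom K σ • x - x ^ p := by
  obtain ⟨z, hz⟩ := h (algebraMap (𝓞 K) (𝓞 L) x)
  set y : 𝓞 K := AlgEquiv.restrictNormalHom K σ • x - x ^ p with hy
  have hpK : (p : K) ≠ 0 := by exact_mod_cast hp
  have hpL : (p : L) ≠ 0 := by exact_mod_cast hp
  have h1 : algebraMap K L (y : K) = (p : L) * (z : L) := by
    have h2 := congrArg (algebraMap (𝓞 L) L) hz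
    rw [map_mul, map_natCast] at h2
    rw [← h2, hy]
    have h3 : algebraMap K L (AlgEquiv.restrictNormalHom K σ (x : K)) =
        σ (algebraMap K L (x : K)) := AlgEquiv.restrictNormal_commutes σ K x
    have h4 : (algebraMap (𝓞 L) L) (algebraMap (𝓞 K) (𝓞 L) x) = algebraMap K L (x : K) := rfl
    simp only [map_sub, map_pow, h4]
    exact congrArg (· - algebraMap K L (x : K) ^ p) h3
  have h2 : IsIntegral ℤ ((y : K) / p) := by
    have h3 : algebraMap K L ((y : K) / p) = z := by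
      rw [map_div₀, h1, map_natCast, mul_div_cancel_left₀ _ hpL]
    refine (isIntegral_algebraMap_iff (algebraMap K L).injective).mp ?_
    rw [h3]
    exact z.isIntegral_coe
  obtain ⟨w, hw⟩ : ∃ w : 𝓞 K, (w : K) = y / p := ⟨⟨_, h2⟩, rfl⟩
  refine ⟨w, RingOfIntegers.coe_injective ?_⟩
  rw [map_mul, map_natCast]
  exact ((congrArg ((p : K) * ·) hw).trans (mul_div_cancel₀ (y : K) hpK)).symm

end Descent

section Order

variable {K : Type*} [Field K] [NumberField K]

/-- An automorphism which induces the `p`-power map on the integers modulo `p` is a Frobenius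
automorphism for all the primes above `p`. -/
theorem isArithFrobAt {p : ℕ} {σ : Gal(K/ℚ)}
    (h : ∀ x : 𝓞 K, (p : 𝓞 K) ∣ σ • x - x ^ p) (Q : Ideal (𝓞 K))
    [Q.LiesOver (Ideal.span {(p : ℤ)})] : IsArithFrobAt ℤ σ Q := by
  intro x
  have h1 : Nat.card (ℤ ⧸ Q.under ℤ) = p := by
    rw [← Q.over_def (Ideal.span {(p : ℤ)})]
    exact Int.card_ideal_quot p
  rw [h1]
  refine Ideal.mem_of_dvd Q (h x) ?_
  have h2 : (p : ℤ) ∈ Q.under ℤ := by
    rw [← Q.over_def (Ideal.span {(p : ℤ)})]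
    exact Ideal.mem_span_singleton_self _
  simpa [Ideal.mem_comap] using h2

/-- The number of prime ideals above an unramified prime times the order of a Frobenius automorphism
is the degree. -/
theorem ncard_mul_orderOf [IsGalois ℚ K] {p : ℕ} (hp : p.Prime) {σ : Gal(K/ℚ)}
    (he : (Ideal.span {(p : ℤ)}).ramificationIdxIn (𝓞 K) = 1)
    (h : ∀ x : 𝓞 K, (p : 𝓞 K) ∣ σ • x - x ^ p) :
    ((Ideal.span {(p : ℤ)}).primesOver (𝓞 K)).ncard * orderOf σ = Module.finrank ℚ K := by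
  have : Fact p.Prime := ⟨hp⟩
  have hmax : (Ideal.span {(p : ℤ)}).IsMaximal := Int.ideal_span_isMaximal_of_prime p
  obtain ⟨⟨Q, hQ1, hQ2⟩⟩ := (Ideal.span {(p : ℤ)}).nonempty_primesOver (S := 𝓞 K)
  have hQmax : Q.IsMaximal := .of_liesOver_isMaximal Q (Ideal.span {(p : ℤ)})
  have hF := isArithFrobAt h Q
  have h1 := Ideal.ncard_primesOver_mul_ramificationIdxIn_mul_inertiaDegIn
    (Ideal.span {(p : ℤ)}) (𝓞 K) Gal(K/ℚ)
  rw [he, one_mul, IsGalois.card_aut_eq_finrank] at h1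
  rw [← h1]
  congr 1
  have h2 := Ideal.card_stabilizer_eq (G := Gal(K/ℚ)) (Ideal.span {(p : ℤ)}) Q
  rw [he, one_mul] at h2
  have h3 : orderOf σ ∣ (Ideal.span {(p : ℤ)}).inertiaDegIn (𝓞 K) := by
    rw [← h2]
    exact Subgroup.orderOf_dvd_natCard _ hF.mem_stabilizer
  have hf0 : (Ideal.span {(p : ℤ)}).inertiaDegIn (𝓞 K) ≠ 0 :=
    Ideal.inertiaDegIn_ne_zero Gal(K/ℚ)
  refine le_antisymm (Nat.le_of_dvd (Nat.pos_of_ne_zero hf0) h3) ?_
  rw [Ideal.inertiaDegIn_eq_inertiaDeg (Ideal.span {(p : ℤ)}) Q Gal(K/ℚ)]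
  let _ : Field (𝓞 K ⧸ Q) := Ideal.Quotient.field Q
  have hpow : ∀ (j : ℕ) (x : 𝓞 K),
      Ideal.Quotient.mk Q (σ ^ j • x) = Ideal.Quotient.mk Q x ^ p ^ j := by
    intro j
    induction j with
    | zero => intro x; simp
    | succ j ih =>
      intro x
      have h4 := hF (σ ^ j • x)
      rw [← Ideal.Quotient.eq, map_pow, ih, ← Q.over_def (Ideal.span {(p : ℤ)}),
        Int.card_ideal_quot] at h4
      rw [pow_succ', mul_smul, pow_succ, pow_mul]
      exact h4
  have h4 : ∀ x : 𝓞 K ⧸ Q, x ^ p ^ orderOf σ = x := by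
    intro x
    obtain ⟨x, rfl⟩ := Ideal.Quotient.mk_surjective x
    rw [← hpow, pow_orderOf_eq_one, one_smul]
  have hcard : Nat.card (𝓞 K ⧸ Q) = p ^ Q.inertiaDeg ℤ := by
    rw [Ideal.pow_inertiaDeg p Q]
    rfl
  have hQfin : Finite (𝓞 K ⧸ Q) := Nat.finite_of_card_ne_zero (by
    rw [hcard]
    exact pow_ne_zero _ hp.ne_zero)
  obtain ⟨g, hg⟩ := IsCyclic.exists_ofOrder_eq_natCard (α := (𝓞 K ⧸ Q)ˣ)
  rw [Nat.card_units, hcard] at hg
  have hk : 0 < orderOf σ := orderOf_pos σ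
  have h5 : g ^ (p ^ orderOf σ - 1) = 1 := by
    have h6 : g ^ (p ^ orderOf σ) = g := Units.ext (by rw [Units.val_pow_eq_pow_val, h4])
    have h7 : g ^ (p ^ orderOf σ - 1) * g = 1 * g := by
      rw [← pow_succ, Nat.sub_add_cancel (Nat.one_le_pow _ _ hp.pos), h6, one_mul]
    exact mul_right_cancel h7
  have h6 := orderOf_dvd_of_pow_eq_one h5
  rw [hg] at h6
  have h8 : 1 < p ^ orderOf σ := Nat.one_lt_pow hk.ne' hp.one_lt
  have h7 := Nat.le_of_dvd (by omega) h6
  exact (Nat.pow_le_pow_iff_right hp.one_lt).mp (by omega)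

end Order

section Sub

variable {n : ℕ} [NeZero n] {L : Type*} [Field L] [NumberField L] [IsCyclotomicExtension {n} ℚ L]
  {K : Type*} [Field K] [NumberField K] [IsGalois ℚ K]

/-- The prime numbers not dividing `n` are unramified in the Galois extensions of `ℚ` contained in
the field of the `n`-th roots of unity. -/
theorem ramificationIdxIn_eq_one (i : K →+* L) {p : ℕ} (hp : p.Prime) (hpn : p.Coprime n) :
    (Ideal.span {(p : ℤ)}).ramificationIdxIn (𝓞 K) = 1 := by
  have : Fact p.Prime := ⟨hp⟩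
  let _ : Algebra K L := i.toAlgebra
  have hL : IsGalois ℚ L := IsCyclotomicExtension.isGalois {n} ℚ _
  have h1 := IsCyclotomicExtension.Rat.ramificationIdxIn_eq_of_not_dvd (m := n) p L
    ((Nat.Prime.coprime_iff_not_dvd hp).mp hpn)
  have hmax : (Ideal.span {(p : ℤ)}).IsMaximal := Int.ideal_span_isMaximal_of_prime p
  obtain ⟨⟨Q, hQ1, hQ2⟩⟩ := (Ideal.span {(p : ℤ)}).nonempty_primesOver (S := 𝓞 K)
  obtain ⟨⟨P, hP1, hP2⟩⟩ := Ideal.nonempty_primesOver (S := 𝓞 L) Q
  have hP3 : P.LiesOver (Ideal.span {(p : ℤ)}) := Ideal.LiesOver.trans P Q _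
  rw [Ideal.ramificationIdxIn_eq_ramificationIdx (Ideal.span {(p : ℤ)}) P Gal(L/ℚ)] at h1
  rw [Ideal.ramificationIdxIn_eq_ramificationIdx (Ideal.span {(p : ℤ)}) Q Gal(K/ℚ)]
  have h2 : Q.ramificationIdx ℤ ∣ P.ramificationIdx ℤ := Ideal.ramificationIdx_below_dvd Q P
  rw [h1] at h2
  exact Nat.dvd_one.mp h2

/-- The Artin map of a subfield of a cyclotomic field. -/
theorem exists_map (i : K →+* L) :
    ∃ f : (ZMod n)ˣ →* Gal(K/ℚ), Function.Surjective f ∧
      ∀ (p : ℕ) (_ : p.Prime) (h : p.Coprime n) (x : 𝓞 K),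
        (p : 𝓞 K) ∣ f (ZMod.unitOfCoprime p h) • x - x ^ p := by
  let _ : Algebra K L := i.toAlgebra
  have hL : IsGalois ℚ L := IsCyclotomicExtension.isGalois {n} ℚ _
  refine ⟨(AlgEquiv.restrictNormalHom K).comp (cycAut n L).toMonoidHom,
    (AlgEquiv.restrictNormalHom_surjective _).comp (cycAut n L).surjective,
    fun p hp h x => ?_⟩
  exact dvd_restrictNormal_smul_sub_pow (fun y => dvd_cycAut_smul_sub_pow n L hp _
    (ZMod.coe_unitOfCoprime p h) y) hp.ne_zero x

end Sub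

end ArtinMap

/-- **Artin reciprocity over `ℚ`**: for every abelian extension `K` of `ℚ` of finite degree there
are a positive integer `n` and a surjective homomorphism from `(ℤ/n)ˣ` to the Galois group of `K`
which sends every prime number `p` not dividing `n` to the Frobenius automorphism at `p`:
the automorphism which is the `p`-th power map on the integers of `K` modulo `p`. -/
theorem artin_map (K : Type*) [Field K] [NumberField K] [IsAbelianGalois ℚ K] :
    ∃ (n : ℕ) (_ : NeZero n) (f : (ZMod n)ˣ →* Gal(K/ℚ)), Function.Surjective f ∧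
      ∀ (p : ℕ) (_ : p.Prime) (h : p.Coprime n),
        (∀ x : 𝓞 K, (p : 𝓞 K) ∣ f (ZMod.unitOfCoprime p h) • x - x ^ p) ∧
        ((Ideal.span {(p : ℤ)}).primesOver (𝓞 K)).ncard * orderOf (f (ZMod.unitOfCoprime p h)) =
          Module.finrank ℚ K := by
  obtain ⟨n, hn, ⟨i⟩⟩ := kronecker_weber K
  have : NeZero n := ⟨hn.ne'⟩
  have hcyc : IsCyclotomicExtension {n} ℚ (CyclotomicField n ℚ) :=
    CyclotomicField.isCyclotomicExtension n ℚ
  obtain ⟨f, hf, h1⟩ := ArtinMap.exists_map (n := n) i.toRingHom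
  exact ⟨n, this, f, hf, fun p hp h => ⟨h1 p hp h, ArtinMap.ncard_mul_orderOf hp
    (ArtinMap.ramificationIdxIn_eq_one i.toRingHom hp h) (h1 p hp h)⟩⟩

end Fermat.Agent.Cor.KW
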