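import Mathlib.NumberTheory.LSeries.DirichletContinuation
import Mathlib.NumberTheory.DirichletCharacter.GaussSum

set_option autoImplicit false

/-!
# The absolute value of Gauss sums and of root numbers

For a primitive Dirichlet character `ψ` modulo `N`: the Gauss sum has absolute value `√N`, and the
root number in the functional equation has absolute value `1`.
-/

namespace Fermat.Agent.Cor.KW

open DirichletCharacter

namespace Gauss

variable {N : ℕ} [NeZero N] {ψ : DirichletCharacter ℂ N}

theorem gaussSum_mul_star (hψ : ψ.IsPrimitive) :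
    gaussSum ψ (ZMod.stdAddChar : AddChar (ZMod N) ℂ) *
      star (gaussSum ψ (ZMod.stdAddChar : AddChar (ZMod N) ℂ)) = N := by
  classical
  set e : AddChar (ZMod N) ℂ := ZMod.stdAddChar with he
  have h1 : ∀ b : ZMod N, gaussSum ψ e * (ψ⁻¹ b * e⁻¹ b) =
      ∑ a : ZMod N, ψ a * e (b * (a - 1)) := by
    intro b
    have h2 : gaussSum ψ e * (ψ⁻¹ b * e⁻¹ b) = gaussSum ψ (e.mulShift b) * e (-b) := by
      rw [gaussSum_mulShift_of_isPrimitive e hψ b, AddChar.inv_apply]
      ring
    rw [h2, gaussSum, Finset.sum_mul]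
    refine Finset.sum_congr rfl fun a _ => ?_
    rw [AddChar.mulShift_apply, mul_assoc, ← AddChar.map_add_eq_mul]
    congr 2
    ring
  have h3 : star (gaussSum ψ e) = ∑ b : ZMod N, ψ⁻¹ b * e⁻¹ b := star_gaussSum_eq ψ e
  have h4 : ∀ a : ZMod N, ∑ b : ZMod N, ψ a * e (b * (a - 1)) =
      ψ a * (if a - 1 = 0 then (N : ℂ) else 0) := by
    intro a
    rw [← Finset.mul_sum, AddChar.sum_mulShift _ (ZMod.isPrimitive_stdAddChar N), ZMod.card]
    split_ifs
    · rfl
    · rw [Nat.cast_zero]
  rw [h3, Finset.mul_sum, Finset.sum_congr rfl fun b _ => h1 b, Finset.sum_comm,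
    Finset.sum_congr rfl fun a _ => h4 a, Finset.sum_eq_single 1]
  · rw [map_one, one_mul, sub_self, if_pos rfl]
  · intro a _ ha
    rw [if_neg (sub_ne_zero.mpr ha), mul_zero]
  · intro h
    exact absurd (Finset.mem_univ _) h

/-- The Gauss sum of a primitive character modulo `N` has absolute value `√N`. -/
theorem norm_gaussSum (hψ : ψ.IsPrimitive) :
    ‖gaussSum ψ (ZMod.stdAddChar : AddChar (ZMod N) ℂ)‖ = √N := by
  have h1 := gaussSum_mul_star hψ
  have h2 := congrArg norm h1
  rw [norm_mul, norm_star, Complex.norm_natCast] at h2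
  rw [← h2, Real.sqrt_mul_self (norm_nonneg _)]

/-- The root number of a primitive Dirichlet character has absolute value `1`. -/
theorem norm_rootNumber (hψ : ψ.IsPrimitive) : ‖ψ.rootNumber‖ = 1 := by
  classical
  have hN : (0 : ℝ) < N := Nat.cast_pos.mpr (NeZero.pos N)
  rw [rootNumber, norm_div, norm_div, norm_gaussSum hψ, norm_pow, Complex.norm_I, one_pow, div_one]
  have h1 : ‖(N : ℂ) ^ (1 / 2 : ℂ)‖ = √N := by
    rw [show ((N : ℂ)) = ((N : ℝ) : ℂ) by norm_cast, Complex.norm_cpow_eq_rpow_re_of_pos hN,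
      Real.sqrt_eq_rpow]
    norm_num
  rw [h1]
  exact div_self (Real.sqrt_pos.mpr hN).ne'

end Gauss

end Fermat.Agent.Cor.KW
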