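import Fermat.Agent.Corollaries.KW.Dirichlet
import Fermat.Agent.Corollaries.KW.Field
import Fermat.Agent.Corollaries.KW.Gauss
import Fermat.Agent.Frob.Exists

set_option autoImplicit false

/-!
# The one-dimensional Artin `L`-functions of `ℚ`

From the theorem of Kronecker and Weber (in the form `CharStmt`): every continuous character
`χ : Gal(ℚ̄/ℚ) →* ℂˣ` is the Galois character of exactly one primitive Dirichlet character, and its
Artin `L`-function is the Dirichlet `L`-function; so it has the analytic continuation, the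
functional equation and the non-vanishing at `1` of Mathlib.
-/

namespace Fermat.Agent.Cor.KW

open Fermat.Agent.Frob Fermat.Agent.Minkowski Fermat.Agent.TW
open Kap Dir DirichletCharacter

noncomputable section

/-- A level-constant homomorphism has finite image. -/
theorem finite_range {M : Type*} [Group M] {χ : GQ →* M} (hχ : Lev χ) : Finite χ.range := by
  have h1 : Finite (GQ ⧸ χ.ker) := Subgroup.quotient_finite_of_isOpen χ.ker hχ.isOpen_ker
  exact Finite.of_equiv _ (QuotientGroup.quotientKerEquivRange χ).toEquiv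

/-- **Kronecker-Weber for homomorphisms to commutative groups**. -/
theorem isCyc_of_lev (h : CharStmt) {M : Type*} [CommGroup M] {χ : GQ →* M} (hχ : Lev χ) :
    IsCyc χ := by
  have := finite_range hχ
  have h1 : IsCyc χ.rangeRestrict := Fld.isCyc_of_finite h
    (hχ.of_ker_le (by rw [MonoidHom.ker_rangeRestrict]))
  exact h1.of_ker_le (by rw [MonoidHom.ker_rangeRestrict])

/-- **The one-dimensional representations of `Gal(ℚ̄/ℚ)` are the primitive Dirichlet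
characters.** -/
def dirichletEquiv (h : CharStmt) : Prim ≃ {χ : GQ →* ℂˣ // Lev χ} :=
  Equiv.ofBijective (fun p => ⟨galPrim p, lev_galPrim p⟩) (by
    refine ⟨fun p p' hp => galPrim_injective (congrArg Subtype.val hp), ?_⟩
    rintro ⟨χ, hχ⟩
    obtain ⟨p, hp⟩ : χ ∈ Set.range galPrim := by
      rw [range_galPrim]
      exact isCyc_of_lev h hχ
    exact ⟨p, Subtype.ext hp⟩)

/-- `c p` is the value of `χ` at the Frobenius elements at `p` if `χ` is unramified at `p`, and zero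
if `χ` is ramified at `p`: the coefficients of the Euler factors `1 - c p * p ^ (-s)` of the Artin
`L`-function of `χ`. -/
def IsFrobVal (χ : GQ →* ℂˣ) (c : ℕ → ℂ) : Prop :=
  ∀ p : ℕ, p.Prime → (UnrAt χ p → ∀ A : ValuationSubring Qbar, A.LiesOverPrime p →
    ∀ φ : GQ, A.IsFrobeniusAt φ p → c p = χ φ) ∧ (¬ UnrAt χ p → c p = 0)

/-- The local values of `gal ψ`, `ψ` primitive, are the values of `ψ`. -/
theorem isFrobVal_gal {m : ℕ} [NeZero m] {ψ : DirichletCharacter ℂ m} (hψ : ψ.IsPrimitive) :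
    IsFrobVal (gal ψ) fun p => ψ (p : ZMod m) := by
  intro p hp
  rw [unrAt_gal_iff ψ hp, (isPrimitive_def _).mp hψ]
  refine ⟨fun h A hA φ hφ => (gal_frob ψ hp h hA hφ).symm, fun h => ?_⟩
  rw [not_not] at h
  have : Fact p.Prime := ⟨hp⟩
  refine MulChar.map_nonunit ψ fun hu => ?_
  rw [ZMod.isUnit_iff_coprime] at hu
  exact hp.one_lt.ne' (Nat.eq_one_of_dvd_coprimes hu dvd_rfl h)

theorem IsFrobVal.eq {χ : GQ →* ℂˣ} {c c' : ℕ → ℂ} (h : IsFrobVal χ c) (h' : IsFrobVal χ c') {p : ℕ}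
    (hp : p.Prime) : c p = c' p := by
  by_cases hu : UnrAt χ p
  · obtain ⟨A, hA, φ, hφ⟩ := exists_frobenius p hp
    rw [(h p hp).1 hu A hA φ hφ, (h' p hp).1 hu A hA φ hφ]
  · rw [(h p hp).2 hu, (h' p hp).2 hu]

/-- **The Artin `L`-function of a one-dimensional representation of `Gal(ℚ̄/ℚ)` is the Dirichlet
`L`-function of a primitive Dirichlet character.** -/
theorem artin_eq_dirichlet (h : CharStmt) {χ : GQ →* ℂˣ} (hχ : Lev χ) :
    ∃ (m : ℕ) (_ : NeZero m) (ψ : DirichletCharacter ℂ m), ψ.IsPrimitive ∧ χ = gal ψ ∧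
      ∀ c : ℕ → ℂ, IsFrobVal χ c → ∀ s : ℂ, 1 < s.re →
        HasProd (fun p : Nat.Primes => (1 - c p * (p : ℂ) ^ (-s))⁻¹) (ψ.LFunction s) := by
  obtain ⟨m, hm, ψ, hψ, rfl⟩ := exists_primitive (isCyc_of_lev h hχ)
  refine ⟨m, hm, ψ, hψ, rfl, fun c hc s hs => ?_⟩
  have h1 : (fun p : Nat.Primes => (1 - c p * (p : ℂ) ^ (-s))⁻¹) =
      fun p : Nat.Primes => (1 - ψ ((p : ℕ) : ZMod m) * (p : ℂ) ^ (-s))⁻¹ := by
    funext p
    rw [hc.eq (isFrobVal_gal hψ) p.2]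
  rw [h1, LFunction_eq_LSeries ψ hs]
  exact LSeries_eulerProduct_hasProd ψ hs

/-- The values at the Frobenius elements exist. -/
theorem exists_isFrobVal (h : CharStmt) {χ : GQ →* ℂˣ} (hχ : Lev χ) : ∃ c : ℕ → ℂ, IsFrobVal χ c := by
  obtain ⟨m, hm, ψ, hψ, rfl⟩ := exists_primitive (isCyc_of_lev h hχ)
  exact ⟨_, isFrobVal_gal hψ⟩

/-- `L` is an entire function which is the Artin `L`-function of `χ` for `Re s > 1`, without zeros
for `Re s ≥ 1`. -/
structure IsArtinL (χ : GQ →* ℂˣ) (L : ℂ → ℂ) : Prop where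
  differentiable : Differentiable ℂ L
  hasProd : ∀ c : ℕ → ℂ, IsFrobVal χ c → ∀ s : ℂ, 1 < s.re →
    HasProd (fun p : Nat.Primes => (1 - c p * (p : ℂ) ^ (-s))⁻¹) (L s)
  ne_zero : ∀ s : ℂ, 1 ≤ s.re → L s ≠ 0

/-- The archimedean factor: `Γ_ℝ(s)` if complex conjugation goes to `1`, and `Γ_ℝ(s + 1)` if it
goes to `-1`. -/
def gammaConj (χ : GQ →* ℂˣ) (s : ℂ) : ℂ :=
  open Classical in if χ complexConjugation = 1 then Complex.Gammaℝ s else Complex.Gammaℝ (s + 1)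

theorem gammaConj_gal {m : ℕ} [NeZero m] (ψ : DirichletCharacter ℂ m) (s : ℂ) :
    gammaConj (gal ψ) s = ψ.gammaFactor s := by
  have h1 : gal ψ complexConjugation = 1 ↔ ψ.Even := by
    rw [Units.ext_iff, gal_conj, Units.val_one]
    rfl
  classical
  rw [gammaConj, gammaFactor]
  exact if_congr h1 rfl rfl

theorem isArtinL_gal {m : ℕ} [NeZero m] {ψ : DirichletCharacter ℂ m} (hψ : ψ.IsPrimitive)
    (h1 : ψ ≠ 1) : IsArtinL (gal ψ) ψ.LFunction where
  differentiable := differentiable_LFunction h1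
  hasProd c hc s hs := by
    have h1 : (fun p : Nat.Primes => (1 - c p * (p : ℂ) ^ (-s))⁻¹) =
        fun p : Nat.Primes => (1 - ψ ((p : ℕ) : ZMod m) * (p : ℂ) ^ (-s))⁻¹ := by
      funext p
      rw [hc.eq (isFrobVal_gal hψ) p.2]
    rw [h1, LFunction_eq_LSeries ψ hs]
    exact LSeries_eulerProduct_hasProd ψ hs
  ne_zero s hs := LFunction_ne_zero_of_one_le_re ψ (Or.inl h1) hs

theorem gal_inv {m : ℕ} [NeZero m] (ψ : DirichletCharacter ℂ m) : gal ψ⁻¹ = (gal ψ)⁻¹ := by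
  refine MonoidHom.ext fun σ => ?_
  rw [MonoidHom.inv_apply, eq_inv_iff_mul_eq_one, ← MonoidHom.mul_apply, ← gal_mul, inv_mul_cancel,
    gal_one, MonoidHom.one_apply]

/-- **Artin's conjecture in dimension one over `ℚ`, with the functional equation**: let `χ ≠ 1` be
a character of `Gal(ℚ̄/ℚ)` and `f` its conductor. The Artin `L`-functions of `χ` and `χ⁻¹` are entire,
and `Λ(s) = f ^ (s / 2) Γ(s) L(s)` satisfies `Λ(1 - s, χ) = W Λ(s, χ⁻¹)` with `|W| = 1`. -/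
theorem artin_dim_one (h : CharStmt) {χ : GQ →* ℂˣ} (hχ : Lev χ) (h1 : χ ≠ 1) :
    ∃ (f : ℕ) (W : ℂ) (L L' Λ Λ' : ℂ → ℂ), f ≠ 0 ∧ (∀ n : ℕ, n ≠ 0 → (Fix n ≤ χ.ker ↔ f ∣ n)) ∧
      (∀ q : ℕ, q.Prime → (UnrAt χ q ↔ ¬ q ∣ f)) ∧ IsArtinL χ L ∧ IsArtinL χ⁻¹ L' ∧
      Differentiable ℂ Λ ∧ Differentiable ℂ Λ' ∧
      (∀ s, L s = Λ s / ((f : ℂ) ^ (s / 2) * gammaConj χ s)) ∧
      (∀ s, L' s = Λ' s / ((f : ℂ) ^ (s / 2) * gammaConj χ⁻¹ s)) ∧
      ‖W‖ = 1 ∧ ∀ s, Λ (1 - s) = W * Λ' s := by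
  obtain ⟨m, hm, ψ, hψ, rfl⟩ := exists_primitive (isCyc_of_lev h hχ)
  have hψ1 : ψ ≠ 1 := fun h => h1 ((gal_eq_one_iff ψ).mpr h)
  have hψi : ψ⁻¹ ≠ 1 := fun h => hψ1 (inv_eq_one.mp h)
  have hψ' : (ψ⁻¹).IsPrimitive := by
    rw [isPrimitive_def, conductor_inv]
    exact hψ
  have hm0 : (m : ℂ) ≠ 0 := Nat.cast_ne_zero.mpr (NeZero.ne m)
  have hdiff : ∀ φ : DirichletCharacter ℂ m, φ ≠ 1 →
      Differentiable ℂ fun s : ℂ => (m : ℂ) ^ (s / 2) * φ.completedLFunction s := by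
    intro φ hφ
    refine Differentiable.mul ?_ (differentiable_completedLFunction hφ)
    exact (differentiable_id.div_const 2).const_cpow (Or.inl hm0)
  have hL : ∀ φ : DirichletCharacter ℂ m, φ ≠ 1 → ∀ s : ℂ, φ.LFunction s =
      ((m : ℂ) ^ (s / 2) * φ.completedLFunction s) / ((m : ℂ) ^ (s / 2) * gammaConj (gal φ) s) := by
    intro φ hφ s
    have hp : (m : ℂ) ^ (s / 2) ≠ 0 := by
      rw [Ne, Complex.cpow_eq_zero_iff]
      exact fun h => hm0 h.1
    rw [gammaConj_gal, mul_div_mul_left _ _ hp]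
    exact LFunction_eq_completed_div_gammaFactor φ s (Or.inr fun hm1 => hφ (level_one' φ hm1))
  refine ⟨m, ψ.rootNumber, ψ.LFunction, (ψ⁻¹).LFunction,
    fun s => (m : ℂ) ^ (s / 2) * ψ.completedLFunction s,
    fun s => (m : ℂ) ^ (s / 2) * (ψ⁻¹).completedLFunction s, NeZero.ne m, fun n hn => ?_,
    fun q hq => ?_, isArtinL_gal hψ hψ1, ?_, hdiff ψ hψ1, hdiff _ hψi, hL ψ hψ1, ?_,
    Gauss.norm_rootNumber hψ, fun s => ?_⟩
  · rw [Fix_le_iff ψ hn, (isPrimitive_def _).mp hψ]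
  · rw [unrAt_gal_iff ψ hq, (isPrimitive_def _).mp hψ]
  · rw [← gal_inv]
    exact isArtinL_gal hψ' hψi
  · rw [← gal_inv]
    exact hL _ hψi
  · show (m : ℂ) ^ ((1 - s) / 2) * ψ.completedLFunction (1 - s) =
      ψ.rootNumber * ((m : ℂ) ^ (s / 2) * (ψ⁻¹).completedLFunction s)
    rw [hψ.completedLFunction_one_sub s, ← mul_assoc, ← mul_assoc, ← mul_assoc,
      ← Complex.cpow_add _ _ hm0, show (1 - s) / 2 + (s - 1 / 2) = s / 2 by ring,
      mul_comm ((m : ℂ) ^ (s / 2))]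

end

end Fermat.Agent.Cor.KW
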