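import Fermat.Agent.Corollaries.KW.ArtinMap
import Fermat.Agent.Classic.Level.Disc.Orbits

set_option autoImplicit false

/-!
# The conductor of an abelian extension of `ℚ`
-/

namespace Fermat.Agent.Cor.KW

open NumberField IsDedekindDomain Fermat.Agent.Frob Fermat.Agent.FrobDensity
open Fermat.Agent.LT.Tower.Fr Fermat.Agent.Classic.Disc Fermat.Agent.Minkowski

namespace Conductor

variable {K : Type*} [Field K] [NumberField K]

lemma exists_res [IsGalois ℚ K] (j : K →+* AlgebraicClosure ℚ) :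
    ∃ χ : GQ →* Gal(K/ℚ), ∀ (σ : GQ) (x : K), j (χ σ x) = σ (j x) := by
  let _ : Algebra K (AlgebraicClosure ℚ) := j.toAlgebra
  exact ⟨AlgEquiv.restrictNormalHom K, fun σ x => AlgEquiv.restrictNormal_commutes σ K x⟩

variable {j : K →+* AlgebraicClosure ℚ} {χ : GQ →* Gal(K/ℚ)}

lemma eq_one_iff (hχ : ∀ (σ : GQ) (x : K), j (χ σ x) = σ (j x)) {σ : GQ} :
    χ σ = 1 ↔ ∀ x : K, σ (j x) = j x := by
  constructor
  · intro h x
    rw [← hχ, h]
    rfl
  · intro h
    ext x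
    exact j.injective (by rw [hχ, h]; rfl)

/-- The inertia groups at the unramified primes act trivially. -/
theorem unrAt_of_ramificationIdxIn [IsGalois ℚ K]
    (hχ : ∀ (σ : GQ) (x : K), j (χ σ x) = σ (j x)) {q : ℕ} (hq : q.Prime)
    (h : (Ideal.span {(q : ℤ)}).ramificationIdxIn (𝓞 K) = 1) : UnrAt χ q := by
  intro A hA σ hσ
  have : Fact q.Prime := ⟨hq⟩
  obtain ⟨v, hv⟩ := exists_over_of_liesOver j hq hA
  have h1 : χ σ ∈ v.asIdeal.inertia Gal(K/ℚ) := by
    intro x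
    change χ σ • x - x ∈ v.asIdeal
    rw [hv.mem_iff, map_sub, sub_eq_zero, ← RingHom.congr_fun (redτ_comp_inertia hσ j) x]
    have h2 : toZbar j (χ σ • x) = toZbar ((gh σ).comp j) x := Subtype.ext (hχ σ x)
    rw [redτ, redτ, RingHom.comp_apply, RingHom.comp_apply, h2]
  have hmax : (Ideal.span {(q : ℤ)}).IsMaximal := Int.ideal_span_isMaximal_of_prime q
  have hvp := v.isPrime
  have hl : v.asIdeal.LiesOver (Ideal.span {(q : ℤ)}) := liesOver hq (hv.natCast_mem_iff.mpr hA)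
  have hcard := Ideal.card_inertia_eq_ramificationIdxIn (G := Gal(K/ℚ)) (Ideal.span {(q : ℤ)})
    v.asIdeal
  rw [h, Nat.card_eq_one_iff_unique] at hcard
  exact congrArg Subtype.val (hcard.1.elim ⟨χ σ, h1⟩ 1)

/-- Triviality on the automorphisms fixing the `n`-th roots of unity. -/
theorem fix_le_iff (hχ : ∀ (σ : GQ) (x : K), j (χ σ x) = σ (j x)) {n : ℕ} (hn : n ≠ 0) :
    Fix n ≤ χ.ker ↔ Nonempty (K →ₐ[ℚ] CyclotomicField n ℚ) := by
  have : NeZero n := ⟨hn⟩
  constructor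
  · intro h
    let i : K →ₐ[ℚ] AlgebraicClosure ℚ := j.toRatAlgHom
    let e := AlgEquiv.ofInjectiveField i
    have hle : i.fieldRange ≤ Fld.cyc n := by
      refine Fld.le_cyc_of_Fix_le hn fun σ hσ => ?_
      rw [IntermediateField.mem_fixingSubgroup_iff]
      rintro _ ⟨x, rfl⟩
      exact (eq_one_iff hχ).mp (h hσ) x
    obtain ⟨e'⟩ := Fld.exists_ringHom_cyc n
    exact ⟨RingHom.toRatAlgHom ((e'.comp (IntermediateField.inclusion hle).toRingHom).comp
      e.toAlgHom.toRingHom)⟩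
  · rintro ⟨i⟩ σ hσ
    rw [MonoidHom.mem_ker, eq_one_iff hχ]
    have hcyc : IsCyclotomicExtension {n} ℚ (CyclotomicField n ℚ) :=
      CyclotomicField.isCyclotomicExtension n ℚ
    have hz := IsCyclotomicExtension.zeta_spec n ℚ (CyclotomicField n ℚ)
    obtain ⟨k⟩ : Nonempty (CyclotomicField n ℚ →ₐ[ℚ] AlgebraicClosure ℚ) := ⟨IsAlgClosed.lift⟩
    have h1 : ∀ τ ∈ Fix n, ∀ y, τ (k y) = k y := by
      intro τ hτ y
      have h2 : τ.toAlgHom.comp k = k := by
        refine (hz.powerBasis ℚ).algHom_ext ?_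
        rw [IsPrimitiveRoot.powerBasis_gen]
        exact hτ _ (by rw [← map_pow, hz.pow_eq_one, map_one])
      exact DFunLike.congr_fun h2 y
    obtain ⟨g, hg⟩ := exists_extend j ((k : CyclotomicField n ℚ →+* AlgebraicClosure ℚ).comp
      (i : K →+* CyclotomicField n ℚ))
    have hnorm : (Fix n).Normal := by
      rw [← Kap.kap_ker n]
      infer_instance
    intro x
    have h3 := h1 _ (hnorm.conj_mem σ hσ g) (i x)
    have h4 : k (i x) = g (j x) := (RingHom.congr_fun hg x).symm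
    rw [h4, AlgEquiv.mul_apply, AlgEquiv.mul_apply] at h3
    have h5 : g⁻¹ (g (j x)) = j x := g.symm_apply_apply _
    rw [h5] at h3
    exact g.injective h3

/-- In Galois extensions: a prime number is unramified if and only if it is not contained in the
square of a prime ideal. -/
theorem ramificationIdxIn_eq_one_iff [IsGalois ℚ K] {q : ℕ} (hq : q.Prime) :
    (Ideal.span {(q : ℤ)}).ramificationIdxIn (𝓞 K) = 1 ↔
      ∀ Q : Ideal (𝓞 K), Q.IsPrime → (q : 𝓞 K) ∉ Q ^ 2 := by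
  have : Fact q.Prime := ⟨hq⟩
  have hq0 : (q : 𝓞 K) ≠ 0 := Nat.cast_ne_zero.mpr hq.ne_zero
  have hmax : (Ideal.span {(q : ℤ)}).IsMaximal := Int.ideal_span_isMaximal_of_prime q
  have key : ∀ v : HeightOneSpectrum (𝓞 K), (q : 𝓞 K) ∈ v.asIdeal →
      ((Ideal.span {(q : ℤ)}).ramificationIdxIn (𝓞 K) = 1 ↔ (q : 𝓞 K) ∉ v.asIdeal ^ 2) := by
    intro v hv
    have hvp := v.isPrime
    have hl := liesOver hq hv
    have h1 : (Ideal.span {(q : ℤ)}).ramificationIdxIn (𝓞 K) =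
        multiplicity v.asIdeal (Ideal.span {(q : 𝓞 K)}) := by
      rw [← ram_eq hq hv]
      exact Ideal.ramificationIdxIn_eq_ramificationIdx (Ideal.span {(q : ℤ)}) v.asIdeal Gal(K/ℚ)
    have hf : FiniteMultiplicity v.asIdeal (Ideal.span {(q : 𝓞 K)}) :=
      FiniteMultiplicity.of_not_isUnit (by
        rw [Ideal.isUnit_iff]
        exact v.isPrime.ne_top) (span_ne_bot hq.ne_zero)
    have h2 : (q : 𝓞 K) ∈ v.asIdeal ^ 2 ↔
        2 ≤ multiplicity v.asIdeal (Ideal.span {(q : 𝓞 K)}) := by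
      rw [← Ideal.dvd_span_singleton, hf.pow_dvd_iff_le_multiplicity]
    have h3 : 0 < ram v := ram_pos v
    rw [ram_eq hq hv] at h3
    rw [h1, h2]
    omega
  constructor
  · intro h Q hQ hmem
    have hmem' : (q : 𝓞 K) ∈ Q := Ideal.pow_le_self two_ne_zero hmem
    have hQ0 : Q ≠ ⊥ := fun h0 => hq0 (by rwa [h0, Ideal.mem_bot] at hmem')
    exact (key ⟨Q, hQ, hQ0⟩ hmem').mp h hmem
  · intro h
    obtain ⟨⟨Q, hQ1, hQ2⟩⟩ := (Ideal.span {(q : ℤ)}).nonempty_primesOver (S := 𝓞 K)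
    have hmem : (q : 𝓞 K) ∈ Q := by
      have h2 : (q : ℤ) ∈ Q.under ℤ := by
        rw [← Q.over_def (Ideal.span {(q : ℤ)})]
        exact Ideal.mem_span_singleton_self _
      simpa [Ideal.mem_comap] using h2
    have hQ0 : Q ≠ ⊥ := fun h0 => hq0 (by rwa [h0, Ideal.mem_bot] at hmem)
    exact (key ⟨Q, hQ1, hQ0⟩ hmem).mpr (h Q hQ1)

end Conductor

/-- **The conductor of an abelian extension of `ℚ`**: for every abelian extension `K` of `ℚ` of
finite degree there is a positive integer `f` such that `K` is contained in the field of the `n`-th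
roots of unity if and only if `f` divides `n`, and a prime number `q` divides `f` if and only if `q`
is ramified in `K`: `q` lies in the square of a prime ideal of the ring of integers. -/
theorem exists_conductor_field (K : Type*) [Field K] [NumberField K] [IsAbelianGalois ℚ K] :
    ∃ f : ℕ, f ≠ 0 ∧
      (∀ n : ℕ, n ≠ 0 → (Nonempty (K →ₐ[ℚ] CyclotomicField n ℚ) ↔ f ∣ n)) ∧
      ∀ q : ℕ, q.Prime → (q ∣ f ↔ ∃ Q : Ideal (𝓞 K), Q.IsPrime ∧ (q : 𝓞 K) ∈ Q ^ 2) := by
  obtain ⟨j⟩ : Nonempty (K →ₐ[ℚ] AlgebraicClosure ℚ) := ⟨IsAlgClosed.lift⟩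
  obtain ⟨χ, hχ⟩ := Conductor.exists_res (j : K →+* AlgebraicClosure ℚ)
  obtain ⟨m, hm, hKm⟩ := kronecker_weber K
  obtain ⟨f, hf0, hf, h1, h2⟩ := conductor (χ := χ)
    ⟨m, hm.ne', (Conductor.fix_le_iff hχ hm.ne').mpr hKm⟩
  refine ⟨f, hf0, fun n hn => by rw [← Conductor.fix_le_iff hχ hn, h1 n hn], fun q hq => ?_⟩
  have h3 : (Ideal.span {(q : ℤ)}).ramificationIdxIn (𝓞 K) = 1 ↔ UnrAt χ q := by
    constructor
    · exact Conductor.unrAt_of_ramificationIdxIn hχ hq
    · intro h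
      have hqf : q.Coprime f := (Nat.Prime.coprime_iff_not_dvd hq).mpr fun hd =>
        (h2 q hq).mp hd h
      have : NeZero f := ⟨hf0⟩
      have hcyc : IsCyclotomicExtension {f} ℚ (CyclotomicField f ℚ) :=
        CyclotomicField.isCyclotomicExtension f ℚ
      obtain ⟨i⟩ := (Conductor.fix_le_iff hχ hf0).mp hf
      exact ArtinMap.ramificationIdxIn_eq_one i.toRingHom hq hqf
  rw [h2 q hq, ← h3, Conductor.ramificationIdxIn_eq_one_iff hq]
  push Not
  rfl

/-- **Artin reciprocity over `ℚ`**: for every abelian extension `K` of `ℚ` of finite degree there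
are a positive integer `n`, whose prime factors are the prime numbers which are ramified in `K`,
and a surjective homomorphism from `(ℤ/n)ˣ` to the Galois group of `K` which sends every prime
number `p` not dividing `n` to the Frobenius automorphism at `p`. -/
theorem artin_reciprocity (K : Type*) [Field K] [NumberField K] [IsAbelianGalois ℚ K] :
    ∃ (n : ℕ) (_ : NeZero n) (f : (ZMod n)ˣ →* Gal(K/ℚ)), Function.Surjective f ∧
      (∀ q : ℕ, q.Prime → (q ∣ n ↔ ∃ Q : Ideal (𝓞 K), Q.IsPrime ∧ (q : 𝓞 K) ∈ Q ^ 2)) ∧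
      (∀ m : ℕ, m ≠ 0 → (Nonempty (K →ₐ[ℚ] CyclotomicField m ℚ) ↔ n ∣ m)) ∧
      ∀ (p : ℕ) (_ : p.Prime) (h : p.Coprime n),
        (∀ x : 𝓞 K, (p : 𝓞 K) ∣ f (ZMod.unitOfCoprime p h) • x - x ^ p) ∧
        ((Ideal.span {(p : ℤ)}).primesOver (𝓞 K)).ncard * orderOf (f (ZMod.unitOfCoprime p h)) =
          Module.finrank ℚ K := by
  obtain ⟨n, hn, h1, h2⟩ := exists_conductor_field K
  obtain ⟨i⟩ := (h1 n hn).mpr dvd_rfl
  have : NeZero n := ⟨hn⟩
  have hcyc : IsCyclotomicExtension {n} ℚ (CyclotomicField n ℚ) :=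
    CyclotomicField.isCyclotomicExtension n ℚ
  obtain ⟨f, hf, h3⟩ := ArtinMap.exists_map (n := n) i.toRingHom
  exact ⟨n, this, f, hf, h2, h1, fun p hp h => ⟨h3 p hp h, ArtinMap.ncard_mul_orderOf hp
    (ArtinMap.ramificationIdxIn_eq_one i.toRingHom hp h) (h3 p hp h)⟩⟩

end Fermat.Agent.Cor.KW
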