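import Fermat.Agent.Corollaries.KW.Final

set_option autoImplicit false

/-!
# Sums of roots of unity: the abelian algebraic integers
-/

namespace Fermat.Agent.Cor.KW

open NumberField

namespace Cyclo

/-- The roots of unity in `ℂ`. -/
def U : Submonoid ℂ where
  carrier := {ζ | ∃ n : ℕ, n ≠ 0 ∧ ζ ^ n = 1}
  one_mem' := ⟨1, one_ne_zero, one_pow 1⟩
  mul_mem' := by
    rintro a b ⟨m, hm, ha⟩ ⟨n, hn, hb⟩
    exact ⟨m * n, mul_ne_zero hm hn, by
      rw [mul_pow, pow_mul, ha, one_pow, mul_comm m n, pow_mul, hb, one_pow, one_mul]⟩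

lemma mem_U {ζ : ℂ} : ζ ∈ U ↔ ∃ n : ℕ, n ≠ 0 ∧ ζ ^ n = 1 := Iff.rfl

lemma neg_mem_U {ζ : ℂ} (h : ζ ∈ U) : -ζ ∈ U := by
  have h1 : (-1 : ℂ) ∈ U := ⟨2, two_ne_zero, by norm_num⟩
  rw [← neg_one_mul]
  exact U.mul_mem h1 h

/-- The rational linear combinations of roots of unity. -/
lemma adjoin_le {R : Type*} [CommRing R] [Algebra R ℂ] {s : Set ℂ} (hs : s ⊆ U) :
    Subalgebra.toSubmodule (Algebra.adjoin R s) ≤ Submodule.span R (U : Set ℂ) := by
  rw [Algebra.adjoin_eq_span]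
  refine Submodule.span_mono ?_
  have h1 : Submonoid.closure s ≤ U := Submonoid.closure_le.mpr hs
  exact h1

/-- A `ℤ`-linear combination of roots of unity is a sum of roots of unity. -/
lemma exists_multiset {x : ℂ} (hx : x ∈ Submodule.span ℤ (U : Set ℂ)) :
    ∃ s : Multiset ℂ, (∀ ζ ∈ s, ζ ∈ U) ∧ s.sum = x := by
  induction hx using Submodule.span_induction with
  | mem x hx => exact ⟨{x}, by simpa using hx, by simp⟩
  | zero => exact ⟨0, by simp, by simp⟩
  | add x y _ _ hx hy =>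
    obtain ⟨s, hs, rfl⟩ := hx
    obtain ⟨t, ht, rfl⟩ := hy
    refine ⟨s + t, fun ζ hζ => ?_, Multiset.sum_add s t⟩
    rcases Multiset.mem_add.mp hζ with h | h
    · exact hs ζ h
    · exact ht ζ h
  | smul a x _ hx =>
    obtain ⟨s, hs, rfl⟩ := hx
    have key : ∀ n : ℕ, ∃ t : Multiset ℂ, (∀ ζ ∈ t, ζ ∈ U) ∧ t.sum = (n : ℂ) * s.sum := by
      intro n
      refine ⟨n • s, fun ζ hζ => hs ζ (Multiset.mem_of_mem_nsmul hζ), ?_⟩
      rw [Multiset.sum_nsmul, nsmul_eq_mul]
    obtain ⟨n, rfl | rfl⟩ := a.eq_nat_or_neg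
    · obtain ⟨t, ht, h⟩ := key n
      exact ⟨t, ht, by rw [h]; simp⟩
    · obtain ⟨t, ht, h⟩ := key n
      refine ⟨t.map Neg.neg, fun ζ hζ => ?_, ?_⟩
      · obtain ⟨ξ, hξ, rfl⟩ := Multiset.mem_map.mp hζ
        exact neg_mem_U (ht ξ hξ)
      · rw [Multiset.sum_map_neg, Multiset.map_id', h]
        simp

/-- An embedding of an abelian number field in `ℂ` factors through an embedding of a cyclotomic
field. -/
theorem exists_cyclotomic {K : Type*} [Field K] [NumberField K] [IsAbelianGalois ℚ K]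
    (j : K →+* ℂ) : ∃ (n : ℕ) (_ : NeZero n) (i : K →+* CyclotomicField n ℚ)
      (k : CyclotomicField n ℚ →+* ℂ), ∀ x, k (i x) = j x := by
  obtain ⟨n, hn, ⟨i⟩⟩ := kronecker_weber K
  have : NeZero n := ⟨hn.ne'⟩
  let _ : Algebra K (CyclotomicField n ℚ) := i.toRingHom.toAlgebra
  let _ : Algebra K ℂ := j.toAlgebra
  have halg : Algebra.IsAlgebraic K (CyclotomicField n ℚ) :=
    Algebra.IsAlgebraic.tower_top (K := ℚ) K
  let k : CyclotomicField n ℚ →ₐ[K] ℂ := IsAlgClosed.lift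
  exact ⟨n, this, i.toRingHom, k.toRingHom, fun x => k.commutes x⟩

section Cyc

variable {L : Type*} [Field L] [NumberField L] (k : L →+* ℂ)

theorem map_mem_span (n : ℕ) [IsCyclotomicExtension {n} ℚ L] (y : L) : k y ∈ Submodule.span ℚ (U : Set ℂ) := by
  have h1 := IsCyclotomicExtension.adjoin_roots (S := {n}) (A := ℚ) (B := L) y
  have h2 : k.toRatAlgHom y ∈ (Algebra.adjoin ℚ {b : L | ∃ m ∈ ({n} : Set ℕ), m ≠ 0 ∧ b ^ m = 1}).map
      k.toRatAlgHom := ⟨y, h1, rfl⟩
  rw [AlgHom.map_adjoin] at h2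
  refine adjoin_le ?_ h2
  rintro _ ⟨b, ⟨m, -, hm, hb⟩, rfl⟩
  exact ⟨m, hm, by rw [← map_pow, hb, map_one]⟩

theorem map_mem_span_int (n : ℕ) [NeZero n] [IsCyclotomicExtension {n} ℚ L] {y : L} (hy : IsIntegral ℤ y) : k y ∈ Submodule.span ℤ (U : Set ℂ) := by
  have hz := IsCyclotomicExtension.zeta_spec n ℚ L
  have hI := IsCyclotomicExtension.Rat.isIntegralClosure_adjoin_singleton hz
  obtain ⟨w, rfl⟩ := hI.isIntegral_iff.mp hy
  have h2 : k.toIntAlgHom w ∈ (Algebra.adjoin ℤ {IsCyclotomicExtension.zeta n ℚ L}).map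
      k.toIntAlgHom := ⟨w, w.2, rfl⟩
  rw [AlgHom.map_adjoin] at h2
  refine adjoin_le ?_ h2
  rintro _ ⟨b, rfl, rfl⟩
  exact ⟨n, NeZero.ne n, by
    show (k (IsCyclotomicExtension.zeta n ℚ L)) ^ n = 1
    rw [← map_pow, hz.pow_eq_one, map_one]⟩

end Cyc

open IntermediateField in
/-- The field generated by the roots of unity is an abelian extension of `ℚ`. -/
theorem isAbelianGalois_of_le {F : IntermediateField ℚ ℂ}
    (h : F ≤ adjoin ℚ {x : ℂ | ∃ n : ℕ, n ≠ 0 ∧ x ^ n = 1}) : IsAbelianGalois ℚ F := by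
  let C : IntermediateField ℚ ℂ := adjoin ℚ {x : ℂ | ∃ n ∈ (Set.univ : Set ℕ), n ≠ 0 ∧ x ^ n = 1}
  have h1 : @IsCyclotomicExtension Set.univ ℚ C _ _ C.algebra' :=
    IntermediateField.isCyclotomicExtension_adjoin_of_exists_isPrimitiveRoot Set.univ ℚ ℂ
      fun n _ hn => ⟨_, Complex.isPrimitiveRoot_exp n hn⟩
  have h2 : @IsAbelianGalois ℚ C _ _ C.algebra' :=
    @IsCyclotomicExtension.isAbelianGalois Set.univ ℚ C _ _ C.algebra' h1
  have hle : F ≤ C := h.trans
    (adjoin.mono ℚ _ _ fun x ⟨n, hn, hx⟩ => ⟨n, trivial, hn, hx⟩)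
  exact Fld.isAbelianGalois_rat (@Fld.isAbelianGalois_of_le ℚ ℂ _ _ _ F C hle h2)

/-- An element of `ℂ` which generates an abelian extension of `ℚ` is the image of an element of a
cyclotomic field. -/
theorem exists_of_isAbelianGalois {x : ℂ}
    (h : IsAbelianGalois ℚ (IntermediateField.adjoin ℚ {x})) :
    ∃ (n : ℕ) (_ : NeZero n) (k : CyclotomicField n ℚ →+* ℂ) (y : CyclotomicField n ℚ),
      k y = x := by
  have halg : Algebra.IsAlgebraic ℚ (IntermediateField.adjoin ℚ {x}) := inferInstance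
  have hx : IsIntegral ℚ x := by
    have h1 := (Algebra.IsIntegral.isIntegral (R := ℚ)
      (IntermediateField.AdjoinSimple.gen ℚ x)).map (IntermediateField.adjoin ℚ {x}).val
    simpa using h1
  have hfd : FiniteDimensional ℚ (IntermediateField.adjoin ℚ {x}) :=
    IntermediateField.adjoin.finiteDimensional hx
  have hnf : NumberField (IntermediateField.adjoin ℚ {x}) := ⟨⟩
  obtain ⟨n, hn, i, k, hik⟩ := exists_cyclotomic
    ((IntermediateField.adjoin ℚ {x}).val : IntermediateField.adjoin ℚ {x} →+* ℂ)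
  exact ⟨n, hn, k, i (IntermediateField.AdjoinSimple.gen ℚ x), hik _⟩

end Cyclo

open IntermediateField in
/-- **The Kronecker-Weber theorem for complex numbers**: a complex number generates an abelian
extension of `ℚ` if and only if it is a linear combination of roots of unity with rational
coefficients. -/
theorem isAbelianGalois_adjoin_iff (x : ℂ) : IsAbelianGalois ℚ (adjoin ℚ {x}) ↔
    x ∈ Submodule.span ℚ {ζ : ℂ | ∃ n : ℕ, n ≠ 0 ∧ ζ ^ n = 1} := by
  constructor
  · intro h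
    obtain ⟨n, hn, k, y, rfl⟩ := Cyclo.exists_of_isAbelianGalois h
    have hcyc : IsCyclotomicExtension {n} ℚ (CyclotomicField n ℚ) :=
      CyclotomicField.isCyclotomicExtension n ℚ
    exact Cyclo.map_mem_span k n y
  · intro h
    apply Cyclo.isAbelianGalois_of_le
    rw [adjoin_le_iff, Set.singleton_subset_iff]
    have h1 : Submodule.span ℚ {ζ : ℂ | ∃ n : ℕ, n ≠ 0 ∧ ζ ^ n = 1} ≤ Subalgebra.toSubmodule
        (adjoin ℚ {x : ℂ | ∃ n : ℕ, n ≠ 0 ∧ x ^ n = 1}).toSubalgebra :=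
      Submodule.span_le.mpr (subset_adjoin ℚ _)
    exact h1 h

open IntermediateField in
/-- **The Kronecker-Weber theorem for algebraic integers**: a complex number is an algebraic integer
which generates an abelian extension of `ℚ` if and only if it is a sum of roots of unity. -/
theorem isIntegral_and_isAbelianGalois_iff (x : ℂ) :
    (IsIntegral ℤ x ∧ IsAbelianGalois ℚ (adjoin ℚ {x})) ↔
      ∃ s : Multiset ℂ, (∀ ζ ∈ s, ∃ n : ℕ, n ≠ 0 ∧ ζ ^ n = 1) ∧ s.sum = x := by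
  constructor
  · rintro ⟨hx, h⟩
    obtain ⟨n, hn, k, y, rfl⟩ := Cyclo.exists_of_isAbelianGalois h
    have hcyc : IsCyclotomicExtension {n} ℚ (CyclotomicField n ℚ) :=
      CyclotomicField.isCyclotomicExtension n ℚ
    have hy : IsIntegral ℤ y := by
      have h1 : IsIntegral ℤ (k.toIntAlgHom y) := hx
      exact (isIntegral_algHom_iff k.toIntAlgHom k.injective).mp h1
    exact Cyclo.exists_multiset (Cyclo.map_mem_span_int k n hy)
  · rintro ⟨s, hs, rfl⟩
    constructor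
    · refine IsIntegral.multiset_sum fun ζ hζ => ?_
      obtain ⟨n, hn, h⟩ := hs ζ hζ
      exact IsIntegral.of_pow (Nat.pos_of_ne_zero hn) (by rw [h]; exact isIntegral_one)
    · rw [isAbelianGalois_adjoin_iff]
      exact multiset_sum_mem s fun ζ hζ => Submodule.subset_span (hs ζ hζ)

open IntermediateField in
/-- Square roots of rational numbers generate abelian extensions. -/
theorem Cyclo.isAbelianGalois_of_sq {x : ℂ} {d : ℚ} (hx : x ^ 2 = d) :
    IsAbelianGalois ℚ (adjoin ℚ {x}) := by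
  have hmonic : (Polynomial.X ^ 2 - Polynomial.C d : Polynomial ℚ).Monic :=
    Polynomial.monic_X_pow_sub_C d two_ne_zero
  have hroot : Polynomial.aeval x (Polynomial.X ^ 2 - Polynomial.C d : Polynomial ℚ) = 0 := by
    simp [hx]
  have hint : IsIntegral ℚ x := ⟨_, hmonic, by simpa [Polynomial.aeval_def] using hroot⟩
  have hfd : FiniteDimensional ℚ (adjoin ℚ {x}) := adjoin.finiteDimensional hint
  have hdeg : Module.finrank ℚ (adjoin ℚ {x}) ≤ 2 := by
    rw [adjoin.finrank hint]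
    have h1 := Polynomial.natDegree_le_of_dvd (minpoly.dvd ℚ x hroot) hmonic.ne_zero
    rwa [Polynomial.natDegree_X_pow_sub_C] at h1
  have hpos : 0 < Module.finrank ℚ (adjoin ℚ {x}) := Module.finrank_pos
  rcases (show Module.finrank ℚ (adjoin ℚ {x}) = 1 ∨ Module.finrank ℚ (adjoin ℚ {x}) = 2 by omega)
    with h | h
  · have h1 : adjoin ℚ {x} ≤ (⊥ : IntermediateField ℚ ℂ) := (finrank_eq_one_iff.mp h).le
    exact Cyclo.isAbelianGalois_of_le (h1.trans bot_le)
  · have hq : Algebra.IsQuadraticExtension ℚ (adjoin ℚ {x}) := { finrank_eq_two' := h }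
    exact IsAbelianGalois.of_isCyclic ℚ (adjoin ℚ {x})

/-- **Gauss**: the square roots of integers are sums of roots of unity. -/
theorem exists_multiset_of_sq {x : ℂ} {d : ℤ} (hx : x ^ 2 = d) :
    ∃ s : Multiset ℂ, (∀ ζ ∈ s, ∃ n : ℕ, n ≠ 0 ∧ ζ ^ n = 1) ∧ s.sum = x :=
  (isIntegral_and_isAbelianGalois_iff x).mp
    ⟨IsIntegral.of_pow two_pos (by rw [hx]; exact isIntegral_algebraMap (R := ℤ) (x := d)),
      Cyclo.isAbelianGalois_of_sq (d := d) (by rw [hx]; simp)⟩

end Fermat.Agent.Cor.KW
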