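import Mathlib
import Fermat.Agent.Minkowski.Trivial
import Fermat.Agent.TW.InertiaField
import Fermat.Agent.CFT.SKummer.Omega
import Fermat.Prelude.Def_GaloisRep_ComplexConjugation

set_option autoImplicit false

/-!
# Kronecker-Weber: definitions

`GQ` is the absolute Galois group of `ℚ` (of `Qbar = AlgebraicClosure ℚ`); characters are
homomorphisms `χ : GQ →* C m` with `C m = Multiplicative (ZMod m)`.

* `Lev χ` : `χ` is trivial on the automorphisms fixing some finite extension of `ℚ`.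
* `UnrAt χ q` : `χ` is trivial on all inertia groups above `q`.
* `Fix m` : the automorphisms which fix all `m`-th roots of unity.
* `IsCyc χ` : `χ` is trivial on some `Fix m`, `m ≠ 0` (a character of conductor dividing `m`).
-/

namespace Fermat.Agent.Cor.KW

open scoped Pointwise
open Fermat.Agent.Frob Fermat.Agent.Minkowski Fermat.Agent.TW

/-- The cyclic group of order `m`, written multiplicatively. -/
abbrev C (m : ℕ) := Multiplicative (ZMod m)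

section Defs

variable {M : Type*} [Group M] {N : Type*} [Group N]

/-- Level-constant homomorphisms. -/
def Lev (χ : GQ →* M) : Prop :=
  ∃ L : IntermediateField ℚ Qbar, FiniteDimensional ℚ L ∧ ∀ σ : GQ, (∀ x ∈ L, σ x = x) → χ σ = 1

/-- Unramified at `q`. -/
def UnrAt (χ : GQ →* M) (q : ℕ) : Prop :=
  ∀ A : ValuationSubring Qbar, A.LiesOverPrime q → ∀ σ ∈ A.inertiaSubgroupIn ℚ, χ σ = 1

/-- The automorphisms fixing the `m`-th roots of unity. -/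
def Fix (m : ℕ) : Subgroup GQ where
  carrier := {σ | ∀ ζ : Qbar, ζ ^ m = 1 → σ ζ = ζ}
  mul_mem' := by
    intro a b ha hb ζ hζ
    rw [AlgEquiv.mul_apply, hb ζ hζ, ha ζ hζ]
  one_mem' := fun ζ _ => rfl
  inv_mem' := by
    intro a ha ζ hζ
    have h := ha ζ hζ
    calc a⁻¹ ζ = a⁻¹ (a ζ) := by rw [h]
      _ = ζ := a.symm_apply_apply ζ

lemma mem_Fix {m : ℕ} {σ : GQ} : σ ∈ Fix m ↔ ∀ ζ : Qbar, ζ ^ m = 1 → σ ζ = ζ := Iff.rfl

/-- Characters of finite conductor. -/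
def IsCyc (χ : GQ →* M) : Prop := ∃ m : ℕ, m ≠ 0 ∧ Fix m ≤ χ.ker

lemma Fix_le {m n : ℕ} (h : m ∣ n) : Fix n ≤ Fix m := by
  intro σ hσ ζ hζ
  obtain ⟨k, rfl⟩ := h
  exact hσ ζ (by rw [pow_mul, hζ, one_pow])

/-! ### `Lev` -/

lemma lev_one : Lev (1 : GQ →* M) := ⟨⊥, inferInstance, fun _ _ => rfl⟩

lemma Lev.comp {χ : GQ →* M} (h : Lev χ) (f : M →* N) : Lev (f.comp χ) := by
  obtain ⟨L, hL, h⟩ := h
  exact ⟨L, hL, fun σ hσ => by rw [MonoidHom.comp_apply, h σ hσ, map_one]⟩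

lemma Lev.of_ker_le {χ : GQ →* M} {ψ : GQ →* N} (h : Lev χ) (hle : χ.ker ≤ ψ.ker) : Lev ψ := by
  obtain ⟨L, hL, h⟩ := h
  exact ⟨L, hL, fun σ hσ => hle (h σ hσ)⟩

lemma Lev.isOpen_ker {χ : GQ →* M} (h : Lev χ) : IsOpen (χ.ker : Set GQ) := by
  obtain ⟨L, hL, h⟩ := h
  refine Subgroup.isOpen_mono (H₁ := L.fixingSubgroup) ?_ (IntermediateField.fixingSubgroup_isOpen L)
  intro σ hσ
  exact h σ ((IntermediateField.mem_fixingSubgroup_iff L σ).mp hσ)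

/-! ### `UnrAt` -/

lemma unrAt_one (q : ℕ) : UnrAt (1 : GQ →* M) q := fun _ _ _ _ => rfl

lemma UnrAt.comp {χ : GQ →* M} {q : ℕ} (h : UnrAt χ q) (f : M →* N) : UnrAt (f.comp χ) q :=
  fun A hA σ hσ => by rw [MonoidHom.comp_apply, h A hA σ hσ, map_one]

lemma UnrAt.of_ker_le {χ : GQ →* M} {ψ : GQ →* N} {q : ℕ} (h : UnrAt χ q) (hle : χ.ker ≤ ψ.ker) :
    UnrAt ψ q := fun A hA σ hσ => hle (h A hA σ hσ)

/-- **Minkowski**: there are no unramified characters. -/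
theorem eq_one_of_unrAt {χ : GQ →* M} (hL : Lev χ) (h : ∀ q : ℕ, q.Prime → UnrAt χ q) : χ = 1 :=
  MonoidHom.ext fun σ => hom_eq_one χ hL.isOpen_ker (fun q hq A hA τ hτ => h q hq A hA τ hτ) σ

/-! ### `IsCyc` -/

lemma isCyc_one : IsCyc (1 : GQ →* M) := ⟨1, one_ne_zero, fun _ _ => rfl⟩

lemma IsCyc.comp {χ : GQ →* M} (h : IsCyc χ) (f : M →* N) : IsCyc (f.comp χ) := by
  obtain ⟨m, hm, h⟩ := h
  refine ⟨m, hm, fun σ hσ => ?_⟩
  have h1 : χ σ = 1 := h hσ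
  show f (χ σ) = 1
  rw [h1, map_one]

lemma IsCyc.of_ker_le {χ : GQ →* M} {ψ : GQ →* N} (h : IsCyc χ) (hle : χ.ker ≤ ψ.ker) :
    IsCyc ψ := by
  obtain ⟨m, hm, h⟩ := h
  exact ⟨m, hm, h.trans hle⟩

end Defs

section Comm

variable {M : Type*} [CommGroup M]

lemma Lev.mul {χ ψ : GQ →* M} (h : Lev χ) (h' : Lev ψ) : Lev (χ * ψ) := by
  obtain ⟨L, hL, h⟩ := h
  obtain ⟨L', hL', h'⟩ := h'
  refine ⟨L ⊔ L', IntermediateField.finiteDimensional_sup L L', fun σ hσ => ?_⟩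
  rw [MonoidHom.mul_apply, h σ fun x hx => hσ x ((le_sup_left : L ≤ L ⊔ L') hx),
    h' σ fun x hx => hσ x ((le_sup_right : L' ≤ L ⊔ L') hx), one_mul]

lemma Lev.inv {χ : GQ →* M} (h : Lev χ) : Lev χ⁻¹ := by
  obtain ⟨L, hL, h⟩ := h
  exact ⟨L, hL, fun σ hσ => by rw [MonoidHom.inv_apply, h σ hσ, inv_one]⟩

lemma Lev.pow {χ : GQ →* M} (h : Lev χ) (n : ℕ) : Lev (χ ^ n) := by
  obtain ⟨L, hL, h⟩ := h
  exact ⟨L, hL, fun σ hσ => by rw [MonoidHom.pow_apply, h σ hσ, one_pow]⟩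

lemma Lev.prod {ι : Type*} (s : Finset ι) {χ : ι → GQ →* M} (h : ∀ i ∈ s, Lev (χ i)) :
    Lev (∏ i ∈ s, χ i) := by
  classical
  induction s using Finset.induction_on with
  | empty => simpa using lev_one
  | insert a s ha ih =>
    rw [Finset.prod_insert ha]
    exact (h a (Finset.mem_insert_self a s)).mul
      (ih fun i hi => h i (Finset.mem_insert_of_mem hi))

lemma UnrAt.mul {χ ψ : GQ →* M} {q : ℕ} (h : UnrAt χ q) (h' : UnrAt ψ q) : UnrAt (χ * ψ) q :=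
  fun A hA σ hσ => by rw [MonoidHom.mul_apply, h A hA σ hσ, h' A hA σ hσ, one_mul]

lemma UnrAt.inv {χ : GQ →* M} {q : ℕ} (h : UnrAt χ q) : UnrAt χ⁻¹ q :=
  fun A hA σ hσ => by rw [MonoidHom.inv_apply, h A hA σ hσ, inv_one]

lemma UnrAt.pow {χ : GQ →* M} {q : ℕ} (h : UnrAt χ q) (n : ℕ) : UnrAt (χ ^ n) q :=
  fun A hA σ hσ => by rw [MonoidHom.pow_apply, h A hA σ hσ, one_pow]

lemma UnrAt.prod {ι : Type*} (s : Finset ι) {χ : ι → GQ →* M} {q : ℕ}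
    (h : ∀ i ∈ s, UnrAt (χ i) q) : UnrAt (∏ i ∈ s, χ i) q := by
  classical
  induction s using Finset.induction_on with
  | empty => simpa using unrAt_one q
  | insert a s ha ih =>
    rw [Finset.prod_insert ha]
    exact (h a (Finset.mem_insert_self a s)).mul
      (ih fun i hi => h i (Finset.mem_insert_of_mem hi))

/-- It suffices to look at one place above `q`. -/
lemma unrAt_of_place {χ : GQ →* M} {q : ℕ} {A : ValuationSubring Qbar} (hA : A.LiesOverPrime q)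
    (hq : q.Prime) (h : ∀ σ ∈ A.inertiaSubgroupIn ℚ, χ σ = 1) : UnrAt χ q := by
  intro A' hA' σ hσ
  obtain ⟨τ, hτ⟩ := exists_smul_eq hq hA hA'
  rw [← hτ] at hσ
  have h1 := h _ (Fermat.Agent.CFT.SKummer.conj_mem_inertia hσ)
  rw [map_mul, map_mul, map_inv, mul_comm, mul_inv_cancel_left] at h1
  exact h1

lemma IsCyc.mul {χ ψ : GQ →* M} (h : IsCyc χ) (h' : IsCyc ψ) : IsCyc (χ * ψ) := by
  obtain ⟨m, hm, h⟩ := h
  obtain ⟨m', hm', h'⟩ := h'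
  refine ⟨m * m', mul_ne_zero hm hm', fun σ hσ => ?_⟩
  have h1 : χ σ = 1 := h (Fix_le (dvd_mul_right m m') hσ)
  have h2 : ψ σ = 1 := h' (Fix_le (dvd_mul_left m' m) hσ)
  show (χ * ψ) σ = 1
  rw [MonoidHom.mul_apply, h1, h2, one_mul]

lemma IsCyc.inv {χ : GQ →* M} (h : IsCyc χ) : IsCyc χ⁻¹ := by
  obtain ⟨m, hm, h⟩ := h
  refine ⟨m, hm, fun σ hσ => ?_⟩
  have h1 : χ σ = 1 := h hσ
  show χ⁻¹ σ = 1
  rw [MonoidHom.inv_apply, h1, inv_one]

lemma IsCyc.pow {χ : GQ →* M} (h : IsCyc χ) (n : ℕ) : IsCyc (χ ^ n) := by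
  obtain ⟨m, hm, h⟩ := h
  refine ⟨m, hm, fun σ hσ => ?_⟩
  have h1 : χ σ = 1 := h hσ
  show (χ ^ n) σ = 1
  rw [MonoidHom.pow_apply, h1, one_pow]

lemma IsCyc.prod {ι : Type*} (s : Finset ι) {χ : ι → GQ →* M} (h : ∀ i ∈ s, IsCyc (χ i)) :
    IsCyc (∏ i ∈ s, χ i) := by
  classical
  induction s using Finset.induction_on with
  | empty => simpa using isCyc_one
  | insert a s ha ih =>
    rw [Finset.prod_insert ha]
    exact (h a (Finset.mem_insert_self a s)).mul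
      (ih fun i hi => h i (Finset.mem_insert_of_mem hi))

end Comm

/-! ### The pieces -/

/-- (A) the cyclotomic character modulo `m`. -/
def KapStmt : Prop := ∀ (m : ℕ) [NeZero m], ∃ κ : GQ →* (ZMod m)ˣ,
  (∀ (σ : GQ) (ζ : Qbar), ζ ^ m = 1 → σ ζ = ζ ^ ((κ σ : ZMod m).val)) ∧ Function.Surjective κ ∧
    κ.ker = Fix m ∧ Lev κ ∧ (∀ q : ℕ, q.Prime → ¬ q ∣ m → UnrAt κ q) ∧
      κ complexConjugation = -1

/-- (B) homomorphisms from unit groups to cyclic `p`-groups. -/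
def HomStmt : Prop :=
  (∀ q p n : ℕ, q.Prime → p.Prime → p ^ n ∣ q - 1 →
    ∃ f : (ZMod q)ˣ →* C (p ^ n), Function.Surjective f) ∧
  (∀ p n : ℕ, p.Prime → p ≠ 2 →
    ∃ f : (ZMod (p ^ (n + 1)))ˣ →* C (p ^ n), Function.Surjective f) ∧
  (∀ n : ℕ, 0 < n → ∃ f : (ZMod (2 ^ (n + 2)))ˣ →* C (2 ^ n), Function.Surjective f ∧ f (-1) = 1 ∧
    ∀ g : (ZMod (2 ^ (n + 2)))ˣ →* C 2, g (-1) = 1 → ∃ h : C (2 ^ n) →* C 2, g = h.comp f)

/-- (C) tame generators. -/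
def TameStmt : Prop := ∀ q p : ℕ, q.Prime → p.Prime → q ≠ p → ∃ τ : GQ,
  (∃ A : ValuationSubring Qbar, A.LiesOverPrime q ∧ τ ∈ A.inertiaSubgroupIn ℚ) ∧
    ∀ (n : ℕ) (ψ : GQ →* C (p ^ n)), Lev ψ → (ψ τ = 1 → UnrAt ψ q) ∧ ψ τ ^ (q - 1) = 1

/-- (D) at `p` odd: the characters of order `p` of the inertia group at `p` coming from
the decomposition group are the multiples of any ramified one. -/
def AtPStmt : Prop := ∀ p : ℕ, p.Prime → p ≠ 2 → ∀ χ c : GQ →* C p, Lev χ → Lev c →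
  ¬ UnrAt c p → ∃ b : ℕ, UnrAt (χ * c ^ b) p

/-- (E) quadratic characters unramified outside `2`. -/
def TwoStmt : Prop := ∀ χ : GQ →* C 2, Lev χ → (∀ q : ℕ, q.Prime → q ≠ 2 → UnrAt χ q) →
  Fix 8 ≤ χ.ker

/-- (F) all characters of prime power order have finite conductor. -/
def CharStmt : Prop := ∀ p n : ℕ, p.Prime → ∀ χ : GQ →* C (p ^ n), Lev χ → IsCyc χ

/-- (G) from characters to number fields. -/
def FieldStmt : Prop := CharStmt → ∀ (K : Type) [Field K] [NumberField K] [IsAbelianGalois ℚ K],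
  ∃ n : ℕ, 0 < n ∧ Nonempty (K →ₐ[ℚ] CyclotomicField n ℚ)

end Fermat.Agent.Cor.KW
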