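import Fermat.Agent.Corollaries.KW.Cond
import Mathlib.NumberTheory.DirichletCharacter.Basic

set_option autoImplicit false

/-!
# One-dimensional Galois representations of `ℚ` and Dirichlet characters

`gal ψ : Gal(ℚ̄/ℚ) →* ℂˣ` is the Galois character of a Dirichlet character `ψ` modulo `m`.
-/

namespace Fermat.Agent.Cor.KW

open Fermat.Agent.Frob Fermat.Agent.Minkowski Fermat.Agent.TW

noncomputable section

namespace Dir

open Kap DirichletCharacter

variable {m : ℕ} [NeZero m]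

/-- The Galois character of a Dirichlet character. -/
def gal (ψ : DirichletCharacter ℂ m) : GQ →* ℂˣ := ψ.toUnitHom.comp (kap m)

theorem gal_apply (ψ : DirichletCharacter ℂ m) (σ : GQ) :
    (gal ψ σ : ℂ) = ψ ((kap m σ : (ZMod m)ˣ) : ZMod m) :=
  MulChar.coe_toUnitHom ψ (kap m σ)

theorem Fix_le_ker_gal (ψ : DirichletCharacter ℂ m) : Fix m ≤ (gal ψ).ker := by
  rw [← kap_ker m]
  intro σ hσ
  change ψ.toUnitHom (kap m σ) = 1
  rw [show kap m σ = 1 from hσ, map_one]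

theorem lev_gal (ψ : DirichletCharacter ℂ m) : Lev (gal ψ) := (lev_kap m).comp _

theorem isCyc_gal (ψ : DirichletCharacter ℂ m) : IsCyc (gal ψ) :=
  ⟨m, NeZero.ne m, Fix_le_ker_gal ψ⟩

theorem unrAt_gal (ψ : DirichletCharacter ℂ m) {q : ℕ} (hq : q.Prime) (h : ¬ q ∣ m) :
    UnrAt (gal ψ) q := (unrAt_kap m hq h).comp _

/-- Compatibility of the cyclotomic characters. -/
theorem unitsMap_kap {n : ℕ} [NeZero n] (h : m ∣ n) (σ : GQ) :
    ZMod.unitsMap h (kap n σ) = kap m σ := by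
  refine Units.ext ?_
  have h1 : σ (zet m) = zet m ^ ((kap n σ : (ZMod n)ˣ) : ZMod n).val := by
    refine kap_spec n σ (zet m) ?_
    obtain ⟨k, hk⟩ := h
    rw [hk, pow_mul, (zet_spec m).pow_eq_one, one_pow]
  rw [kap_eq m h1, ZMod.unitsMap_val, ZMod.natCast_val]

theorem gal_changeLevel {n : ℕ} [NeZero n] (h : m ∣ n) (ψ : DirichletCharacter ℂ m) :
    gal (changeLevel h ψ) = gal ψ := by
  refine MonoidHom.ext fun σ => ?_
  change (changeLevel h ψ).toUnitHom (kap n σ) = ψ.toUnitHom (kap m σ)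
  rw [changeLevel_toUnitHom, MonoidHom.comp_apply, unitsMap_kap]

theorem gal_injective : Function.Injective (gal (m := m)) := by
  intro ψ ψ' h
  refine MulChar.ext fun u => ?_
  obtain ⟨σ, rfl⟩ := kap_surjective m u
  rw [← gal_apply, ← gal_apply, h]

/-- **The Frobenius elements at `p ∤ m` have the value `ψ(p)`.** -/
theorem gal_frob (ψ : DirichletCharacter ℂ m) {p : ℕ} (hp : p.Prime) (hpm : ¬ p ∣ m)
    {A : ValuationSubring Qbar} (hA : A.LiesOverPrime p) {φ : GQ} (hφ : A.IsFrobeniusAt φ p) :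
    (gal ψ φ : ℂ) = ψ (p : ZMod m) := by
  have h1 : φ (zet m) = zet m ^ p := GalRep.frobenius_rootOfUnity hA
    ((Nat.Prime.coprime_iff_not_dvd hp).mpr hpm) (NeZero.ne m) hφ (zet_spec m).pow_eq_one
  rw [gal_apply, kap_eq m h1]

/-- A character trivial on `Fix m` comes from a Dirichlet character modulo `m`. -/
theorem exists_level {χ : GQ →* ℂˣ} (h : Fix m ≤ χ.ker) :
    ∃ ψ : DirichletCharacter ℂ m, χ = gal ψ := by
  rw [← kap_ker m] at h
  let f : (ZMod m)ˣ →* ℂˣ := MonoidHom.liftOfSurjective (kap m) (kap_surjective m) ⟨χ, h⟩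
  have hf : f.comp (kap m) = χ := MonoidHom.liftOfRightInverse_comp ..
  refine ⟨MulChar.ofUnitHom f, ?_⟩
  have h1 : (MulChar.ofUnitHom f).toUnitHom = f := by
    rw [MulChar.toUnitHom_eq, MulChar.ofUnitHom_eq, Equiv.apply_symm_apply]
  rw [gal, h1, hf]

/-- **The conductor**: `gal ψ` is trivial on `Fix n` exactly when the conductor of `ψ`
divides `n`. -/
theorem Fix_le_iff (ψ : DirichletCharacter ℂ m) {n : ℕ} (hn : n ≠ 0) :
    Fix n ≤ (gal ψ).ker ↔ ψ.conductor ∣ n := by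
  have : NeZero n := ⟨hn⟩
  have : NeZero (m * n) := ⟨mul_ne_zero (NeZero.ne m) hn⟩
  constructor
  · intro h
    obtain ⟨ψ', h'⟩ := exists_level (m := n) h
    have h1 : changeLevel (dvd_mul_right m n) ψ = changeLevel (dvd_mul_left n m) ψ' := by
      apply gal_injective
      rw [gal_changeLevel, gal_changeLevel, h']
    rw [← conductor_changeLevel ψ (dvd_mul_right m n)]
    exact conductor_dvd_of_mem_conductorSet _ ⟨dvd_mul_left n m, ψ', h1⟩
  · intro h
    have : NeZero ψ.conductor := ⟨conductor_ne_zero ψ⟩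
    have h1 : gal ψ = gal ψ.primitiveCharacter := by
      rw [← gal_changeLevel ψ.conductor_dvd_level, changeLevel_primitiveCharacter]
    rw [h1]
    exact (Fix_le h).trans (Fix_le_ker_gal _)

theorem gal_primitiveCharacter (ψ : DirichletCharacter ℂ m) :
    @gal ψ.conductor ⟨conductor_ne_zero ψ⟩ ψ.primitiveCharacter = gal ψ := by
  have : NeZero ψ.conductor := ⟨conductor_ne_zero ψ⟩
  rw [← gal_changeLevel ψ.conductor_dvd_level, changeLevel_primitiveCharacter]

/-- Every character of finite conductor comes from a primitive Dirichlet character. -/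
theorem exists_primitive {χ : GQ →* ℂˣ} (hc : IsCyc χ) :
    ∃ (m : ℕ) (_ : NeZero m) (ψ : DirichletCharacter ℂ m), ψ.IsPrimitive ∧ χ = gal ψ := by
  obtain ⟨n, hn, h⟩ := hc
  have : NeZero n := ⟨hn⟩
  obtain ⟨ψ, rfl⟩ := exists_level h
  exact ⟨ψ.conductor, ⟨conductor_ne_zero ψ⟩, ψ.primitiveCharacter,
    ψ.primitiveCharacter_isPrimitive, (gal_primitiveCharacter ψ).symm⟩

/-- **Uniqueness** of the primitive Dirichlet character. -/
theorem eq_of_gal_eq {m m' : ℕ} [NeZero m] [NeZero m'] {ψ : DirichletCharacter ℂ m}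
    {ψ' : DirichletCharacter ℂ m'} (hψ : ψ.IsPrimitive) (hψ' : ψ'.IsPrimitive)
    (h : gal ψ = gal ψ') :
    (⟨m, ψ⟩ : Σ m : ℕ, DirichletCharacter ℂ m) = ⟨m', ψ'⟩ := by
  have h1 : m ∣ m' := by
    have h2 := (Fix_le_iff ψ (NeZero.ne m')).mp (by rw [h]; exact Fix_le_ker_gal ψ')
    rwa [(isPrimitive_def _).mp hψ] at h2
  have h2 : m' ∣ m := by
    have h2 := (Fix_le_iff ψ' (NeZero.ne m)).mp (by rw [← h]; exact Fix_le_ker_gal ψ)
    rwa [(isPrimitive_def _).mp hψ'] at h2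
  obtain rfl := Nat.dvd_antisymm h1 h2
  rw [gal_injective h]

/-- **Ramification**: `gal ψ` is unramified at `q` exactly when `q` does not divide the
conductor. -/
theorem unrAt_gal_iff (ψ : DirichletCharacter ℂ m) {q : ℕ} (hq : q.Prime) :
    UnrAt (gal ψ) q ↔ ¬ q ∣ ψ.conductor := by
  constructor
  · intro h hd
    obtain ⟨n, hn, hS, hle⟩ := exists_conductor (isCyc_gal ψ) {q' | ¬ UnrAt (gal ψ) q'}
      fun q' _ h' => not_not.mp h'
    exact hS q hq (hd.trans ((Fix_le_iff ψ hn).mp hle)) h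
  · intro h
    have : NeZero ψ.conductor := ⟨conductor_ne_zero ψ⟩
    rw [← gal_primitiveCharacter ψ]
    exact unrAt_gal _ hq h

/-- `gal ψ` at complex conjugation is the parity of `ψ`. -/
theorem gal_conj (ψ : DirichletCharacter ℂ m) : (gal ψ complexConjugation : ℂ) = ψ (-1) := by
  rw [gal_apply, kap_conj, Units.val_neg, Units.val_one]

theorem gal_mul (ψ ψ' : DirichletCharacter ℂ m) : gal (ψ * ψ') = gal ψ * gal ψ' := by
  refine MonoidHom.ext fun σ => Units.ext ?_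
  rw [MonoidHom.mul_apply, Units.val_mul, gal_apply, gal_apply, gal_apply, MulChar.mul_apply]

theorem gal_one : gal (1 : DirichletCharacter ℂ m) = 1 := by
  refine MonoidHom.ext fun σ => Units.ext ?_
  rw [gal_apply, MulChar.one_apply_coe, MonoidHom.one_apply, Units.val_one]

theorem gal_eq_one_iff (ψ : DirichletCharacter ℂ m) : gal ψ = 1 ↔ ψ = 1 :=
  ⟨fun h => gal_injective (h.trans gal_one.symm), fun h => by rw [h, gal_one]⟩

end Dir

open Kap Dir DirichletCharacter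

/-- **The one-dimensional representations of `Gal(ℚ̄/ℚ)` are the primitive Dirichlet characters**:
existence of `ψ`, ramification and Frobenius elements. -/
theorem exists_dirichlet {χ : GQ →* ℂˣ} (hc : IsCyc χ) :
    ∃ (m : ℕ) (_ : NeZero m) (ψ : DirichletCharacter ℂ m), ψ.IsPrimitive ∧
      (∀ σ : GQ, (χ σ : ℂ) = ψ ((kap m σ : (ZMod m)ˣ) : ZMod m)) ∧
      (∀ q : ℕ, q.Prime → (UnrAt χ q ↔ ¬ q ∣ m)) ∧
      ∀ p : ℕ, p.Prime → ¬ p ∣ m → ∀ A : ValuationSubring Qbar, A.LiesOverPrime p →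
        ∀ φ : GQ, A.IsFrobeniusAt φ p → (χ φ : ℂ) = ψ (p : ZMod m) := by
  obtain ⟨m, hm, ψ, hψ, rfl⟩ := exists_primitive hc
  refine ⟨m, hm, ψ, hψ, gal_apply ψ, fun q hq => ?_, fun p hp hpm A hA φ hφ =>
    gal_frob ψ hp hpm hA hφ⟩
  rw [unrAt_gal_iff ψ hq, (isPrimitive_def _).mp hψ]

/-- The primitive Dirichlet characters (of positive level). -/
abbrev Prim : Type := {p : Σ m : ℕ, DirichletCharacter ℂ m // p.1 ≠ 0 ∧ p.2.IsPrimitive}

/-- The Galois character of a primitive Dirichlet character. -/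
def galPrim (p : Prim) : GQ →* ℂˣ :=
  have : NeZero p.1.1 := ⟨p.2.1⟩
  gal p.1.2

theorem galPrim_injective : Function.Injective galPrim := by
  rintro ⟨⟨m, ψ⟩, hm, hψ⟩ ⟨⟨m', ψ'⟩, hm', hψ'⟩ h
  have : NeZero m := ⟨hm⟩
  have : NeZero m' := ⟨hm'⟩
  exact Subtype.ext (eq_of_gal_eq hψ hψ' h)

theorem range_galPrim : Set.range galPrim = {χ : GQ →* ℂˣ | IsCyc χ} := by
  ext χ
  constructor
  · rintro ⟨⟨⟨m, ψ⟩, hm, hψ⟩, rfl⟩
    have : NeZero m := ⟨hm⟩
    exact isCyc_gal ψ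
  · intro h
    obtain ⟨m, hm, ψ, hψ, rfl⟩ := exists_primitive h
    exact ⟨⟨⟨m, ψ⟩, NeZero.ne m, hψ⟩, rfl⟩

theorem lev_galPrim (p : Prim) : Lev (galPrim p) := by
  obtain ⟨⟨m, ψ⟩, hm, hψ⟩ := p
  have : NeZero m := ⟨hm⟩
  exact lev_gal ψ

end

end Fermat.Agent.Cor.KW
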