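import Fermat.Agent.Corollaries.KW.Conductor

set_option autoImplicit false

/-!
# The existence theorem and the classification of the abelian extensions of `ℚ`
-/

namespace Fermat.Agent.Cor.KW

open NumberField

namespace Exist

section Sub

variable {n : ℕ} [NeZero n] {L : Type*} [Field L] [NumberField L] [IsCyclotomicExtension {n} ℚ L]
  {K : Type*} [Field K] [NumberField K] [IsGalois ℚ K]

/-- The Artin map of a subfield of a cyclotomic field, with its kernel. -/
theorem exists_map (i : K →+* L) :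
    ∃ f : (ZMod n)ˣ →* Gal(K/ℚ), Function.Surjective f ∧
      (∀ a, f a = 1 ↔ ∀ x : K, ArtinMap.cycAut n L a (i x) = i x) ∧
      ∀ (p : ℕ) (_ : p.Prime) (h : p.Coprime n),
        (∀ x : 𝓞 K, (p : 𝓞 K) ∣ f (ZMod.unitOfCoprime p h) • x - x ^ p) ∧
        ((Ideal.span {(p : ℤ)}).primesOver (𝓞 K)).ncard * orderOf (f (ZMod.unitOfCoprime p h)) =
          Module.finrank ℚ K := by
  let _ : Algebra K L := i.toAlgebra
  have hL : IsGalois ℚ L := IsCyclotomicExtension.isGalois {n} ℚ _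
  have h1 : ∀ (p : ℕ) (_ : p.Prime) (h : p.Coprime n) (x : 𝓞 K), (p : 𝓞 K) ∣
      ((AlgEquiv.restrictNormalHom K).comp (ArtinMap.cycAut n L).toMonoidHom)
        (ZMod.unitOfCoprime p h) • x - x ^ p := fun p hp h x =>
    ArtinMap.dvd_restrictNormal_smul_sub_pow (fun y => ArtinMap.dvd_cycAut_smul_sub_pow n L hp _
      (ZMod.coe_unitOfCoprime p h) y) hp.ne_zero x
  refine ⟨(AlgEquiv.restrictNormalHom K).comp (ArtinMap.cycAut n L).toMonoidHom,
    (AlgEquiv.restrictNormalHom_surjective _).comp (ArtinMap.cycAut n L).surjective,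
    fun a => ?_, fun p hp h => ⟨h1 p hp h, ArtinMap.ncard_mul_orderOf hp
      (ArtinMap.ramificationIdxIn_eq_one i hp h) (h1 p hp h)⟩⟩
  have h2 : ∀ x : K, i (AlgEquiv.restrictNormalHom K (ArtinMap.cycAut n L a) x) =
      ArtinMap.cycAut n L a (i x) := fun x => AlgEquiv.restrictNormal_commutes _ K x
  constructor
  · intro h x
    have h3 : AlgEquiv.restrictNormalHom K (ArtinMap.cycAut n L a) = 1 := h
    rw [← h2, h3]
    rfl
  · intro h
    refine AlgEquiv.ext fun x => i.injective ?_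
    exact (h2 x).trans (h x)

end Sub

theorem ncard_eq_iff {K : Type*} [Field K] [NumberField K] {p : ℕ} {σ : Gal(K/ℚ)}
    (h : ((Ideal.span {(p : ℤ)}).primesOver (𝓞 K)).ncard * orderOf σ = Module.finrank ℚ K) :
    ((Ideal.span {(p : ℤ)}).primesOver (𝓞 K)).ncard = Module.finrank ℚ K ↔ σ = 1 := by
  rw [← orderOf_eq_one_iff]
  have h0 : 0 < Module.finrank ℚ K := Module.finrank_pos
  constructor
  · intro h1
    rw [h1] at h
    exact Nat.eq_of_mul_eq_mul_left h0 (by rw [h, mul_one])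
  · intro h1
    rw [← h, h1, mul_one]

theorem aux {n : ℕ} [NeZero n] (L : Type) [Field L] [NumberField L]
    [hcyc : IsCyclotomicExtension {n} ℚ L] (H : Subgroup (ZMod n)ˣ) :
    ∃ (K : Type) (_ : Field K) (_ : NumberField K) (_ : IsAbelianGalois ℚ K)
      (f : (ZMod n)ˣ →* Gal(K/ℚ)), Function.Surjective f ∧ f.ker = H ∧
        ∀ (p : ℕ) (_ : p.Prime) (h : p.Coprime n),
          (∀ x : 𝓞 K, (p : 𝓞 K) ∣ f (ZMod.unitOfCoprime p h) • x - x ^ p) ∧
          (((Ideal.span {(p : ℤ)}).primesOver (𝓞 K)).ncard = Module.finrank ℚ K ↔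
            ZMod.unitOfCoprime p h ∈ H) := by
  have hL : IsAbelianGalois ℚ L := IsCyclotomicExtension.isAbelianGalois {n} ℚ L
  let H' : Subgroup Gal(L/ℚ) := H.map (ArtinMap.cycAut n L).toMonoidHom
  let K : IntermediateField ℚ L := IntermediateField.fixedField H'
  have hK0 : IsAbelianGalois ℚ K := IsAbelianGalois.of_algHom
    (RingHom.toRatAlgHom (K.val : K →+* L))
  obtain ⟨f, hf, h1, h2⟩ := exists_map (n := n) (L := L) (K := K) (K.val : K →+* L)
  have hker : ∀ a, f a = 1 ↔ a ∈ H := by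
    intro a
    rw [h1]
    have h3 : ArtinMap.cycAut n L a ∈ K.fixingSubgroup ↔ a ∈ H := by
      rw [IntermediateField.fixingSubgroup_fixedField]
      constructor
      · rintro ⟨b, hb, hab⟩
        rwa [← (ArtinMap.cycAut n L).injective hab]
      · intro ha
        exact ⟨a, ha, rfl⟩
    rw [← h3, IntermediateField.mem_fixingSubgroup_iff]
    exact ⟨fun h x hx => h ⟨x, hx⟩, fun h x => h x x.2⟩
  refine ⟨K, inferInstance, inferInstance, hK0, f, hf, ?_, fun p hp h => ⟨(h2 p hp h).1, ?_⟩⟩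
  · ext a
    exact (MonoidHom.mem_ker).trans (hker a)
  · rw [ncard_eq_iff (h2 p hp h).2, hker]

end Exist

/-- **The existence theorem over `ℚ`**: for every positive integer `n` and every subgroup `H` of
`(ℤ/n)ˣ` there is an abelian extension `K` of `ℚ` and a surjective homomorphism from `(ℤ/n)ˣ` to the
Galois group of `K` with kernel `H` which sends every prime number `p` not dividing `n` to the
Frobenius automorphism at `p`. In particular `p` splits completely in `K` if and only if the class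
of `p` is in `H`. -/
theorem existence (n : ℕ) [NeZero n] (H : Subgroup (ZMod n)ˣ) :
    ∃ (K : Type) (_ : Field K) (_ : NumberField K) (_ : IsAbelianGalois ℚ K)
      (f : (ZMod n)ˣ →* Gal(K/ℚ)), Function.Surjective f ∧ f.ker = H ∧
        ∀ (p : ℕ) (_ : p.Prime) (h : p.Coprime n),
          (∀ x : 𝓞 K, (p : 𝓞 K) ∣ f (ZMod.unitOfCoprime p h) • x - x ^ p) ∧
          (((Ideal.span {(p : ℤ)}).primesOver (𝓞 K)).ncard = Module.finrank ℚ K ↔
            ZMod.unitOfCoprime p h ∈ H) := by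
  have hcyc : IsCyclotomicExtension {n} ℚ (CyclotomicField n ℚ) :=
    CyclotomicField.isCyclotomicExtension n ℚ
  exact Exist.aux (CyclotomicField n ℚ) H

namespace Exist

/-- The Frobenius automorphism at an unramified prime is unique. -/
theorem frob_unique {K : Type*} [Field K] [NumberField K] [IsGalois ℚ K] {p : ℕ} (hp : p.Prime)
    (he : (Ideal.span {(p : ℤ)}).ramificationIdxIn (𝓞 K) = 1) {σ τ : Gal(K/ℚ)}
    (hσ : ∀ x : 𝓞 K, (p : 𝓞 K) ∣ σ • x - x ^ p) (hτ : ∀ x : 𝓞 K, (p : 𝓞 K) ∣ τ • x - x ^ p) :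
    σ = τ := by
  have : Fact p.Prime := ⟨hp⟩
  have hmax : (Ideal.span {(p : ℤ)}).IsMaximal := Int.ideal_span_isMaximal_of_prime p
  obtain ⟨⟨Q, hQ1, hQ2⟩⟩ := (Ideal.span {(p : ℤ)}).nonempty_primesOver (S := 𝓞 K)
  have h1 := (ArtinMap.isArithFrobAt hσ Q).mul_inv_mem_inertia (ArtinMap.isArithFrobAt hτ Q)
  have hcard := Ideal.card_inertia_eq_ramificationIdxIn (G := Gal(K/ℚ)) (Ideal.span {(p : ℤ)}) Q
  rw [he, Nat.card_eq_one_iff_unique] at hcard
  exact mul_inv_eq_one.mp (congrArg Subtype.val (hcard.1.elim ⟨σ * τ⁻¹, h1⟩ 1))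

/-- Dirichlet's theorem: every class of `(ℤ/n)ˣ` contains a prime number. -/
theorem exists_prime {n : ℕ} [NeZero n] (a : (ZMod n)ˣ) :
    ∃ (p : ℕ) (_ : p.Prime) (h : p.Coprime n), ZMod.unitOfCoprime p h = a := by
  obtain ⟨p, -, hp, hpa⟩ := Nat.forall_exists_prime_gt_and_eq_mod a.isUnit n
  have h1 : p.Coprime n := by
    rw [← ZMod.isUnit_iff_coprime, hpa]
    exact a.isUnit
  exact ⟨p, hp, h1, Units.ext (by rw [ZMod.coe_unitOfCoprime, hpa])⟩

end Exist

namespace Exist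

theorem le_aux {n : ℕ} [NeZero n] {L : Type*} [Field L] [NumberField L]
    [hcyc : IsCyclotomicExtension {n} ℚ L] {K₁ K₂ : Type*} [Field K₁] [NumberField K₁]
    [IsGalois ℚ K₁] [Field K₂] [NumberField K₂] [IsGalois ℚ K₂] (i₁ : K₁ →ₐ[ℚ] L)
    (i₂ : K₂ →ₐ[ℚ] L) :
    Nonempty (K₁ →ₐ[ℚ] K₂) ↔ ∀ p : ℕ, p.Prime → p.Coprime n →
      ((Ideal.span {(p : ℤ)}).primesOver (𝓞 K₂)).ncard = Module.finrank ℚ K₂ →
        ((Ideal.span {(p : ℤ)}).primesOver (𝓞 K₁)).ncard = Module.finrank ℚ K₁ := by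
  have hL : IsGalois ℚ L := IsCyclotomicExtension.isGalois {n} ℚ _
  obtain ⟨f₂, -, hf₂, hp₂⟩ := exists_map (n := n) (L := L) (i₂ : K₂ →+* L)
  constructor
  · rintro ⟨j⟩ p hp hpn h
    obtain ⟨f₁, -, hf₁, hp₁⟩ := exists_map (n := n) (L := L)
      ((i₂ : K₂ →+* L).comp (j : K₁ →+* K₂))
    rw [ncard_eq_iff (hp₁ p hp hpn).2, hf₁]
    rw [ncard_eq_iff (hp₂ p hp hpn).2, hf₂] at h
    exact fun x => h (j x)
  · intro h
    obtain ⟨f₁, -, hf₁, hp₁⟩ := exists_map (n := n) (L := L) (i₁ : K₁ →+* L)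
    have h1 : ∀ a, f₂ a = 1 → f₁ a = 1 := by
      intro a ha
      obtain ⟨p, hp, hpn, rfl⟩ := exists_prime a
      rw [← ncard_eq_iff (hp₁ p hp hpn).2]
      exact h p hp hpn ((ncard_eq_iff (hp₂ p hp hpn).2).mpr ha)
    have hle : i₂.fieldRange.fixingSubgroup ≤ i₁.fieldRange.fixingSubgroup := by
      intro σ hσ
      obtain ⟨a, rfl⟩ := (ArtinMap.cycAut n L).surjective σ
      rw [IntermediateField.mem_fixingSubgroup_iff] at hσ ⊢
      have h2 := (hf₁ a).mp (h1 a ((hf₂ a).mpr fun x => hσ _ ⟨x, rfl⟩))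
      rintro _ ⟨x, rfl⟩
      exact h2 x
    have hle' : i₁.fieldRange ≤ i₂.fieldRange := by
      rw [← IsGalois.fixedField_fixingSubgroup i₁.fieldRange,
        ← IsGalois.fixedField_fixingSubgroup i₂.fieldRange]
      exact IntermediateField.fixedField_antitone hle
    exact ⟨((AlgEquiv.ofInjectiveField i₂).symm.toAlgHom.comp
      (IntermediateField.inclusion hle')).comp (AlgEquiv.ofInjectiveField i₁).toAlgHom⟩

end Exist

/-- **The Artin map is unique**: a homomorphism from `(ℤ/n)ˣ` to the Galois group of a subfield `K`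
of the field of the `n`-th roots of unity which sends the prime numbers to Frobenius automorphisms
is determined by this property. -/
theorem artin_map_unique {K : Type*} [Field K] [NumberField K] [IsAbelianGalois ℚ K] {n : ℕ}
    [NeZero n] (hK : Nonempty (K →ₐ[ℚ] CyclotomicField n ℚ)) {f g : (ZMod n)ˣ →* Gal(K/ℚ)}
    (hf : ∀ (p : ℕ) (_ : p.Prime) (h : p.Coprime n) (x : 𝓞 K),
      (p : 𝓞 K) ∣ f (ZMod.unitOfCoprime p h) • x - x ^ p)
    (hg : ∀ (p : ℕ) (_ : p.Prime) (h : p.Coprime n) (x : 𝓞 K),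
      (p : 𝓞 K) ∣ g (ZMod.unitOfCoprime p h) • x - x ^ p) : f = g := by
  obtain ⟨i⟩ := hK
  have hcyc : IsCyclotomicExtension {n} ℚ (CyclotomicField n ℚ) :=
    CyclotomicField.isCyclotomicExtension n ℚ
  refine MonoidHom.ext fun a => ?_
  obtain ⟨p, hp, h, rfl⟩ := Exist.exists_prime a
  exact Exist.frob_unique hp (ArtinMap.ramificationIdxIn_eq_one i.toRingHom hp h) (hf p hp h)
    (hg p hp h)

/-- **Classification**: two abelian extensions of `ℚ` contained in the field of the `n`-th roots of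
unity are isomorphic if the same classes modulo `n` of prime numbers split completely; more
generally `K₁` is contained in `K₂` if and only if the prime numbers `p` not dividing `n` which
split completely in `K₂` split completely in `K₁`. -/
theorem nonempty_algHom_iff {K₁ K₂ : Type*} [Field K₁] [NumberField K₁] [IsAbelianGalois ℚ K₁]
    [Field K₂] [NumberField K₂] [IsAbelianGalois ℚ K₂] {n : ℕ} (hn : n ≠ 0)
    (h₁ : Nonempty (K₁ →ₐ[ℚ] CyclotomicField n ℚ)) (h₂ : Nonempty (K₂ →ₐ[ℚ] CyclotomicField n ℚ)) :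
    Nonempty (K₁ →ₐ[ℚ] K₂) ↔ ∀ p : ℕ, p.Prime → p.Coprime n →
      ((Ideal.span {(p : ℤ)}).primesOver (𝓞 K₂)).ncard = Module.finrank ℚ K₂ →
        ((Ideal.span {(p : ℤ)}).primesOver (𝓞 K₁)).ncard = Module.finrank ℚ K₁ := by
  obtain ⟨i₁⟩ := h₁
  obtain ⟨i₂⟩ := h₂
  have : NeZero n := ⟨hn⟩
  have hcyc : IsCyclotomicExtension {n} ℚ (CyclotomicField n ℚ) :=
    CyclotomicField.isCyclotomicExtension n ℚ
  exact Exist.le_aux (RingHom.toRatAlgHom (i₁ : K₁ →+* CyclotomicField n ℚ))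
    (RingHom.toRatAlgHom (i₂ : K₂ →+* CyclotomicField n ℚ))

end Fermat.Agent.Cor.KW
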