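import Fermat.Agent.Corollaries.KW.IdeleRing

set_option autoImplicit false

/-!
# Class field theory for `ℚ`: ideles

`exists_artin_idele` : the Artin map from the group of ideles of `ℚ` to the abelianized Galois group
of `ℚ` is continuous and surjective, its kernel consists of the products of the principal ideles and
the positive real numbers.
-/

namespace Fermat.Agent.Cor.KW

open IsDedekindDomain NumberField

noncomputable section

local instance Ide.fact_primes'' (p : Nat.Primes) : Fact (p : ℕ).Prime := ⟨p.2⟩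

open Ide in
/-- **Class field theory for `ℚ` (ideles)**: there is a continuous surjective homomorphism `r` (the
Artin map) from the group of ideles of `ℚ` to the abelianized absolute Galois group of `ℚ`; its kernel
is the product of the group of the principal ideles and the group of the positive real numbers. If `q`
is the rational number with the same sign and the same absolute values as the idele `x`, then the
automorphisms of class `r x` map a root of unity `ζ` of order dividing `p ^ n` to `ζ ^ a`, where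
`a x_p ≡ q` modulo `p ^ n q`. The idele with component `ℓ` at the prime number `ℓ` and `1` elsewhere
goes to a Frobenius element at `ℓ`: `ζ ↦ ζ ^ ℓ` for the roots of unity of order prime to `ℓ`. The units
at the prime number `ℓ` have the same image as the inertia groups at `ℓ`. -/
theorem exists_artin_idele :
    ∃ r : (AdeleRing (𝓞 ℚ) ℚ)ˣ →*
        TopologicalAbelianization (AlgebraicClosure ℚ ≃ₐ[ℚ] AlgebraicClosure ℚ),
      Continuous r ∧ Function.Surjective r ∧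
      (∀ x, r x = 1 ↔ ∃ q : ℚˣ,
        (x : AdeleRing (𝓞 ℚ) ℚ).2 = algebraMap ℚ (FiniteAdeleRing (𝓞 ℚ) ℚ) (q : ℚ) ∧
          0 < ((q : ℚ) : ℝ) * realComp (x : AdeleRing (𝓞 ℚ) ℚ)) ∧
      (∀ (x : (AdeleRing (𝓞 ℚ) ℚ)ˣ) (σ : AlgebraicClosure ℚ ≃ₐ[ℚ] AlgebraicClosure ℚ),
        QuotientGroup.mk σ = r x → ∀ q : ℚˣ,
          0 < ((q : ℚ) : ℝ) * realComp (x : AdeleRing (𝓞 ℚ) ℚ) →
          (∀ p : Nat.Primes, ‖finComp p (x : AdeleRing (𝓞 ℚ) ℚ)‖ = ‖((q : ℚ) : ℚ_[p])‖) →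
            ∀ (p : Nat.Primes) (n a : ℕ),
              ‖(a : ℚ_[p]) * finComp p (x : AdeleRing (𝓞 ℚ) ℚ) - (q : ℚ)‖ ≤
                ‖((q : ℚ) : ℚ_[p])‖ * ((p : ℕ) : ℝ) ^ (-(n : ℤ)) →
              ∀ ζ : AlgebraicClosure ℚ, ζ ^ (p : ℕ) ^ n = 1 → σ ζ = ζ ^ a) ∧
      (∀ (x : (AdeleRing (𝓞 ℚ) ℚ)ˣ) (ℓ : Nat.Primes), 0 < realComp (x : AdeleRing (𝓞 ℚ) ℚ) →
        finComp ℓ (x : AdeleRing (𝓞 ℚ) ℚ) = (ℓ : ℕ) →
        (∀ p : Nat.Primes, p ≠ ℓ → finComp p (x : AdeleRing (𝓞 ℚ) ℚ) = 1) →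
          ∀ σ : AlgebraicClosure ℚ ≃ₐ[ℚ] AlgebraicClosure ℚ, QuotientGroup.mk σ = r x →
            (∀ (p : Nat.Primes) (n : ℕ) (ζ : AlgebraicClosure ℚ), p ≠ ℓ → ζ ^ (p : ℕ) ^ n = 1 →
              σ ζ = ζ ^ (ℓ : ℕ)) ∧
            ∀ (n : ℕ) (ζ : AlgebraicClosure ℚ), ζ ^ (ℓ : ℕ) ^ n = 1 → σ ζ = ζ) ∧
      ∀ (ℓ : Nat.Primes) (A : ValuationSubring (AlgebraicClosure ℚ)), A.LiesOverPrime (ℓ : ℕ) →
        r '' {x | 0 < realComp (x : AdeleRing (𝓞 ℚ) ℚ) ∧
          ‖finComp ℓ (x : AdeleRing (𝓞 ℚ) ℚ)‖ = 1 ∧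
            ∀ p : Nat.Primes, p ≠ ℓ → finComp p (x : AdeleRing (𝓞 ℚ) ℚ) = 1} =
          QuotientGroup.mk '' (A.inertiaSubgroupIn ℚ :
            Set (AlgebraicClosure ℚ ≃ₐ[ℚ] AlgebraicClosure ℚ)) := by
  obtain ⟨r, hr⟩ := exists_artin
  refine ⟨r, hr.continuous, hr.surjective, fun x => ?_, hr.act, fun x ℓ hx hℓ h σ hσ =>
    hr.frob hx hℓ h hσ, hr.image_units⟩
  rw [hr.eq_one_iff]
  exact exists_congr fun q => and_congr_left' (finComp_eq_iff _ _)

end

end Fermat.Agent.Cor.KW
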