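import Fermat.Agent.Corollaries.KW.Recip
import Mathlib.NumberTheory.Padics.HeightOneSpectrum
import Mathlib.NumberTheory.NumberField.AdeleRing

set_option autoImplicit false

/-!
# Groups with local components

Abelian groups with homomorphisms to all `ℚ_[p]ˣ` and to `ℝˣ`: contents and unit components.
-/

namespace Fermat.Agent.Cor.KW

open Fermat.Agent.Frob Fermat.Agent.Minkowski Fermat.Agent.TW

noncomputable section

namespace Ide

local instance fact_primes (p : Nat.Primes) : Fact (p : ℕ).Prime := ⟨p.2⟩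

/-! ### Rational numbers -/

lemma den_eq_one {q : ℚ} (h : ∀ p : Nat.Primes, ‖(q : ℚ_[p])‖ ≤ 1) : q.den = 1 := by
  by_contra hd
  obtain ⟨p, hp, hpd⟩ := Nat.exists_prime_and_dvd hd
  have : Fact p.Prime := ⟨hp⟩
  have h1 : ‖(q : ℚ_[p])‖ ≤ 1 := h ⟨p, hp⟩
  rw [Padic.norm_rat_le_one_iff_padicValuation_le_one, Rat.padicValuation_le_one_iff] at h1
  exact h1 hpd

lemma rat_eq_one {q : ℚ} (hq : 0 < q) (h : ∀ p : Nat.Primes, ‖(q : ℚ_[p])‖ = 1) : q = 1 := by
  have h1 := den_eq_one fun p => (h p).le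
  have h2 : (q⁻¹).den = 1 := den_eq_one fun p => by rw [Rat.cast_inv, norm_inv, h p, inv_one]
  have h3 : ((q.num : ℤ) : ℚ) = q := Rat.coe_int_num_of_den_eq_one h1
  have h4 : (((q⁻¹).num : ℤ) : ℚ) = q⁻¹ := Rat.coe_int_num_of_den_eq_one h2
  have h5 : 1 ≤ q := by
    rw [← h3]
    have h6 : 0 < q.num := Rat.num_pos.mpr hq
    exact_mod_cast h6
  have h6 : 1 ≤ q⁻¹ := by
    rw [← h4]
    have h7 : 0 < (q⁻¹).num := Rat.num_pos.mpr (inv_pos.mpr hq)
    exact_mod_cast h7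
  exact le_antisymm ((one_le_inv₀ hq).mp h6) h5

/-- Rational numbers with given absolute values. -/
lemma exists_rat (N : Nat.Primes → ℤ) (hN : ∀ᶠ p in Filter.cofinite, N p = 0) :
    ∃ q : ℚˣ, 0 < (q : ℚ) ∧ ∀ p : Nat.Primes, ‖((q : ℚ) : ℚ_[p])‖ = (p : ℝ) ^ (-N p) := by
  classical
  have hfin : {p : Nat.Primes | N p ≠ 0}.Finite := hN
  have hpos : 0 < ∏ p ∈ hfin.toFinset, ((p : ℕ) : ℚ) ^ N p :=
    Finset.prod_pos fun p _ => zpow_pos (by exact_mod_cast p.2.pos) _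
  refine ⟨Units.mk0 _ hpos.ne', hpos, fun ℓ => ?_⟩
  rw [Units.val_mk0, Rat.cast_prod, norm_prod]
  have h1 : ∀ p : Nat.Primes, ‖(((((p : ℕ) : ℚ) ^ N p : ℚ)) : ℚ_[ℓ])‖ =
      if p = ℓ then (ℓ : ℝ) ^ (-N ℓ) else 1 := by
    intro p
    rw [Rat.cast_zpow, Rat.cast_natCast, norm_zpow]
    split_ifs with h
    · subst h
      rw [Padic.norm_p, inv_zpow, zpow_neg]
    · have h2 : ‖((p : ℕ) : ℚ_[ℓ])‖ = 1 := Padic.norm_natCast_eq_one_iff.mpr
        ((Nat.coprime_primes ℓ.2 p.2).mpr fun h3 => h (Subtype.ext h3.symm))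
      rw [h2, one_zpow]
  rw [Finset.prod_congr rfl fun p _ => h1 p, Finset.prod_ite_eq']
  split_ifs with h
  · rfl
  · have h3 : N ℓ = 0 := by
      by_contra h4
      exact h (hfin.mem_toFinset.mpr h4)
    rw [h3, neg_zero, zpow_zero]

/-! ### Groups with local components -/

section Abs

variable {I : Type*} [CommGroup I] (c : (p : Nat.Primes) → I →* ℚ_[p]ˣ) (s : I →* ℝˣ)

/-- `q` has the same sign and the same absolute values as `x`. -/
def IsContent (x : I) (q : ℚˣ) : Prop :=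
  0 < ((q : ℚ) : ℝ) * (s x : ℝ) ∧
    ∀ p : Nat.Primes, ‖(c p x : ℚ_[p])‖ = ‖((q : ℚ) : ℚ_[p])‖

variable {c s}

lemma IsContent.mul {x y : I} {q q' : ℚˣ} (h : IsContent c s x q) (h' : IsContent c s y q') :
    IsContent c s (x * y) (q * q') := by
  refine ⟨?_, fun p => ?_⟩
  · rw [map_mul, Units.val_mul, Units.val_mul, Rat.cast_mul, mul_mul_mul_comm]
    exact mul_pos h.1 h'.1
  · rw [map_mul, Units.val_mul, Units.val_mul, Rat.cast_mul, norm_mul, norm_mul, h.2 p, h'.2 p]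

lemma IsContent.unique {x : I} {q q' : ℚˣ} (h : IsContent c s x q) (h' : IsContent c s x q') :
    q = q' := by
  have h1 : (q : ℚ) / q' = 1 := by
    refine rat_eq_one ?_ fun p => ?_
    · have h2 := mul_pos h.1 h'.1
      have h3 : ((q : ℚ) : ℝ) * (s x : ℝ) * (((q' : ℚ) : ℝ) * (s x : ℝ)) =
          (((q : ℚ) / q' : ℚ) : ℝ) * (((q' : ℚ) : ℝ) * (s x : ℝ)) ^ 2 := by
        have h4 : ((q' : ℚ) : ℝ) ≠ 0 := by exact_mod_cast q'.ne_zero
        rw [Rat.cast_div]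
        field_simp
      rw [h3] at h2
      exact_mod_cast pos_of_mul_pos_left h2 (sq_nonneg _)
    · have h4 : ‖((q' : ℚ) : ℚ_[p])‖ ≠ 0 := norm_ne_zero_iff.mpr (by exact_mod_cast q'.ne_zero)
      rw [Rat.cast_div, norm_div, ← h.2 p, h'.2 p, div_self h4]
  rw [div_eq_one_iff_eq q'.ne_zero] at h1
  exact Units.ext h1

lemma exists_content {x : I} (hx : ∀ᶠ p : Nat.Primes in Filter.cofinite, ‖(c p x : ℚ_[p])‖ = 1) :
    ∃ q : ℚˣ, IsContent c s x q := by
  obtain ⟨q, hq, h⟩ := exists_rat (fun p => (c p x : ℚ_[p]).valuation) (by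
    filter_upwards [hx] with p hp
    rw [Padic.norm_eq_zpow_neg_valuation (c p x).ne_zero] at hp
    have h1 : (1 : ℝ) < (p : ℕ) := by exact_mod_cast p.2.one_lt
    have h2 := (zpow_eq_one_iff_right₀ (by positivity) h1.ne').mp hp
    omega)
  have h' : ∀ p : Nat.Primes, ‖(c p x : ℚ_[p])‖ = ‖((q : ℚ) : ℚ_[p])‖ := fun p => by
    rw [h, Padic.norm_eq_zpow_neg_valuation (c p x).ne_zero]
  rcases lt_or_gt_of_ne (s x).ne_zero with hs | hs
  · refine ⟨-q, ?_, fun p => ?_⟩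
    · rw [Units.val_neg, Rat.cast_neg]
      exact mul_pos_of_neg_of_neg (neg_neg_of_pos (by exact_mod_cast hq)) hs
    · rw [Units.val_neg, Rat.cast_neg, norm_neg, h']
  · exact ⟨q, mul_pos (by exact_mod_cast hq) hs, h'⟩

variable (hfin : ∀ x : I, ∀ᶠ p : Nat.Primes in Filter.cofinite, ‖(c p x : ℚ_[p])‖ = 1)

variable (s) in
/-- The rational number with the sign and the absolute values of `x`. -/
def content : I →* ℚˣ where
  toFun x := (exists_content (s := s) (hfin x)).choose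
  map_one' := by
    refine (exists_content (s := s) (hfin 1)).choose_spec.unique ⟨?_, fun p => ?_⟩
    · rw [map_one, Units.val_one, Rat.cast_one, Units.val_one, mul_one]
      exact one_pos
    · rw [map_one, Units.val_one, Units.val_one, Rat.cast_one]
  map_mul' x y := (exists_content (s := s) (hfin (x * y))).choose_spec.unique
    ((exists_content (s := s) (hfin x)).choose_spec.mul
      (exists_content (s := s) (hfin y)).choose_spec)

lemma content_spec (x : I) : IsContent c s x (content s hfin x) :=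
  (exists_content (s := s) (hfin x)).choose_spec

lemma norm_div_content (x : I) (p : Nat.Primes) :
    ‖(c p x : ℚ_[p]) * ((content s hfin x : ℚ) : ℚ_[p])⁻¹‖ = 1 := by
  have h4 : ‖((content s hfin x : ℚ) : ℚ_[p])‖ ≠ 0 :=
    norm_ne_zero_iff.mpr (by exact_mod_cast (content s hfin x).ne_zero)
  rw [norm_mul, norm_inv, (content_spec hfin x).2 p, mul_inv_cancel₀ h4]

variable (s) in
/-- The unit components. -/
def unit : I →* ((p : Nat.Primes) → ℤ_[p]ˣ) where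
  toFun x p := PadicInt.mkUnits (norm_div_content (s := s) hfin x p)
  map_one' := by
    refine funext fun p => Units.ext (Subtype.ext ?_)
    show (c p 1 : ℚ_[p]) * ((content s hfin 1 : ℚ) : ℚ_[p])⁻¹ = 1
    rw [map_one, map_one, Units.val_one, Units.val_one, Rat.cast_one, inv_one, mul_one]
  map_mul' x y := by
    refine funext fun p => Units.ext (Subtype.ext ?_)
    show (c p (x * y) : ℚ_[p]) * ((content s hfin (x * y) : ℚ) : ℚ_[p])⁻¹ =
      ((c p x : ℚ_[p]) * ((content s hfin x : ℚ) : ℚ_[p])⁻¹) *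
        ((c p y : ℚ_[p]) * ((content s hfin y : ℚ) : ℚ_[p])⁻¹)
    rw [map_mul, map_mul, Units.val_mul, Units.val_mul, Rat.cast_mul, mul_inv, mul_mul_mul_comm]

lemma coe_unit (x : I) (p : Nat.Primes) : ((unit s hfin x p : ℤ_[p]) : ℚ_[p]) =
    (c p x : ℚ_[p]) * ((content s hfin x : ℚ) : ℚ_[p])⁻¹ := rfl

lemma unit_eq_one_iff (x : I) : unit s hfin x = 1 ↔
    ∃ q : ℚˣ, 0 < ((q : ℚ) : ℝ) * (s x : ℝ) ∧ ∀ p : Nat.Primes, (c p x : ℚ_[p]) = (q : ℚ) := by
  constructor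
  · intro h
    refine ⟨content s hfin x, (content_spec hfin x).1, fun p => ?_⟩
    have h1 := coe_unit (s := s) hfin x p
    have h2 : unit s hfin x p = 1 := congrFun h p
    rw [h2, Units.val_one, PadicInt.coe_one] at h1
    have h4 : ((content s hfin x : ℚ) : ℚ_[p]) ≠ 0 := by
      exact_mod_cast (content s hfin x).ne_zero
    rw [eq_comm, ← div_eq_mul_inv, div_eq_one_iff_eq h4] at h1
    exact h1
  · rintro ⟨q, hq, h⟩
    have h1 : content s hfin x = q :=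
      (content_spec hfin x).unique ⟨hq, fun p => by rw [h p]⟩
    refine funext fun p => Units.ext (Subtype.ext ?_)
    rw [coe_unit, h1, h p]
    exact mul_inv_cancel₀ (by exact_mod_cast q.ne_zero)

lemma unit_surjective (hs : ∀ u : (p : Nat.Primes) → ℤ_[p]ˣ, ∃ x : I, s x = 1 ∧
    ∀ p : Nat.Primes, (c p x : ℚ_[p]) = (u p : ℤ_[p])) : Function.Surjective (unit s hfin) := by
  intro u
  obtain ⟨x, h1, h2⟩ := hs u
  have h3 : content s hfin x = 1 := by
    refine (content_spec hfin x).unique ⟨?_, fun p => ?_⟩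
    · rw [h1, Units.val_one, Rat.cast_one, Units.val_one, mul_one]
      exact one_pos
    · rw [h2, Units.val_one, Rat.cast_one, norm_one, PadicInt.padic_norm_e_of_padicInt]
      exact PadicInt.norm_units (u p)
  refine ⟨x, funext fun p => Units.ext (Subtype.ext ?_)⟩
  rw [coe_unit, h3, h2, Units.val_one, Rat.cast_one, inv_one, mul_one]

lemma continuous_unit [TopologicalSpace I] [IsTopologicalGroup I]
    (hc : ∀ p : Nat.Primes, Continuous fun x => (c p x : ℚ_[p]))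
    (hs : Continuous fun x => (s x : ℝ))
    (hU : ∀ᶠ x in nhds (1 : I), ∀ p : Nat.Primes, ‖(c p x : ℚ_[p])‖ = 1) :
    Continuous (unit s hfin) := by
  refine continuous_of_continuousAt_one _ ?_
  have h1 : ∀ᶠ x in nhds (1 : I), content s hfin x = 1 := by
    have h2 : ∀ᶠ x in nhds (1 : I), 0 < (s x : ℝ) := by
      refine hs.continuousAt.eventually (lt_mem_nhds ?_)
      show 0 < (s 1 : ℝ)
      rw [map_one, Units.val_one]
      exact one_pos
    filter_upwards [hU, h2] with x hx hx'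
    refine (content_spec hfin x).unique ⟨?_, fun p => ?_⟩
    · rwa [Units.val_one, Rat.cast_one, one_mul]
    · rw [hx, Units.val_one, Rat.cast_one, norm_one]
  rw [ContinuousAt, map_one, tendsto_pi_nhds]
  intro p
  rw [Pi.one_apply, (Units.isOpenEmbedding_val (R := ℤ_[p])).isEmbedding.tendsto_nhds_iff]
  refine tendsto_subtype_rng.mpr ?_
  have h3 : Filter.Tendsto (fun x => (c p x : ℚ_[p])) (nhds (1 : I)) (nhds 1) := by
    have h4 := (hc p).tendsto 1
    rwa [map_one, Units.val_one] at h4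
  refine h3.congr' ?_
  filter_upwards [h1] with x hx
  show (c p x : ℚ_[p]) = (c p x : ℚ_[p]) * ((content s hfin x : ℚ) : ℚ_[p])⁻¹
  rw [hx, Units.val_one, Rat.cast_one, inv_one, mul_one]

end Abs

/-! ### Unit groups of topological rings with local components -/

lemma toZModPow_eq {p : ℕ} [Fact p.Prime] {w : ℤ_[p]} {a n : ℕ}
    (h : ‖(a : ℤ_[p]) - w‖ ≤ (p : ℝ) ^ (-(n : ℤ))) : w.toZModPow n = (a : ZMod (p ^ n)) := by
  rw [PadicInt.norm_le_pow_iff_mem_span_pow, ← PadicInt.ker_toZModPow, RingHom.mem_ker, map_sub,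
    map_natCast, sub_eq_zero] at h
  exact h.symm

section Ring

variable {R : Type*} [CommRing R] [TopologicalSpace R] [IsTopologicalRing R]
  {f : (p : Nat.Primes) → R →+* ℚ_[p]} {g : R →+* ℝ}

/-- The homomorphism `r` has the properties of the Artin map, `f p` and `g` being the components at the
prime numbers and at the real place. -/
structure IsArtin (f : (p : Nat.Primes) → R →+* ℚ_[p]) (g : R →+* ℝ)
    (r : Rˣ →* TopologicalAbelianization GQ) : Prop where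
  continuous : Continuous r
  surjective : Function.Surjective r
  eq_one_iff : ∀ x : Rˣ, r x = 1 ↔
    ∃ q : ℚˣ, (∀ p : Nat.Primes, f p (x : R) = (q : ℚ)) ∧ 0 < ((q : ℚ) : ℝ) * g (x : R)
  act : ∀ (x : Rˣ) (σ : GQ), QuotientGroup.mk σ = r x → ∀ q : ℚˣ,
    0 < ((q : ℚ) : ℝ) * g (x : R) →
    (∀ p : Nat.Primes, ‖f p (x : R)‖ = ‖((q : ℚ) : ℚ_[p])‖) →
      ∀ (p : Nat.Primes) (n a : ℕ), ‖(a : ℚ_[p]) * f p (x : R) - (q : ℚ)‖ ≤
        ‖((q : ℚ) : ℚ_[p])‖ * ((p : ℕ) : ℝ) ^ (-(n : ℤ)) →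
        ∀ ζ : Qbar, ζ ^ (p : ℕ) ^ n = 1 → σ ζ = ζ ^ a
  image_units : ∀ (ℓ : Nat.Primes) (A : ValuationSubring Qbar), A.LiesOverPrime (ℓ : ℕ) →
    r '' {x | 0 < g (x : R) ∧ ‖f ℓ (x : R)‖ = 1 ∧ ∀ p : Nat.Primes, p ≠ ℓ → f p (x : R) = 1} =
      QuotientGroup.mk '' (A.inertiaSubgroupIn ℚ : Set GQ)

omit [TopologicalSpace R] [IsTopologicalRing R] in
lemma norm_eq_one_of {p : Nat.Primes} {x y : R} (hxy : x * y = 1)
    (h1 : ‖f p x‖ ≤ 1) (h2 : ‖f p y‖ ≤ 1) : ‖f p x‖ = 1 := by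
  have h3 : ‖f p x‖ * ‖f p y‖ = 1 := by
    rw [← norm_mul, ← map_mul, hxy, map_one, norm_one]
  nlinarith [norm_nonneg (f p x), norm_nonneg (f p y)]

theorem exists_isArtin (hf : ∀ p, Continuous (f p)) (hg : Continuous g)
    (hle : ∀ x : R, ∀ᶠ p : Nat.Primes in Filter.cofinite, ‖f p x‖ ≤ 1)
    (hU : ∀ᶠ x : R in nhds 1, ∀ p : Nat.Primes, ‖f p x‖ ≤ 1)
    (hinj : ∀ x y : R, g x = g y → (∀ p, f p x = f p y) → x = y)
    (hex : ∀ y : (p : Nat.Primes) → ℤ_[p], ∃ x : R, g x = 1 ∧ ∀ p, f p x = y p) :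
    ∃ r : Rˣ →* TopologicalAbelianization GQ, IsArtin f g r := by
  let c : (p : Nat.Primes) → Rˣ →* ℚ_[p]ˣ := fun p => Units.map (f p).toMonoidHom
  let s : Rˣ →* ℝˣ := Units.map g.toMonoidHom
  have hc : ∀ (p : Nat.Primes) (x : Rˣ), (c p x : ℚ_[p]) = f p (x : R) := fun _ _ => rfl
  have hs : ∀ x, (s x : ℝ) = g (x : R) := fun _ => rfl
  have hfin : ∀ x : Rˣ, ∀ᶠ p : Nat.Primes in Filter.cofinite, ‖(c p x : ℚ_[p])‖ = 1 := by
    intro x
    filter_upwards [hle (x : R), hle ((x⁻¹ : Rˣ) : R)] with p h1 h2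
    exact norm_eq_one_of x.mul_inv h1 h2
  have hU' : ∀ᶠ x : Rˣ in nhds 1, ∀ p : Nat.Primes, ‖(c p x : ℚ_[p])‖ = 1 := by
    have h1 : ∀ᶠ x : Rˣ in nhds 1, ∀ p : Nat.Primes, ‖f p (x : R)‖ ≤ 1 :=
      (Units.continuous_val (M := R)).continuousAt.eventually (by rw [Units.val_one]; exact hU)
    have h2 : ∀ᶠ x : Rˣ in nhds 1, ∀ p : Nat.Primes, ‖f p ((x⁻¹ : Rˣ) : R)‖ ≤ 1 := by
      have h3 : Filter.Tendsto (fun x : Rˣ => x⁻¹) (nhds 1) (nhds 1) := by
        have h4 := (continuous_inv (G := Rˣ)).tendsto 1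
        rwa [inv_one] at h4
      exact h3.eventually h1
    filter_upwards [h1, h2] with x h1 h2 p
    exact norm_eq_one_of x.mul_inv (h1 p) (h2 p)
  have hex' : ∀ u : (p : Nat.Primes) → ℤ_[p]ˣ, ∃ x : Rˣ, s x = 1 ∧
      ∀ p : Nat.Primes, (c p x : ℚ_[p]) = (u p : ℤ_[p]) := by
    intro u
    obtain ⟨x, hx, h⟩ := hex fun p => (u p : ℤ_[p])
    obtain ⟨y, hy, h'⟩ := hex fun p => ((u p)⁻¹ : ℤ_[p]ˣ)
    have hxy : x * y = 1 := by
      refine hinj _ _ ?_ fun p => ?_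
      · rw [map_mul, hx, hy, one_mul, map_one]
      · rw [map_mul, h, h', map_one, ← PadicInt.coe_mul, Units.mul_inv, PadicInt.coe_one]
    exact ⟨⟨x, y, hxy, by rw [mul_comm, hxy]⟩, Units.ext hx, h⟩
  let U : Rˣ →* ((p : Nat.Primes) → ℤ_[p]ˣ) := unit s hfin
  have hUc : Continuous U := continuous_unit hfin
    (fun p => (hf p).comp Units.continuous_val) (hg.comp Units.continuous_val) hU'
  let r : Rˣ →* TopologicalAbelianization GQ := Recip.equiv.symm.toMulEquiv.toMonoidHom.comp U⁻¹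
  have hr : ∀ x, Recip.equiv (r x) = (U x)⁻¹ := fun x => Recip.equiv.apply_symm_apply _
  have hone : ∀ x : Rˣ, 0 < g (x : R) → (∀ p : Nat.Primes, ‖f p (x : R)‖ = 1) →
      ∀ p : Nat.Primes, ((U x p : ℤ_[p]) : ℚ_[p]) = f p (x : R) := by
    intro x hx hx' p
    have h1 := coe_unit (s := s) hfin x p
    have h2 : content s hfin x = 1 := by
      refine (content_spec hfin x).unique ⟨?_, fun p => ?_⟩
      · rw [Units.val_one, Rat.cast_one, one_mul]
        exact hx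
      · rw [Units.val_one, Rat.cast_one, norm_one]
        exact hx' p
    rw [h2, Units.val_one, Rat.cast_one, inv_one, mul_one] at h1
    exact h1
  refine ⟨r, ⟨Recip.equiv.symm.continuous.comp hUc.inv, fun y => ?_, fun x => ?_, ?_, ?_⟩⟩
  · obtain ⟨x, hx⟩ := unit_surjective hfin hex' (Recip.equiv y)⁻¹
    refine ⟨x, Recip.equiv.injective ?_⟩
    rw [hr, inv_eq_iff_eq_inv]
    exact hx
  · have h1 : r x = 1 ↔ U x = 1 := by
      rw [← Recip.equiv.injective.eq_iff, hr, map_one, inv_eq_one]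
    rw [h1]
    refine (unit_eq_one_iff hfin x).trans ⟨?_, ?_⟩
    · rintro ⟨q, hq, h⟩
      exact ⟨q, h, hq⟩
    · rintro ⟨q, h, hq⟩
      exact ⟨q, hq, h⟩
  · intro x σ hσ q hq hq' p n a h ζ hζ
    have hcon : content s hfin x = q := (content_spec hfin x).unique ⟨hq, hq'⟩
    have hu : ((U x p : ℤ_[p]) : ℚ_[p]) = f p (x : R) * ((q : ℚ) : ℚ_[p])⁻¹ := by
      have h1 := coe_unit (s := s) hfin x p
      rw [hcon] at h1
      exact h1
    have hq0 : ((q : ℚ) : ℚ_[p]) ≠ 0 := by exact_mod_cast q.ne_zero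
    have h2 : ‖(a : ℤ_[p]) - (((U x p)⁻¹ : ℤ_[p]ˣ) : ℤ_[p])‖ =
        ‖((a : ℤ_[p]) - (((U x p)⁻¹ : ℤ_[p]ˣ) : ℤ_[p])) * (U x p : ℤ_[p])‖ := by
      rw [norm_mul, PadicInt.norm_units, mul_one]
    have h3 : ((((a : ℤ_[p]) - (((U x p)⁻¹ : ℤ_[p]ˣ) : ℤ_[p])) * (U x p : ℤ_[p]) : ℤ_[p]) :
        ℚ_[p]) = ((a : ℚ_[p]) * f p (x : R) - (q : ℚ)) * ((q : ℚ) : ℚ_[p])⁻¹ := by
      rw [sub_mul, Units.inv_mul, PadicInt.coe_sub, PadicInt.coe_mul, PadicInt.coe_one, hu,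
        PadicInt.coe_natCast, sub_mul, mul_inv_cancel₀ hq0, mul_assoc]
    have h4 : 0 < ‖((q : ℚ) : ℚ_[p])‖ := norm_pos_iff.mpr hq0
    have h5 : ‖(a : ℤ_[p]) - (((U x p)⁻¹ : ℤ_[p]ˣ) : ℤ_[p])‖ ≤ ((p : ℕ) : ℝ) ^ (-(n : ℤ)) := by
      rw [h2, ← PadicInt.padic_norm_e_of_padicInt, h3, norm_mul, norm_inv, ← div_eq_mul_inv,
        div_le_iff₀ h4]
      exact h.trans_eq (mul_comm _ _)
    have h6 : (Recip.equiv (QuotientGroup.mk σ) p : ℤ_[p]) =
        (((U x p)⁻¹ : ℤ_[p]ˣ) : ℤ_[p]) := by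
      rw [hσ, hr]
      rfl
    rw [Recip.equiv_spec σ p n hζ, h6, toZModPow_eq h5, ZMod.val_natCast]
    exact (pow_eq_pow_mod _ hζ).symm
  · intro ℓ A hA
    apply Set.Subset.antisymm
    · rintro _ ⟨x, ⟨hx1, hx2, hx3⟩, rfl⟩
      have h1 : (U x)⁻¹ ∈ Recip.cyc '' (A.inertiaSubgroupIn ℚ : Set GQ) := by
        rw [Recip.image_inertia hA]
        intro p hp
        have hall : ∀ p : Nat.Primes, ‖f p (x : R)‖ = 1 := by
          intro p
          by_cases h : p = ℓ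
          · rw [h, hx2]
          · rw [hx3 p h, norm_one]
        rw [Pi.inv_apply, inv_eq_one]
        refine Units.ext (Subtype.ext ?_)
        exact (hone x hx1 hall p).trans (hx3 p hp)
      obtain ⟨σ, hσ, h2⟩ := h1
      refine ⟨σ, hσ, Recip.equiv.injective ?_⟩
      rw [hr]
      exact h2
    · rintro _ ⟨σ, hσ, rfl⟩
      have h1 : Recip.cyc σ ∈ {u | ∀ p : Nat.Primes, p ≠ ℓ → u p = 1} := by
        rw [← Recip.image_inertia hA]
        exact ⟨σ, hσ, rfl⟩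
      obtain ⟨x, hx, h2⟩ := hex' (Recip.cyc σ)⁻¹
      have hn : ∀ p : Nat.Primes, ‖f p (x : R)‖ = 1 := by
        intro p
        rw [← hc, h2, PadicInt.padic_norm_e_of_padicInt]
        exact PadicInt.norm_units _
      have hr' : 0 < g (x : R) := by
        rw [← hs, hx, Units.val_one]
        exact one_pos
      refine ⟨x, ⟨hr', hn ℓ, fun p hp => ?_⟩, Recip.equiv.injective ?_⟩
      · rw [← hc, h2, Pi.inv_apply, h1 p hp, inv_one, Units.val_one, PadicInt.coe_one]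
      · rw [hr]
        refine funext fun p => ?_
        rw [Pi.inv_apply, inv_eq_iff_eq_inv]
        refine Units.ext (Subtype.ext ?_)
        exact (hone x hr' hn p).trans (h2 p)

omit [IsTopologicalRing R] in
/-- Frobenius elements. -/
theorem IsArtin.frob {r : Rˣ →* TopologicalAbelianization GQ} (hr : IsArtin f g r) {x : Rˣ}
    {ℓ : Nat.Primes} (hx : 0 < g (x : R)) (hℓ : f ℓ (x : R) = (ℓ : ℕ))
    (h : ∀ p : Nat.Primes, p ≠ ℓ → f p (x : R) = 1) {σ : GQ} (hσ : QuotientGroup.mk σ = r x) :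
    (∀ (p : Nat.Primes) (n : ℕ) (ζ : Qbar), p ≠ ℓ → ζ ^ (p : ℕ) ^ n = 1 → σ ζ = ζ ^ (ℓ : ℕ)) ∧
      ∀ (n : ℕ) (ζ : Qbar), ζ ^ (ℓ : ℕ) ^ n = 1 → σ ζ = ζ := by
  have hℓ0 : ((ℓ : ℕ) : ℚ) ≠ 0 := by exact_mod_cast ℓ.2.ne_zero
  have hpos : (0 : ℝ) < (ℓ : ℕ) := by exact_mod_cast ℓ.2.pos
  have hq : 0 < (((Units.mk0 _ hℓ0 : ℚˣ) : ℚ) : ℝ) * g (x : R) := by
    rw [Units.val_mk0, Rat.cast_natCast]
    exact mul_pos hpos hx
  have hq' : ∀ p : Nat.Primes, ‖f p (x : R)‖ = ‖(((Units.mk0 _ hℓ0 : ℚˣ) : ℚ) : ℚ_[p])‖ := by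
    intro p
    rw [Units.val_mk0, Rat.cast_natCast]
    by_cases hp : p = ℓ
    · subst hp
      rw [hℓ]
    · rw [h p hp, norm_one]
      exact (Padic.norm_natCast_eq_one_iff.mpr
        ((Nat.coprime_primes p.2 ℓ.2).mpr fun h3 => hp (Subtype.ext h3))).symm
  refine ⟨fun p n ζ hp hζ => ?_, fun n ζ hζ => ?_⟩
  · refine hr.act x σ hσ _ hq hq' p n ℓ ?_ ζ hζ
    rw [h p hp, Units.val_mk0, Rat.cast_natCast, mul_one, sub_self, norm_zero]
    positivity
  · have h1 : σ ζ = ζ ^ 1 := by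
      refine hr.act x σ hσ _ hq hq' ℓ n 1 ?_ ζ hζ
      rw [hℓ, Units.val_mk0, Rat.cast_natCast, Nat.cast_one, one_mul, sub_self, norm_zero]
      positivity
    rw [h1, pow_one]

end Ring

end Ide

end

end Fermat.Agent.Cor.KW
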