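import Fermat.Agent.Corollaries.KW.IdeleRing

set_option autoImplicit false

/-!
# Sections of the components of the adele ring of `ℚ`
-/

namespace Fermat.Agent.Cor.KW

open IsDedekindDomain NumberField Rat.HeightOneSpectrum

noncomputable section

namespace Ide

local instance fact_primes4 (p : Nat.Primes) : Fact (p : ℕ).Prime := ⟨p.2⟩

/-- Adeles with given real component. -/
lemma exists_real (a : ℝ) : ∃ x : AdeleRing (𝓞 ℚ) ℚ, realComp x = a ∧
    ∀ p : Nat.Primes, finComp p x = 1 := by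
  classical
  obtain ⟨y, hy⟩ := InfinitePlace.Completion.surjective_extensionEmbeddingOfIsReal
    Rat.isReal_infinitePlace a
  refine ⟨(Function.update 1 Rat.infinitePlace y, 1), ?_, fun p => ?_⟩
  · show InfinitePlace.Completion.extensionEmbeddingOfIsReal Rat.isReal_infinitePlace
      (Function.update (1 : (v : InfinitePlace ℚ) → v.Completion) Rat.infinitePlace y
        Rat.infinitePlace) = a
    rw [Function.update_self, hy]
  · exact map_one (Padic.adicCompletionEquiv (𝓞 ℚ) p).symm

lemma exists_fam_cont : ∃ F : (v : HeightOneSpectrum (𝓞 ℚ)) →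
      {F : ((p : Nat.Primes) → ℤ_[p]) → v.adicCompletionIntegers ℚ // Continuous F},
    ∀ (p : Nat.Primes) (y : (p : Nat.Primes) → ℤ_[p]), (F (primesEquiv.symm p)).1 y =
      PadicInt.adicCompletionIntegersEquiv (𝓞 ℚ) p (y p) := by
  obtain ⟨F, hF⟩ := exists_pi (primesEquiv (R := 𝓞 ℚ)).symm
    (P := fun v => {F : ((p : Nat.Primes) → ℤ_[p]) → v.adicCompletionIntegers ℚ // Continuous F})
    fun p => ⟨fun y => PadicInt.adicCompletionIntegersEquiv (𝓞 ℚ) p (y p),
      (PadicInt.adicCompletionIntegersEquiv (𝓞 ℚ) p).continuous.comp (continuous_apply p)⟩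
  exact ⟨F, fun p y => by rw [hF]⟩

lemma symm_coe (p : Nat.Primes) (z : ℤ_[p]) : (Padic.adicCompletionEquiv (𝓞 ℚ) p).symm
    (PadicInt.adicCompletionIntegersEquiv (𝓞 ℚ) p z : _) = z := by
  rw [PadicInt.coe_adicCompletionIntegersEquiv_apply]
  exact (Padic.adicCompletionEquiv (𝓞 ℚ) p).symm_apply_apply _

lemma exists_section : ∃ X : ((p : Nat.Primes) → ℤ_[p]) → AdeleRing (𝓞 ℚ) ℚ, Continuous X ∧
    ∀ y, realComp (X y) = 1 ∧ ∀ p, finComp p (X y) = y p := by
  obtain ⟨F, hF⟩ := exists_fam_cont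
  let G : ((p : Nat.Primes) → ℤ_[p]) → FiniteAdeleRing (𝓞 ℚ) ℚ := fun y =>
    RestrictedProduct.structureMap (fun v : HeightOneSpectrum (𝓞 ℚ) => v.adicCompletion ℚ)
      (fun v => (v.adicCompletionIntegers ℚ : Set (v.adicCompletion ℚ))) Filter.cofinite
        fun v => (F v).1 y
  have hG : Continuous G := RestrictedProduct.isEmbedding_structureMap.continuous.comp
    (continuous_pi fun v => (F v).2)
  have hG1 : ∀ (y : (p : Nat.Primes) → ℤ_[p]) (p : Nat.Primes),
      (Padic.adicCompletionEquiv (𝓞 ℚ) p).symm (G y (primesEquiv.symm p)) = y p := by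
    intro y p
    have h1 : G y (primesEquiv.symm p) = ((F (primesEquiv.symm p)).1 y : _) := rfl
    rw [h1, hF]
    exact symm_coe p (y p)
  refine ⟨fun y => (1, G y), continuous_const.prodMk hG, fun y => ⟨realComp_eq_one rfl, fun p => ?_⟩⟩
  exact hG1 y p

end Ide

end

end Fermat.Agent.Cor.KW
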