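import Fermat.Agent.Corollaries.KW.IdeleOpen
import Fermat.Agent.Corollaries.KW.IdeleSec

set_option autoImplicit false

/-!
# The existence theorem of class field theory for `ℚ`

`idele_existence` : the open subgroups of finite index of the idele class group of `ℚ` correspond to
the finite abelian extensions of `ℚ`, by the Artin map.
-/

namespace Fermat.Agent.Cor.KW

open IsDedekindDomain NumberField

noncomputable section

open Ide in
/-- **The Artin map of `ℚ`**: there is exactly one homomorphism from the group of ideles of `ℚ` to the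
abelianized absolute Galois group of `ℚ` with the properties listed in `Ide.IsArtin`. -/
theorem existsUnique_artin :
    ∃! r : (AdeleRing (𝓞 ℚ) ℚ)ˣ →*
        TopologicalAbelianization (AlgebraicClosure ℚ ≃ₐ[ℚ] AlgebraicClosure ℚ),
      IsArtin finComp realComp r := by
  obtain ⟨r, hr⟩ := exists_artin
  exact ⟨r, hr, fun r' hr' => IsArtin.unique hr' hr eventually_le⟩

open Ide in
/-- **The existence theorem of class field theory for `ℚ`**: let `r` be the Artin map of `ℚ` (see
`existsUnique_artin`, `exists_artin_idele`). Every finite abelian extension `E` of `ℚ` is the class field of an open subgroup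
`H` of the group of ideles which contains the principal ideles, of index `[E : ℚ]` (an idele `x` belongs
to `H` if and only if `r x` is trivial on `E`). Every open subgroup of finite index of the group of
ideles which contains the principal ideles has exactly one class field. The correspondence reverses the
inclusions. -/
theorem idele_existence :
    ∃ r : (AdeleRing (𝓞 ℚ) ℚ)ˣ →*
        TopologicalAbelianization (AlgebraicClosure ℚ ≃ₐ[ℚ] AlgebraicClosure ℚ),
      IsArtin finComp realComp r ∧
      (∀ E : IntermediateField ℚ (AlgebraicClosure ℚ), FiniteDimensional ℚ E →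
        IsAbelianGalois ℚ E → ∃ H : Subgroup (AdeleRing (𝓞 ℚ) ℚ)ˣ,
          IsOpen (H : Set (AdeleRing (𝓞 ℚ) ℚ)ˣ) ∧
          (∀ q : ℚˣ, Units.map (algebraMap ℚ (AdeleRing (𝓞 ℚ) ℚ)).toMonoidHom q ∈ H) ∧
          H.index = Module.finrank ℚ E ∧ IsClassField r H E) ∧
      (∀ H : Subgroup (AdeleRing (𝓞 ℚ) ℚ)ˣ, IsOpen (H : Set (AdeleRing (𝓞 ℚ) ℚ)ˣ) →
        H.FiniteIndex →
        (∀ q : ℚˣ, Units.map (algebraMap ℚ (AdeleRing (𝓞 ℚ) ℚ)).toMonoidHom q ∈ H) →
          ∃! E : IntermediateField ℚ (AlgebraicClosure ℚ), FiniteDimensional ℚ E ∧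
            IsAbelianGalois ℚ E ∧ IsClassField r H E) ∧
      ∀ (H H' : Subgroup (AdeleRing (𝓞 ℚ) ℚ)ˣ) (E E' : IntermediateField ℚ (AlgebraicClosure ℚ)),
        FiniteDimensional ℚ E → IsAbelianGalois ℚ E → FiniteDimensional ℚ E' →
        IsAbelianGalois ℚ E' → IsClassField r H E → IsClassField r H' E' →
          (E ≤ E' ↔ H' ≤ H) := by
  obtain ⟨r, hr⟩ := exists_artin
  exact ⟨r, hr, exists_subgroup hr, fun H hO hH hd => existsUnique_classField hr
    (fun _ _ => adele_ext_real) exists_real exists_section hO hH hd,
    fun H H' E E' h1 h2 h3 h4 h h' => IsClassField.le_iff hr h1 h2 h3 h4 h h'⟩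

end

end Fermat.Agent.Cor.KW
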