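import Fermat.Agent.Corollaries.KW.IdeleOpen
import Fermat.Agent.Corollaries.LocCount.Existence

set_option autoImplicit false

/-!
# Local-global compatibility of the Artin maps

`Ide.IsArtin.local_global` : on the ideles with only one component the Artin map of `ℚ` is the Artin
map of `ℚ_p` (`LocCount.artin`), followed by the restriction to `ℚ̄`.
-/

namespace Fermat.Agent.Cor.KW

open Fermat.Agent.Frob Fermat.Agent.Minkowski Fermat.Agent.TW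

noncomputable section

namespace Ide

local instance fact_primes5 (p : Nat.Primes) : Fact (p : ℕ).Prime := ⟨p.2⟩

lemma norm_val_mul_sub_one_le {p : ℕ} [hp : Fact p.Prime] (u : ℤ_[p]ˣ) (n : ℕ) :
    ‖((PadicInt.toZModPow n ((u⁻¹ : ℤ_[p]ˣ) : ℤ_[p])).val : ℚ_[p]) * ((u : ℤ_[p]) : ℚ_[p]) - 1‖ ≤
      (p : ℝ) ^ (-(n : ℤ)) := by
  have : NeZero (p ^ n) := ⟨pow_ne_zero _ hp.out.ne_zero⟩
  have h1 : (((PadicInt.toZModPow n ((u⁻¹ : ℤ_[p]ˣ) : ℤ_[p])).val : ℤ_[p]) -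
      ((u⁻¹ : ℤ_[p]ˣ) : ℤ_[p])) ∈ (Ideal.span {(p : ℤ_[p]) ^ n} : Ideal ℤ_[p]) := by
    rw [← PadicInt.ker_toZModPow, RingHom.mem_ker, map_sub, map_natCast, ZMod.natCast_zmod_val,
      sub_self]
  rw [← PadicInt.norm_le_pow_iff_mem_span_pow] at h1
  have h2 : ((PadicInt.toZModPow n ((u⁻¹ : ℤ_[p]ˣ) : ℤ_[p])).val : ℚ_[p]) *
      ((u : ℤ_[p]) : ℚ_[p]) - 1 =
      ((((PadicInt.toZModPow n ((u⁻¹ : ℤ_[p]ˣ) : ℤ_[p])).val : ℤ_[p]) -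
        ((u⁻¹ : ℤ_[p]ˣ) : ℤ_[p])) * (u : ℤ_[p]) : ℤ_[p]) := by
    rw [sub_mul, Units.inv_mul, PadicInt.coe_sub, PadicInt.coe_mul, PadicInt.coe_one,
      PadicInt.coe_natCast]
  rw [h2, PadicInt.padic_norm_e_of_padicInt, norm_mul, PadicInt.norm_units, mul_one]
  exact h1

/-- `P ^ j ≡ P ^ k` modulo `ℓ ^ n` if `j ≡ k` modulo `φ(ℓ ^ n)`. -/
lemma norm_pow_sub_zpow_le {ℓ P : ℕ} [hℓ : Fact ℓ.Prime] (hP : P.Prime) (hne : ℓ ≠ P) (n : ℕ)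
    {j : ℕ} {k : ℤ} (hj : (j : ℤ) ≡ k [ZMOD (ℓ ^ n).totient]) :
    ‖((P : ℚ_[ℓ]) ^ j - (P : ℚ_[ℓ]) ^ k)‖ ≤ (ℓ : ℝ) ^ (-(n : ℤ)) := by
  have hcop : Nat.Coprime ℓ P := (Nat.coprime_primes hℓ.out hP).mpr hne
  obtain ⟨w, hw⟩ : IsUnit (P : ℤ_[ℓ]) := by
    rw [PadicInt.isUnit_iff, PadicInt.norm_natCast_eq_one_iff]
    exact hcop
  have hw' : ((w : ℤ_[ℓ]) : ℚ_[ℓ]) = P := by rw [hw, PadicInt.coe_natCast]
  have hz : ∀ m : ℤ, (((w ^ m : ℤ_[ℓ]ˣ) : ℤ_[ℓ]) : ℚ_[ℓ]) = (P : ℚ_[ℓ]) ^ m := by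
    intro m
    have h1 := congrArg Units.val (map_zpow (LocCount.incl ℓ) w m)
    rw [LocCount.coe_incl, Units.val_zpow_eq_zpow_val, LocCount.coe_incl, hw'] at h1
    exact h1
  have h2 : (Units.map (PadicInt.toZModPow n : ℤ_[ℓ] →+* ZMod (ℓ ^ n)).toMonoidHom w) ^ (j : ℤ) =
      (Units.map (PadicInt.toZModPow n : ℤ_[ℓ] →+* ZMod (ℓ ^ n)).toMonoidHom w) ^ k := by
    obtain ⟨m, hm⟩ := hj.dvd
    have h3 : k = j + ((ℓ ^ n).totient : ℤ) * m := by linarith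
    rw [h3, zpow_add, zpow_mul, zpow_natCast _ (ℓ ^ n).totient, ZMod.pow_totient, one_zpow, mul_one]
  have h3 : ((w ^ (j : ℤ) : ℤ_[ℓ]ˣ) : ℤ_[ℓ]) - ((w ^ k : ℤ_[ℓ]ˣ) : ℤ_[ℓ]) ∈
      (Ideal.span {(ℓ : ℤ_[ℓ]) ^ n} : Ideal ℤ_[ℓ]) := by
    rw [← PadicInt.ker_toZModPow, RingHom.mem_ker, map_sub, sub_eq_zero]
    have h4 := congrArg Units.val h2
    rw [← map_zpow, ← map_zpow] at h4
    exact h4
  rw [← PadicInt.norm_le_pow_iff_mem_span_pow, ← PadicInt.padic_norm_e_of_padicInt,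
    PadicInt.coe_sub, hz, hz, zpow_natCast] at h3
  exact h3

section Ring

variable {R : Type*} [CommRing R] [TopologicalSpace R]
  {f : (p : Nat.Primes) → R →+* ℚ_[p]} {g : R →+* ℝ}
  {r : Rˣ →* TopologicalAbelianization GQ}

/-- **Local-global compatibility**: let `x` be an idele with component `y` at the prime number `P` and
`1` elsewhere (positive at the real place). If the automorphism `τ` of `PadicAlgCl P` has the class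
`artin P y` and `σ` is the restriction of `τ` to `ℚ̄` (for an embedding `ι`), then `σ` has the class
`r x`. -/
theorem IsArtin.local_global (hr : IsArtin f g r) {P : Nat.Primes} {y : ℚ_[P]ˣ} {x : Rˣ}
    (hx : 0 < g (x : R)) (hP : f P (x : R) = y)
    (h : ∀ ℓ : Nat.Primes, ℓ ≠ P → f ℓ (x : R) = 1) {ι : Qbar →+* PadicAlgCl P}
    {τ : PadicAlgCl P ≃ₐ[ℚ_[P]] PadicAlgCl P}
    (hτ : QuotientGroup.mk τ = LocCount.artin P y) {σ : GQ} (hσ : ∀ z, ι (σ z) = τ (ι z)) :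
    QuotientGroup.mk σ = r x := by
  obtain ⟨u, k, hy⟩ : ∃ (u : ℤ_[P]ˣ) (k : ℤ), y = LocCount.incl P u * LocCount.unif P ^ k := by
    obtain ⟨⟨u, k⟩, hy⟩ := LocCount.jay_bijective.surjective y
    exact ⟨u, k.toAdd, hy.symm⟩
  subst hy
  have hP0 : ((P : ℕ) : ℚ) ≠ 0 := by exact_mod_cast P.2.ne_zero
  have hpos : (0 : ℝ) < (P : ℕ) := by exact_mod_cast P.2.pos
  let q : ℚˣ := Units.mk0 ((P : ℕ) : ℚ) hP0 ^ k
  have hqv : (q : ℚ) = ((P : ℕ) : ℚ) ^ k := by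
    rw [Units.val_zpow_eq_zpow_val, Units.val_mk0]
  have hqp : ∀ ℓ : Nat.Primes, ((q : ℚ) : ℚ_[ℓ]) = ((P : ℕ) : ℚ_[ℓ]) ^ k := fun ℓ => by
    rw [hqv, Rat.cast_zpow, Rat.cast_natCast]
  have hyv : ((LocCount.incl P u * LocCount.unif P ^ k : ℚ_[P]ˣ) : ℚ_[P]) =
      ((u : ℤ_[P]) : ℚ_[P]) * ((P : ℕ) : ℚ_[P]) ^ k := by
    rw [Units.val_mul, Units.val_zpow_eq_zpow_val]
    rfl
  have hnu : ‖((u : ℤ_[P]) : ℚ_[P])‖ = 1 := by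
    rw [PadicInt.padic_norm_e_of_padicInt]
    exact PadicInt.norm_units u
  have hnP : ∀ ℓ : Nat.Primes, ℓ ≠ P → ‖((P : ℕ) : ℚ_[ℓ])‖ = 1 := fun ℓ hℓ =>
    Padic.norm_natCast_eq_one_iff.mpr
      ((Nat.coprime_primes ℓ.2 P.2).mpr fun h3 => hℓ (Subtype.ext h3))
  have hq : 0 < ((q : ℚ) : ℝ) * g (x : R) := by
    rw [hqv, Rat.cast_zpow, Rat.cast_natCast]
    exact mul_pos (zpow_pos hpos k) hx
  have hq' : ∀ ℓ : Nat.Primes, ‖f ℓ (x : R)‖ = ‖((q : ℚ) : ℚ_[ℓ])‖ := by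
    intro ℓ
    rw [hqp]
    by_cases hℓ : ℓ = P
    · subst hℓ
      rw [hP, hyv, norm_mul, hnu, one_mul]
    · rw [h ℓ hℓ, norm_one, norm_zpow, hnP ℓ hℓ, one_zpow]
  obtain ⟨σ', hσ'⟩ := QuotientGroup.mk_surjective (r x)
  rw [← hσ']
  refine Recip.equiv.injective (funext fun ℓ => Recip.chi_eq (p := ℓ) fun n ζ hζ => ?_)
  refine Eq.trans ?_ (Recip.chi_spec ℓ n σ' hζ)
  by_cases hℓ : ℓ = P
  · subst hℓ
    have h1 : σ ζ = ζ ^ (PadicInt.toZModPow n ((u⁻¹ : ℤ_[ℓ]ˣ) : ℤ_[ℓ])).val := by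
      refine ι.injective ?_
      rw [hσ, map_pow]
      exact LocCount.artin_act_ppow hτ n (by rw [← map_pow, hζ, map_one])
    rw [h1]
    refine (hr.act x σ' hσ' q hq hq' ℓ n _ ?_ ζ hζ).symm
    rw [hP, hyv, hqp, ← mul_assoc, ← sub_one_mul, norm_mul, mul_comm]
    exact mul_le_mul_of_nonneg_left (norm_val_mul_sub_one_le u n) (norm_nonneg _)
  · have hN : ((ℓ : ℕ) ^ n).totient ≠ 0 :=
      (Nat.totient_pos.mpr (pow_pos ℓ.2.pos n)).ne'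
    have hj : (((k % (((ℓ : ℕ) ^ n).totient : ℤ)).toNat : ℕ) : ℤ) ≡ k
        [ZMOD ((ℓ : ℕ) ^ n).totient] := by
      rw [Int.toNat_of_nonneg (Int.emod_nonneg _ (by exact_mod_cast hN))]
      exact Int.mod_modEq _ _
    have hcop : Nat.Coprime (P : ℕ) ((ℓ : ℕ) ^ n) := Nat.Coprime.pow_right n
      ((Nat.coprime_primes P.2 ℓ.2).mpr fun h3 => hℓ (Subtype.ext h3.symm))
    have hdvd : (ℓ : ℕ) ^ n ∣ (P : ℕ) ^ ((ℓ : ℕ) ^ n).totient - 1 :=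
      (Nat.modEq_iff_dvd' (Nat.one_le_pow _ _ P.2.pos)).mp (Nat.ModEq.pow_totient hcop).symm
    have h1 : σ ζ = ζ ^ (P : ℕ) ^ (k % (((ℓ : ℕ) ^ n).totient : ℤ)).toNat := by
      refine ι.injective ?_
      rw [hσ, map_pow]
      refine LocCount.artin_act_unr hτ hN hj ?_
      obtain ⟨c, hc⟩ := hdvd
      rw [← map_pow, hc, pow_mul, hζ, one_pow, map_one]
    rw [h1]
    refine (hr.act x σ' hσ' q hq hq' ℓ n _ ?_ ζ hζ).symm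
    rw [h ℓ hℓ, hqp, mul_one, Nat.cast_pow, norm_zpow, hnP ℓ hℓ, one_zpow, one_mul]
    exact norm_pow_sub_zpow_le P.2 (fun h3 => hℓ (Subtype.ext h3)) n hj

end Ring

end Ide

end

end Fermat.Agent.Cor.KW
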