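import Fermat.Agent.Corollaries.KW.IdeleExist
import Fermat.Agent.Corollaries.KW.LocGlob

set_option autoImplicit false

/-!
# The Artin map of `ℚ` is the product of the Artin maps of the fields `ℚ_p`

`artin_local_global` : local-global compatibility of the Artin maps.
-/

namespace Fermat.Agent.Cor.KW

open IsDedekindDomain NumberField Rat.HeightOneSpectrum

noncomputable section

local instance Ide.fact_primes6 (p : Nat.Primes) : Fact (p : ℕ).Prime := ⟨p.2⟩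

namespace Ide

/-- Adeles with given components, integral at all prime numbers but one. -/
lemma exists_adele_local (P : Nat.Primes) (y : ℚ_[P]) : ∃ x : AdeleRing (𝓞 ℚ) ℚ,
    realComp x = 1 ∧ finComp P x = y ∧ ∀ ℓ : Nat.Primes, ℓ ≠ P → finComp ℓ x = 1 := by
  classical
  obtain ⟨f, hf⟩ := exists_pi (primesEquiv (R := 𝓞 ℚ)).symm (P := fun v => v.adicCompletion ℚ)
    fun ℓ => Padic.adicCompletionEquiv (𝓞 ℚ) ℓ
      (Function.update (1 : (ℓ : Nat.Primes) → ℚ_[ℓ]) P y ℓ)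
  have hf' : ∀ᶠ v in Filter.cofinite, f v ∈ v.adicCompletionIntegers ℚ := by
    refine (Set.finite_singleton ((primesEquiv (R := 𝓞 ℚ)).symm P)).subset fun v hv => ?_
    obtain ⟨ℓ, rfl⟩ := (primesEquiv (R := 𝓞 ℚ)).symm.surjective v
    by_contra h
    have hℓ : ℓ ≠ P := fun h1 => h (congrArg _ h1)
    apply hv
    show f (primesEquiv.symm ℓ) ∈ (primesEquiv.symm ℓ).adicCompletionIntegers ℚ
    have h1 : (1 : ℚ_[ℓ]) = ((1 : ℤ_[ℓ]) : ℚ_[ℓ]) := PadicInt.coe_one.symm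
    rw [hf, Function.update_of_ne hℓ, Pi.one_apply, h1]
    exact mem_integers ℓ 1
  refine ⟨(1, ⟨f, hf'⟩), realComp_eq_one rfl, ?_, fun ℓ hℓ => ?_⟩
  · have h1 : (Padic.adicCompletionEquiv (𝓞 ℚ) P).symm (f (primesEquiv.symm P)) = y := by
      rw [hf, Function.update_self]
      exact (Padic.adicCompletionEquiv (𝓞 ℚ) P).symm_apply_apply _
    exact h1
  · have h1 : (Padic.adicCompletionEquiv (𝓞 ℚ) ℓ).symm (f (primesEquiv.symm ℓ)) = 1 := by
      rw [hf, Function.update_of_ne hℓ]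
      exact (Padic.adicCompletionEquiv (𝓞 ℚ) ℓ).symm_apply_apply _
    exact h1

/-- Ideles with one component. -/
lemma exists_idele_local (P : Nat.Primes) (y : ℚ_[P]ˣ) : ∃ x : (AdeleRing (𝓞 ℚ) ℚ)ˣ,
    realComp (x : AdeleRing (𝓞 ℚ) ℚ) = 1 ∧ finComp P (x : AdeleRing (𝓞 ℚ) ℚ) = y ∧
      ∀ ℓ : Nat.Primes, ℓ ≠ P → finComp ℓ (x : AdeleRing (𝓞 ℚ) ℚ) = 1 := by
  obtain ⟨x, h1, h2, h3⟩ := exists_adele_local P y
  obtain ⟨x', h1', h2', h3'⟩ := exists_adele_local P (y⁻¹ : ℚ_[P]ˣ)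
  have hx : x * x' = 1 := by
    refine adele_ext_real ?_ fun ℓ => ?_
    · rw [map_mul, h1, h1', one_mul, map_one]
    · by_cases hℓ : ℓ = P
      · subst hℓ
        rw [map_mul, h2, h2', Units.mul_inv, map_one]
      · rw [map_mul, h3 ℓ hℓ, h3' ℓ hℓ, one_mul, map_one]
  exact ⟨⟨x, x', hx, by rw [mul_comm, hx]⟩, h1, h2, h3⟩

end Ide

open Ide in
/-- **Local-global compatibility of the Artin maps**: let `r` be the Artin map of `ℚ` (see
`existsUnique_artin`), `P` a prime number and `y` a non-zero element of `ℚ_P`. There are ideles `x` with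
component `y` at `P` and `1` elsewhere; for every such `x` and every automorphism `τ` of `PadicAlgCl P`
whose class is the image of `y` under the Artin map of `ℚ_P` (`LocCount.artin`) the class of the
restriction of `τ` to `ℚ̄` is `r x`. -/
theorem artin_local_global :
    ∃ r : (AdeleRing (𝓞 ℚ) ℚ)ˣ →*
        TopologicalAbelianization (AlgebraicClosure ℚ ≃ₐ[ℚ] AlgebraicClosure ℚ),
      IsArtin finComp realComp r ∧ ∀ (P : Nat.Primes) (y : ℚ_[P]ˣ),
        (∃ x : (AdeleRing (𝓞 ℚ) ℚ)ˣ, realComp (x : AdeleRing (𝓞 ℚ) ℚ) = 1 ∧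
          finComp P (x : AdeleRing (𝓞 ℚ) ℚ) = y ∧
            ∀ ℓ : Nat.Primes, ℓ ≠ P → finComp ℓ (x : AdeleRing (𝓞 ℚ) ℚ) = 1) ∧
        ∀ x : (AdeleRing (𝓞 ℚ) ℚ)ˣ, 0 < realComp (x : AdeleRing (𝓞 ℚ) ℚ) →
          finComp P (x : AdeleRing (𝓞 ℚ) ℚ) = y →
          (∀ ℓ : Nat.Primes, ℓ ≠ P → finComp ℓ (x : AdeleRing (𝓞 ℚ) ℚ) = 1) →
            ∀ τ : PadicAlgCl P ≃ₐ[ℚ_[P]] PadicAlgCl P, QuotientGroup.mk τ = LocCount.artin P y →
              QuotientGroup.mk (localGaloisToGlobal P τ) = r x := by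
  obtain ⟨r, hr⟩ := exists_artin
  refine ⟨r, hr, fun P y => ⟨exists_idele_local P y, fun x hx hP h τ hτ => ?_⟩⟩
  exact hr.local_global hx hP h (ι := (padicEmbedding P).toRingHom) hτ fun z =>
    padicEmbedding_localGaloisToGlobal P τ z

end

end Fermat.Agent.Cor.KW
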