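import Fermat.Agent.Corollaries.KW.IdeleAbs
import Fermat.Agent.Corollaries.LocCount.Galois

set_option autoImplicit false

/-!
# The existence theorem, abstract form

Let `R` be a topological ring with components at the prime numbers and at the real place and `r` its
Artin map. The open subgroups of finite index of `Rˣ` which contain `ℚˣ` correspond to the finite
abelian extensions of `ℚ`.
-/

namespace Fermat.Agent.Cor.KW

open Fermat.Agent.Frob Fermat.Agent.Minkowski Fermat.Agent.TW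
open Module

noncomputable section

namespace Ide

local instance fact_primes3 (p : Nat.Primes) : Fact (p : ℕ).Prime := ⟨p.2⟩

section Ring

variable {R : Type*} [CommRing R] [TopologicalSpace R]
  {f : (p : Nat.Primes) → R →+* ℚ_[p]} {g : R →+* ℝ} {d : ℚ →+* R}
  {r : Rˣ →* TopologicalAbelianization GQ}

/-- The subgroups of finite index which contain `ℚˣ` contain the kernel of the Artin map. -/
theorem ker_le_of_finiteIndex (hr : IsArtin f g r)
    (hinj : ∀ x y : R, g x = g y → (∀ p, f p x = f p y) → x = y)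
    (hreal : ∀ a : ℝ, ∃ x : R, g x = a ∧ ∀ p : Nat.Primes, f p x = 1)
    {H : Subgroup Rˣ} (hH : H.FiniteIndex) (hd : ∀ q : ℚˣ, Units.map d.toMonoidHom q ∈ H) :
    r.ker ≤ H := by
  intro x hx
  obtain ⟨q, hq, hpos⟩ := (hr.eq_one_iff x).mp hx
  have hn : H.index ≠ 0 := hH.index_ne_zero
  have hq0 : ((q : ℚ) : ℝ) ≠ 0 := by exact_mod_cast q.ne_zero
  have ha : 0 < ((q : ℚ) : ℝ)⁻¹ * g (x : R) := by
    have h1 : ((q : ℚ) : ℝ)⁻¹ * g (x : R) =
        (((q : ℚ) : ℝ) * g (x : R)) * (((q : ℚ) : ℝ)⁻¹) ^ 2 := by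
      field_simp
    rw [h1]
    exact mul_pos hpos (by positivity)
  have hb0 : 0 < (((q : ℚ) : ℝ)⁻¹ * g (x : R)) ^ ((H.index : ℝ)⁻¹) := Real.rpow_pos_of_pos ha _
  have hbn : ((((q : ℚ) : ℝ)⁻¹ * g (x : R)) ^ ((H.index : ℝ)⁻¹)) ^ H.index =
      ((q : ℚ) : ℝ)⁻¹ * g (x : R) := Real.rpow_inv_natCast_pow ha.le hn
  obtain ⟨s, hs, hs'⟩ := hreal ((((q : ℚ) : ℝ)⁻¹ * g (x : R)) ^ ((H.index : ℝ)⁻¹))
  obtain ⟨t, ht, ht'⟩ := hreal ((((q : ℚ) : ℝ)⁻¹ * g (x : R)) ^ ((H.index : ℝ)⁻¹))⁻¹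
  have hst : s * t = 1 := hinj _ _ (by rw [map_mul, hs, ht, mul_inv_cancel₀ hb0.ne', map_one])
    fun p => by rw [map_mul, hs', ht', one_mul, map_one]
  let S : Rˣ := ⟨s, t, hst, by rw [mul_comm, hst]⟩
  have hx' : x = Units.map d.toMonoidHom q * S ^ H.index := by
    refine Units.ext (hinj _ _ ?_ fun p => ?_)
    · show g (x : R) = g (d q * s ^ H.index)
      have h2 : g (d (q : ℚ)) = ((q : ℚ) : ℝ) := eq_ratCast (g.comp d) (q : ℚ)
      rw [map_mul, map_pow, hs, hbn, h2, mul_inv_cancel_left₀ hq0]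
    · show f p (x : R) = f p (d q * s ^ H.index)
      have h2 : f p (d (q : ℚ)) = ((q : ℚ) : ℚ_[p]) := eq_ratCast ((f p).comp d) (q : ℚ)
      rw [map_mul, map_pow, hs', one_pow, mul_one, hq p, h2]
  rw [hx']
  exact H.mul_mem (hd q) (H.pow_index_mem S)

theorem equiv_of_units (hr : IsArtin f g r) {x : Rˣ} (hx : g (x : R) = 1)
    {u : (p : Nat.Primes) → ℤ_[p]ˣ} (h : ∀ p : Nat.Primes, f p (x : R) = (u p : ℤ_[p])) :
    Recip.equiv (r x) = u⁻¹ := by
  obtain ⟨σ, hσ⟩ := QuotientGroup.mk_surjective (r x)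
  rw [← hσ]
  refine funext fun p => Recip.chi_eq (p := p) fun n ζ hζ => ?_
  have : NeZero ((p : ℕ) ^ n) := ⟨pow_ne_zero _ p.2.ne_zero⟩
  have hu : ‖((u p : ℤ_[p]) : ℚ_[p])‖ = 1 := by
    rw [PadicInt.padic_norm_e_of_padicInt]
    exact PadicInt.norm_units (u p)
  refine hr.act x σ hσ 1 ?_ (fun q => ?_) p n
    (((u⁻¹ : (p : Nat.Primes) → ℤ_[p]ˣ) p : ℤ_[p]).toZModPow n).val ?_ ζ hζ
  · rw [hx, Units.val_one, Rat.cast_one, mul_one]
    exact one_pos
  · rw [h q, PadicInt.padic_norm_e_of_padicInt, Units.val_one, Rat.cast_one, norm_one]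
    exact PadicInt.norm_units (u q)
  · rw [h p, Units.val_one, Rat.cast_one, norm_one, one_mul]
    have h1 : ((((((u⁻¹ : (p : Nat.Primes) → ℤ_[p]ˣ) p : ℤ_[p]).toZModPow n).val : ℕ) : ℤ_[p]) -
        ((u⁻¹ : (p : Nat.Primes) → ℤ_[p]ˣ) p : ℤ_[p])) ∈
          (Ideal.span {((p : ℕ) : ℤ_[p]) ^ n} : Ideal ℤ_[p]) := by
      rw [← PadicInt.ker_toZModPow, RingHom.mem_ker, map_sub, map_natCast, ZMod.natCast_zmod_val,
        sub_self]
    rw [← PadicInt.norm_le_pow_iff_mem_span_pow] at h1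
    have h2 : (((((u⁻¹ : (p : Nat.Primes) → ℤ_[p]ˣ) p : ℤ_[p]).toZModPow n).val : ℕ) : ℚ_[p]) *
        ((u p : ℤ_[p]) : ℚ_[p]) - 1 =
        (((((((u⁻¹ : (p : Nat.Primes) → ℤ_[p]ˣ) p : ℤ_[p]).toZModPow n).val : ℕ) : ℤ_[p]) -
          ((u⁻¹ : (p : Nat.Primes) → ℤ_[p]ˣ) p : ℤ_[p])) * (u p : ℤ_[p]) : ℤ_[p]) := by
      rw [sub_mul, Pi.inv_apply, Units.inv_mul, PadicInt.coe_sub, PadicInt.coe_mul,
        PadicInt.coe_one, PadicInt.coe_natCast]
    rw [h2, PadicInt.padic_norm_e_of_padicInt, norm_mul, PadicInt.norm_units, mul_one]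
    exact h1

theorem isOpen_map (hr : IsArtin f g r)
    (hinj : ∀ x y : R, g x = g y → (∀ p, f p x = f p y) → x = y)
    (hX : ∃ X : ((p : Nat.Primes) → ℤ_[p]) → R, Continuous X ∧
      ∀ y, g (X y) = 1 ∧ ∀ p, f p (X y) = y p)
    {H : Subgroup Rˣ} (hH : IsOpen (H : Set Rˣ)) :
    IsOpen ((H.map (Recip.equiv.toMulEquiv.toMonoidHom.comp r) : Subgroup _) :
      Set ((p : Nat.Primes) → ℤ_[p]ˣ)) := by
  obtain ⟨X, hXc, hX1⟩ := hX
  let co : ((p : Nat.Primes) → ℤ_[p]ˣ) → ((p : Nat.Primes) → ℤ_[p]) := fun u p => u p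
  have hco : Continuous co := continuous_pi fun p => Units.continuous_val.comp (continuous_apply p)
  have hmul : ∀ u v, X (co (u * v)) = X (co u) * X (co v) := fun u v =>
    hinj _ _ (by rw [map_mul, (hX1 _).1, (hX1 _).1, (hX1 _).1, one_mul]) fun p => by
      rw [map_mul, (hX1 _).2, (hX1 _).2, (hX1 _).2, ← PadicInt.coe_mul]
      rfl
  have hone : X (co 1) = 1 := hinj _ _ (by rw [(hX1 _).1, map_one]) fun p => by
    rw [(hX1 _).2, map_one]
    exact PadicInt.coe_one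
  let J : ((p : Nat.Primes) → ℤ_[p]ˣ) →* Rˣ :=
    { toFun := fun u => ⟨X (co u), X (co u⁻¹), by rw [← hmul, mul_inv_cancel, hone],
        by rw [← hmul, inv_mul_cancel, hone]⟩
      map_one' := Units.ext hone
      map_mul' := fun u v => Units.ext (hmul u v) }
  have hJ : Continuous J := Units.continuous_iff.mpr
    ⟨hXc.comp hco, hXc.comp (hco.comp continuous_inv)⟩
  have hrJ : ∀ u, Recip.equiv (r (J u)) = u⁻¹ := fun u =>
    equiv_of_units hr (x := J u) (hX1 _).1 (hX1 _).2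
  refine Subgroup.isOpen_mono (H₁ := H.comap (J.comp (invMonoidHom))) ?_ ?_
  · intro u hu
    refine ⟨J u⁻¹, hu, ?_⟩
    exact (hrJ u⁻¹).trans (inv_inv u)
  · exact hH.preimage (hJ.comp continuous_inv)

/-- Approximation of `q / y` by a natural number. -/
lemma exists_nat_approx {p : ℕ} [Fact p.Prime] {y z : ℚ_[p]} (hz : z ≠ 0) (h : ‖y‖ = ‖z‖) (n : ℕ) :
    ∃ a : ℕ, ‖(a : ℚ_[p]) * y - z‖ ≤ ‖z‖ * (p : ℝ) ^ (-(n : ℤ)) := by
  have hy : y ≠ 0 := norm_ne_zero_iff.mp (by rw [h]; exact norm_ne_zero_iff.mpr hz)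
  have hw : ‖z / y‖ ≤ 1 := by rw [norm_div, h, div_self (norm_ne_zero_iff.mpr hz)]
  let w : ℤ_[p] := ⟨z / y, hw⟩
  refine ⟨w.appr n, ?_⟩
  have h1 := PadicInt.appr_spec n w
  rw [← PadicInt.norm_le_pow_iff_mem_span_pow, ← PadicInt.padic_norm_e_of_padicInt,
    PadicInt.coe_sub, PadicInt.coe_natCast] at h1
  have h2 : (w.appr n : ℚ_[p]) * y - z = -((z / y - (w.appr n : ℚ_[p])) * y) := by
    field_simp
    ring
  rw [h2, norm_neg, norm_mul, h, mul_comm]
  exact mul_le_mul_of_nonneg_left h1 (norm_nonneg z)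

/-- The Artin map is unique. -/
theorem IsArtin.unique {r' : Rˣ →* TopologicalAbelianization GQ} (hr : IsArtin f g r)
    (hr' : IsArtin f g r')
    (hle : ∀ x : R, ∀ᶠ p : Nat.Primes in Filter.cofinite, ‖f p x‖ ≤ 1) : r = r' := by
  refine MonoidHom.ext fun x => ?_
  obtain ⟨q, hq⟩ : ∃ q : ℚˣ, IsContent (fun p => Units.map (f p).toMonoidHom)
      (Units.map g.toMonoidHom) x q := by
    refine exists_content ?_
    filter_upwards [hle (x : R), hle ((x⁻¹ : Rˣ) : R)] with p h1 h2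
    exact norm_eq_one_of x.mul_inv h1 h2
  obtain ⟨σ, hσ⟩ := QuotientGroup.mk_surjective (r x)
  obtain ⟨τ, hτ⟩ := QuotientGroup.mk_surjective (r' x)
  rw [← hσ, ← hτ]
  refine Recip.equiv.injective (funext fun p => Recip.chi_eq (p := p) fun n ζ hζ => ?_)
  obtain ⟨a, ha⟩ := exists_nat_approx (y := f p (x : R)) (z := ((q : ℚ) : ℚ_[p]))
    (by exact_mod_cast q.ne_zero) (hq.2 p) n
  have h1 : σ ζ = ζ ^ a := hr.act x σ hσ q hq.1 hq.2 p n a ha ζ hζ
  have h2 : τ ζ = ζ ^ a := hr'.act x τ hτ q hq.1 hq.2 p n a ha ζ hζ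
  rw [h1, ← h2]
  exact Recip.chi_spec p n τ hζ

/-- `E` is the class field of the subgroup `H`: the elements of `H` are those whose image under the
Artin map `r` is trivial on `E`. -/
def IsClassField (r : Rˣ →* TopologicalAbelianization GQ) (H : Subgroup Rˣ)
    (E : IntermediateField ℚ Qbar) : Prop :=
  ∀ x : Rˣ, x ∈ H ↔ ∀ σ : GQ, QuotientGroup.mk σ = r x → ∀ y ∈ E, σ y = y

/-- The unit component of the Artin map. -/
abbrev rho (r : Rˣ →* TopologicalAbelianization GQ) : Rˣ →* ((p : Nat.Primes) → ℤ_[p]ˣ) :=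
  Recip.equiv.toMulEquiv.toMonoidHom.comp r

omit [TopologicalSpace R] in
lemma isClassField_comap (V : OpenSubgroup ((p : Nat.Primes) → ℤ_[p]ˣ)) :
    IsClassField r ((V : Subgroup _).comap (rho r)) (LocCount.fieldOf Recip.equiv V) := by
  have h1 : ∀ σ : GQ, (∀ y ∈ LocCount.fieldOf Recip.equiv V, σ y = y) ↔
      Recip.equiv (QuotientGroup.mk σ) ∈ V := by
    intro σ
    rw [← IntermediateField.mem_fixingSubgroup_iff, LocCount.fixingSubgroup_fieldOf]
    rfl
  intro x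
  constructor
  · intro hx σ hσ
    rw [h1, hσ]
    exact hx
  · intro h
    obtain ⟨σ, hσ⟩ := QuotientGroup.mk_surjective (r x)
    have h2 := (h1 σ).mp (h σ hσ)
    rw [hσ] at h2
    exact h2

lemma rho_surjective (hr : IsArtin f g r) : Function.Surjective (rho r) :=
  Recip.equiv.toMulEquiv.surjective.comp hr.surjective

lemma continuous_rho (hr : IsArtin f g r) : Continuous (rho r) :=
  Recip.equiv.continuous.comp hr.continuous

lemma map_principal (hr : IsArtin f g r) (q : ℚˣ) : r (Units.map d.toMonoidHom q) = 1 := by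
  have h2 : g (d (q : ℚ)) = ((q : ℚ) : ℝ) := eq_ratCast (g.comp d) (q : ℚ)
  have h3 : ((q : ℚ) : ℝ) ≠ 0 := by exact_mod_cast q.ne_zero
  refine (hr.eq_one_iff _).mpr ⟨q, fun p => eq_ratCast ((f p).comp d) (q : ℚ), ?_⟩
  show 0 < ((q : ℚ) : ℝ) * g (d (q : ℚ))
  rw [h2]
  exact mul_self_pos.mpr h3

omit [TopologicalSpace R] in
lemma exists_fieldOf_rat (E : IntermediateField ℚ Qbar) (h1 : FiniteDimensional ℚ E)
    (h2 : IsAbelianGalois ℚ E) :
    ∃ U : OpenSubgroup ((p : Nat.Primes) → ℤ_[p]ˣ), LocCount.fieldOf Recip.equiv U = E :=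
  @LocCount.exists_fieldOf ℚ Qbar _ _ _ _ _ _ _ _ Recip.equiv E h1 h2

/-- The subgroup of a finite abelian extension. -/
theorem exists_subgroup (hr : IsArtin f g r) (E : IntermediateField ℚ Qbar)
    (hE : FiniteDimensional ℚ E) (hE' : IsAbelianGalois ℚ E) : ∃ H : Subgroup Rˣ,
      IsOpen (H : Set Rˣ) ∧ (∀ q : ℚˣ, Units.map d.toMonoidHom q ∈ H) ∧ H.index = finrank ℚ E ∧
        IsClassField r H E := by
  obtain ⟨V, rfl⟩ := exists_fieldOf_rat E hE hE'
  refine ⟨(V : Subgroup ((p : Nat.Primes) → ℤ_[p]ˣ)).comap (rho r), ?_, fun q => ?_, ?_,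
    isClassField_comap V⟩
  · exact V.isOpen.preimage (continuous_rho hr)
  · show Recip.equiv (r (Units.map d.toMonoidHom q)) ∈ V
    rw [map_principal hr, map_one]
    exact one_mem V
  · rw [Subgroup.index_comap_of_surjective _ (rho_surjective hr), LocCount.finrank_fieldOf]

/-- **The existence theorem.** -/
theorem existsUnique_classField (hr : IsArtin f g r)
    (hinj : ∀ x y : R, g x = g y → (∀ p, f p x = f p y) → x = y)
    (hreal : ∀ a : ℝ, ∃ x : R, g x = a ∧ ∀ p : Nat.Primes, f p x = 1)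
    (hX : ∃ X : ((p : Nat.Primes) → ℤ_[p]) → R, Continuous X ∧
      ∀ y, g (X y) = 1 ∧ ∀ p, f p (X y) = y p)
    {H : Subgroup Rˣ} (hO : IsOpen (H : Set Rˣ)) (hH : H.FiniteIndex)
    (hd : ∀ q : ℚˣ, Units.map d.toMonoidHom q ∈ H) :
    ∃! E : IntermediateField ℚ Qbar, FiniteDimensional ℚ E ∧ IsAbelianGalois ℚ E ∧
      IsClassField r H E := by
  let V : OpenSubgroup ((p : Nat.Primes) → ℤ_[p]ˣ) := ⟨H.map (rho r), isOpen_map hr hinj hX hO⟩
  have hker : (rho r).ker ≤ H := by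
    intro x hx
    refine ker_le_of_finiteIndex hr hinj hreal hH hd ?_
    exact Recip.equiv.injective ((MonoidHom.mem_ker.mp hx).trans (map_one Recip.equiv).symm)
  have hHV : (V : Subgroup _).comap (rho r) = H := Subgroup.comap_map_eq_self hker
  refine ⟨LocCount.fieldOf Recip.equiv V, ⟨LocCount.finiteDimensional_fieldOf Recip.equiv V,
    LocCount.isAbelianGalois_fieldOf Recip.equiv V, ?_⟩, ?_⟩
  · have h1 := isClassField_comap (r := r) V
    rwa [hHV] at h1
  · rintro E ⟨h1, h2, h3⟩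
    obtain ⟨U, rfl⟩ := exists_fieldOf_rat E h1 h2
    have h4 : (U : Subgroup _).comap (rho r) = (V : Subgroup _).comap (rho r) := by
      rw [hHV]
      ext x
      rw [isClassField_comap U x, h3 x]
    have h5 : (U : Subgroup ((p : Nat.Primes) → ℤ_[p]ˣ)) = V :=
      Subgroup.comap_injective (rho_surjective hr) h4
    have h6 : U = V := OpenSubgroup.toSubgroup_injective h5
    rw [h6]

/-- The correspondence reverses inclusions. -/
theorem IsClassField.le_iff (hr : IsArtin f g r) {H H' : Subgroup Rˣ}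
    {E E' : IntermediateField ℚ Qbar} (hE : FiniteDimensional ℚ E) (hE2 : IsAbelianGalois ℚ E)
    (hE' : FiniteDimensional ℚ E') (hE2' : IsAbelianGalois ℚ E') (h : IsClassField r H E)
    (h' : IsClassField r H' E') : E ≤ E' ↔ H' ≤ H := by
  obtain ⟨U, rfl⟩ := exists_fieldOf_rat E hE hE2
  obtain ⟨U', rfl⟩ := exists_fieldOf_rat E' hE' hE2'
  have h1 : H = (U : Subgroup _).comap (rho r) := by
    ext x
    rw [h x, isClassField_comap U x]
  have h2 : H' = (U' : Subgroup _).comap (rho r) := by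
    ext x
    rw [h' x, isClassField_comap U' x]
  rw [h1, h2, LocCount.fieldOf_le_iff,
    Subgroup.comap_le_comap_of_surjective (rho_surjective hr)]
  rfl

end Ring

end Ide

end

end Fermat.Agent.Cor.KW
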