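import Fermat.Agent.Corollaries.KW.IdeleAbs

set_option autoImplicit false

/-!
# The adele ring of `ℚ`

The components `finComp p x : ℚ_[p]` and `realComp x : ℝ` of the adeles of `ℚ` (Mathlib's
`NumberField.AdeleRing (𝓞 ℚ) ℚ`).
-/

namespace Fermat.Agent.Cor.KW

open Fermat.Agent.Frob Fermat.Agent.Minkowski Fermat.Agent.TW

noncomputable section

namespace Ide

local instance fact_primes' (p : Nat.Primes) : Fact (p : ℕ).Prime := ⟨p.2⟩

/-! ### The adele ring of `ℚ` -/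

open IsDedekindDomain NumberField Rat.HeightOneSpectrum

/-- The component of an adele of `ℚ` at the prime number `p`. -/
def finComp (p : Nat.Primes) : AdeleRing (𝓞 ℚ) ℚ →+* ℚ_[p] where
  toFun x := (Padic.adicCompletionEquiv (𝓞 ℚ) p).symm (x.2 (primesEquiv.symm p))
  map_one' := map_one (Padic.adicCompletionEquiv (𝓞 ℚ) p).symm
  map_mul' _ _ := map_mul (Padic.adicCompletionEquiv (𝓞 ℚ) p).symm _ _
  map_zero' := map_zero (Padic.adicCompletionEquiv (𝓞 ℚ) p).symm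
  map_add' _ _ := map_add (Padic.adicCompletionEquiv (𝓞 ℚ) p).symm _ _

/-- The real component of an adele of `ℚ`. -/
def realComp : AdeleRing (𝓞 ℚ) ℚ →+* ℝ where
  toFun x := InfinitePlace.Completion.extensionEmbeddingOfIsReal Rat.isReal_infinitePlace
    (x.1 Rat.infinitePlace)
  map_one' := map_one _
  map_mul' _ _ := map_mul _ _ _
  map_zero' := map_zero _
  map_add' _ _ := map_add _ _ _

lemma finComp_apply (p : Nat.Primes) (x : AdeleRing (𝓞 ℚ) ℚ) :
    finComp p x = (Padic.adicCompletionEquiv (𝓞 ℚ) p).symm (x.2 (primesEquiv.symm p)) := rfl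

lemma continuous_finComp (p : Nat.Primes) : Continuous (finComp p) :=
  (Padic.adicCompletionEquiv (𝓞 ℚ) p).symm.continuous.comp
    ((RestrictedProduct.continuous_eval _).comp continuous_snd)

lemma continuous_realComp : Continuous realComp :=
  (InfinitePlace.Completion.isometry_extensionEmbeddingOfIsReal
    Rat.isReal_infinitePlace).continuous.comp ((continuous_apply _).comp continuous_fst)

lemma norm_coe_le {p : ℕ} [Fact p.Prime] (z : ℤ_[p]) : ‖(z : ℚ_[p])‖ ≤ 1 := z.2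

lemma norm_symm_le {p : Nat.Primes}
    (z : (primesEquiv (R := 𝓞 ℚ).symm p).adicCompletionIntegers ℚ) :
    ‖(Padic.adicCompletionEquiv (𝓞 ℚ) p).symm z‖ ≤ 1 :=
  (PadicInt.coe_adicCompletionIntegersEquiv_symm_apply (𝓞 ℚ) p z) ▸ norm_coe_le _

lemma norm_finComp_le {p : Nat.Primes} {x : AdeleRing (𝓞 ℚ) ℚ}
    (h : x.2 (primesEquiv.symm p) ∈ (primesEquiv.symm p).adicCompletionIntegers ℚ) :
    ‖finComp p x‖ ≤ 1 :=
  norm_symm_le ⟨_, h⟩

lemma eventually_le (x : AdeleRing (𝓞 ℚ) ℚ) :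
    ∀ᶠ p : Nat.Primes in Filter.cofinite, ‖finComp p x‖ ≤ 1 := by
  have h1 := (primesEquiv (R := 𝓞 ℚ)).symm.injective.tendsto_cofinite.eventually x.2.2
  filter_upwards [h1] with p h1
  exact norm_finComp_le h1

lemma isOpen_integral : IsOpen {y : FiniteAdeleRing (𝓞 ℚ) ℚ |
    ∀ v, y.1 v ∈ v.adicCompletionIntegers ℚ} :=
  RestrictedProduct.isOpen_forall_mem fun _ => Valued.isOpen_valuationSubring _

lemma eventually_nhds_le : ∀ᶠ x : AdeleRing (𝓞 ℚ) ℚ in nhds 1,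
    ∀ p : Nat.Primes, ‖finComp p x‖ ≤ 1 := by
  have hc : Continuous fun x : AdeleRing (𝓞 ℚ) ℚ => x.2 := continuous_snd
  have h1 : ∀ᶠ x : AdeleRing (𝓞 ℚ) ℚ in nhds 1, ∀ v,
      x.2.1 v ∈ HeightOneSpectrum.adicCompletionIntegers ℚ v :=
    hc.continuousAt.eventually (isOpen_integral.mem_nhds fun v => one_mem _)
  filter_upwards [h1] with x h1 p
  exact norm_finComp_le (h1 _)

lemma adele_ext {x y : AdeleRing (𝓞 ℚ) ℚ} (h1 : x.1 = y.1)
    (h2 : ∀ p, finComp p x = finComp p y) : x = y := by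
  refine Prod.ext h1 (FiniteAdeleRing.ext _ fun v => ?_)
  obtain ⟨p, rfl⟩ := (primesEquiv (R := 𝓞 ℚ)).symm.surjective v
  exact (Padic.adicCompletionEquiv (𝓞 ℚ) p).symm.injective (h2 p)

lemma exists_pi {α β : Type*} (e : α ≃ β) {P : β → Type*} (g : ∀ a, P (e a)) :
    ∃ f : ∀ b, P b, ∀ a, f (e a) = g a :=
  ⟨Equiv.piCongrLeft P e g, Equiv.piCongrLeft_apply_apply P e g⟩

lemma mem_integers (p : Nat.Primes) (z : ℤ_[p]) : Padic.adicCompletionEquiv (𝓞 ℚ) p z ∈
    ((primesEquiv (R := 𝓞 ℚ)).symm p).adicCompletionIntegers ℚ :=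
  (PadicInt.coe_adicCompletionIntegersEquiv_apply (𝓞 ℚ) p z) ▸ SetLike.coe_mem _

lemma exists_fam (y : (p : Nat.Primes) → ℤ_[p]) :
    ∃ f : (v : HeightOneSpectrum (𝓞 ℚ)) → v.adicCompletion ℚ,
      (∀ p : Nat.Primes, f (primesEquiv.symm p) = Padic.adicCompletionEquiv (𝓞 ℚ) p (y p)) ∧
        ∀ v, f v ∈ v.adicCompletionIntegers ℚ := by
  obtain ⟨f, hf⟩ := exists_pi (primesEquiv (R := 𝓞 ℚ)).symm
    (P := fun v => v.adicCompletion ℚ) fun p => Padic.adicCompletionEquiv (𝓞 ℚ) p (y p)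
  refine ⟨f, hf, fun v => ?_⟩
  obtain ⟨p, rfl⟩ := (primesEquiv (R := 𝓞 ℚ)).symm.surjective v
  rw [hf]
  exact mem_integers p (y p)

lemma realComp_eq_one {x : AdeleRing (𝓞 ℚ) ℚ} (hx : x.1 = 1) : realComp x = 1 :=
  (congrArg (fun y => InfinitePlace.Completion.extensionEmbeddingOfIsReal
    Rat.isReal_infinitePlace (y Rat.infinitePlace)) hx).trans (map_one _)

lemma adele_ext_real {x y : AdeleRing (𝓞 ℚ) ℚ} (h1 : realComp x = realComp y)
    (h2 : ∀ p, finComp p x = finComp p y) : x = y := by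
  refine adele_ext (funext fun v => ?_) h2
  obtain rfl : v = Rat.infinitePlace := Subsingleton.elim _ _
  exact (InfinitePlace.Completion.extensionEmbeddingOfIsReal
    Rat.isReal_infinitePlace).injective h1

/-- Adeles with given integral components. -/
lemma exists_adele (y : (p : Nat.Primes) → ℤ_[p]) : ∃ x : AdeleRing (𝓞 ℚ) ℚ, x.1 = 1 ∧
    ∀ p, finComp p x = y p := by
  obtain ⟨f, hf, hf'⟩ := exists_fam y
  refine ⟨(1, ⟨f, Filter.Eventually.of_forall hf'⟩), rfl, fun p => ?_⟩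
  have h1 : (Padic.adicCompletionEquiv (𝓞 ℚ) p).symm (f (primesEquiv.symm p)) = y p := by
    rw [hf]
    exact (Padic.adicCompletionEquiv (𝓞 ℚ) p).symm_apply_apply _
  exact h1

lemma exists_adele_real (y : (p : Nat.Primes) → ℤ_[p]) : ∃ x : AdeleRing (𝓞 ℚ) ℚ,
    realComp x = 1 ∧ ∀ p, finComp p x = y p := by
  obtain ⟨x, hx, h⟩ := exists_adele y
  exact ⟨x, realComp_eq_one hx, h⟩

lemma finComp_algebraMap (p : Nat.Primes) (q : ℚ) :
    finComp p (algebraMap ℚ (AdeleRing (𝓞 ℚ) ℚ) q) = q :=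
  (Padic.adicCompletionEquiv (𝓞 ℚ) p).symm.commutes q

lemma realComp_algebraMap (q : ℚ) : realComp (algebraMap ℚ (AdeleRing (𝓞 ℚ) ℚ) q) = q := by
  exact map_ratCast (realComp.comp (algebraMap ℚ (AdeleRing (𝓞 ℚ) ℚ))) q

lemma finComp_eq_iff (x : AdeleRing (𝓞 ℚ) ℚ) (q : ℚ) : (∀ p : Nat.Primes, finComp p x = q) ↔
    x.2 = algebraMap ℚ (FiniteAdeleRing (𝓞 ℚ) ℚ) q := by
  constructor
  · intro h
    refine FiniteAdeleRing.ext _ fun v => ?_
    obtain ⟨p, rfl⟩ := (primesEquiv (R := 𝓞 ℚ)).symm.surjective v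
    exact (Padic.adicCompletionEquiv (𝓞 ℚ) p).symm.injective
      ((h p).trans (finComp_algebraMap p q).symm)
  · intro h p
    rw [← finComp_algebraMap p q, finComp_apply, h]
    rfl

/-- The Artin map of `ℚ`. -/
theorem exists_artin : ∃ r : (AdeleRing (𝓞 ℚ) ℚ)ˣ →* TopologicalAbelianization GQ,
    IsArtin finComp realComp r :=
  exists_isArtin continuous_finComp continuous_realComp eventually_le eventually_nhds_le
    (fun _ _ => adele_ext_real) exists_adele_real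

end Ide

end

end Fermat.Agent.Cor.KW
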