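import Fermat.Agent.Corollaries.KW.Max
import Fermat.Agent.Corollaries.KW.Cond
import Fermat.Agent.Frob.Density

set_option autoImplicit false

/-!
# Splitting laws given by congruences: the group-theoretic core

For a normal subgroup `N` of finite level of the absolute Galois group of `ℚ`: `N` contains some
`Fix m` if and only if, for almost all primes `p`, whether the Frobenius elements at `p` belong to
`N` depends only on `p` modulo some `n`.
-/

namespace Fermat.Agent.Cor.KW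

open scoped Pointwise
open Fermat.Agent.Frob Fermat.Agent.Minkowski Fermat.Agent.TW

namespace Law

/-- The value of the cyclotomic character at a Frobenius element. -/
lemma kap_frob {n : ℕ} [NeZero n] {p : ℕ} (hp : p.Prime) (hpn : ¬ p ∣ n)
    {A : ValuationSubring Qbar} (hA : A.LiesOverPrime p) {φ : GQ} (hφ : A.IsFrobeniusAt φ p) :
    ((Kap.kap n φ : (ZMod n)ˣ) : ZMod n) = (p : ZMod n) :=
  Kap.kap_eq n (GalRep.frobenius_rootOfUnity hA ((Nat.Prime.coprime_iff_not_dvd hp).mpr hpn)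
    (NeZero.ne n) hφ (Kap.zet_spec n).pow_eq_one)

/-- `N` contains `Fix n`: the Frobenius elements in `N` are described by congruences. -/
theorem exists_classes {N : Subgroup GQ} {n : ℕ} [NeZero n] (hN : Fix n ≤ N) :
    ∃ S : Set (ZMod n), ∀ p : ℕ, p.Prime → ¬ p ∣ n → ∀ A : ValuationSubring Qbar,
      A.LiesOverPrime p → ∀ φ : GQ, A.IsFrobeniusAt φ p → (φ ∈ N ↔ (p : ZMod n) ∈ S) := by
  refine ⟨{a | ∃ σ ∈ N, ((Kap.kap n σ : (ZMod n)ˣ) : ZMod n) = a}, ?_⟩
  intro p hp hpn A hA φ hφ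
  have h1 := kap_frob hp hpn hA hφ
  constructor
  · intro h
    exact ⟨φ, h, h1⟩
  · rintro ⟨σ, hσ, h2⟩
    have h3 : Kap.kap n φ = Kap.kap n σ := Units.ext (h1.trans h2.symm)
    have h4 : φ * σ⁻¹ ∈ Fix n := by
      rw [mem_Fix_iff_kap, map_mul, map_inv, h3, mul_inv_cancel]
    have h5 := N.mul_mem (hN h4) hσ
    rwa [inv_mul_cancel_right] at h5

/-- **If the Frobenius elements in `N` are described by congruences modulo `n`, then `N` contains
`Fix n`.** -/
theorem Fix_le_of_classes {N : Subgroup GQ} {L : IntermediateField ℚ Qbar} [FiniteDimensional ℚ L]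
    (hL : L.fixingSubgroup ≤ N) {n : ℕ} [NeZero n] (T : Set ℕ) (hT : T.Finite) (S : Set (ZMod n))
    (h : ∀ p : ℕ, p.Prime → p ∉ T → ∀ A : ValuationSubring Qbar,
      A.LiesOverPrime p → ∀ φ : GQ, A.IsFrobeniusAt φ p → (φ ∈ N ↔ (p : ZMod n) ∈ S)) :
    Fix n ≤ N := by
  have hn0 : n ≠ 0 := NeZero.ne n
  let T' : Set ℕ := T ∪ {p | p ∣ n}
  have hT' : T'.Finite := hT.union (by
    refine (Set.finite_Iic n).subset fun p hp => ?_
    exact Nat.le_of_dvd (Nat.pos_of_ne_zero hn0) hp)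
  have hint : IsIntegral ℚ (Kap.zet n) := Algebra.IsIntegral.isIntegral _
  let E : IntermediateField ℚ Qbar := IntermediateField.adjoin ℚ {Kap.zet n}
  have hE : FiniteDimensional ℚ E := IntermediateField.adjoin.finiteDimensional hint
  have hζE : Kap.zet n ∈ E := IntermediateField.mem_adjoin_simple_self ℚ _
  have hLE : FiniteDimensional ℚ (L ⊔ E : IntermediateField ℚ Qbar) :=
    IntermediateField.finiteDimensional_sup L E
  -- an element of `Fix n` fixes `ζ`
  have hfixζ : ∀ {σ : GQ}, σ ∈ Fix n ↔ σ (Kap.zet n) = Kap.zet n := by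
    intro σ
    constructor
    · intro hσ
      exact hσ _ (Kap.zet_spec n).pow_eq_one
    · intro hσ
      rw [mem_Fix_iff_kap]
      refine Units.ext ?_
      rw [Kap.kap_eq n (c := 1) (by rw [pow_one]; exact hσ), Nat.cast_one, Units.val_one]
  have hcong : ∀ (p : ℕ), p.Prime → p ∉ T' → ∀ A : ValuationSubring Qbar, A.LiesOverPrime p →
      ∀ φ : GQ, A.IsFrobeniusAt φ p → φ ∈ Fix n → (p : ZMod n) = 1 := by
    intro p hp hpT A hA φ hφ hmem
    have hpn : ¬ p ∣ n := fun hd => hpT (Or.inr hd)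
    rw [← kap_frob hp hpn hA hφ, mem_Fix_iff_kap.mp hmem, Units.val_one]
  -- the class of one
  have h1S : (1 : ZMod n) ∈ S := by
    obtain ⟨p, hp, hpT, A, hA, φ, hφ, k, k', h1, h2⟩ :=
      FrobDensity.exists_frobenius_on (L ⊔ E) 1 T' hT'
    have h3 : ∀ x ∈ L ⊔ E, φ x = x := by
      intro x hx
      rw [h1 x hx, one_pow]
      rfl
    have h4 : φ ∈ Fix n := hfixζ.mpr (h3 _ ((le_sup_right : E ≤ L ⊔ E) hζE))
    have h5 : φ ∈ N := hL ((IntermediateField.mem_fixingSubgroup_iff L φ).mpr fun x hx =>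
      h3 x ((le_sup_left : L ≤ L ⊔ E) hx))
    rw [← hcong p hp hpT A hA φ hφ h4]
    exact (h p hp (fun hm => hpT (Or.inl hm)) A hA φ hφ).mp h5
  intro σ hσ
  obtain ⟨p, hp, hpT, A, hA, φ, hφ, k, k', h1, h2⟩ :=
    FrobDensity.exists_frobenius_on (L ⊔ E) σ T' hT'
  have h3 : φ ∈ Fix n := by
    rw [hfixζ, h1 _ ((le_sup_right : E ≤ L ⊔ E) hζE)]
    exact ((Fix n).pow_mem hσ k) _ (Kap.zet_spec n).pow_eq_one
  have h4 : φ ∈ N := by
    rw [h p hp (fun hm => hpT (Or.inl hm)) A hA φ hφ, hcong p hp hpT A hA φ hφ h3]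
    exact h1S
  have h5 : (φ ^ k')⁻¹ * σ ∈ N := by
    refine hL ((IntermediateField.mem_fixingSubgroup_iff L _).mpr fun x hx => ?_)
    rw [AlgEquiv.mul_apply, h2 x ((le_sup_left : L ≤ L ⊔ E) hx)]
    exact (φ ^ k').symm_apply_apply x
  have h6 := N.mul_mem (N.pow_mem h4 k') h5
  rwa [mul_inv_cancel_left] at h6

end Law

end Fermat.Agent.Cor.KW
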