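import Fermat.Agent.Classic.Level.EmbAbove

set_option autoImplicit false

/-!
# Complete splitting and Frobenius elements
-/

namespace Fermat.Agent.Cor.KW

open NumberField IsDedekindDomain Fermat.Agent.Frob Fermat.Agent.FrobDensity
open Fermat.Agent.LT.Tower.Fr Fermat.Agent.Classic.Disc

/-- The prime number `p` splits completely in the number field `K`: the number of prime ideals above
`p` is the degree of `K`. -/
def SplitsCompletely (K : Type*) [Field K] [NumberField K] (p : ℕ) : Prop :=
  ((Ideal.span {(p : ℤ)}).primesOver (𝓞 K)).ncard = Module.finrank ℚ K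

variable {K : Type*} [Field K] [NumberField K] {p : ℕ}

lemma ncard_primesOver (hp : p.Prime) :
    ((Ideal.span {(p : ℤ)}).primesOver (𝓞 K)).ncard = (above K p).card := by
  have hbot : Ideal.span {(p : ℤ)} ≠ ⊥ := by simpa using hp.ne_zero
  have h1 : (Ideal.span {(p : ℤ)}).primesOver (𝓞 K) =
      (fun v : HeightOneSpectrum (𝓞 K) => v.asIdeal) '' (above K p : Set _) := by
    ext P
    constructor
    · rintro ⟨hP, hP'⟩
      refine ⟨⟨P, hP, Ideal.ne_bot_of_liesOver_of_ne_bot hbot P⟩, ?_, rfl⟩
      rw [Finset.mem_coe, mem_above hp.ne_zero]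
      have h2 : (p : ℤ) ∈ P.under ℤ := by
        rw [← P.over_def (Ideal.span {(p : ℤ)})]
        exact Ideal.mem_span_singleton_self _
      simpa [Ideal.mem_comap] using h2
    · rintro ⟨v, hv, rfl⟩
      exact ⟨v.isPrime, liesOver hp ((mem_above hp.ne_zero).mp hv)⟩
  rw [h1, Set.ncard_image_of_injective _ fun v w h => HeightOneSpectrum.ext h,
    Set.ncard_coe_finset]

/-- For almost all `p`: `p` splits completely if and only if a Frobenius element at `p` acts trivially
on all embeddings. -/
theorem splits_iff_frob (hp : p.Prime) (hG : Good K p) {A : ValuationSubring (AlgebraicClosure ℚ)}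
    (hA : A.LiesOverPrime p) {φ : GQ} (hφ : A.IsFrobeniusAt φ p) :
    SplitsCompletely K p ↔ ∀ (j : K →+* AlgebraicClosure ℚ) (x : K), φ (j x) = j x := by
  classical
  have hn : Module.finrank ℚ K = Nat.card (K →+* AlgebraicClosure ℚ) := by
    rw [← NumberField.Embeddings.card K (AlgebraicClosure ℚ), ← Nat.card_eq_fintype_card]
  have h1 := Classic.Emb.sum_fdeg hp hG hA hφ 1
  simp only [pow_one] at h1
  have h2 := sum_ram_fdeg (F := K) hp
  have hge : ∀ v ∈ above K p, 1 ≤ ram v * fdeg v := fun v _ =>
    Nat.mul_pos (ram_pos v) (fdeg_pos v)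
  rw [SplitsCompletely, ncard_primesOver hp]
  constructor
  · intro h
    -- all degrees are one
    have h3 : ∀ v ∈ above K p, ram v * fdeg v = 1 := by
      by_contra hcon
      push Not at hcon
      obtain ⟨v, hv, hne⟩ := hcon
      have h4 : ∑ v ∈ above K p, 1 < ∑ v ∈ above K p, ram v * fdeg v :=
        Finset.sum_lt_sum hge ⟨v, hv, lt_of_le_of_ne (hge v hv) (Ne.symm hne)⟩
      rw [h2, Finset.sum_const, smul_eq_mul, mul_one] at h4
      omega
    have h4 : ∀ v ∈ above K p, fdeg v = 1 := fun v hv => Nat.eq_one_of_mul_eq_one_left (h3 v hv)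
    have h5 : ∑ v ∈ above K p with fdeg v ∣ 1, fdeg v = (above K p).card := by
      rw [Finset.filter_true_of_mem fun v hv => by rw [h4 v hv], Finset.sum_congr rfl h4,
        Finset.sum_const, smul_eq_mul, mul_one]
    rw [h5, h, hn] at h1
    have h6 : ∀ j : K →+* AlgebraicClosure ℚ, ∀ x, φ (j x) = j x := by
      have hcard : Nat.card {j : K →+* AlgebraicClosure ℚ // ∀ x, φ (j x) = j x} =
          Nat.card (K →+* AlgebraicClosure ℚ) := h1.symm
      intro j
      by_contra hj
      have hlt : Nat.card {j : K →+* AlgebraicClosure ℚ // ∀ x, φ (j x) = j x} <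
          Nat.card (K →+* AlgebraicClosure ℚ) := by
        rw [Nat.card_eq_fintype_card, Nat.card_eq_fintype_card]
        exact Fintype.card_subtype_lt hj
      omega
    exact h6
  · intro h
    have h3 : Nat.card {j : K →+* AlgebraicClosure ℚ // ∀ x, φ (j x) = j x} =
        Nat.card (K →+* AlgebraicClosure ℚ) := Nat.card_congr (Equiv.subtypeUnivEquiv h)
    rw [h3, ← hn] at h1
    have h4 : ∑ v ∈ above K p with fdeg v ∣ 1, fdeg v ≤ (above K p).card := by
      calc ∑ v ∈ above K p with fdeg v ∣ 1, fdeg v = ∑ v ∈ above K p with fdeg v ∣ 1, 1 :=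
            Finset.sum_congr rfl fun v hv => Nat.dvd_one.mp (Finset.mem_filter.mp hv).2
        _ ≤ (above K p).card := by
            rw [Finset.sum_const, smul_eq_mul, mul_one]
            exact Finset.card_filter_le _ _
    have h5 : (above K p).card ≤ Module.finrank ℚ K := by
      rw [← h2, Finset.card_eq_sum_ones]
      exact Finset.sum_le_sum hge
    omega

end Fermat.Agent.Cor.KW
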