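import Fermat.Agent.Corollaries.KW.Final
import Fermat.Agent.Corollaries.KW.LawCore
import Fermat.Agent.Corollaries.KW.Splits

set_option autoImplicit false

/-!
# Abelian number fields and splitting laws given by congruences

`isAbelianGalois_iff_splits` : a number field `K` is an abelian extension of `ℚ` if and only if the
set of the prime numbers which split completely in `K` is described by congruences.
-/

namespace Fermat.Agent.Cor.KW

open Fermat.Agent.Frob Fermat.Agent.FrobDensity Fermat.Agent.TW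
open Fermat.Agent.LT.Tower.Fr

namespace Law

variable (K : Type*) [Field K] [NumberField K]

/-- The automorphisms of `ℚ̄` which act trivially on all embeddings of `K`. -/
def emb : Subgroup GQ where
  carrier := {σ | ∀ (j : K →+* AlgebraicClosure ℚ) (x : K), σ (j x) = j x}
  mul_mem' := by
    intro a b ha hb j x
    rw [AlgEquiv.mul_apply, hb j x, ha j x]
  one_mem' := fun _ _ => rfl
  inv_mem' := by
    intro a ha j x
    have h1 := ha j x
    calc a⁻¹ (j x) = a⁻¹ (a (j x)) := by rw [h1]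
      _ = j x := a.symm_apply_apply _

variable {K}

omit [NumberField K] in
lemma mem_emb {σ : GQ} : σ ∈ emb K ↔ ∀ (j : K →+* AlgebraicClosure ℚ) (x : K), σ (j x) = j x :=
  Iff.rfl

lemma exists_field : ∃ L : IntermediateField ℚ Qbar, FiniteDimensional ℚ L ∧
    L.fixingSubgroup ≤ emb K := by
  refine ⟨IntermediateField.normalClosure ℚ K Qbar, normalClosure.is_finiteDimensional ℚ K _,
    fun σ hσ j x => ?_⟩
  rw [IntermediateField.mem_fixingSubgroup_iff] at hσ
  refine hσ _ ?_
  exact (le_iSup (fun f : K →ₐ[ℚ] Qbar => f.fieldRange) j.toRatAlgHom) ⟨x, rfl⟩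

lemma conj_mem_Fix {n : ℕ} (hn : n ≠ 0) {σ : GQ} (hσ : σ ∈ Fix n) (g : GQ) :
    g⁻¹ * σ * g ∈ Fix n := by
  have : NeZero n := ⟨hn⟩
  rw [mem_Fix_iff_kap] at hσ ⊢
  rw [map_mul, map_mul, hσ, mul_one, map_inv, inv_mul_cancel]

/-- Kronecker-Weber for all embeddings at once. -/
theorem exists_Fix_le [IsAbelianGalois ℚ K] : ∃ n : ℕ, n ≠ 0 ∧ Fix n ≤ emb K := by
  let i : K →ₐ[ℚ] Qbar := IsAlgClosed.lift
  let e := AlgEquiv.ofInjectiveField i
  have h1 : @IsAbelianGalois ℚ i.fieldRange _ _ i.fieldRange.algebra' :=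
    IsAbelianGalois.of_algHom e.symm.toAlgHom
  have : FiniteDimensional ℚ i.fieldRange := Module.Finite.equiv e.toLinearEquiv
  obtain ⟨n, hn, hle⟩ := Fld.exists_le_cyc charStmt i.fieldRange h1
  refine ⟨n, hn.ne', fun σ hσ j x => ?_⟩
  obtain ⟨g, hg⟩ := exists_extend (i : K →+* Qbar) j
  have h2 : j x = g (i x) := (RingHom.congr_fun hg x).symm
  have h3 : (g⁻¹ * σ * g) (i x) = i x :=
    (Max.mem_cyc_iff hn.ne').mp (hle ⟨x, rfl⟩) _ (conj_mem_Fix hn.ne' hσ g)
  have h4 := congrArg g h3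
  have h5 : g ((g⁻¹ * σ * g) (i x)) = σ (g (i x)) := g.apply_symm_apply (σ (g (i x)))
  rw [h5] at h4
  rw [h2, h4]

theorem isAbelianGalois_of_Fix_le {n : ℕ} (hn : n ≠ 0) (h : Fix n ≤ emb K) :
    IsAbelianGalois ℚ K := by
  let i : K →ₐ[ℚ] Qbar := IsAlgClosed.lift
  let e := AlgEquiv.ofInjectiveField i
  have h1 : i.fieldRange ≤ Fld.cyc n := by
    refine Fld.le_cyc_of_Fix_le hn fun σ hσ => ?_
    rw [IntermediateField.mem_fixingSubgroup_iff]
    rintro _ ⟨x, rfl⟩
    exact h hσ (i : K →+* Qbar) x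
  have h2 : IsAbelianGalois ℚ i.fieldRange :=
    Fld.isAbelianGalois_rat (@Fld.isAbelianGalois_of_le ℚ Qbar _ _ _ i.fieldRange (Fld.cyc n) h1
      (Fld.isAbelianGalois_cycS _))
  have h3 : @IsAbelianGalois ℚ i.fieldRange _ _ i.fieldRange.algebra' :=
    Fld.isAbelianGalois_rat h2
  exact @IsAbelianGalois.of_algHom ℚ K i.fieldRange _ _ _ _ i.fieldRange.algebra' e.toAlgHom h3

end Law

/-- **Abelian number fields are characterised by their splitting law** (reciprocity for `ℚ`): a
number field `K` is an abelian extension of `ℚ` if and only if there are `n > 0` and a set `S` of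
residue classes modulo `n` such that a prime number `p` not dividing `n` splits completely in `K`
exactly if its class modulo `n` belongs to `S`. -/
theorem isAbelianGalois_iff_splits (K : Type*) [Field K] [NumberField K] :
    IsAbelianGalois ℚ K ↔ ∃ n : ℕ, 0 < n ∧ ∃ S : Set (ZMod n),
      ∀ p : ℕ, p.Prime → ¬ p ∣ n → (SplitsCompletely K p ↔ (p : ZMod n) ∈ S) := by
  obtain ⟨D, hD, hgood⟩ := exists_good K
  constructor
  · intro _
    obtain ⟨m, hm, hle⟩ := Law.exists_Fix_le (K := K)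
    have hn : m * D ≠ 0 := mul_ne_zero hm hD
    have : NeZero (m * D) := ⟨hn⟩
    obtain ⟨S, hS⟩ := Law.exists_classes (n := m * D) ((Fix_le (dvd_mul_right m D)).trans hle)
    refine ⟨m * D, Nat.pos_of_ne_zero hn, S, fun p hp hpn => ?_⟩
    obtain ⟨A, hA, φ, hφ⟩ := exists_frobenius p hp
    rw [splits_iff_frob hp (hgood p hp fun h => hpn (h.mul_left m)) hA hφ,
      ← hS p hp hpn A hA φ hφ]
    rfl
  · rintro ⟨n, hn, S, hS⟩
    have : NeZero n := ⟨hn.ne'⟩
    obtain ⟨L, hL, hLle⟩ := Law.exists_field (K := K)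
    refine Law.isAbelianGalois_of_Fix_le hn.ne' (Law.Fix_le_of_classes hLle
      ({p | p ∣ n} ∪ {p | p ∣ D}) ?_ S fun p hp hpT A hA φ hφ => ?_)
    · refine Set.Finite.union ?_ ?_
      · exact (Set.finite_Iic n).subset fun p hp => Nat.le_of_dvd hn hp
      · exact (Set.finite_Iic D).subset fun p hp => Nat.le_of_dvd (Nat.pos_of_ne_zero hD) hp
    · have hpn : ¬ p ∣ n := fun h => hpT (Or.inl h)
      have hpD : ¬ p ∣ D := fun h => hpT (Or.inr h)
      rw [← hS p hp hpn, splits_iff_frob hp (hgood p hp hpD) hA hφ]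
      rfl

end Fermat.Agent.Cor.KW
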