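import Fermat.Agent.Corollaries.KW.Defs
import Fermat.Agent.CFT.Bridge.Levels
import Fermat.Agent.CFT.Bridge.Decomp

set_option autoImplicit false

/-!
# The local Kronecker-Weber theorem: definitions

`GLoc q` is the Galois group of the algebraic closure `PadicAlgCl q` of `ℚ_[q]`, and `J q` its
restriction to `ℚ̄` (with image the decomposition group of the place `padicPlace q`).

* `LevG χ` : `χ : GLoc q →* M` is trivial on the automorphisms which fix a finite extension of `ℚ`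
  (by Krasner this is the same as a finite extension of `ℚ_[q]`: `levG_iff`).
* `UnrG χ` : `χ` is trivial on the inertia group.
* `CycG χ` : `χ` is trivial on the automorphisms which fix the `m`-th roots of unity, for some
  `m ≠ 0`.
-/

namespace Fermat.Agent.Cor.KW

open scoped Pointwise
open Fermat.Agent.Frob Fermat.Agent.Minkowski Fermat.Agent.TW

namespace Loc

/-- The absolute Galois group of `ℚ_[q]`. -/
abbrev GLoc (q : ℕ) [Fact q.Prime] : Type := PadicAlgCl q ≃ₐ[ℚ_[q]] PadicAlgCl q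

/-- Restriction to `ℚ̄`. -/
noncomputable abbrev J (q : ℕ) [Fact q.Prime] : GLoc q →* GQ := localGaloisToGlobal q

section Defs

variable {q : ℕ} [hq : Fact q.Prime] {M : Type*} [Group M] {N : Type*} [Group N]

lemma place_over (q : ℕ) [Fact q.Prime] : (padicPlace q).LiesOverPrime q :=
  Fermat.Agent.CFT.Bridge.padicPlace_liesOverPrime q

lemma range_J (q : ℕ) [Fact q.Prime] : (J q).range = (padicPlace q).decompositionSubgroup ℚ :=
  Fermat.Agent.CFT.Bridge.range_localGaloisToGlobal q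

/-- Level-constant homomorphisms. -/
def LevG (χ : GLoc q →* M) : Prop :=
  ∃ L : IntermediateField ℚ Qbar, FiniteDimensional ℚ L ∧
    ∀ g : GLoc q, (∀ x ∈ L, J q g x = x) → χ g = 1

/-- Unramified homomorphisms. -/
def UnrG (χ : GLoc q →* M) : Prop :=
  ∀ g : GLoc q, J q g ∈ (padicPlace q).inertiaSubgroupIn ℚ → χ g = 1

/-- Homomorphisms of finite conductor. -/
def CycG (χ : GLoc q →* M) : Prop :=
  ∃ m : ℕ, m ≠ 0 ∧ ∀ g : GLoc q, J q g ∈ Fix m → χ g = 1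

lemma levG_comp {χ : GQ →* M} (h : Lev χ) : LevG (χ.comp (J q)) := by
  obtain ⟨L, hL, h⟩ := h
  exact ⟨L, hL, fun g hg => h _ hg⟩

lemma cycG_comp {χ : GQ →* M} (h : IsCyc χ) : CycG (χ.comp (J q)) := by
  obtain ⟨m, hm, h⟩ := h
  exact ⟨m, hm, fun g hg => h hg⟩

lemma unrG_comp {χ : GQ →* M} (h : UnrAt χ q) : UnrG (χ.comp (J q)) := fun _ hg =>
  h _ (place_over q) _ hg

lemma LevG.comp {χ : GLoc q →* M} (h : LevG χ) (f : M →* N) : LevG (f.comp χ) := by
  obtain ⟨L, hL, h⟩ := h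
  exact ⟨L, hL, fun g hg => by rw [MonoidHom.comp_apply, h g hg, map_one]⟩

lemma UnrG.comp {χ : GLoc q →* M} (h : UnrG χ) (f : M →* N) : UnrG (f.comp χ) :=
  fun g hg => by rw [MonoidHom.comp_apply, h g hg, map_one]

lemma CycG.comp {χ : GLoc q →* M} (h : CycG χ) (f : M →* N) : CycG (f.comp χ) := by
  obtain ⟨m, hm, h⟩ := h
  exact ⟨m, hm, fun g hg => by rw [MonoidHom.comp_apply, h g hg, map_one]⟩

lemma LevG.of_ker_le {χ : GLoc q →* M} {ψ : GLoc q →* N} (h : LevG χ) (hle : χ.ker ≤ ψ.ker) :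
    LevG ψ := by
  obtain ⟨L, hL, h⟩ := h
  exact ⟨L, hL, fun g hg => hle (h g hg)⟩

lemma UnrG.of_ker_le {χ : GLoc q →* M} {ψ : GLoc q →* N} (h : UnrG χ) (hle : χ.ker ≤ ψ.ker) :
    UnrG ψ := fun g hg => hle (h g hg)

lemma CycG.of_ker_le {χ : GLoc q →* M} {ψ : GLoc q →* N} (h : CycG χ) (hle : χ.ker ≤ ψ.ker) :
    CycG ψ := by
  obtain ⟨m, hm, h⟩ := h
  exact ⟨m, hm, fun g hg => hle (h g hg)⟩

/-- **Krasner**: the levels over `ℚ` and over `ℚ_[q]` are the same. -/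
theorem levG_iff {χ : GLoc q →* M} : LevG χ ↔
    ∃ E : IntermediateField ℚ_[q] (PadicAlgCl q), FiniteDimensional ℚ_[q] E ∧
      E.fixingSubgroup ≤ χ.ker := by
  have h1 : χ.ker ∈ CFT.Bridge.galLevels ℚ_[q] (PadicAlgCl q) ↔
      ∃ E : IntermediateField ℚ_[q] (PadicAlgCl q), FiniteDimensional ℚ_[q] E ∧
        E.fixingSubgroup ≤ χ.ker := CFT.Bridge.mem_galLevels
  rw [← h1, ← CFT.Bridge.comap_localGaloisToGlobal_galLevels q]
  constructor
  · rintro ⟨L, hL, h⟩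
    refine ⟨L.fixingSubgroup, ⟨L, hL, le_rfl⟩, fun g hg => h g ?_⟩
    exact (IntermediateField.mem_fixingSubgroup_iff L _).mp hg
  · rintro ⟨W, ⟨L, hL, hLW⟩, hW⟩
    exact ⟨L, hL, fun g hg => hW (hLW ((IntermediateField.mem_fixingSubgroup_iff L _).mpr hg))⟩

end Defs

section Comm

variable {q : ℕ} [hq : Fact q.Prime] {M : Type*} [CommGroup M]

lemma LevG.mul {χ ψ : GLoc q →* M} (h : LevG χ) (h' : LevG ψ) : LevG (χ * ψ) := by
  obtain ⟨L, hL, h⟩ := h
  obtain ⟨L', hL', h'⟩ := h'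
  refine ⟨L ⊔ L', IntermediateField.finiteDimensional_sup L L', fun g hg => ?_⟩
  rw [MonoidHom.mul_apply, h g fun x hx => hg x ((le_sup_left : L ≤ L ⊔ L') hx),
    h' g fun x hx => hg x ((le_sup_right : L' ≤ L ⊔ L') hx), one_mul]

lemma LevG.inv {χ : GLoc q →* M} (h : LevG χ) : LevG χ⁻¹ := by
  obtain ⟨L, hL, h⟩ := h
  exact ⟨L, hL, fun g hg => by rw [MonoidHom.inv_apply, h g hg, inv_one]⟩

lemma LevG.pow {χ : GLoc q →* M} (h : LevG χ) (n : ℕ) : LevG (χ ^ n) := by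
  obtain ⟨L, hL, h⟩ := h
  exact ⟨L, hL, fun g hg => by rw [MonoidHom.pow_apply, h g hg, one_pow]⟩

lemma UnrG.mul {χ ψ : GLoc q →* M} (h : UnrG χ) (h' : UnrG ψ) : UnrG (χ * ψ) := fun g hg => by
  rw [MonoidHom.mul_apply, h g hg, h' g hg, one_mul]

lemma UnrG.inv {χ : GLoc q →* M} (h : UnrG χ) : UnrG χ⁻¹ := fun g hg => by
  rw [MonoidHom.inv_apply, h g hg, inv_one]

lemma UnrG.pow {χ : GLoc q →* M} (h : UnrG χ) (n : ℕ) : UnrG (χ ^ n) := fun g hg => by
  rw [MonoidHom.pow_apply, h g hg, one_pow]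

lemma CycG.mul {χ ψ : GLoc q →* M} (h : CycG χ) (h' : CycG ψ) : CycG (χ * ψ) := by
  obtain ⟨m, hm, h⟩ := h
  obtain ⟨m', hm', h'⟩ := h'
  refine ⟨m * m', mul_ne_zero hm hm', fun g hg => ?_⟩
  rw [MonoidHom.mul_apply, h g (Fix_le (dvd_mul_right m m') hg),
    h' g (Fix_le (dvd_mul_left m' m) hg), one_mul]

lemma CycG.inv {χ : GLoc q →* M} (h : CycG χ) : CycG χ⁻¹ := by
  obtain ⟨m, hm, h⟩ := h
  exact ⟨m, hm, fun g hg => by rw [MonoidHom.inv_apply, h g hg, inv_one]⟩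

lemma CycG.pow {χ : GLoc q →* M} (h : CycG χ) (n : ℕ) : CycG (χ ^ n) := by
  obtain ⟨m, hm, h⟩ := h
  exact ⟨m, hm, fun g hg => by rw [MonoidHom.pow_apply, h g hg, one_pow]⟩

end Comm

/-! ### The pieces -/

/-- (P) at `p` odd: the characters of order `p` of the inertia group coming from the decomposition
group are the multiples of any ramified one. -/
def AtPStmt : Prop := ∀ (p : ℕ) [Fact p.Prime], p ≠ 2 → ∀ χ c : GLoc p →* C p, LevG χ → LevG c →
  ¬ UnrG c → ∃ b : ℕ, UnrG (χ * c ^ b)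

/-- (Q) at `2`: quadratic characters are cyclotomic, and the square of a character with values in
`C 4` is trivial on the elements of the inertia group which act as `-1` on the eighth roots of
unity. -/
def AtTwoStmt : Prop :=
  (∀ χ : GLoc 2 →* C 2, LevG χ → ∀ g : GLoc 2, J 2 g ∈ Fix 24 → χ g = 1) ∧
  ∀ ψ : GLoc 2 →* C 4, LevG ψ → ∀ g : GLoc 2, J 2 g ∈ (padicPlace 2).inertiaSubgroupIn ℚ →
    (∀ ζ : Qbar, ζ ^ 8 = 1 → J 2 g ζ = ζ ^ 7) → ψ g ^ 2 = 1

/-- (R) characters of prime power order have finite conductor. -/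
def CharStmt (q : ℕ) [Fact q.Prime] : Prop := ∀ ℓ n : ℕ, ℓ.Prime →
  ∀ χ : GLoc q →* C (ℓ ^ n), LevG χ → CycG χ

/-- (T) from characters to fields. -/
def FieldStmt (q : ℕ) [Fact q.Prime] : Prop := CharStmt q →
  ∀ (K : Type) [Field K] [Algebra ℚ_[q] K] [FiniteDimensional ℚ_[q] K] [IsAbelianGalois ℚ_[q] K],
    ∃ n : ℕ, 0 < n ∧ Nonempty (K →ₐ[ℚ_[q]] CyclotomicField n ℚ_[q])

end Loc

end Fermat.Agent.Cor.KW
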