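import Fermat.Agent.Corollaries.KW.AtP
import Fermat.Agent.Corollaries.KW.LocDefs

set_option autoImplicit false

/-!
# Local Kronecker-Weber, piece (P): characters of order `p` at the prime `p`

`Loc.atPStmt` : two characters of order `p` of the absolute Galois group of `ℚ_p`, `p` odd, the
second one ramified, are proportional on the inertia group.
-/

namespace Fermat.Agent.Cor.KW.Loc

open Module
open Fermat.Agent.PT Fermat.Agent.PT.Frozen ExtCitation
open Fermat.Agent.Frob Fermat.Agent.Minkowski Fermat.Agent.TW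
open Fermat.Agent.Cor.KW.AtP (vp resI ofHom finrank_range_le)

lemma ker_mem {p : ℕ} [hp : Fact p.Prime] {χ : GLoc p →* C p} (hχ : LevG χ) :
    (show primeLocalGaloisGroup (vp p) →* C p from χ).ker ∈ rLevels (AtP.J p) := by
  obtain ⟨L, hL, h⟩ := hχ
  refine ⟨L.fixingSubgroup, ⟨L, hL, le_rfl⟩, fun g hg => ?_⟩
  exact h _ ((IntermediateField.mem_fixingSubgroup_iff L _).mp hg)

/-- **(P)** the characters of order `p` of the inertia group of `ℚ_p` which come from the Galois
group of `ℚ_p` are the multiples of any ramified one, `p` odd. -/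
theorem atPStmt : AtPStmt := by
  intro p hp hp2 χ c hχ hc hram
  obtain ⟨g₀, hg₀, hcg₀⟩ : ∃ g : GLoc p, J p g ∈ (padicPlace p).inertiaSubgroupIn ℚ ∧
      c g ≠ 1 := by
    by_contra hcon
    push Not at hcon
    exact hram hcon
  obtain ⟨h1, h2⟩ := finrank_range_le (p := p) hp2
  obtain ⟨v, hv⟩ := (finrank_le_one_iff).mp h2
  obtain ⟨a, ha⟩ := hv ⟨resI p (ofHom _ (ker_mem hc)), ⟨_, rfl⟩⟩
  obtain ⟨b, hb⟩ := hv ⟨resI p (ofHom _ (ker_mem hχ)), ⟨_, rfl⟩⟩
  have key1 : ∀ (g : GLoc p) (hg : J p g ∈ (padicPlace p).inertiaSubgroupIn ℚ),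
      Multiplicative.toAdd (c g) = a * v.1 ⟨g, hg⟩ := fun g hg =>
    (congrFun (congrArg Subtype.val ha) ⟨g, hg⟩).symm
  have key2 : ∀ (g : GLoc p) (hg : J p g ∈ (padicPlace p).inertiaSubgroupIn ℚ),
      Multiplicative.toAdd (χ g) = b * v.1 ⟨g, hg⟩ := fun g hg =>
    (congrFun (congrArg Subtype.val hb) ⟨g, hg⟩).symm
  have ha0 : a ≠ 0 := by
    rintro rfl
    have h3 := key1 g₀ hg₀
    rw [zero_mul] at h3
    exact hcg₀ h3
  refine ⟨(-(b * a⁻¹)).val, fun g hg => ?_⟩
  apply Multiplicative.toAdd.injective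
  rw [MonoidHom.mul_apply, MonoidHom.pow_apply, toAdd_mul, toAdd_pow, key1 g hg, key2 g hg,
    toAdd_one, nsmul_eq_mul, ZMod.natCast_zmod_val]
  field_simp
  ring

end Fermat.Agent.Cor.KW.Loc
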