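import Fermat.Agent.Corollaries.KW.LocDefs
import Fermat.Agent.Corollaries.KW.Field

set_option autoImplicit false

/-!
# The local Kronecker-Weber theorem: from characters to fields

Everything is deduced from `Loc.CharStmt q`: characters of prime power order of the absolute Galois
group of `ℚ_[q]` are cyclotomic.
-/

namespace Fermat.Agent.Cor.KW

open Fermat.Agent.Frob Fermat.Agent.Minkowski Fermat.Agent.TW
open scoped DirectSum

namespace Loc

variable {q : ℕ} [hq : Fact q.Prime]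

/-- A homomorphism of finite level to a finite commutative group is cyclotomic. -/
theorem cycG_of_finite (h : CharStmt q) {A : Type*} [CommGroup A] [Finite A]
    {χ : GLoc q →* A} (hχ : LevG χ) : CycG χ := by
  classical
  obtain ⟨ι, _, p, hp, e, ⟨f⟩⟩ := AddCommGroup.equiv_directSum_zmod_of_finite (Additive A)
  let π : ∀ i, A →* C (p i ^ e i) := fun i => AddMonoidHom.toMultiplicativeRight
    ((DFinsupp.evalAddMonoidHom i : (⨁ i : ι, ZMod (p i ^ e i)) →+ ZMod (p i ^ e i)).comp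
      f.toAddMonoidHom)
  have hπ : ∀ a : A, (∀ i, π i a = 1) → a = 1 := by
    intro a ha
    have h1 : f (Additive.ofMul a) = 0 := by
      refine DFinsupp.ext fun i => ?_
      exact congrArg Multiplicative.toAdd (ha i)
    have h2 : Additive.ofMul a = 0 := f.injective (by rw [h1, map_zero])
    exact h2
  have hc : ∀ i, CycG ((π i).comp χ) := fun i => h (p i) (e i) (hp i) _ (hχ.comp (π i))
  choose m hm0 hm using hc
  refine ⟨∏ i, m i, Finset.prod_ne_zero_iff.mpr fun i _ => hm0 i, fun g hg => ?_⟩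
  refine hπ _ fun i => ?_
  exact hm i g (Fix_le (Finset.dvd_prod_of_mem m (Finset.mem_univ i)) hg)

/-- `ℚ_[q](μ_n, n ∈ S)`, as a subfield of the algebraic closure. -/
noncomputable def cycS (q : ℕ) [Fact q.Prime] (S : Set ℕ) : IntermediateField ℚ_[q] (PadicAlgCl q) :=
  IntermediateField.adjoin ℚ_[q] {x : PadicAlgCl q | ∃ n ∈ S, n ≠ 0 ∧ x ^ n = 1}

/-- `ℚ_[q](μ_n)`. -/
noncomputable abbrev cyc (q n : ℕ) [Fact q.Prime] : IntermediateField ℚ_[q] (PadicAlgCl q) :=
  cycS q {n}

/-- `ℚ_[q](μ_∞)`. -/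
noncomputable abbrev cycAll (q : ℕ) [Fact q.Prime] : IntermediateField ℚ_[q] (PadicAlgCl q) :=
  cycS q Set.univ

theorem isCyclotomicExtension_cycS (S : Set ℕ) :
    IsCyclotomicExtension S ℚ_[q] (cycS q S) :=
  IntermediateField.isCyclotomicExtension_adjoin_of_exists_isPrimitiveRoot S ℚ_[q] (PadicAlgCl q)
    fun n _ hn => by
      have : NeZero n := ⟨hn⟩
      have : NeZero ((n : ℕ) : PadicAlgCl q) := ⟨Nat.cast_ne_zero.mpr hn⟩
      exact HasEnoughRootsOfUnity.exists_primitiveRoot (PadicAlgCl q) n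

theorem cycS_mono {S T : Set ℕ} (h : S ⊆ T) : cycS q S ≤ cycS q T :=
  IntermediateField.adjoin.mono ℚ_[q] _ _ fun _ ⟨n, hn, h1⟩ => ⟨n, h hn, h1⟩

theorem isAbelianGalois_cycS (S : Set ℕ) : IsAbelianGalois ℚ_[q] (cycS q S) := by
  have := isCyclotomicExtension_cycS (q := q) S
  exact IsCyclotomicExtension.isAbelianGalois S ℚ_[q] (cycS q S)

/-- An automorphism fixing `ℚ_[q](μ_n)` fixes the `n`-th roots of unity of `ℚ̄`. -/
theorem mem_Fix_of_mem {n : ℕ} (hn : n ≠ 0) {g : GLoc q} (hg : g ∈ (cyc q n).fixingSubgroup) :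
    J q g ∈ Fix n := by
  rw [IntermediateField.mem_fixingSubgroup_iff] at hg
  intro ζ hζ
  apply (padicEmbedding q).toRingHom.injective
  show padicEmbedding q (localGaloisToGlobal q g ζ) = padicEmbedding q ζ
  rw [padicEmbedding_localGaloisToGlobal]
  refine hg _ (IntermediateField.subset_adjoin _ _ ⟨n, rfl, hn, ?_⟩)
  rw [← map_pow, hζ, map_one]

/-- **Local Kronecker-Weber in the algebraic closure**: a finite abelian extension of `ℚ_[q]` is
contained in some `ℚ_[q](μ_n)`. -/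
theorem exists_le_cyc (h : CharStmt q) (L : IntermediateField ℚ_[q] (PadicAlgCl q))
    [hf : FiniteDimensional ℚ_[q] L] [IsAbelianGalois ℚ_[q] L] : ∃ n : ℕ, 0 < n ∧ L ≤ cyc q n := by
  obtain ⟨A, _, _, χ, hχ⟩ := Fld.exists_hom L
  have hker : χ.ker = L.fixingSubgroup := by
    ext g
    rw [MonoidHom.mem_ker, hχ, IntermediateField.mem_fixingSubgroup_iff]
  obtain ⟨n, hn, hle⟩ := cycG_of_finite h (χ := χ) (levG_iff.mpr ⟨L, hf, hker.ge⟩)
  refine ⟨n, Nat.pos_of_ne_zero hn, ?_⟩
  have h1 : (cyc q n).fixingSubgroup ≤ L.fixingSubgroup := by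
    rw [← hker]
    exact fun g hg => hle g (mem_Fix_of_mem hn hg)
  rw [← InfiniteGalois.fixedField_fixingSubgroup L, ← InfiniteGalois.fixedField_fixingSubgroup
    (cyc q n)]
  exact IntermediateField.fixedField_antitone h1

/-- **The maximal abelian extension of `ℚ_[q]` is generated by the roots of unity.** -/
theorem isAbelianGalois_iff_le_cycAll (h : CharStmt q)
    (L : IntermediateField ℚ_[q] (PadicAlgCl q)) : IsAbelianGalois ℚ_[q] L ↔ L ≤ cycAll q := by
  constructor
  · intro hL x hx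
    have hle : IntermediateField.adjoin ℚ_[q] {x} ≤ L := by
      rw [IntermediateField.adjoin_le_iff, Set.singleton_subset_iff]
      exact hx
    have : FiniteDimensional ℚ_[q]
        (IntermediateField.adjoin ℚ_[q] {x} : IntermediateField ℚ_[q] (PadicAlgCl q)) :=
      IntermediateField.adjoin.finiteDimensional (Algebra.IsIntegral.isIntegral x)
    have h1 : IsAbelianGalois ℚ_[q]
        (IntermediateField.adjoin ℚ_[q] {x} : IntermediateField ℚ_[q] (PadicAlgCl q)) :=
      Fld.isAbelianGalois_of_le hle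
    obtain ⟨n, -, hn⟩ := exists_le_cyc h (IntermediateField.adjoin ℚ_[q] {x})
    exact cycS_mono (Set.subset_univ _) (hn (IntermediateField.mem_adjoin_simple_self ℚ_[q] x))
  · intro hL
    have := isAbelianGalois_cycS (q := q) Set.univ
    exact Fld.isAbelianGalois_of_le hL

/-- **Local Kronecker-Weber**: a finite abelian extension of `ℚ_[q]` embeds into a cyclotomic
extension. -/
theorem exists_algHom (h : CharStmt q) (K : Type*) [Field K] [Algebra ℚ_[q] K]
    [FiniteDimensional ℚ_[q] K] [IsAbelianGalois ℚ_[q] K] :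
    ∃ n : ℕ, 0 < n ∧ Nonempty (K →ₐ[ℚ_[q]] CyclotomicField n ℚ_[q]) := by
  let i : K →ₐ[ℚ_[q]] PadicAlgCl q := IsAlgClosed.lift
  let e := AlgEquiv.ofInjectiveField i
  have h1 : IsAbelianGalois ℚ_[q] i.fieldRange := IsAbelianGalois.of_algHom e.symm.toAlgHom
  have : FiniteDimensional ℚ_[q] i.fieldRange := Module.Finite.equiv e.toLinearEquiv
  obtain ⟨n, hn, hle⟩ := exists_le_cyc h i.fieldRange
  have : NeZero n := ⟨hn.ne'⟩
  have h1 : NeZero ((n : ℕ) : ℚ_[q]) := ⟨Nat.cast_ne_zero.mpr (NeZero.ne n)⟩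
  have h2 := CyclotomicField.isCyclotomicExtension n ℚ_[q]
  have h3 := isCyclotomicExtension_cycS (q := q) {n}
  let e' : cyc q n ≃ₐ[ℚ_[q]] CyclotomicField n ℚ_[q] :=
    IsCyclotomicExtension.algEquiv {n} ℚ_[q] (cyc q n) (CyclotomicField n ℚ_[q])
  exact ⟨n, hn, ⟨(e'.toAlgHom.comp (IntermediateField.inclusion hle)).comp e.toAlgHom⟩⟩

/-- **Local Kronecker-Weber**: a finite extension of `ℚ_[q]` is abelian if and only if it embeds into
a cyclotomic extension. -/
theorem isAbelianGalois_iff (h : CharStmt q) (K : Type*) [Field K] [Algebra ℚ_[q] K]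
    [FiniteDimensional ℚ_[q] K] :
    IsAbelianGalois ℚ_[q] K ↔ ∃ n : ℕ, 0 < n ∧ Nonempty (K →ₐ[ℚ_[q]] CyclotomicField n ℚ_[q]) := by
  constructor
  · intro _
    exact exists_algHom h K
  · rintro ⟨n, hn, ⟨f⟩⟩
    have : NeZero n := ⟨hn.ne'⟩
    have h1 : NeZero ((n : ℕ) : ℚ_[q]) := ⟨Nat.cast_ne_zero.mpr (NeZero.ne n)⟩
    have h2 := CyclotomicField.isCyclotomicExtension n ℚ_[q]
    have h3 := IsCyclotomicExtension.isAbelianGalois {n} ℚ_[q] (CyclotomicField n ℚ_[q])
    exact IsAbelianGalois.of_algHom f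

end Loc

end Fermat.Agent.Cor.KW
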