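import Fermat.Agent.Corollaries.KW.Final
import Mathlib.NumberTheory.Cyclotomic.CyclotomicCharacter
import Mathlib.FieldTheory.AbsoluteGaloisGroup
import Mathlib.FieldTheory.Galois.Profinite

set_option autoImplicit false

/-!
# Class field theory for `ℚ`

`Recip.equiv`, `class_field_theory` : the topological abelianization of the absolute Galois group of
`ℚ` is the product of the groups `ℤ_[p]ˣ`, by the cyclotomic characters. Injectivity is the theorem of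
Kronecker and Weber (`closure_commutator`), surjectivity the irreducibility of the cyclotomic
polynomials and compactness.
-/

namespace Fermat.Agent.Cor.KW

open Fermat.Agent.Frob Fermat.Agent.Minkowski Fermat.Agent.TW

noncomputable section

local instance Recip.fact_primes (p : Nat.Primes) : Fact (p : ℕ).Prime := ⟨p.2⟩

local instance Recip.neZero_pow (p : Nat.Primes) (n : ℕ) : NeZero ((p : ℕ) ^ n) :=
  ⟨pow_ne_zero n p.2.ne_zero⟩

namespace Recip

/-- The `p`-adic cyclotomic character of `G_ℚ`. -/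
def chi (p : Nat.Primes) : GQ →* ℤ_[p]ˣ :=
  (cyclotomicCharacter Qbar p).comp (MulSemiringAction.toRingAut GQ Qbar)

lemma continuous_chi (p : Nat.Primes) : Continuous (chi p) :=
  cyclotomicCharacter.continuous (p : ℕ) ℚ Qbar

lemma chi_spec (p : Nat.Primes) (n : ℕ) (σ : GQ) {ζ : Qbar} (h : ζ ^ (p : ℕ) ^ n = 1) :
    σ ζ = ζ ^ ((chi p σ : ℤ_[p]).toZModPow n).val :=
  cyclotomicCharacter.spec (p : ℕ) (MulSemiringAction.toRingAut GQ Qbar σ) ζ h

lemma chi_eq {p : Nat.Primes} {σ : GQ} {u : ℤ_[p]ˣ}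
    (h : ∀ (n : ℕ) (ζ : Qbar), ζ ^ (p : ℕ) ^ n = 1 →
      σ ζ = ζ ^ ((u : ℤ_[p]).toZModPow n).val) : chi p σ = u := by
  refine Units.ext (PadicInt.ext_of_toZModPow.mp fun n => ?_)
  have h1 := h n (Kap.zet ((p : ℕ) ^ n)) (Kap.zet_spec ((p : ℕ) ^ n)).pow_eq_one
  rw [chi_spec p n σ (Kap.zet_spec ((p : ℕ) ^ n)).pow_eq_one] at h1
  exact ZMod.val_injective _ ((Kap.zet_spec ((p : ℕ) ^ n)).pow_inj (ZMod.val_lt _) (ZMod.val_lt _) h1)

/-- All cyclotomic characters together. -/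
def cyc : GQ →* ((p : Nat.Primes) → ℤ_[p]ˣ) := MonoidHom.pi chi

lemma continuous_cyc : Continuous cyc := continuous_pi fun p => continuous_chi p

lemma mem_Fix_of_cyc {σ : GQ} (h : cyc σ = 1) {m : ℕ} (hm : m ≠ 0) : σ ∈ Fix m := by
  induction m using Nat.recOnPosPrimePosCoprime with
  | prime_pow p n hp hn =>
    intro ζ hζ
    have h1 : chi ⟨p, hp⟩ σ = 1 := congrFun h ⟨p, hp⟩
    have h2 := chi_spec ⟨p, hp⟩ n σ hζ
    have : Fact (1 < p ^ n) := ⟨Nat.one_lt_pow hn.ne' hp.one_lt⟩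
    rw [h1, Units.val_one, map_one] at h2
    rw [h2]
    have h3 : (1 : ZMod (p ^ n)).val = 1 := ZMod.val_one _
    exact (congrArg (ζ ^ ·) h3).trans (pow_one ζ)
  | zero => exact absurd rfl hm
  | one =>
    intro ζ hζ
    rw [pow_one] at hζ
    rw [hζ, map_one]
  | coprime a b ha hb hab iha ihb =>
    have ha0 : a ≠ 0 := by omega
    have hb0 : b ≠ 0 := by omega
    have h1 := Fix_inf a b ha0 hb0
    rw [hab.lcm_eq_mul] at h1
    rw [← h1]
    exact ⟨iha ha0, ihb hb0⟩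

lemma cyc_eq_one_iff {σ : GQ} : cyc σ = 1 ↔ ∀ m : ℕ, m ≠ 0 → σ ∈ Fix m := by
  refine ⟨fun h m hm => mem_Fix_of_cyc h hm, fun h => funext fun p => chi_eq fun n ζ hζ => ?_⟩
  rw [h _ (pow_ne_zero n p.2.ne_zero) ζ hζ, Pi.one_apply, Units.val_one, map_one]
  rcases Nat.eq_zero_or_pos n with rfl | hn
  · rw [pow_zero, pow_one] at hζ
    rw [hζ, one_pow]
  · have : Fact (1 < (p : ℕ) ^ n) := ⟨Nat.one_lt_pow hn.ne' p.2.one_lt⟩
    rw [ZMod.val_one, pow_one]

lemma ker_cyc : cyc.ker = (commutator GQ).topologicalClosure := by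
  rw [closure_commutator]
  ext σ
  rw [MonoidHom.mem_ker, cyc_eq_one_iff]
  simp only [Subgroup.mem_iInf]

/-! ### Surjectivity -/

lemma isClosed_pred (x : Qbar) (P : Qbar → Prop) : IsClosed {σ : GQ | P (σ x)} := by
  rw [← isOpen_compl_iff, isOpen_iff_mem_nhds]
  intro σ hσ
  have h1 : (MulAction.stabilizer GQ x : Set GQ) ∈ nhds (1 : GQ) := by
    refine (krullTopology_mem_nhds_one_iff ℚ Qbar _).mpr ⟨IntermediateField.adjoin ℚ {x}, ?_, ?_⟩
    · exact IntermediateField.adjoin.finiteDimensional (Algebra.IsIntegral.isIntegral x)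
    · intro τ hτ
      exact (IntermediateField.mem_fixingSubgroup_iff _ τ).mp hτ x
        (IntermediateField.mem_adjoin_simple_self ℚ x)
  have h2 : (fun τ : GQ => σ⁻¹ * τ) ⁻¹' (MulAction.stabilizer GQ x : Set GQ) ∈ nhds σ := by
    refine (continuous_const_mul σ⁻¹).continuousAt.preimage_mem_nhds ?_
    rw [inv_mul_cancel]
    exact h1
  refine Filter.mem_of_superset h2 fun τ hτ => ?_
  have h3 : σ⁻¹ (τ x) = x := hτ
  have h4 : τ x = σ x := (σ.apply_symm_apply (τ x)).symm.trans (congrArg σ h3)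
  rw [Set.mem_compl_iff, Set.mem_ofPred_eq, h4]
  exact hσ

/-- The conditions of level `N`. -/
def lvl (u : (p : Nat.Primes) → ℤ_[p]ˣ) (N : ℕ) : Set GQ :=
  {σ | ∀ p : Nat.Primes, (p : ℕ) < N → ∀ ζ : Qbar, ζ ^ (p : ℕ) ^ N = 1 →
    σ ζ = ζ ^ ((u p : ℤ_[p]).toZModPow N).val}

lemma isClosed_lvl (u : (p : Nat.Primes) → ℤ_[p]ˣ) (N : ℕ) : IsClosed (lvl u N) := by
  have h : lvl u N = ⋂ (p : Nat.Primes) (_ : (p : ℕ) < N) (ζ : Qbar) (_ : ζ ^ (p : ℕ) ^ N = 1),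
      {σ : GQ | σ ζ = ζ ^ ((u p : ℤ_[p]).toZModPow N).val} := by
    ext σ
    simp only [lvl, Set.mem_iInter, Set.mem_ofPred_eq]
  rw [h]
  exact isClosed_iInter fun p => isClosed_iInter fun _ => isClosed_iInter fun ζ =>
    isClosed_iInter fun _ => isClosed_pred ζ (· = _)

lemma pow_toZModPow {p : Nat.Primes} (u : ℤ_[p]) {m n : ℕ} (h : m ≤ n) {ζ : Qbar}
    (hζ : ζ ^ (p : ℕ) ^ m = 1) : ζ ^ (u.toZModPow n).val = ζ ^ (u.toZModPow m).val := by
  rw [← PadicInt.cast_toZModPow m n h u, ZMod.cast_eq_val, ZMod.val_natCast]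
  exact pow_eq_pow_mod _ hζ

lemma lvl_succ (u : (p : Nat.Primes) → ℤ_[p]ˣ) (N : ℕ) : lvl u (N + 1) ⊆ lvl u N := by
  intro σ hσ p hp ζ hζ
  have h1 : ζ ^ (p : ℕ) ^ (N + 1) = 1 := by rw [pow_succ, pow_mul, hζ, one_pow]
  rw [hσ p (hp.trans (Nat.lt_succ_self N)) ζ h1, pow_toZModPow _ (Nat.le_succ N) hζ]

/-- The residues modulo `p ^ N`. -/
def res (u : (p : Nat.Primes) → ℤ_[p]ˣ) (N : ℕ) (p : Nat.Primes) : ZMod ((p : ℕ) ^ N) :=
  (u p : ℤ_[p]).toZModPow N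

lemma isUnit_res (u : (p : Nat.Primes) → ℤ_[p]ˣ) (N : ℕ) (p : Nat.Primes) : IsUnit (res u N p) :=
  (u p).isUnit.map (PadicInt.toZModPow N)

lemma lvl_nonempty (u : (p : Nat.Primes) → ℤ_[p]ˣ) (N : ℕ) : (lvl u N).Nonempty := by
  classical
  let S : Finset ℕ := (Finset.range N).filter Nat.Prime
  let a : ℕ → ℕ := fun q => if h : q.Prime then
    (res u N ⟨q, h⟩).val else 0
  obtain ⟨k, hk⟩ := Nat.chineseRemainderOfFinset a (fun q => q ^ N) S (fun q hq =>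
    pow_ne_zero N (Finset.mem_filter.mp hq).2.ne_zero) (fun q hq r hr hqr =>
      Nat.Coprime.pow N N ((Nat.coprime_primes (Finset.mem_filter.mp hq).2
        (Finset.mem_filter.mp hr).2).mpr hqr))
  have hn : ∏ q ∈ S, q ^ N ≠ 0 := Finset.prod_ne_zero_iff.mpr fun q hq =>
    pow_ne_zero N (Finset.mem_filter.mp hq).2.ne_zero
  have : NeZero (∏ q ∈ S, q ^ N) := ⟨hn⟩
  have hcop : Nat.Coprime k (∏ q ∈ S, q ^ N) := by
    refine Nat.Coprime.prod_right fun q hq => ?_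
    have hqp : q.Prime := (Finset.mem_filter.mp hq).2
    have h1 : IsUnit ((k : ℕ) : ZMod (q ^ N)) := by
      have h2 : ((k : ℕ) : ZMod (q ^ N)) = res u N ⟨q, hqp⟩ := by
        have : NeZero (q ^ N) := ⟨pow_ne_zero N hqp.ne_zero⟩
        have h3 := (ZMod.natCast_eq_natCast_iff _ _ _).mpr (hk q hq)
        rw [h3]
        simp only [a, dif_pos hqp]
        exact ZMod.natCast_zmod_val _
      rw [h2]
      exact isUnit_res u N ⟨q, hqp⟩
    exact (ZMod.isUnit_iff_coprime _ _).mp h1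
  obtain ⟨σ, hσ⟩ := Kap.kap_surjective (∏ q ∈ S, q ^ N) (ZMod.unitOfCoprime k hcop)
  refine ⟨σ, fun p hp ζ hζ => ?_⟩
  have hpS : (p : ℕ) ∈ S := Finset.mem_filter.mpr ⟨Finset.mem_range.mpr hp, p.2⟩
  have h1 : ζ ^ (∏ q ∈ S, q ^ N) = 1 := by
    obtain ⟨c, hc⟩ := Finset.dvd_prod_of_mem (fun q => q ^ N) hpS
    rw [hc, pow_mul, hζ, one_pow]
  have h2 := Kap.kap_spec _ σ ζ h1
  rw [hσ, ZMod.coe_unitOfCoprime, ZMod.val_natCast, ← pow_eq_pow_mod _ h1] at h2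
  rw [h2]
  have h3 : k ≡ ((u p : ℤ_[p]).toZModPow N).val [MOD (p : ℕ) ^ N] := by
    have h4 := hk p hpS
    simp only [a, dif_pos p.2] at h4
    exact h4
  rw [pow_eq_pow_mod k hζ, h3, ← pow_eq_pow_mod _ hζ]

theorem cyc_surjective : Function.Surjective cyc := by
  intro u
  obtain ⟨σ, hσ⟩ := IsCompact.nonempty_iInter_of_sequence_nonempty_isCompact_isClosed (lvl u)
    (lvl_succ u) (lvl_nonempty u) (isClosed_lvl u 0).isCompact (isClosed_lvl u)
  rw [Set.mem_iInter] at hσ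
  refine ⟨σ, funext fun p => chi_eq fun n ζ hζ => ?_⟩
  have h1 : n ≤ n + (p : ℕ) + 1 := by omega
  have h2 : ζ ^ (p : ℕ) ^ (n + (p : ℕ) + 1) = 1 := by
    rw [Nat.add_assoc, pow_add, pow_mul, hζ, one_pow]
  rw [hσ (n + (p : ℕ) + 1) p (by omega) ζ h2, pow_toZModPow _ h1 hζ]

/-! ### The isomorphism -/

/-- **Class field theory for `ℚ`**: the cyclotomic characters give an isomorphism of topological
groups from the abelianization of `Gal(ℚ̄/ℚ)` to the product of the groups `ℤ_[p]ˣ`. -/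
def equiv : TopologicalAbelianization GQ ≃ₜ* ((p : Nat.Primes) → ℤ_[p]ˣ) :=
  let f : TopologicalAbelianization GQ →* ((p : Nat.Primes) → ℤ_[p]ˣ) :=
    QuotientGroup.lift _ cyc ker_cyc.ge
  have hf : Function.Bijective f := by
    refine ⟨(injective_iff_map_eq_one f).mpr fun x hx => ?_, fun u => ?_⟩
    · obtain ⟨σ, rfl⟩ := QuotientGroup.mk_surjective x
      exact (QuotientGroup.eq_one_iff σ).mpr (ker_cyc.le hx)
    · obtain ⟨σ, rfl⟩ := cyc_surjective u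
      exact ⟨QuotientGroup.mk σ, rfl⟩
  have hc : Continuous f := continuous_quot_lift _ continuous_cyc
  { MulEquiv.ofBijective f hf with
    continuous_toFun := hc
    continuous_invFun :=
      Continuous.continuous_symm_of_equiv_compact_to_t2 (f := Equiv.ofBijective f hf) hc }

/-- The isomorphism is given by the action on the roots of unity of prime power order. -/
theorem equiv_spec (σ : GQ) (p : Nat.Primes) (n : ℕ) {ζ : AlgebraicClosure ℚ}
    (h : ζ ^ (p : ℕ) ^ n = 1) :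
    σ ζ = ζ ^ ((equiv (QuotientGroup.mk σ) p : ℤ_[p]).toZModPow n).val :=
  chi_spec p n σ h

/-! ### Frobenius elements, inertia groups, complex conjugation -/

lemma kap_eq_toZModPow (p : Nat.Primes) (n : ℕ) (σ : GQ) :
    ((Kap.kap ((p : ℕ) ^ n) σ : (ZMod ((p : ℕ) ^ n))ˣ) : ZMod ((p : ℕ) ^ n)) =
      (chi p σ : ℤ_[p]).toZModPow n := by
  rw [Kap.kap_eq _ (chi_spec p n σ (Kap.zet_spec ((p : ℕ) ^ n)).pow_eq_one)]
  exact ZMod.natCast_zmod_val _

/-- The Frobenius elements at `ℓ ≠ p` have the value `ℓ` under the `p`-adic cyclotomic character. -/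
theorem chi_frob {ℓ : ℕ} (hℓ : ℓ.Prime) {p : Nat.Primes} (hp : (p : ℕ) ≠ ℓ)
    {A : ValuationSubring Qbar} (hA : A.LiesOverPrime ℓ) {φ : GQ} (hφ : A.IsFrobeniusAt φ ℓ) :
    (chi p φ : ℤ_[p]) = ℓ := by
  refine PadicInt.ext_of_toZModPow.mp fun n => ?_
  have hcop : Nat.Coprime ℓ ((p : ℕ) ^ n) :=
    Nat.Coprime.pow_right n ((Nat.coprime_primes hℓ p.2).mpr hp.symm)
  have h1 : φ (Kap.zet ((p : ℕ) ^ n)) = Kap.zet ((p : ℕ) ^ n) ^ ℓ :=
    GalRep.frobenius_rootOfUnity hA hcop (pow_ne_zero n p.2.ne_zero) hφ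
      (Kap.zet_spec ((p : ℕ) ^ n)).pow_eq_one
  rw [← kap_eq_toZModPow, Kap.kap_eq _ h1, map_natCast]

/-- Complex conjugation goes to `-1`. -/
theorem chi_conj (p : Nat.Primes) : (chi p complexConjugation : ℤ_[p]) = -1 := by
  refine PadicInt.ext_of_toZModPow.mp fun n => ?_
  rw [← kap_eq_toZModPow, Kap.kap_conj, Units.val_neg, Units.val_one, map_neg, map_one]

lemma chi_eq_one_iff {p : Nat.Primes} {σ : GQ} :
    chi p σ = 1 ↔ ∀ n : ℕ, σ ∈ Fix ((p : ℕ) ^ n) := by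
  constructor
  · intro h n
    rw [mem_Fix_iff_kap]
    refine Units.ext ?_
    rw [kap_eq_toZModPow, h, Units.val_one, map_one, Units.val_one]
  · intro h
    refine Units.ext (PadicInt.ext_of_toZModPow.mp fun n => ?_)
    rw [← kap_eq_toZModPow, mem_Fix_iff_kap.mp (h n), Units.val_one, Units.val_one, map_one]

lemma isClosed_inertia (A : ValuationSubring Qbar) :
    IsClosed (A.inertiaSubgroupIn ℚ : Set GQ) := by
  have h : (A.inertiaSubgroupIn ℚ : Set GQ) = (⋂ (x : Qbar) (_ : x ∈ A),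
      {σ : GQ | σ x - x ∈ A.nonunits}) ∩
        (fun σ : GQ => σ⁻¹) ⁻¹' ⋂ (x : Qbar) (_ : x ∈ A), {σ : GQ | σ x ∈ A} := by
    ext σ
    simp only [SetLike.mem_coe, Set.mem_inter_iff, Set.mem_iInter, Set.mem_ofPred_eq,
      Set.mem_preimage]
    constructor
    · intro hσ
      exact ⟨fun x hx => (sub_mem_nonunits_of_mem_inertia hσ hx).2, fun x hx =>
        (sub_mem_nonunits_of_mem_inertia (inv_mem hσ) hx).1⟩
    · rintro ⟨h1, h2⟩
      exact mem_inertiaSubgroupIn_of_forall h1 h2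
  rw [h]
  refine IsClosed.inter (isClosed_iInter fun x => isClosed_iInter fun _ =>
    isClosed_pred x fun y => y - x ∈ A.nonunits) (IsClosed.preimage continuous_inv
      (isClosed_iInter fun x => isClosed_iInter fun _ => isClosed_pred x fun y => y ∈ A))

/-- **The image of the inertia groups at `ℓ` is `ℤ_[ℓ]ˣ`.** -/
theorem image_inertia {ℓ : Nat.Primes} {A : ValuationSubring Qbar}
    (hA : A.LiesOverPrime (ℓ : ℕ)) :
    cyc '' (A.inertiaSubgroupIn ℚ : Set GQ) = {u | ∀ p : Nat.Primes, p ≠ ℓ → u p = 1} := by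
  apply Set.Subset.antisymm
  · rintro _ ⟨σ, hσ, rfl⟩ p hp
    refine chi_eq_one_iff.mpr fun n => ?_
    rw [mem_Fix_iff_kap]
    refine Kap.unrAt_kap ((p : ℕ) ^ n) ℓ.2 (fun hd => hp ?_) A hA σ hσ
    exact (Subtype.ext ((Nat.prime_dvd_prime_iff_eq ℓ.2 p.2).mp (ℓ.2.dvd_of_dvd_pow hd))).symm
  · intro u hu
    let D : ℕ → Set GQ := fun N => (A.inertiaSubgroupIn ℚ : Set GQ) ∩
      ⋂ (ζ : Qbar) (_ : ζ ^ (ℓ : ℕ) ^ N = 1), {σ : GQ | σ ζ = ζ ^ ((u ℓ : ℤ_[ℓ]).toZModPow N).val}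
    have hD : ∀ (N : ℕ) (σ : GQ), σ ∈ D N ↔ σ ∈ A.inertiaSubgroupIn ℚ ∧
        ∀ ζ : Qbar, ζ ^ (ℓ : ℕ) ^ N = 1 → σ ζ = ζ ^ ((u ℓ : ℤ_[ℓ]).toZModPow N).val := by
      intro N σ
      simp only [D, Set.mem_inter_iff, Set.mem_iInter, Set.mem_ofPred_eq, SetLike.mem_coe]
    have hcl : ∀ N, IsClosed (D N) := fun N => (isClosed_inertia A).inter
      (isClosed_iInter fun ζ => isClosed_iInter fun _ => isClosed_pred ζ (· = _))
    obtain ⟨σ, hσ⟩ := IsCompact.nonempty_iInter_of_sequence_nonempty_isCompact_isClosed D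
      (fun N σ hσ => by
        rw [hD] at hσ ⊢
        refine ⟨hσ.1, fun ζ hζ => ?_⟩
        rw [hσ.2 ζ (by rw [pow_succ, pow_mul, hζ, one_pow]), pow_toZModPow _ (Nat.le_succ N) hζ])
      (fun N => by
        obtain ⟨σ, hσ, h1⟩ := inertia_surj ℓ.2 N hA
          (Units.map (PadicInt.toZModPow N : ℤ_[ℓ] →+* ZMod ((ℓ : ℕ) ^ N)).toMonoidHom (u ℓ))
        refine ⟨σ, (hD N σ).mpr ⟨hσ, fun ζ hζ => ?_⟩⟩
        rw [Kap.kap_spec _ σ ζ hζ, h1]
        rfl) (hcl 0).isCompact hcl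
    rw [Set.mem_iInter] at hσ
    have h1 : σ ∈ A.inertiaSubgroupIn ℚ := ((hD 0 σ).mp (hσ 0)).1
    refine ⟨σ, h1, funext fun p => ?_⟩
    by_cases hp : p = ℓ
    · subst hp
      exact chi_eq fun n ζ hζ => ((hD n σ).mp (hσ n)).2 ζ hζ
    · rw [hu p hp]
      refine chi_eq_one_iff.mpr fun n => ?_
      rw [mem_Fix_iff_kap]
      refine Kap.unrAt_kap ((p : ℕ) ^ n) ℓ.2 (fun hd => hp ?_) A hA σ h1
      exact (Subtype.ext ((Nat.prime_dvd_prime_iff_eq ℓ.2 p.2).mp (ℓ.2.dvd_of_dvd_pow hd))).symm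

end Recip

open Recip in
/-- **Class field theory for `ℚ`**: there is an isomorphism `e` of topological groups from the
abelianization of `Gal(ℚ̄/ℚ)` (the quotient by the closure of the commutator subgroup) to the product
of the groups `ℤ_[p]ˣ` such that
* `σ ζ = ζ ^ a` with `a ≡ e(σ)_p` modulo `p ^ n`, for all `p ^ n`-th roots of unity `ζ`;
* the image of every inertia group at `ℓ` is the factor `ℤ_[ℓ]ˣ`;
* the component at `p ≠ ℓ` of a Frobenius element at `ℓ` is `ℓ`;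
* the complex conjugation goes to `-1`. -/
theorem class_field_theory :
    ∃ e : TopologicalAbelianization (AlgebraicClosure ℚ ≃ₐ[ℚ] AlgebraicClosure ℚ) ≃ₜ*
        ((p : Nat.Primes) → ℤ_[p]ˣ),
      (∀ (σ : AlgebraicClosure ℚ ≃ₐ[ℚ] AlgebraicClosure ℚ) (p : Nat.Primes) (n : ℕ)
        (ζ : AlgebraicClosure ℚ), ζ ^ (p : ℕ) ^ n = 1 →
          σ ζ = ζ ^ ((e (QuotientGroup.mk σ) p : ℤ_[p]).toZModPow n).val) ∧
      (∀ (ℓ : Nat.Primes) (A : ValuationSubring (AlgebraicClosure ℚ)), A.LiesOverPrime (ℓ : ℕ) →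
        (fun σ => e (QuotientGroup.mk σ)) '' (A.inertiaSubgroupIn ℚ : Set _) =
          {u | ∀ p : Nat.Primes, p ≠ ℓ → u p = 1}) ∧
      (∀ (ℓ : Nat.Primes) (A : ValuationSubring (AlgebraicClosure ℚ)), A.LiesOverPrime (ℓ : ℕ) →
        ∀ φ : AlgebraicClosure ℚ ≃ₐ[ℚ] AlgebraicClosure ℚ, A.IsFrobeniusAt φ (ℓ : ℕ) →
          ∀ p : Nat.Primes, p ≠ ℓ → (e (QuotientGroup.mk φ) p : ℤ_[p]) = (ℓ : ℕ)) ∧
      ∀ p : Nat.Primes, (e (QuotientGroup.mk complexConjugation) p : ℤ_[p]) = -1 :=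
  ⟨equiv, fun σ p n _ h => equiv_spec σ p n h, fun _ _ hA => image_inertia hA,
    fun ℓ _ hA _ hφ _ hp => chi_frob ℓ.2 (fun h => hp (Subtype.ext h)) hA hφ, chi_conj⟩

open Recip in
/-- **Class field theory for `ℚ`**: the topological abelianization of the absolute Galois group of
`ℚ` is the product of the groups `ℤ_[p]ˣ`. -/
theorem absoluteGaloisGroupAbelianization_rat :
    Nonempty (Field.absoluteGaloisGroupAbelianization ℚ ≃ₜ* ((p : Nat.Primes) → ℤ_[p]ˣ)) :=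
  ⟨equiv⟩

end

end Fermat.Agent.Cor.KW
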