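import Fermat.Agent.Corollaries.KW.LocUnr
import Fermat.Agent.Corollaries.KW.LocField
import Fermat.Agent.Corollaries.KW.Recip

set_option autoImplicit false

/-!
# Class field theory for `ℚ_[q]`

From the local theorem of Kronecker and Weber (in the form `Loc.CharStmt q`): the topological
abelianization of the absolute Galois group of `ℚ_[q]` is `ℤ_[q]ˣ × ∏ ℓ, ℤ_[ℓ]`.
-/

namespace Fermat.Agent.Cor.KW

open scoped Pointwise commutatorElement
open Fermat.Agent.Frob Fermat.Agent.Minkowski Fermat.Agent.TW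

noncomputable section

attribute [local instance] Recip.fact_primes Recip.neZero_pow

namespace Loc

variable {q : ℕ} [hq : Fact q.Prime]

/-! ### The closure of the commutator subgroup -/

lemma mem_of_mem_Fix {n : ℕ} {g : GLoc q} (hg : J q g ∈ Fix n) : g ∈ (cyc q n).fixingSubgroup := by
  rw [cyc, cycS, IntermediateField.mem_fixingSubgroup_iff]
  have hle : IntermediateField.adjoin ℚ_[q] {ζ : PadicAlgCl q | ∃ m ∈ ({n} : Set ℕ), m ≠ 0 ∧
      ζ ^ m = 1} ≤ IntermediateField.fixedField (Subgroup.zpowers g) := by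
    rw [IntermediateField.adjoin_le_iff]
    rintro x ⟨m, rfl, hm, hx⟩
    rw [SetLike.mem_coe, IntermediateField.mem_fixedField_iff]
    intro τ hτ
    have : NeZero m := ⟨hm⟩
    have hJ : J q τ ∈ Fix m := by
      obtain ⟨k, rfl⟩ := hτ
      rw [map_zpow]
      exact zpow_mem hg k
    have hprim : IsPrimitiveRoot (padicEmbedding q (Kap.zet m)) m :=
      (Kap.zet_spec m).map_of_injective (padicEmbedding q).toRingHom.injective
    obtain ⟨k, -, rfl⟩ := hprim.eq_pow_of_pow_eq_one hx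
    have h1 : τ (padicEmbedding q (Kap.zet m)) = padicEmbedding q (Kap.zet m) := by
      rw [← padicEmbedding_localGaloisToGlobal, hJ _ (Kap.zet_spec m).pow_eq_one]
    rw [map_pow, h1]
  intro x hx
  have h1 := hle hx
  rw [IntermediateField.mem_fixedField_iff] at h1
  exact h1 g (Subgroup.mem_zpowers g)

lemma LevG.isOpen_ker {M : Type*} [Group M] {χ : GLoc q →* M} (h : LevG χ) :
    IsOpen (χ.ker : Set (GLoc q)) := by
  obtain ⟨E, hE, hle⟩ := levG_iff.mp h
  exact Subgroup.isOpen_mono hle (IntermediateField.fixingSubgroup_isOpen E)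

lemma ker_kp (m : ℕ) [NeZero m] : (kp q m).ker = (Fix m).comap (J q) := by
  rw [← Kap.kap_ker m]
  rfl

/-- The closure of the commutator subgroup of the absolute Galois group of `ℚ_[q]` consists of the
automorphisms which fix all roots of unity. -/
theorem closure_commutator_of (h : CharStmt q) :
    (commutator (GLoc q)).topologicalClosure = ⨅ (m : ℕ) (_ : m ≠ 0), (Fix m).comap (J q) := by
  apply le_antisymm
  · refine le_iInf₂ fun m hm => ?_
    have : NeZero m := ⟨hm⟩
    rw [← ker_kp m]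
    refine Subgroup.topologicalClosure_minimal _ ?_ ?_
    · exact Abelianization.commutator_subset_ker (kp q m)
    · exact (kp q m).ker.isClosed_of_isOpen (levG_kp m).isOpen_ker
  · intro g hg
    have hcl : IsClosed ((commutator (GLoc q)).topologicalClosure : Set (GLoc q)) :=
      (commutator (GLoc q)).isClosed_topologicalClosure
    have h1 := InfiniteGalois.fixingSubgroup_fixedField (k := ℚ_[q]) (K := PadicAlgCl q)
      ⟨(commutator (GLoc q)).topologicalClosure, hcl⟩
    have h2 : g ∈ (IntermediateField.fixedField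
        ((⟨(commutator (GLoc q)).topologicalClosure, hcl⟩ :
          ClosedSubgroup (GLoc q)) : Subgroup (GLoc q))).fixingSubgroup := by
      rw [IntermediateField.mem_fixingSubgroup_iff]
      intro x hx
      have hle : IntermediateField.adjoin ℚ_[q] {x} ≤ IntermediateField.fixedField
          (commutator (GLoc q)).topologicalClosure := by
        rw [IntermediateField.adjoin_le_iff, Set.singleton_subset_iff]
        exact hx
      have : FiniteDimensional ℚ_[q]
          (IntermediateField.adjoin ℚ_[q] {x} : IntermediateField ℚ_[q] (PadicAlgCl q)) :=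
        IntermediateField.adjoin.finiteDimensional (Algebra.IsIntegral.isIntegral x)
      set S := (IntermediateField.adjoin ℚ_[q] {x} :
        IntermediateField ℚ_[q] (PadicAlgCl q)).fixingSubgroup with hS
      have hcS : commutator (GLoc q) ≤ S := by
        refine (commutator (GLoc q)).le_topologicalClosure.trans ?_
        exact (IntermediateField.le_iff_le _ _).mp hle
      have hcomm : ∀ a b : GLoc q, (a * b)⁻¹ * (b * a) ∈ S := by
        intro a b
        have h4 : (a * b)⁻¹ * (b * a) = ⁅b⁻¹, a⁻¹⁆ := by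
          rw [commutatorElement_def, inv_inv, inv_inv, mul_inv_rev]
          simp only [mul_assoc]
        rw [h4]
        exact hcS (Subgroup.commutator_mem_commutator (Subgroup.mem_top _) (Subgroup.mem_top _))
      have hnorm : S.Normal := by
        refine ⟨fun s hs a => ?_⟩
        have h6 : a * s * a⁻¹ = ⁅a, s⁆ * s := by
          rw [commutatorElement_def]
          group
        rw [h6]
        exact S.mul_mem (hcS (Subgroup.commutator_mem_commutator (Subgroup.mem_top _)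
          (Subgroup.mem_top _))) hs
      have hfin : S.FiniteIndex := ⟨by
        rw [hS, ← IntermediateField.finrank_eq_fixingSubgroup_index]
        exact Module.finrank_pos.ne'⟩
      let _ : CommGroup (GLoc q ⧸ S) :=
        { (inferInstance : Group (GLoc q ⧸ S)) with
          mul_comm := by
            intro a b
            obtain ⟨a, rfl⟩ := QuotientGroup.mk_surjective a
            obtain ⟨b, rfl⟩ := QuotientGroup.mk_surjective b
            exact QuotientGroup.eq.mpr (hcomm a b) }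
      obtain ⟨m, hm, hm'⟩ := cycG_of_finite h (χ := QuotientGroup.mk' S)
        (levG_iff.mpr ⟨_, this, by rw [QuotientGroup.ker_mk']⟩)
      have h7 : g ∈ S := by
        have h8 := hm' g (Subgroup.mem_iInf.mp (Subgroup.mem_iInf.mp hg m) hm)
        exact (QuotientGroup.eq_one_iff g).mp h8
      exact (IntermediateField.mem_fixingSubgroup_iff _ g).mp h7 x
        (IntermediateField.mem_adjoin_simple_self _ x)
    rw [h1] at h2
    exact h2

/-! ### The unramified part -/

/-- A Frobenius element. -/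
def phi (q : ℕ) [Fact q.Prime] : GLoc q := (exists_frob q).choose

lemma phi_spec (q : ℕ) [Fact q.Prime] : (padicPlace q).IsFrobeniusAt (J q (phi q)) q :=
  (exists_frob q).choose_spec

lemma orderOf_ofAdd_one {N : ℕ} (hN : N ≠ 0) :
    orderOf (Multiplicative.ofAdd (1 : ZMod N)) ≠ 0 := by
  have : NeZero N := ⟨hN⟩
  exact (orderOf_pos _).ne'

/-- Two Frobenius elements differ by inertia. -/
lemma inertia_of_frob {φ φ' : GLoc q} (h : (padicPlace q).IsFrobeniusAt (J q φ) q)
    (h' : (padicPlace q).IsFrobeniusAt (J q φ') q) :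
    J q (φ'⁻¹ * φ) ∈ (padicPlace q).inertiaSubgroupIn ℚ := by
  rw [map_mul, map_inv]
  obtain ⟨h1, h2⟩ := h
  obtain ⟨h1', h2'⟩ := h'
  refine ⟨(⟨J q φ', h1'⟩ : (padicPlace q).decompositionSubgroup ℚ)⁻¹ * ⟨J q φ, h1⟩, ?_, rfl⟩
  change _ ∈ MonoidHom.ker _
  rw [MonoidHom.mem_ker]
  ext x
  change ((⟨J q φ', h1'⟩ : (padicPlace q).decompositionSubgroup ℚ)⁻¹ * ⟨J q φ, h1⟩) • x = x
  rw [mul_smul, h2, ← h2', inv_smul_smul]

lemma exists_eta (q : ℕ) [Fact q.Prime] (N : ℕ) [NeZero N] :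
    ∃ η : GLoc q →* C N, LevG η ∧ UnrG η ∧ CycG η ∧
      ∀ φ : GLoc q, (padicPlace q).IsFrobeniusAt (J q φ) q → η φ = Multiplicative.ofAdd 1 := by
  obtain ⟨η, h1, h2, h3, h4⟩ := exists_unr_char (phi_spec q) (orderOf_ofAdd_one (NeZero.ne N))
  refine ⟨η, h1, h2, h3, fun φ hφ => ?_⟩
  have h5 := h2 _ (inertia_of_frob hφ (phi_spec q))
  rw [map_mul, map_inv, inv_mul_eq_one] at h5
  rw [← h5, h4]

/-- The unramified character with value `1 ∈ ℤ/N` at the Frobenius elements. -/
def eta (q : ℕ) [Fact q.Prime] (N : ℕ) [NeZero N] : GLoc q →* C N := (exists_eta q N).choose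

lemma levG_eta (N : ℕ) [NeZero N] : LevG (eta q N) := (exists_eta q N).choose_spec.1

lemma unrG_eta (N : ℕ) [NeZero N] : UnrG (eta q N) := (exists_eta q N).choose_spec.2.1

lemma cycG_eta (N : ℕ) [NeZero N] : CycG (eta q N) := (exists_eta q N).choose_spec.2.2.1

lemma eta_frob (N : ℕ) [NeZero N] {φ : GLoc q} (hφ : (padicPlace q).IsFrobeniusAt (J q φ) q) :
    eta q N φ = Multiplicative.ofAdd 1 := (exists_eta q N).choose_spec.2.2.2 φ hφ

/-- Reduction of the cyclic groups. -/
def redC {M N : ℕ} (h : M ∣ N) : C N →* C M :=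
  (ZMod.castHom h (ZMod M)).toAddMonoidHom.toMultiplicative

lemma redC_ofAdd_one {M N : ℕ} (h : M ∣ N) :
    redC h (Multiplicative.ofAdd 1) = Multiplicative.ofAdd 1 := by
  show Multiplicative.ofAdd (ZMod.castHom h (ZMod M) 1) = _
  rw [map_one]

lemma redC_eta {M N : ℕ} [NeZero M] [NeZero N] (h : M ∣ N) (g : GLoc q) :
    redC h (eta q N g) = eta q M g := by
  have h1 : (redC h).comp (eta q N) = eta q M :=
    eq_of_frob ((levG_eta N).comp _) ((unrG_eta N).comp _) (levG_eta M) (unrG_eta M) (phi_spec q)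
      (by rw [MonoidHom.comp_apply, eta_frob N (phi_spec q), eta_frob M (phi_spec q),
        redC_ofAdd_one])
  exact DFunLike.congr_fun h1 g

lemma natCast_val_eta {M N : ℕ} [NeZero M] [NeZero N] (h : M ∣ N) (g : GLoc q) :
    (((eta q N g).toAdd.val : ℕ) : ZMod M) = (eta q M g).toAdd := by
  rw [← redC_eta h g]
  show _ = ZMod.castHom h (ZMod M) (eta q N g).toAdd
  rw [ZMod.castHom_apply, ZMod.cast_eq_val]

lemma pow_dvd_eta (ℓ : Nat.Primes) (g : GLoc q) (i : ℕ) : ((ℓ : ℕ) : ℤ) ^ i ∣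
    ((eta q ((ℓ : ℕ) ^ (i + 1)) g).toAdd.val : ℤ) - ((eta q ((ℓ : ℕ) ^ i) g).toAdd.val : ℤ) := by
  rw [← Nat.cast_pow, ← ZMod.intCast_zmod_eq_zero_iff_dvd, Int.cast_sub, Int.cast_natCast,
    Int.cast_natCast, natCast_val_eta (pow_dvd_pow _ (Nat.le_succ i)), ZMod.natCast_zmod_val,
    sub_self]

/-- The `ℓ`-component of the unramified part. -/
def uu (ℓ : Nat.Primes) (g : GLoc q) : ℤ_[ℓ] :=
  PadicInt.ofIntSeq _ (PadicInt.isCauSeq_padicNorm_of_pow_dvd_sub
    (fun n => ((eta q ((ℓ : ℕ) ^ n) g).toAdd.val : ℤ)) (ℓ : ℕ) (pow_dvd_eta ℓ g))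

lemma toZModPow_uu (ℓ : Nat.Primes) (g : GLoc q) (n : ℕ) :
    (uu ℓ g).toZModPow n = (eta q ((ℓ : ℕ) ^ n) g).toAdd := by
  rw [uu, PadicInt.toZModPow_ofIntSeq_of_pow_dvd_sub _ _ (pow_dvd_eta ℓ g), Int.cast_natCast,
    ZMod.natCast_zmod_val]

/-- The unramified part, with values in `∏ ℓ, ℤ_[ℓ]`. -/
def unr (q : ℕ) [Fact q.Prime] : GLoc q →* Multiplicative ((ℓ : Nat.Primes) → ℤ_[ℓ]) where
  toFun g := Multiplicative.ofAdd fun ℓ => uu ℓ g
  map_one' := by
    refine congrArg Multiplicative.ofAdd (funext fun ℓ => PadicInt.ext_of_toZModPow.mp fun n => ?_)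
    rw [toZModPow_uu, map_one, toAdd_one, Pi.zero_apply, map_zero]
  map_mul' g g' := by
    refine congrArg Multiplicative.ofAdd (funext fun ℓ => PadicInt.ext_of_toZModPow.mp fun n => ?_)
    rw [toZModPow_uu, map_mul, toAdd_mul, Pi.add_apply, map_add]
    rw [← toZModPow_uu, ← toZModPow_uu]
    rfl

lemma unr_apply (g : GLoc q) (ℓ : Nat.Primes) : (unr q g).toAdd ℓ = uu ℓ g := rfl

/-! ### Continuity -/

lemma mem_nhds_coset {M : Type*} [Group M] {χ : GLoc q →* M} (h : LevG χ) (g : GLoc q) :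
    {g' : GLoc q | χ g' = χ g} ∈ nhds g := by
  have h1 : (χ.ker : Set (GLoc q)) ∈ nhds (g⁻¹ * g) := by
    rw [inv_mul_cancel]
    exact h.isOpen_ker.mem_nhds χ.ker.one_mem
  have h2 := (continuous_const_mul g⁻¹).continuousAt.preimage_mem_nhds h1
  refine Filter.mem_of_superset h2 fun g' hg' => ?_
  have h3 : χ (g⁻¹ * g') = 1 := hg'
  rw [map_mul, map_inv, inv_mul_eq_one] at h3
  exact h3.symm

lemma isClosed_fiber {M : Type*} [Group M] {χ : GLoc q →* M} (h : LevG χ) (c : M) :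
    IsClosed {g : GLoc q | χ g = c} := by
  rw [← isOpen_compl_iff, isOpen_iff_mem_nhds]
  intro g hg
  refine Filter.mem_of_superset (mem_nhds_coset h g) fun g' hg' => ?_
  rw [Set.mem_compl_iff, Set.mem_ofPred_eq] at hg ⊢
  rw [show χ g' = χ g from hg']
  exact hg

lemma continuous_uu (ℓ : Nat.Primes) : Continuous (fun g : GLoc q => uu ℓ g) := by
  rw [continuous_iff_continuousAt]
  intro g
  rw [ContinuousAt, Metric.tendsto_nhds]
  intro ε hε
  obtain ⟨k, hk⟩ := PadicInt.exists_pow_neg_lt (ℓ : ℕ) hε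
  filter_upwards [mem_nhds_coset (levG_eta (q := q) ((ℓ : ℕ) ^ k)) g] with g' hg'
  refine lt_of_le_of_lt ?_ hk
  rw [dist_eq_norm, PadicInt.norm_le_pow_iff_mem_span_pow, ← PadicInt.ker_toZModPow,
    RingHom.mem_ker, map_sub, toZModPow_uu, toZModPow_uu, show eta q ((ℓ : ℕ) ^ k) g' = _ from hg',
    sub_self]

lemma continuous_unr : Continuous (unr q) :=
  continuous_ofAdd.comp (continuous_pi fun ℓ => continuous_uu ℓ)

lemma continuous_J : Continuous (J q) := by
  refine continuous_of_continuousAt_one (J q) ?_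
  rw [ContinuousAt, map_one]
  intro U hU
  obtain ⟨L, hL, hLU⟩ := (krullTopology_mem_nhds_one_iff ℚ Qbar U).mp hU
  have h1 : L.fixingSubgroup.comap (J q) ∈ CFT.Bridge.galLevels ℚ_[q] (PadicAlgCl q) := by
    rw [← CFT.Bridge.comap_localGaloisToGlobal_galLevels q]
    exact ⟨L.fixingSubgroup, ⟨L, hL, le_rfl⟩, le_rfl⟩
  obtain ⟨E, hE, hle⟩ := h1
  rw [Filter.mem_map]
  refine Filter.mem_of_superset
    ((IntermediateField.fixingSubgroup_isOpen E).mem_nhds E.fixingSubgroup.one_mem) fun g hg => ?_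
  have h2 : J q g ∈ L.fixingSubgroup := hle hg
  exact hLU h2

/-- The `q`-adic cyclotomic character. -/
def chiL (q : ℕ) [Fact q.Prime] : GLoc q →* ℤ_[q]ˣ :=
  ((cyclotomicCharacter Qbar q).comp (MulSemiringAction.toRingAut GQ Qbar)).comp (J q)

lemma continuous_chiL : Continuous (chiL q) :=
  (cyclotomicCharacter.continuous q ℚ Qbar).comp continuous_J

/-- Both parts together. -/
def Phi (q : ℕ) [Fact q.Prime] :
    GLoc q →* ℤ_[q]ˣ × Multiplicative ((ℓ : Nat.Primes) → ℤ_[ℓ]) := (chiL q).prod (unr q)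

lemma continuous_Phi : Continuous (Phi q) := continuous_chiL.prodMk continuous_unr

/-! ### The kernel -/

lemma chiL_eq (g : GLoc q) : chiL q g = Recip.chi ⟨q, hq.out⟩ (J q g) := rfl

lemma chiL_eq_one_iff {g : GLoc q} : chiL q g = 1 ↔ ∀ n : ℕ, J q g ∈ Fix (q ^ n) :=
  Recip.chi_eq_one_iff (p := ⟨q, hq.out⟩)

lemma unr_eq_one_iff {g : GLoc q} :
    unr q g = 1 ↔ ∀ (N : ℕ) [NeZero N], eta q N g = 1 := by
  constructor
  · intro h N _
    have h1 : ∀ (ℓ : Nat.Primes) (n : ℕ), eta q ((ℓ : ℕ) ^ n) g = 1 := by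
      intro ℓ n
      have h2 : uu ℓ g = 0 := congrFun (congrArg Multiplicative.toAdd h) ℓ
      have h3 := toZModPow_uu ℓ g n
      rw [h2, map_zero] at h3
      exact congrArg Multiplicative.ofAdd h3.symm
    have h2 : N ∣ (eta q N g).toAdd.val := by
      rw [Nat.dvd_iff_prime_pow_dvd_dvd]
      intro p k hp hpk
      have : NeZero (p ^ k) := ⟨pow_ne_zero k hp.ne_zero⟩
      rw [← ZMod.natCast_eq_zero_iff, natCast_val_eta hpk]
      exact congrArg Multiplicative.toAdd (h1 ⟨p, hp⟩ k)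
    rw [← ZMod.natCast_eq_zero_iff, ZMod.natCast_zmod_val] at h2
    exact congrArg Multiplicative.ofAdd h2
  · intro h
    refine congrArg Multiplicative.ofAdd (funext fun ℓ => PadicInt.ext_of_toZModPow.mp fun n => ?_)
    rw [toZModPow_uu, h]
    exact (map_zero _).symm

/-- The kernel consists of the automorphisms which fix all roots of unity. -/
theorem Phi_eq_one_iff {g : GLoc q} : Phi q g = 1 ↔ ∀ m : ℕ, m ≠ 0 → J q g ∈ Fix m := by
  rw [Phi, MonoidHom.prod_apply, Prod.mk_eq_one, chiL_eq_one_iff, unr_eq_one_iff]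
  constructor
  · rintro ⟨h1, h2⟩ m hm
    obtain ⟨a, m', hm', rfl⟩ := Nat.exists_eq_pow_mul_and_not_dvd hm q hq.out.ne_one
    have hm0 : m' ≠ 0 := right_ne_zero_of_mul hm
    have : NeZero m' := ⟨hm0⟩
    have hqa : q ^ a ≠ 0 := pow_ne_zero a hq.out.ne_zero
    have hcop : Nat.Coprime (q ^ a) m' :=
      Nat.Coprime.pow_left a ((Nat.Prime.coprime_iff_not_dvd hq.out).mpr hm')
    rw [← hcop.lcm_eq_mul, ← Fix_inf _ _ hqa hm0]
    refine ⟨h1 a, mem_Fix_iff_kap.mpr ?_⟩
    -- the unramified part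
    have hord : orderOf (kp q m' (phi q)) ≠ 0 := (orderOf_pos _).ne'
    have : NeZero (orderOf (kp q m' (phi q))) := ⟨hord⟩
    obtain ⟨L, hL, h3⟩ := levG_kp (q := q) m'
    obtain ⟨L', hL', h3'⟩ := levG_eta (q := q) (orderOf (kp q m' (phi q)))
    have hLp : LevG ((kp q m').prod (eta q (orderOf (kp q m' (phi q))))) := by
      refine ⟨L ⊔ L', IntermediateField.finiteDimensional_sup L L', fun g hg => ?_⟩
      rw [MonoidHom.prod_apply, h3 g fun x hx => hg x ((le_sup_left : L ≤ L ⊔ L') hx),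
        h3' g fun x hx => hg x ((le_sup_right : L' ≤ L ⊔ L') hx)]
      rfl
    have hUp : UnrG ((kp q m').prod (eta q (orderOf (kp q m' (phi q))))) := fun g hg => by
      rw [MonoidHom.prod_apply, unrG_kp hm' g hg, unrG_eta _ g hg]
      rfl
    obtain ⟨k, hk⟩ := exists_frob_pow hLp hUp (phi_spec q) g
    have h4 : kp q m' g = kp q m' (phi q) ^ k := congrArg Prod.fst hk
    have h5 : eta q (orderOf (kp q m' (phi q))) g =
      eta q (orderOf (kp q m' (phi q))) (phi q) ^ k := congrArg Prod.snd hk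
    rw [h2, eta_frob _ (phi_spec q)] at h5
    have h6 : orderOf (kp q m' (phi q)) ∣ k := by
      have h7 := congrArg Multiplicative.toAdd h5
      rw [toAdd_one, toAdd_pow, toAdd_ofAdd, nsmul_one] at h7
      exact (ZMod.natCast_eq_zero_iff _ _).mp h7.symm
    show kp q m' g = 1
    rw [h4]
    exact orderOf_dvd_iff_pow_eq_one.mp h6
  · intro h
    refine ⟨fun n => h _ (pow_ne_zero n hq.out.ne_zero), fun N _ => ?_⟩
    obtain ⟨m, hm, h'⟩ := cycG_eta (q := q) N
    exact h' g (h m hm)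

theorem ker_Phi (h : CharStmt q) : (Phi q).ker = (commutator (GLoc q)).topologicalClosure := by
  rw [closure_commutator_of h]
  ext g
  rw [MonoidHom.mem_ker, Phi_eq_one_iff]
  simp only [Subgroup.mem_iInf, Subgroup.mem_comap]

/-! ### Surjectivity -/

/-- Inertia has every value under the cyclotomic character. -/
lemma exists_inertia (a : ℤ_[q]ˣ) :
    ∃ g : GLoc q, J q g ∈ (padicPlace q).inertiaSubgroupIn ℚ ∧ chiL q g = a := by
  classical
  have h1 : Function.update (1 : (p : Nat.Primes) → ℤ_[p]ˣ) ⟨q, hq.out⟩ a ∈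
      {u : (p : Nat.Primes) → ℤ_[p]ˣ | ∀ p : Nat.Primes, p ≠ ⟨q, hq.out⟩ → u p = 1} := by
    intro p hp
    rw [Function.update_of_ne hp]
    rfl
  rw [← Recip.image_inertia (ℓ := ⟨q, hq.out⟩) (place_over q)] at h1
  obtain ⟨σ, hσ, h2⟩ := h1
  obtain ⟨g, rfl⟩ := exists_J_inertia hσ
  refine ⟨g, hσ, ?_⟩
  have h3 := congrFun h2 ⟨q, hq.out⟩
  rw [Function.update_self] at h3
  exact h3

/-- The conditions of level `N`. -/
def lvl (q : ℕ) [Fact q.Prime] (b : (ℓ : Nat.Primes) → ℤ_[ℓ]) (N : ℕ) : Set (GLoc q) :=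
  ⋂ (ℓ : Nat.Primes) (_ : (ℓ : ℕ) < N),
    {g : GLoc q | eta q ((ℓ : ℕ) ^ N) g = Multiplicative.ofAdd ((b ℓ).toZModPow N)}

lemma mem_lvl {b : (ℓ : Nat.Primes) → ℤ_[ℓ]} {N : ℕ} {g : GLoc q} : g ∈ lvl q b N ↔
    ∀ ℓ : Nat.Primes, (ℓ : ℕ) < N →
      eta q ((ℓ : ℕ) ^ N) g = Multiplicative.ofAdd ((b ℓ).toZModPow N) := by
  simp only [lvl, Set.mem_iInter, Set.mem_ofPred_eq]

lemma isClosed_lvl (b : (ℓ : Nat.Primes) → ℤ_[ℓ]) (N : ℕ) : IsClosed (lvl q b N) :=
  isClosed_iInter fun _ => isClosed_iInter fun _ => isClosed_fiber (levG_eta _) _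

lemma redC_toZModPow {ℓ : Nat.Primes} (x : ℤ_[ℓ]) {m n : ℕ} (h : m ≤ n) :
    redC (pow_dvd_pow (ℓ : ℕ) h) (Multiplicative.ofAdd (x.toZModPow n)) =
      Multiplicative.ofAdd (x.toZModPow m) := by
  show Multiplicative.ofAdd (ZMod.castHom (pow_dvd_pow (ℓ : ℕ) h) _ (x.toZModPow n)) = _
  rw [ZMod.castHom_apply, PadicInt.cast_toZModPow m n h x]

lemma lvl_succ (b : (ℓ : Nat.Primes) → ℤ_[ℓ]) (N : ℕ) : lvl q b (N + 1) ⊆ lvl q b N := by
  intro g hg
  rw [mem_lvl] at hg ⊢
  intro ℓ hℓ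
  rw [← redC_eta (pow_dvd_pow (ℓ : ℕ) (Nat.le_succ N)), hg ℓ (hℓ.trans (Nat.lt_succ_self N)),
    redC_toZModPow _ (Nat.le_succ N)]

/-- The residues modulo `ℓ ^ N`. -/
def res (b : (ℓ : Nat.Primes) → ℤ_[ℓ]) (N : ℕ) (ℓ : Nat.Primes) : ZMod ((ℓ : ℕ) ^ N) :=
  (b ℓ).toZModPow N

lemma lvl_nonempty (b : (ℓ : Nat.Primes) → ℤ_[ℓ]) (N : ℕ) : (lvl q b N).Nonempty := by
  classical
  let S : Finset ℕ := (Finset.range N).filter Nat.Prime
  let a : ℕ → ℕ := fun p => if h : p.Prime then (res b N ⟨p, h⟩).val else 0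
  obtain ⟨k, hk⟩ := Nat.chineseRemainderOfFinset a (fun p => p ^ N) S (fun p hp =>
    pow_ne_zero N (Finset.mem_filter.mp hp).2.ne_zero) (fun p hp r hr hpr =>
      Nat.Coprime.pow N N ((Nat.coprime_primes (Finset.mem_filter.mp hp).2
        (Finset.mem_filter.mp hr).2).mpr hpr))
  refine ⟨phi q ^ k, mem_lvl.mpr fun ℓ hℓ => ?_⟩
  have h1 : k ≡ (res b N ℓ).val [MOD (ℓ : ℕ) ^ N] := by
    have h2 := hk ℓ (Finset.mem_filter.mpr ⟨Finset.mem_range.mpr hℓ, ℓ.2⟩)
    simp only [a, dif_pos ℓ.2] at h2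
    exact h2
  rw [map_pow, eta_frob _ (phi_spec q), ← ofAdd_nsmul, nsmul_one,
    (ZMod.natCast_eq_natCast_iff _ _ _).mpr h1, ZMod.natCast_zmod_val]
  rfl

theorem unr_surjective : Function.Surjective (unr q) := by
  intro b
  obtain ⟨g, hg⟩ := IsCompact.nonempty_iInter_of_sequence_nonempty_isCompact_isClosed
    (lvl q b.toAdd) (lvl_succ b.toAdd) (lvl_nonempty b.toAdd)
    (isClosed_lvl b.toAdd 0).isCompact (isClosed_lvl b.toAdd)
  rw [Set.mem_iInter] at hg
  refine ⟨g, congrArg Multiplicative.ofAdd (funext fun ℓ => PadicInt.ext_of_toZModPow.mp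
    fun n => ?_)⟩
  have h1 : n ≤ n + (ℓ : ℕ) + 1 := by omega
  have h2 := mem_lvl.mp (hg (n + (ℓ : ℕ) + 1)) ℓ (by omega)
  rw [toZModPow_uu, ← redC_eta (pow_dvd_pow (ℓ : ℕ) h1), h2, redC_toZModPow _ h1]
  rfl

theorem Phi_surjective : Function.Surjective (Phi q) := by
  rintro ⟨a, b⟩
  obtain ⟨g, hg⟩ := unr_surjective (q := q) b
  obtain ⟨i, hi, hia⟩ := exists_inertia (q := q) ((chiL q g)⁻¹ * a)
  refine ⟨g * i, ?_⟩
  have h1 : unr q i = 1 := unr_eq_one_iff.mpr fun N _ => unrG_eta N i hi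
  rw [Phi, MonoidHom.prod_apply, map_mul, map_mul, hia, h1, mul_inv_cancel_left, mul_one, hg]

/-! ### The isomorphism -/

/-- **Class field theory for `ℚ_[q]`**: the abelianization of the absolute Galois group of `ℚ_[q]` is
`ℤ_[q]ˣ × ∏ ℓ, ℤ_[ℓ]`. -/
def equiv (h : CharStmt q) : TopologicalAbelianization (GLoc q) ≃ₜ*
    ℤ_[q]ˣ × Multiplicative ((ℓ : Nat.Primes) → ℤ_[ℓ]) :=
  let f : TopologicalAbelianization (GLoc q) →*
      ℤ_[q]ˣ × Multiplicative ((ℓ : Nat.Primes) → ℤ_[ℓ]) :=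
    QuotientGroup.lift _ (Phi q) (ker_Phi h).ge
  have hf : Function.Bijective f := by
    refine ⟨(injective_iff_map_eq_one f).mpr fun x hx => ?_, fun u => ?_⟩
    · obtain ⟨σ, rfl⟩ := QuotientGroup.mk_surjective x
      exact (QuotientGroup.eq_one_iff σ).mpr ((ker_Phi h).le hx)
    · obtain ⟨σ, rfl⟩ := Phi_surjective u
      exact ⟨QuotientGroup.mk σ, rfl⟩
  have hc : Continuous f := continuous_quot_lift _ continuous_Phi
  { MulEquiv.ofBijective f hf with
    continuous_toFun := hc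
    continuous_invFun :=
      Continuous.continuous_symm_of_equiv_compact_to_t2 (f := Equiv.ofBijective f hf) hc }

lemma equiv_mk (h : CharStmt q) (g : GLoc q) : equiv h (QuotientGroup.mk g) = Phi q g := rfl

/-! ### Inertia and Frobenius in terms of the norm -/

lemma norm_sub_le' (x y : PadicAlgCl q) : ‖x - y‖ ≤ max ‖x‖ ‖y‖ := by
  rw [sub_eq_add_neg, ← norm_neg y]
  exact IsUltrametricDist.norm_add_le_max _ _

open CFT.Bridge in
/-- The inertia group in terms of the norm of the algebraic closure. -/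
theorem mem_inertia_iff {g : GLoc q} : J q g ∈ (padicPlace q).inertiaSubgroupIn ℚ ↔
    ∀ x : PadicAlgCl q, ‖x‖ ≤ 1 → ‖g x - x‖ < 1 := by
  constructor
  · intro hg x hx
    obtain ⟨y, hy⟩ := exists_norm_padicEmbedding_sub_lt x one_pos
    have hy1 : ‖padicEmbedding q y‖ ≤ 1 := by
      have h1 : padicEmbedding q y = x - (x - padicEmbedding q y) := by ring
      rw [h1]
      exact (norm_sub_le' _ _).trans (max_le hx hy.le)
    have h2 := sub_mem_nonunits_of_mem_inertia hg ((mem_padicPlace_iff_norm q).mpr hy1)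
    have h3 := (mem_nonunits_padicPlace_iff_norm q).mp h2.2
    rw [map_sub, padicEmbedding_localGaloisToGlobal] at h3
    have h4 : ‖g (x - padicEmbedding q y)‖ < 1 := by
      have := congrArg NNReal.toReal (nnnorm_padicAlgCl_algEquiv q g (x - padicEmbedding q y))
      rw [coe_nnnorm, coe_nnnorm] at this
      rw [this]
      exact hy
    have h5 : g x - x = g (x - padicEmbedding q y) + ((g (padicEmbedding q y) -
        padicEmbedding q y) - (x - padicEmbedding q y)) := by
      rw [map_sub]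
      ring
    rw [h5]
    exact (IsUltrametricDist.norm_add_le_max _ _).trans_lt (max_lt h4
      ((norm_sub_le' _ _).trans_lt (max_lt h3 hy)))
  · intro h
    refine mem_inertiaSubgroupIn_of_forall (fun x hx => ?_) fun x hx => ?_
    · rw [mem_nonunits_padicPlace_iff_norm, map_sub, padicEmbedding_localGaloisToGlobal]
      exact h _ ((mem_padicPlace_iff_norm q).mp hx)
    · have h1 : (J q g).symm x = J q g⁻¹ x := by
        rw [map_inv]
        rfl
      rw [h1, mem_padicPlace_iff_norm, padicEmbedding_localGaloisToGlobal]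
      have := congrArg NNReal.toReal (nnnorm_padicAlgCl_algEquiv q g⁻¹ (padicEmbedding q x))
      rw [coe_nnnorm, coe_nnnorm] at this
      rw [this]
      exact (mem_padicPlace_iff_norm q).mp hx

open CFT.Bridge in
/-- An automorphism which is the Frobenius on the residue field. -/
theorem isFrobeniusAt_of {g : GLoc q} (h : ∀ x : PadicAlgCl q, ‖x‖ ≤ 1 → ‖g x - x ^ q‖ < 1) :
    (padicPlace q).IsFrobeniusAt (J q g) q := by
  refine ⟨J_mem g, fun x => ?_⟩
  obtain ⟨⟨a, ha⟩, rfl⟩ := IsLocalRing.residue_surjective x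
  rw [← IsLocalRing.ResidueField.residue_smul, ← map_pow, ← sub_eq_zero, ← map_sub,
    IsLocalRing.residue_eq_zero_iff]
  have h1 : J q g a - a ^ q ∈ (padicPlace q).nonunits := by
    rw [mem_nonunits_padicPlace_iff_norm, map_sub, padicEmbedding_localGaloisToGlobal, map_pow]
    exact h _ ((mem_padicPlace_iff_norm q).mp ha)
  obtain ⟨h2, h3⟩ := ValuationSubring.mem_nonunits_iff_exists_mem_maximalIdeal.mp h1
  exact h3

end Loc

end

end Fermat.Agent.Cor.KW
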