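import Fermat.Agent.Corollaries.KW.LocFinal
import Fermat.Agent.Corollaries.KW.LocRecip

set_option autoImplicit false

/-!
# Class field theory for `ℚ_[p]`
-/

namespace Fermat.Agent.Cor.KW

open scoped Pointwise
open Fermat.Agent.Frob Fermat.Agent.Minkowski Fermat.Agent.TW

attribute [local instance] Recip.fact_primes Recip.neZero_pow

namespace Loc

variable {q : ℕ} [hq : Fact q.Prime]

/-- The action on the roots of unity of the algebraic closure. -/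
lemma act_root {m : ℕ} [NeZero m] {g : GLoc q} {c : ℕ}
    (h : J q g (Kap.zet m) = Kap.zet m ^ c) {x : PadicAlgCl q} (hx : x ^ m = 1) : g x = x ^ c := by
  have hprim : IsPrimitiveRoot (padicEmbedding q (Kap.zet m)) m :=
    (Kap.zet_spec m).map_of_injective (padicEmbedding q).toRingHom.injective
  obtain ⟨k, -, rfl⟩ := hprim.eq_pow_of_pow_eq_one hx
  have h1 : g (padicEmbedding q (Kap.zet m)) = padicEmbedding q (Kap.zet m) ^ c := by
    rw [← padicEmbedding_localGaloisToGlobal, ← map_pow]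
    exact congrArg _ h
  rw [map_pow, h1, ← pow_mul, ← pow_mul, mul_comm]

lemma dvd_of_prime_pow {N : ℕ} {a : ℤ}
    (h : ∀ (ℓ : Nat.Primes) (n : ℕ), (ℓ : ℕ) ^ n ∣ N → ((a : ℤ) : ZMod ((ℓ : ℕ) ^ n)) = 0) :
    (N : ℤ) ∣ a := by
  rw [Int.natCast_dvd, Nat.dvd_iff_prime_pow_dvd_dvd]
  intro p k hp hpk
  rw [← Int.natCast_dvd, ← ZMod.intCast_zmod_eq_zero_iff_dvd]
  exact h ⟨p, hp⟩ k hpk

/-- The action of `g` on the roots of unity of order prime to `q` by the unramified part. -/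
lemma act_unr (g : GLoc q) {N k : ℕ} (hN : N ≠ 0)
    (hk : ∀ (ℓ : Nat.Primes) (n : ℕ), (ℓ : ℕ) ^ n ∣ N →
      (k : ZMod ((ℓ : ℕ) ^ n)) = (uu ℓ g).toZModPow n) {x : PadicAlgCl q}
    (hx : x ^ (q ^ N - 1) = 1) : g x = x ^ q ^ k := by
  have : NeZero N := ⟨hN⟩
  have : NeZero (q ^ N - 1) := ⟨pow_sub_one_ne_zero hN⟩
  obtain ⟨L, hL, h3⟩ := levG_kp (q := q) (q ^ N - 1)
  obtain ⟨L', hL', h3'⟩ := levG_eta (q := q) N
  have hLp : LevG ((kp q (q ^ N - 1)).prod (eta q N)) := by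
    refine ⟨L ⊔ L', IntermediateField.finiteDimensional_sup L L', fun g hg => ?_⟩
    rw [MonoidHom.prod_apply, h3 g fun x hx => hg x ((le_sup_left : L ≤ L ⊔ L') hx),
      h3' g fun x hx => hg x ((le_sup_right : L' ≤ L ⊔ L') hx)]
    rfl
  have hUp : UnrG ((kp q (q ^ N - 1)).prod (eta q N)) := fun g hg => by
    rw [MonoidHom.prod_apply, unrG_kp (not_dvd_pow_sub_one hN) g hg, unrG_eta _ g hg]
    rfl
  obtain ⟨j, hj⟩ := exists_frob_pow hLp hUp (phi_spec q) g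
  have h4 : kp q (q ^ N - 1) g = kp q (q ^ N - 1) (phi q) ^ j := congrArg Prod.fst hj
  have h5 : eta q N g = eta q N (phi q) ^ j := congrArg Prod.snd hj
  rw [eta_frob _ (phi_spec q), ← ofAdd_nsmul, nsmul_one] at h5
  have h6 : ((kp q (q ^ N - 1) g : (ZMod (q ^ N - 1))ˣ) : ZMod (q ^ N - 1)) =
      ((q : ℕ) : ZMod (q ^ N - 1)) ^ j := by
    rw [h4, Units.val_pow_eq_pow_val, kp_frob (not_dvd_pow_sub_one hN) (phi_spec q)]
  have h7 : (N : ℤ) ∣ (j : ℤ) - k := by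
    refine dvd_of_prime_pow fun ℓ n hn => ?_
    rw [Int.cast_sub, Int.cast_natCast, Int.cast_natCast, hk ℓ n hn, toZModPow_uu,
      ← redC_eta hn g, h5, sub_eq_zero]
    show _ = ZMod.castHom hn (ZMod ((ℓ : ℕ) ^ n)) (j : ZMod N)
    rw [map_natCast]
  have h8 : ((q : ℕ) : ZMod (q ^ N - 1)) ^ j = ((q : ℕ) : ZMod (q ^ N - 1)) ^ k := by
    have h9 : ((q : ℕ) : ZMod (q ^ N - 1)) ^ N = 1 := natCast_pow_eq_one_iff.mpr dvd_rfl
    have h10 : j ≡ k [MOD N] := by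
      have := (Int.modEq_iff_dvd.mpr h7).symm
      exact (Int.natCast_modEq_iff).mp this
    rw [pow_eq_pow_mod j h9, h10, ← pow_eq_pow_mod k h9]
  refine act_root (m := q ^ N - 1) ?_ hx
  have h11 := Kap.kap_zet (q ^ N - 1) (J q g)
  have h12 : ((Kap.kap (q ^ N - 1) (J q g) : (ZMod (q ^ N - 1))ˣ) : ZMod (q ^ N - 1)) =
      ((q ^ k : ℕ) : ZMod (q ^ N - 1)) := by
    rw [Nat.cast_pow, ← h8]
    exact h6
  rw [h11, h12, ZMod.val_natCast, ← pow_eq_pow_mod _ (Kap.zet_spec (q ^ N - 1)).pow_eq_one]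

end Loc

open Loc

/-- **Class field theory for `ℚ_[p]`**: there is an isomorphism `e` of topological groups from the
abelianization of the absolute Galois group of `ℚ_[p]` (the quotient by the closure of the commutator
subgroup) to `ℤ_[p]ˣ × ∏ ℓ, ℤ_[ℓ]` such that
* `σ ζ = ζ ^ a` with `a ≡ e(σ)₁` modulo `p ^ n`, for all `p ^ n`-th roots of unity `ζ`;
* `σ ζ = ζ ^ (p ^ k)` for all `(p ^ N - 1)`-th roots of unity `ζ`, if `k ≡ e(σ)₂` modulo `N` (that is,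
  modulo all prime powers dividing `N`);
* the image of the inertia group is `ℤ_[p]ˣ`;
* `e(φ)₂ = 1` for every `φ` which is the Frobenius automorphism on the residue field. -/
theorem class_field_theory_padic (p : ℕ) [Fact p.Prime] :
    ∃ e : TopologicalAbelianization (PadicAlgCl p ≃ₐ[ℚ_[p]] PadicAlgCl p) ≃ₜ*
        ℤ_[p]ˣ × Multiplicative ((ℓ : Nat.Primes) → ℤ_[ℓ]),
      (∀ (σ : PadicAlgCl p ≃ₐ[ℚ_[p]] PadicAlgCl p) (n : ℕ) (ζ : PadicAlgCl p), ζ ^ p ^ n = 1 →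
        σ ζ = ζ ^ (((e (QuotientGroup.mk σ)).1 : ℤ_[p]).toZModPow n).val) ∧
      (∀ (σ : PadicAlgCl p ≃ₐ[ℚ_[p]] PadicAlgCl p) (N k : ℕ) (ζ : PadicAlgCl p), N ≠ 0 →
        ζ ^ (p ^ N - 1) = 1 → (∀ (ℓ : Nat.Primes) (n : ℕ), (ℓ : ℕ) ^ n ∣ N →
          (k : ZMod ((ℓ : ℕ) ^ n)) =
            (Multiplicative.toAdd (e (QuotientGroup.mk σ)).2 ℓ).toZModPow n) →
          σ ζ = ζ ^ p ^ k) ∧
      (fun σ => e (QuotientGroup.mk σ)) '' {σ : PadicAlgCl p ≃ₐ[ℚ_[p]] PadicAlgCl p |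
        ∀ x : PadicAlgCl p, ‖x‖ ≤ 1 → ‖σ x - x‖ < 1} = {u | u.2 = 1} ∧
      ∀ φ : PadicAlgCl p ≃ₐ[ℚ_[p]] PadicAlgCl p,
        (∀ x : PadicAlgCl p, ‖x‖ ≤ 1 → ‖φ x - x ^ p‖ < 1) →
          (e (QuotientGroup.mk φ)).2 = Multiplicative.ofAdd 1 := by
  refine ⟨Loc.equiv (Loc.charStmt p), fun σ n ζ hζ => ?_, fun σ N k ζ hN hζ hk =>
    act_unr σ hN hk hζ, ?_, fun φ hφ => ?_⟩
  · have : NeZero (p ^ n) := ⟨pow_ne_zero n (Fact.out (p := p.Prime)).ne_zero⟩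
    exact act_root (m := p ^ n) (Recip.chi_spec ⟨p, Fact.out⟩ n (J p σ)
      (Kap.zet_spec (p ^ n)).pow_eq_one) hζ
  · apply Set.Subset.antisymm
    · rintro _ ⟨σ, hσ, rfl⟩
      exact unr_eq_one_iff.mpr fun N _ => unrG_eta N σ (mem_inertia_iff.mpr hσ)
    · rintro ⟨a, b⟩ (hb : b = 1)
      obtain ⟨g, hg, h⟩ := exists_inertia a
      refine ⟨g, mem_inertia_iff.mp hg, Prod.ext h ?_⟩
      rw [hb]
      exact unr_eq_one_iff.mpr fun N _ => unrG_eta N g hg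
  · refine congrArg Multiplicative.ofAdd (funext fun ℓ => PadicInt.ext_of_toZModPow.mp fun n => ?_)
    rw [toZModPow_uu, eta_frob _ (isFrobeniusAt_of hφ), toAdd_ofAdd]
    exact (map_one _).symm

end Fermat.Agent.Cor.KW
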