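import Fermat.Agent.Corollaries.KW.LocDefs
import Fermat.Agent.CFT.Kum.Hilbert90
import Fermat.Agent.LTF.Sel.HSym

set_option autoImplicit false

/-!
# The local Kronecker-Weber theorem: characters of order `2` and `4` at the prime `2`
-/

namespace Fermat.Agent.Cor.KW

namespace Loc

namespace Two

open Fermat.Agent.Frob Fermat.Agent.Minkowski Fermat.Agent.TW
open Fermat.Agent.CFT.Kum Fermat.Agent.CFT.Bridge Fermat.Agent.PT

/-! ### Squares in `ℚ_2` -/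

/-- The classes modulo squares in `ℚ_2`. -/
theorem exists_class {a : ℚ_[2]} (ha : a ≠ 0) : ∃ (i j k : Fin 2) (y : ℚ_[2]), y ≠ 0 ∧
    a = (-1) ^ (i : ℕ) * 5 ^ (j : ℕ) * 2 ^ (k : ℕ) * y ^ 2 := by
  obtain ⟨n, u, hu, hau⟩ := LTF.Sel.exists_eq_zpow_mul (v := 2) (Units.mk0 a ha) LTF.Sel.two₂
    (by simp)
  have hzu : IsUnit (LTF.Sel.mkZ (u : ℚ_[2]) hu.le) := by rw [PadicInt.isUnit_iff]; exact hu
  obtain ⟨i, j, hij⟩ := LTF.Sel.zmod8_cases
    (PadicInt.toZModPow 3 (LTF.Sel.mkZ (u : ℚ_[2]) hu.le)) (hzu.map _)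
  obtain ⟨y, hy⟩ := LTF.Sel.eq_of_unit u hu.le i j hij
  have h1 : a = 2 ^ n * ((-1) ^ (i : ℕ) * 5 ^ (j : ℕ) * (y : ℚ_[2]) ^ 2) := by
    have h2 := congrArg Units.val hau
    rw [Units.val_mk0, hy] at h2
    simpa using h2
  obtain ⟨m, k, hmk⟩ : ∃ (m : ℤ) (k : Fin 2), n = 2 * m + (k : ℕ) := by
    rcases Int.even_or_odd' n with ⟨m, h | h⟩
    · exact ⟨m, 0, by simpa using h⟩
    · exact ⟨m, 1, by simpa using h⟩
  have h20 : (2 : ℚ_[2]) ≠ 0 := two_ne_zero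
  refine ⟨i, j, k, 2 ^ m * y, mul_ne_zero (zpow_ne_zero _ h20) y.ne_zero, ?_⟩
  rw [h1, hmk, zpow_add₀ h20, zpow_mul, zpow_natCast, mul_pow]
  have h3 : ((2 : ℚ_[2]) ^ (2 : ℤ)) ^ m = ((2 : ℚ_[2]) ^ m) ^ 2 := by
    rw [← zpow_natCast ((2 : ℚ_[2]) ^ m) 2, ← zpow_mul, ← zpow_mul, mul_comm]
    rfl
  rw [h3]
  ring

lemma zmod_aux : ∀ (j k : Fin 2) (R W Z : ZMod (2 ^ 3)),
    R ^ 2 + 5 ^ (j : ℕ) * 2 ^ (k : ℕ) * W ^ 2 + Z ^ 2 = 0 → R ≠ 1 ∧ W ≠ 1 ∧ Z ≠ 1 := by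
  decide

lemma padicInt_aux (j k : Fin 2) {R W Z : ℤ_[2]}
    (h : R ^ 2 + 5 ^ (j : ℕ) * 2 ^ (k : ℕ) * W ^ 2 + Z ^ 2 = 0) : R ≠ 1 ∧ W ≠ 1 ∧ Z ≠ 1 := by
  have h1 := congrArg (PadicInt.toZModPow (p := 2) 3) h
  simp only [map_add, map_mul, map_pow, map_ofNat, map_zero] at h1
  obtain ⟨h2, h3, h4⟩ := zmod_aux j k _ _ _ h1
  exact ⟨fun h => h2 (by rw [h, map_one]), fun h => h3 (by rw [h, map_one]),
    fun h => h4 (by rw [h, map_one])⟩

/-- `-1` is not of the form `r² + 5 ^ j 2 ^ k w²` in `ℚ_2`. -/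
theorem ne_zero_aux (j k : Fin 2) (r w : ℚ_[2]) :
    r ^ 2 + 5 ^ (j : ℕ) * 2 ^ (k : ℕ) * w ^ 2 + 1 ≠ 0 := by
  intro h
  have key : ∀ R W Z : ℚ_[2], ‖R‖ ≤ 1 → ‖W‖ ≤ 1 → ‖Z‖ ≤ 1 →
      R ^ 2 + 5 ^ (j : ℕ) * 2 ^ (k : ℕ) * W ^ 2 + Z ^ 2 = 0 → R ≠ 1 ∧ W ≠ 1 ∧ Z ≠ 1 := by
    intro R W Z hR hW hZ h0
    obtain ⟨h1, h2, h3⟩ := padicInt_aux j k (R := ⟨R, hR⟩) (W := ⟨W, hW⟩) (Z := ⟨Z, hZ⟩)
      (Subtype.ext (by push_cast; exact h0))
    exact ⟨fun h => h1 (Subtype.ext h), fun h => h2 (Subtype.ext h), fun h => h3 (Subtype.ext h)⟩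
  by_cases hr : ‖r‖ ≤ 1
  · by_cases hw : ‖w‖ ≤ 1
    · exact (key r w 1 hr hw (by simp) (by rw [one_pow]; exact h)).2.2 rfl
    · push Not at hw
      have hw0 : w ≠ 0 := by
        rintro rfl
        rw [norm_zero] at hw
        linarith
      refine (key (r / w) 1 (1 / w) ?_ (by simp) ?_ ?_).2.1 rfl
      · rw [norm_div]
        exact div_le_one_of_le₀ (hr.trans hw.le) (norm_nonneg _)
      · rw [norm_div, norm_one]
        exact div_le_one_of_le₀ hw.le (norm_nonneg _)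
      · field_simp
        linear_combination h
  · push Not at hr
    have hr0 : r ≠ 0 := by
      rintro rfl
      rw [norm_zero] at hr
      linarith
    by_cases hw : ‖w‖ ≤ ‖r‖
    · refine (key 1 (w / r) (1 / r) (by simp) ?_ ?_ ?_).1 rfl
      · rw [norm_div]
        exact div_le_one_of_le₀ hw (norm_nonneg _)
      · rw [norm_div, norm_one]
        exact div_le_one_of_le₀ hr.le (norm_nonneg _)
      · field_simp
        linear_combination h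
    · push Not at hw
      have hw0 : w ≠ 0 := by
        rintro rfl
        rw [norm_zero] at hw
        exact absurd hw (not_lt.mpr (norm_nonneg _))
      refine (key (r / w) 1 (1 / w) ?_ (by simp) ?_ ?_).2.1 rfl
      · rw [norm_div]
        exact div_le_one_of_le₀ hw.le (norm_nonneg _)
      · rw [norm_div, norm_one]
        exact div_le_one_of_le₀ (hr.le.trans hw.le) (norm_nonneg _)
      · field_simp
        linear_combination h

/-! ### Kummer theory -/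

/-- **Kummer theory** for characters with two values. -/
theorem exists_twist {G : Type*} [Group G] {𝓛 : LevelSys G} {Ω : Type*} [Field Ω]
    [MulSemiringAction G Ω] (h𝓛 : FieldLevel 𝓛 Ω) {M : Type*} [Group M] (χ : G →* M)
    (hχ : χ.ker ∈ 𝓛) (h2 : ∀ g h : G, χ g ≠ 1 → χ h ≠ 1 → χ (g * h) = 1) :
    ∃ m : Ω, m ≠ 0 ∧ (∀ g : G, χ g = 1 → g • m = m) ∧ ∀ g : G, χ g ≠ 1 → g • m = -m := by
  classical
  let f : G → Ωˣ := fun g => if χ g = 1 then 1 else -1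
  have hf1 : ∀ g, χ g = 1 → f g = 1 := fun g h => if_pos h
  have hf2 : ∀ g, χ g ≠ 1 → f g = -1 := fun g h => if_neg h
  have hmul : ∀ g h, f (g * h) = f g * f h := by
    intro g h
    by_cases hg : χ g = 1
    · rw [hf1 g hg, one_mul]
      simp only [f, map_mul, hg, one_mul]
    · by_cases hh : χ h = 1
      · rw [hf1 h hh, mul_one]
        simp only [f, map_mul, hh, mul_one]
      · rw [hf1 _ (h2 g h hg hh), hf2 g hg, hf2 h hh, neg_mul_neg, one_mul]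
  have hfix : ∀ g h : G, uact g (f h) = f h := by
    intro g h
    by_cases hh : χ h = 1
    · rw [hf1 h hh, map_one]
    · rw [hf2 h hh]
      apply Units.ext
      rw [coe_uact, Units.val_neg, Units.val_one, smul_neg, smul_one]
  obtain ⟨m, hm⟩ := hilbert90 h𝓛 f ⟨χ.ker, hχ, fun g s hs => by
      rw [hmul, hf1 s hs, mul_one]⟩ (fun u v => by rw [hfix, hmul, mul_comm])
  have hm' : ∀ g : G, g • (m : Ω) = (f g : Ω) * m := by
    intro g
    rw [hm g, ← coe_uact, ← Units.val_mul, div_mul_cancel]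
  refine ⟨m, m.ne_zero, fun g hg => ?_, fun g hg => ?_⟩
  · rw [hm', hf1 g hg, Units.val_one, one_mul]
  · rw [hm', hf2 g hg, Units.val_neg, Units.val_one, neg_one_mul]

lemma ker_mem {M : Type*} [Group M] {χ : GLoc 2 →* M} (hχ : LevG χ) :
    χ.ker ∈ galLevels ℚ_[2] (PadicAlgCl 2) := levG_iff.mp hχ

lemma exists_padic {x : PadicAlgCl 2} (h : ∀ g : GLoc 2, g x = x) :
    ∃ a : ℚ_[2], algebraMap ℚ_[2] (PadicAlgCl 2) a = x := by
  have h1 := (InfiniteGalois.mem_range_algebraMap_iff_fixed (k := ℚ_[2]) x).mpr h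
  exact h1

/-- A character with two values is given by a square root. -/
theorem exists_sqrt {M : Type*} [Group M] {χ : GLoc 2 →* M} (hχ : LevG χ)
    (h2 : ∀ g h : GLoc 2, χ g ≠ 1 → χ h ≠ 1 → χ (g * h) = 1) :
    ∃ (x : PadicAlgCl 2) (a : ℚ_[2]), x ≠ 0 ∧ x ^ 2 = algebraMap ℚ_[2] (PadicAlgCl 2) a ∧
      (∀ g : GLoc 2, χ g = 1 → g x = x) ∧ ∀ g : GLoc 2, χ g ≠ 1 → g x = -x := by
  obtain ⟨x, hx, h1, h3⟩ := exists_twist (fieldLevel_galLevels ℚ_[2] (PadicAlgCl 2)) χ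
    (ker_mem hχ) h2
  obtain ⟨a, ha⟩ := exists_padic (x := x ^ 2) (fun g => by
    rw [map_pow]
    by_cases hg : χ g = 1
    · rw [show g x = x from h1 g hg]
    · rw [show g x = -x from h3 g hg, neg_sq])
  exact ⟨x, a, hx, ha.symm, h1, h3⟩

/-! ### The square roots of `-1`, `2`, `5` -/

lemma apply_emb (g : GLoc 2) (x : Qbar) : g (padicEmbedding 2 x) = padicEmbedding 2 (J 2 g x) :=
  (padicEmbedding_localGaloisToGlobal 2 g x).symm

lemma fix_of_sq_eq {g : GLoc 2} {z t : PadicAlgCl 2} (h : z ^ 2 = t ^ 2) (ht : g t = t) :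
    g z = z := by
  rcases sq_eq_sq_iff_eq_or_eq_neg.mp h with h | h
  · rw [h, ht]
  · rw [h, map_neg, ht]

lemma neg_of_sq_eq {g : GLoc 2} {z t : PadicAlgCl 2} (h : z ^ 2 = t ^ 2) (ht : g t = -t) :
    g z = -z := by
  rcases sq_eq_sq_iff_eq_or_eq_neg.mp h with h | h
  · rw [h, ht]
  · rw [h, map_neg, ht]

lemma exists_I : ∃ I : Qbar, I ^ 2 = -1 := IsAlgClosed.exists_pow_nat_eq (-1 : Qbar) (by norm_num)

/-- `√-1` is fixed. -/
lemma fix_I {g : GLoc 2} {z : PadicAlgCl 2} (hz : z ^ 2 = -1)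
    (h : ∀ ζ : Qbar, ζ ^ 4 = 1 → J 2 g ζ = ζ) : g z = z := by
  obtain ⟨I, hI⟩ := exists_I
  refine fix_of_sq_eq (t := padicEmbedding 2 I) ?_ ?_
  · rw [← map_pow, hI, hz, map_neg, map_one]
  · rw [apply_emb, h I (by rw [show (4 : ℕ) = 2 * 2 from rfl, pow_mul, hI]; norm_num)]

/-- `√-1` is mapped to `-√-1`. -/
lemma neg_I {g : GLoc 2} {z : PadicAlgCl 2} (hz : z ^ 2 = -1)
    (h : ∀ ζ : Qbar, ζ ^ 8 = 1 → J 2 g ζ = ζ ^ 7) : g z = -z := by
  obtain ⟨I, hI⟩ := exists_I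
  refine neg_of_sq_eq (t := padicEmbedding 2 I) ?_ ?_
  · rw [← map_pow, hI, hz, map_neg, map_one]
  · rw [apply_emb, h I (by rw [show (8 : ℕ) = 2 * 4 from rfl, pow_mul, hI]; norm_num), ← map_neg]
    congr 1
    linear_combination I * (I ^ 4 - I ^ 2 + 1) * hI

/-- `√2` is fixed. -/
lemma fix_two {g : GLoc 2} {z : PadicAlgCl 2} (hz : z ^ 2 = 2)
    (h : ∀ ζ : Qbar, ζ ^ 8 = 1 → J 2 g ζ = ζ ∨ J 2 g ζ = ζ ^ 7) : g z = z := by
  obtain ⟨ζ, hζ⟩ := IsAlgClosed.exists_pow_nat_eq (-1 : Qbar) (n := 4) (by norm_num)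
  have hζ8 : ζ ^ 8 = 1 := by
    rw [show (8 : ℕ) = 4 * 2 from rfl, pow_mul, hζ]
    norm_num
  refine fix_of_sq_eq (t := padicEmbedding 2 (ζ + ζ ^ 7)) ?_ ?_
  · rw [← map_pow, hz]
    have h1 : (ζ + ζ ^ 7) ^ 2 = 2 := by
      linear_combination (2 + ζ ^ 6) * hζ8 + ζ ^ 2 * hζ
    rw [h1, map_ofNat]
  · rw [apply_emb]
    congr 1
    rcases h ζ hζ8 with h | h
    · rw [map_add, map_pow, h]
    · rw [map_add, map_pow, h]
      have h2 : (ζ ^ 7) ^ 7 = ζ := by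
        rw [← pow_mul, show 7 * 7 = 8 * 6 + 1 from rfl, pow_succ, pow_mul, hζ8, one_pow, one_mul]
      rw [h2, add_comm]

/-- `√5` is fixed. -/
lemma fix_five {g : GLoc 2} {z : PadicAlgCl 2} (hz : z ^ 2 = 5)
    (h : ∀ ζ : Qbar, ζ ^ 3 = 1 → J 2 g ζ = ζ) : g z = z := by
  obtain ⟨s, hs⟩ := IsAlgClosed.exists_pow_nat_eq (-3 : Qbar) (n := 2) (by norm_num)
  have hω : ((s - 1) / 2) ^ 3 = 1 := by
    field_simp
    linear_combination (s - 3) * hs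
  have hs1 : J 2 g s = s := by
    have h1 := h _ hω
    rw [map_div₀, map_sub, map_one, map_ofNat] at h1
    field_simp at h1
    linear_combination h1
  have hs0 : s ≠ 0 := by
    rintro rfl
    norm_num at hs
  obtain ⟨b, hb⟩ := LTF.Sel.exists_sq_of_toZModPow (z := (-15 : ℤ_[2])) (by
    rw [map_neg, map_ofNat]
    decide)
  have hb' : (algebraMap ℚ_[2] (PadicAlgCl 2) (b : ℚ_[2])) ^ 2 = -15 := by
    rw [← map_pow]
    have h1 : ((b : ℚ_[2])) ^ 2 = -15 := by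
      have h2 := congrArg (fun t : ℤ_[2] => (t : ℚ_[2])) hb
      push_cast at h2
      exact h2
    rw [h1, map_neg, map_ofNat]
  have hs0' : padicEmbedding 2 s ≠ 0 := by
    rw [Ne, map_eq_zero]
    exact hs0
  have hs' : padicEmbedding 2 s ^ 2 = -3 := by rw [← map_pow, hs, map_neg, map_ofNat]
  refine fix_of_sq_eq (t := algebraMap ℚ_[2] (PadicAlgCl 2) (b : ℚ_[2]) / padicEmbedding 2 s) ?_ ?_
  · rw [div_pow, hb', hz, hs']
    norm_num
  · rw [map_div₀, AlgEquiv.commutes, apply_emb, hs1]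

/-- The action on a square root of `(-1) ^ i 5 ^ j 2 ^ k y²`. -/
lemma smul_sqrt {g : GLoc 2} (e : PadicAlgCl 2)
    (h1 : ∀ z : PadicAlgCl 2, z ^ 2 = -1 → g z = e * z)
    (h2 : ∀ z : PadicAlgCl 2, z ^ 2 = 2 → g z = z)
    (h5 : ∀ z : PadicAlgCl 2, z ^ 2 = 5 → g z = z) {x : PadicAlgCl 2} {i j k : ℕ} {y : ℚ_[2]}
    (hx : x ^ 2 = algebraMap ℚ_[2] (PadicAlgCl 2) ((-1) ^ i * 5 ^ j * 2 ^ k * y ^ 2)) :
    g x = e ^ i * x := by
  obtain ⟨z₁, hz₁⟩ := IsAlgClosed.exists_pow_nat_eq (-1 : PadicAlgCl 2) (n := 2) (by norm_num)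
  obtain ⟨z₂, hz₂⟩ := IsAlgClosed.exists_pow_nat_eq (2 : PadicAlgCl 2) (n := 2) (by norm_num)
  obtain ⟨z₅, hz₅⟩ := IsAlgClosed.exists_pow_nat_eq (5 : PadicAlgCl 2) (n := 2) (by norm_num)
  have h3 : x ^ 2 = (z₁ ^ i * z₅ ^ j * z₂ ^ k * algebraMap ℚ_[2] (PadicAlgCl 2) y) ^ 2 := by
    rw [hx]
    simp only [map_mul, map_pow, map_neg, map_one, map_ofNat]
    rw [← hz₁, ← hz₂, ← hz₅]
    ring
  have h4 : g (z₁ ^ i * z₅ ^ j * z₂ ^ k * algebraMap ℚ_[2] (PadicAlgCl 2) y) =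
      e ^ i * (z₁ ^ i * z₅ ^ j * z₂ ^ k * algebraMap ℚ_[2] (PadicAlgCl 2) y) := by
    simp only [map_mul, map_pow, h1 z₁ hz₁, h2 z₂ hz₂, h5 z₅ hz₅, AlgEquiv.commutes]
    ring
  rcases sq_eq_sq_iff_eq_or_eq_neg.mp h3 with h | h
  · rw [h, h4]
  · rw [h, map_neg, h4]
    ring

lemma c2_aux : ∀ a b : C 2, a ≠ 1 → b ≠ 1 → a * b = 1 := by decide

/-- Quadratic characters are cyclotomic. -/
theorem quad (χ : GLoc 2 →* C 2) (hχ : LevG χ) (g : GLoc 2) (hg : J 2 g ∈ Fix 24) : χ g = 1 := by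
  obtain ⟨x, a, hx, hxa, h1, h3⟩ := exists_sqrt hχ (fun g h hg hh => by
    rw [map_mul]
    exact c2_aux _ _ hg hh)
  have ha : a ≠ 0 := by
    rintro rfl
    rw [map_zero] at hxa
    exact pow_ne_zero 2 hx hxa
  obtain ⟨i, j, k, y, hy, hay⟩ := exists_class ha
  have h4 : g x = 1 ^ (i : ℕ) * x := by
    refine smul_sqrt 1 (fun z hz => ?_) (fun z hz => ?_) (fun z hz => ?_)
      (hay ▸ hxa)
    · rw [one_mul]
      exact fix_I hz fun ζ hζ => hg ζ (by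
        rw [show (24 : ℕ) = 4 * 6 from rfl, pow_mul, hζ, one_pow])
    · exact fix_two hz fun ζ hζ => Or.inl (hg ζ (by
        rw [show (24 : ℕ) = 8 * 3 from rfl, pow_mul, hζ, one_pow]))
    · exact fix_five hz fun ζ hζ => hg ζ (by
        rw [show (24 : ℕ) = 3 * 8 from rfl, pow_mul, hζ, one_pow])
  rw [one_pow, one_mul] at h4
  by_contra hne
  have h5 := h3 g hne
  rw [h4] at h5
  exact hx (self_eq_neg.mp h5)

lemma c4_aux : ∀ a b : C 4, a ^ 2 ≠ 1 → b ^ 2 ≠ 1 → a ^ 2 * b ^ 2 = 1 := by decide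

lemma c4_aux' : ∀ a b : C 4, a ^ 2 = 1 → b ^ 2 = 1 → a ≠ 1 → b ≠ 1 → a * b = 1 := by decide

lemma c4_aux'' : ∀ a b : C 4, a ^ 2 ≠ 1 → b ^ 2 ≠ 1 → (a * b⁻¹) ^ 2 = 1 := by decide

lemma c4_pow : ∀ a : C 4, (a * a) ^ 2 = 1 := by decide

/-- The square of a character with values in `C 4` is trivial on the elements of the inertia group
which act as `-1` on the eighth roots of unity. -/
theorem quart (ψ : GLoc 2 →* C 4) (hψ : LevG ψ) (g : GLoc 2)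
    (hg : J 2 g ∈ (padicPlace 2).inertiaSubgroupIn ℚ)
    (hg7 : ∀ ζ : Qbar, ζ ^ 8 = 1 → J 2 g ζ = ζ ^ 7) : ψ g ^ 2 = 1 := by
  by_contra hne
  -- the quadratic character `ψ ^ 2`
  obtain ⟨x, a, hx, hxa, hx1, hx2⟩ := exists_sqrt (χ := ψ ^ 2) (hψ.pow 2) (fun u v hu hv => by
    rw [MonoidHom.pow_apply] at hu hv ⊢
    rw [map_mul, mul_pow]
    exact c4_aux _ _ hu hv)
  have ha : a ≠ 0 := by
    rintro rfl
    rw [map_zero] at hxa
    exact pow_ne_zero 2 hx hxa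
  obtain ⟨i, j, k, y, hy, hay⟩ := exists_class ha
  have hgx : g x = -x := hx2 g hne
  have hgx' : g x = (-1) ^ (i : ℕ) * x := by
    refine smul_sqrt (-1) (fun z hz => ?_) (fun z hz => ?_) (fun z hz => ?_) (hay ▸ hxa)
    · rw [neg_one_mul]
      exact neg_I hz hg7
    · exact fix_two hz fun ζ hζ => Or.inr (hg7 ζ hζ)
    · exact fix_five hz fun ζ hζ => GalRep.inertia_fix_rootOfUnity (place_over 2) (by norm_num)
        (by norm_num) hg hζ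
  have hi : (i : ℕ) = 1 := by
    have h1 : (i : ℕ) ≠ 0 := by
      intro h0
      rw [h0, pow_zero, one_mul, hgx] at hgx'
      exact hx (self_eq_neg.mp hgx'.symm)
    omega
  -- Hilbert 90 for the kernel of `ψ ^ 2`
  let H : Subgroup (GLoc 2) := (ψ ^ 2).ker
  have hH : ∀ h : GLoc 2, h ∈ H ↔ ψ h ^ 2 = 1 := fun h => Iff.rfl
  obtain ⟨b, hb0, hb1, hb2⟩ := exists_twist (G := H)
    ((fieldLevel_galLevels ℚ_[2] (PadicAlgCl 2)).restrict H) (ψ.comp H.subtype)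
    (by
      rw [← MonoidHom.comap_ker]
      exact LevelSys.comap_mem_comap _ (ker_mem hψ))
    (fun u v hu hv => by
      rw [map_mul]
      exact c4_aux' _ _ u.2 v.2 hu hv)
  have hB1 : ∀ h : GLoc 2, ψ h = 1 → h b = b := fun h hh =>
    hb1 ⟨h, (hH h).mpr (by rw [hh, one_pow])⟩ hh
  have hB2 : ∀ h : GLoc 2, ψ h ^ 2 = 1 → ψ h ≠ 1 → h b = -b := fun h hh hh' =>
    hb2 ⟨h, (hH h).mpr hh⟩ hh'
  have hgb0 : g b ≠ 0 := by
    rw [Ne, map_eq_zero]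
    exact hb0
  have hconj : ∀ h : GLoc 2, ψ (g⁻¹ * h * g) = ψ h := fun h => by
    rw [map_mul, map_mul, map_inv, mul_comm, mul_inv_cancel_left]
  have hswap : ∀ (h : GLoc 2) (z : PadicAlgCl 2), h (g z) = g ((g⁻¹ * h * g) z) := fun h z => by
    rw [← AlgEquiv.mul_apply, ← AlgEquiv.mul_apply, mul_assoc g⁻¹, mul_inv_cancel_left]
  set c : PadicAlgCl 2 := g b / b with hc
  have hcH : ∀ h : GLoc 2, ψ h ^ 2 = 1 → h c = c := by
    intro h hh
    rw [hc, map_div₀, hswap]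
    by_cases h1 : ψ h = 1
    · rw [hB1 h h1, hB1 _ ((hconj h).trans h1)]
    · rw [hB2 h hh h1, hB2 _ (by rw [hconj]; exact hh) (by rw [hconj]; exact h1), map_neg,
        neg_div_neg_eq]
  have hgg : (g * g) b = -b := hB2 _ (by rw [map_mul]; exact c4_pow _) (by
    rw [map_mul, ← sq]
    exact hne)
  have hcc : c * g c = -1 := by
    rw [hc, map_div₀, ← AlgEquiv.mul_apply, hgg]
    field_simp
  have hgcH : ∀ h : GLoc 2, ψ h ^ 2 = 1 → h (g c) = g c := fun h hh => by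
    rw [hswap, hcH _ (by rw [hconj]; exact hh)]
  have hggc : g (g c) = c := by
    rw [← AlgEquiv.mul_apply]
    exact hcH _ (by rw [map_mul]; exact c4_pow _)
  have hout : ∀ u : GLoc 2, ψ u ^ 2 ≠ 1 → u c = g c ∧ u (g c) = c := by
    intro u hu
    have h1 : ψ (u * g⁻¹) ^ 2 = 1 := by
      rw [map_mul, map_inv]
      exact c4_aux'' _ _ hu hne
    have h2 : ∀ z, u z = (u * g⁻¹) (g z) := fun z => by
      rw [← AlgEquiv.mul_apply, inv_mul_cancel_right]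
    exact ⟨by rw [h2, hgcH _ h1], by rw [h2, hggc, hcH _ h1]⟩
  obtain ⟨r, hr⟩ := exists_padic (x := c + g c) (fun u => by
    by_cases hu : ψ u ^ 2 = 1
    · rw [map_add, hcH u hu, hgcH u hu]
    · rw [map_add, (hout u hu).1, (hout u hu).2, add_comm])
  obtain ⟨s, hs⟩ := exists_padic (x := (c - g c) * x) (fun u => by
    by_cases hu : ψ u ^ 2 = 1
    · rw [map_mul, map_sub, hcH u hu, hgcH u hu, hx1 u hu]
    · rw [map_mul, map_sub, (hout u hu).1, (hout u hu).2, hx2 u hu]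
      ring)
  have hnorm : a * (r ^ 2 + 4) = s ^ 2 := by
    apply (algebraMap ℚ_[2] (PadicAlgCl 2)).injective
    simp only [map_mul, map_add, map_pow, map_ofNat]
    rw [hr, hs, ← hxa]
    linear_combination (4 : PadicAlgCl 2) * x ^ 2 * hcc
  have h5 : ((5 : ℚ_[2]) ^ (j : ℕ) * 2 ^ (k : ℕ)) ≠ 0 :=
    mul_ne_zero (pow_ne_zero _ (by norm_num)) (pow_ne_zero _ (by norm_num))
  refine ne_zero_aux j k (r / 2) (s / (2 * (5 ^ (j : ℕ) * 2 ^ (k : ℕ)) * y)) ?_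
  rw [hay, hi] at hnorm
  set d : ℚ_[2] := 5 ^ (j : ℕ) * 2 ^ (k : ℕ) with hd
  have h6 : -(d * y ^ 2 * (r ^ 2 + 4)) = s ^ 2 := by
    rw [← hnorm, hd]
    ring
  field_simp
  linear_combination -h6

end Two

/-- (Q) -/
theorem atTwoStmt : AtTwoStmt := ⟨fun χ hχ g hg => Two.quad χ hχ g hg,
  fun ψ hψ g hg hg7 => Two.quart ψ hψ g hg hg7⟩

end Loc

end Fermat.Agent.Cor.KW
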