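import Fermat.Agent.Corollaries.KW.LocStep
import Fermat.Agent.Corollaries.KW.LocField
import Fermat.Agent.Corollaries.KW.LocAtP
import Fermat.Agent.Corollaries.KW.LocTwo

set_option autoImplicit false

/-!
# The local Kronecker-Weber theorem
-/

namespace Fermat.Agent.Cor.KW

/-- Characters of prime power order of the absolute Galois group of `ℚ_[q]` are cyclotomic. -/
theorem Loc.charStmt (q : ℕ) [Fact q.Prime] : Loc.CharStmt q :=
  Loc.charStmt_of Loc.atPStmt Loc.atTwoStmt q

/-- **The local Kronecker-Weber theorem**: every finite abelian extension of `ℚ_[p]` is contained in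
a cyclotomic extension. -/
theorem kronecker_weber_local (p : ℕ) [Fact p.Prime] (K : Type*) [Field K] [Algebra ℚ_[p] K]
    [FiniteDimensional ℚ_[p] K] [IsAbelianGalois ℚ_[p] K] :
    ∃ n : ℕ, 0 < n ∧ Nonempty (K →ₐ[ℚ_[p]] CyclotomicField n ℚ_[p]) :=
  Loc.exists_algHom (Loc.charStmt p) K

/-- **The local Kronecker-Weber theorem**: a finite extension of `ℚ_[p]` is abelian if and only if it
is contained in a cyclotomic extension. -/
theorem isAbelianGalois_padic_iff (p : ℕ) [Fact p.Prime] (K : Type*) [Field K] [Algebra ℚ_[p] K]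
    [FiniteDimensional ℚ_[p] K] :
    IsAbelianGalois ℚ_[p] K ↔ ∃ n : ℕ, 0 < n ∧ Nonempty (K →ₐ[ℚ_[p]] CyclotomicField n ℚ_[p]) :=
  Loc.isAbelianGalois_iff (Loc.charStmt p) K

/-- **The maximal abelian extension of `ℚ_[p]` is `ℚ_[p](μ_∞)`**: an extension of `ℚ_[p]` (of any
degree, inside the algebraic closure) is abelian if and only if it is contained in the field generated
by the roots of unity. -/
theorem isAbelianGalois_padic_iff_le (p : ℕ) [Fact p.Prime]
    (L : IntermediateField ℚ_[p] (PadicAlgCl p)) :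
    IsAbelianGalois ℚ_[p] L ↔
      L ≤ IntermediateField.adjoin ℚ_[p] {x : PadicAlgCl p | ∃ n : ℕ, n ≠ 0 ∧ x ^ n = 1} := by
  have h : IntermediateField.adjoin ℚ_[p] {x : PadicAlgCl p | ∃ n : ℕ, n ≠ 0 ∧ x ^ n = 1} =
      Loc.cycAll p := by
    rw [Loc.cycAll, Loc.cycS]
    congr 1
    ext x
    simp
  rw [h]
  exact Loc.isAbelianGalois_iff_le_cycAll (Loc.charStmt p) L

end Fermat.Agent.Cor.KW
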