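import Fermat.Agent.Corollaries.KW.LocTame
import Fermat.Agent.Corollaries.KW.Step
import Fermat.Agent.Corollaries.KW.Homs

set_option autoImplicit false

/-!
# The local Kronecker-Weber theorem: the induction
-/

namespace Fermat.Agent.Cor.KW

open scoped Pointwise
open Fermat.Agent.Frob Fermat.Agent.Minkowski Fermat.Agent.TW

namespace Loc

variable {q : ℕ} [hq : Fact q.Prime] {ℓ : ℕ}

/-- Division by `ℓ`. -/
theorem exists_div [hp : Fact ℓ.Prime] {n : ℕ} {δ : GLoc q →* C (ℓ ^ (n + 1))} (hL : LevG δ)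
    (h : ∀ σ, red ℓ n (δ σ) = 1) : ∃ δ' : GLoc q →* C (ℓ ^ n), LevG δ' ∧ δ'.ker ≤ δ.ker := by
  obtain ⟨j, hj, hr⟩ := exists_div_hom ℓ n
  let e : C (ℓ ^ n) ≃* j.range := MonoidHom.ofInjective hj
  let δ₁ : GLoc q →* j.range := δ.codRestrict j.range fun σ => hr _ (h σ)
  have hk : ∀ σ, e.symm (δ₁ σ) = 1 ↔ δ σ = 1 := by
    intro σ
    rw [MulEquiv.map_eq_one_iff, Subtype.ext_iff]
    rfl
  refine ⟨e.symm.toMonoidHom.comp δ₁, ?_, ?_⟩
  · obtain ⟨L, hL, hL'⟩ := hL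
    exact ⟨L, hL, fun σ hσ => (hk σ).mpr (hL' σ hσ)⟩
  · intro σ hσ
    exact (hk σ).mp hσ

lemma unrG_red_iff [hp : Fact ℓ.Prime] {n : ℕ} {χ : GLoc q →* C (ℓ ^ (n + 1))} :
    UnrG ((red ℓ n).comp χ) ↔ UnrG (χ ^ (ℓ ^ n)) :=
  ⟨fun h σ hσ => (red_eq_one_iff n _).mp (h σ hσ), fun h σ hσ => (red_eq_one_iff n _).mpr (h σ hσ)⟩

lemma kp_surj_inertia (k : ℕ) [NeZero (q ^ k)] (u : (ZMod (q ^ k))ˣ) :
    ∃ g : GLoc q, J q g ∈ (padicPlace q).inertiaSubgroupIn ℚ ∧ kp q (q ^ k) g = u := by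
  obtain ⟨σ, hσ, h⟩ := inertia_surj hq.out k (place_over q) u
  obtain ⟨g, rfl⟩ := exists_J_inertia hσ
  exact ⟨g, hσ, h⟩

/-- A surjective character of conductor `q ^ k` is ramified, even its reduction. -/
lemma exists_red_ne [hp : Fact ℓ.Prime] {n k : ℕ} [NeZero (q ^ k)]
    {f : (ZMod (q ^ k))ˣ →* C (ℓ ^ (n + 1))} (hf : Function.Surjective f) :
    ¬ UnrG ((red ℓ n).comp (f.comp (kp q (q ^ k)))) := by
  intro h
  obtain ⟨u, hu⟩ := hf (Multiplicative.ofAdd 1)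
  obtain ⟨g, hg, rfl⟩ := kp_surj_inertia k u
  apply red_ofAdd_one_ne (p := ℓ) n
  rw [← hu]
  exact h g hg

/-- Correction of the ramification, `ℓ ≠ q`. -/
theorem tame_step [hp : Fact ℓ.Prime] (hℓq : q ≠ ℓ) {n : ℕ}
    {χ : GLoc q →* C (ℓ ^ (n + 1))} (hχ : LevG χ) :
    ∃ ψ : GLoc q →* C (ℓ ^ (n + 1)), LevG ψ ∧ CycG ψ ∧ UnrG ((red ℓ n).comp (χ * ψ⁻¹)) := by
  obtain ⟨τ, -, hτ⟩ := exists_tame hp.out hℓq
  by_cases hr : red ℓ n (χ τ) = 1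
  · refine ⟨1, ⟨⊥, inferInstance, fun _ _ => rfl⟩, ⟨1, one_ne_zero, fun _ _ => rfl⟩, ?_⟩
    rw [inv_one, mul_one, unrG_red_iff]
    exact (hτ _ _ (hχ.pow _)).1 ((red_eq_one_iff n _).mp hr)
  · have hdvd : ℓ ^ (n + 1) ∣ q - 1 := by
      rw [← orderOf_of_red_ne hr]
      exact orderOf_dvd_of_pow_eq_one (hτ _ _ hχ).2
    have : NeZero (q ^ 1) := ⟨pow_ne_zero 1 hq.out.ne_zero⟩
    obtain ⟨f₀, hf₀⟩ := homStmt.1 q ℓ (n + 1) hq.out hp.out hdvd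
    obtain ⟨f, hf⟩ : ∃ f : (ZMod (q ^ 1))ˣ →* C (ℓ ^ (n + 1)), Function.Surjective f := by
      rw [pow_one]
      exact ⟨f₀, hf₀⟩
    have hL : LevG (f.comp (kp q (q ^ 1))) := (levG_kp _).comp f
    have hC : CycG (f.comp (kp q (q ^ 1))) := (cycG_kp _).comp f
    have h1 : red ℓ n ((f.comp (kp q (q ^ 1))) τ) ≠ 1 := by
      intro h1
      refine exists_red_ne hf (unrG_red_iff.mpr ?_)
      exact (hτ _ _ (hL.pow (ℓ ^ n))).1 ((red_eq_one_iff n _).mp h1)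
    obtain ⟨b, hb⟩ := exists_pow_of_red_ne h1 (χ τ)
    refine ⟨(f.comp (kp q (q ^ 1))) ^ b, hL.pow b, hC.pow b, UnrG.comp ?_ _⟩
    refine (hτ _ _ (hχ.mul (hL.pow b).inv)).1 ?_
    rw [MonoidHom.mul_apply, MonoidHom.inv_apply, MonoidHom.pow_apply, hb, mul_inv_cancel]

/-- Correction of the ramification, `ℓ = q` odd. -/
theorem p_step (hD : AtPStmt) (hq2 : q ≠ 2) {n : ℕ} {χ : GLoc q →* C (q ^ (n + 1))}
    (hχ : LevG χ) :
    ∃ ψ : GLoc q →* C (q ^ (n + 1)), LevG ψ ∧ CycG ψ ∧ UnrG ((red q n).comp (χ * ψ⁻¹)) := by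
  have : NeZero (q ^ (n + 1 + 1)) := ⟨pow_ne_zero _ hq.out.ne_zero⟩
  obtain ⟨f, hf⟩ := homStmt.2.1 q (n + 1) hq.out hq2
  have hL : LevG (f.comp (kp q (q ^ (n + 1 + 1)))) := (levG_kp _).comp f
  have hC : CycG (f.comp (kp q (q ^ (n + 1 + 1)))) := (cycG_kp _).comp f
  obtain ⟨b, hb⟩ := hD q hq2 ((red q n).comp χ) ((red q n).comp (f.comp (kp q (q ^ (n + 1 + 1)))))
    (hχ.comp _) (hL.comp _) (exists_red_ne hf)
  refine ⟨((f.comp (kp q (q ^ (n + 1 + 1)))) ^ b)⁻¹, (hL.pow b).inv, (hC.pow b).inv, ?_⟩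
  intro g hg
  have h1 := hb g hg
  rw [MonoidHom.mul_apply, MonoidHom.pow_apply] at h1
  rw [inv_inv, MonoidHom.comp_apply, MonoidHom.mul_apply, MonoidHom.pow_apply, map_mul, map_pow]
  exact h1

/-- Inertia fixes the roots of unity of order prime to `q`. -/
lemma inertia_fix {g : GLoc q} (hg : J q g ∈ (padicPlace q).inertiaSubgroupIn ℚ) {m : ℕ}
    [NeZero m] (hm : ¬ q ∣ m) : J q g ∈ Fix m :=
  mem_Fix_iff_kap.mpr (unrG_kp hm g hg)

/-- Reduction modulo `4`. -/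
def red4 (n : ℕ) : C (2 ^ (n + 1 + 1)) →* C 4 :=
  (ZMod.castHom (show 4 ∣ 2 ^ (n + 1 + 1) from ⟨2 ^ n, by ring⟩)
    (ZMod 4)).toAddMonoidHom.toMultiplicative

lemma red_of_red4 {n : ℕ} {x : C (2 ^ (n + 1 + 1))} (h : red4 n x ^ 2 = 1) :
    red 2 (n + 1) x = 1 := by
  have : NeZero (2 ^ (n + 1 + 1)) := ⟨pow_ne_zero _ two_ne_zero⟩
  obtain ⟨k, rfl⟩ := exists_pow_C' x
  have h1 : red4 n (Multiplicative.ofAdd 1) = Multiplicative.ofAdd 1 := by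
    show Multiplicative.ofAdd (ZMod.castHom (show 4 ∣ 2 ^ (n + 1 + 1) from ⟨2 ^ n, by ring⟩)
      (ZMod 4) 1) = _
    rw [map_one]
  rw [map_pow, h1, ← pow_mul, pow_ofAdd_eq_one_iff] at h
  rw [map_pow, red_ofAdd_one, pow_ofAdd_eq_one_iff]
  omega

/-- Correction of the ramification, `ℓ = q = 2`. -/
theorem two_step (hE : AtTwoStmt) {n : ℕ} {χ : GLoc 2 →* C (2 ^ (n + 1))}
    (hχ : LevG χ) :
    ∃ ψ : GLoc 2 →* C (2 ^ (n + 1)), LevG ψ ∧ CycG ψ ∧ UnrG ((red 2 n).comp (χ * ψ⁻¹)) := by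
  have h24 := hE.1 ((red 2 n).comp χ) (hχ.comp _)
  rcases n with _ | n
  · refine ⟨χ, hχ, ⟨24, by norm_num, fun g hg => ?_⟩, ?_⟩
    · have h1 : χ g ^ 2 ^ 0 = 1 := (red_eq_one_iff 0 _).mp (h24 g hg)
      exact (pow_one (χ g)).symm.trans h1
    · intro g _
      rw [mul_inv_cancel, MonoidHom.comp_apply, MonoidHom.one_apply, map_one]
  · have : NeZero (2 ^ (n + 1 + 1 + 2)) := ⟨pow_ne_zero _ two_ne_zero⟩
    obtain ⟨f, hf, hf1, hfac⟩ := homStmt.2.2 (n + 1 + 1) (by omega)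
    have hdvd : 8 ∣ 2 ^ (n + 1 + 1 + 2) := by
      have : (8 : ℕ) = 2 ^ 3 := by norm_num
      rw [this]
      exact pow_dvd_pow 2 (by omega)
    -- the inertia group
    let I : Subgroup (GLoc 2) := ((padicPlace 2).inertiaSubgroupIn ℚ).comap (J 2)
    let κ : I →* (ZMod (2 ^ (n + 1 + 1 + 2)))ˣ := (kp 2 (2 ^ (n + 1 + 1 + 2))).comp I.subtype
    have hκ : Function.Surjective κ := by
      intro u
      obtain ⟨g, hg, h⟩ := kp_surj_inertia _ u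
      exact ⟨⟨g, hg⟩, h⟩
    let r : I →* C 2 := ((red 2 (n + 1)).comp χ).comp I.subtype
    have hle : κ.ker ≤ r.ker := by
      intro g hg
      have h1 : J 2 g ∈ Fix (2 ^ (n + 1 + 1 + 2)) := mem_Fix_iff_kap.mpr hg
      have h3 : J 2 g ∈ Fix 3 := inertia_fix g.2 (by norm_num)
      refine h24 g ?_
      have h4 : J 2 g ∈ Fix (Nat.lcm 8 3) := by
        rw [← Fix_inf 8 3 (by norm_num) (by norm_num)]
        exact ⟨Fix_le hdvd h1, h3⟩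
      exact h4
    let s : (ZMod (2 ^ (n + 1 + 1 + 2)))ˣ →* C 2 :=
      κ.liftOfRightInverse _ (Function.rightInverse_surjInv hκ) ⟨r, hle⟩
    have hs : ∀ g : I, s (κ g) = red 2 (n + 1) (χ g) := fun g =>
      MonoidHom.liftOfRightInverse_comp_apply κ _ (Function.rightInverse_surjInv hκ) ⟨r, hle⟩ g
    have hs1 : s (-1) = 1 := by
      obtain ⟨g, hg⟩ := hκ (-1)
      rw [← hg, hs]
      refine red_of_red4 (hE.2 ((red4 n).comp χ) (hχ.comp _) g g.2 fun ζ hζ => ?_)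
      have h1 : ζ ^ 2 ^ (n + 1 + 1 + 2) = 1 := by
        obtain ⟨c, hc⟩ := hdvd
        rw [hc, pow_mul, hζ, one_pow]
      have h2 : J 2 g ζ = ζ ^ ((κ g : (ZMod (2 ^ (n + 1 + 1 + 2)))ˣ) :
          ZMod (2 ^ (n + 1 + 1 + 2))).val := Kap.kap_spec _ (J 2 g) ζ h1
      rw [hg, Units.val_neg, Units.val_one] at h2
      have h3 : 2 ^ (n + 1 + 1 + 2) ∣ (-1 : ZMod (2 ^ (n + 1 + 1 + 2))).val + 1 := by
        rw [← ZMod.natCast_eq_zero_iff, Nat.cast_add, ZMod.natCast_zmod_val, Nat.cast_one,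
          neg_add_cancel]
      obtain ⟨c, hc⟩ := hdvd.trans h3
      have h4 : ζ ^ (-1 : ZMod (2 ^ (n + 1 + 1 + 2))).val * ζ = ζ ^ 7 * ζ := by
        rw [← pow_succ, hc, pow_mul, hζ, one_pow, ← pow_succ, hζ]
      have hζ0 : ζ ≠ 0 := by
        rintro rfl
        norm_num at hζ
      rw [h2]
      exact mul_right_cancel₀ hζ0 h4
    obtain ⟨h', hh'⟩ := hfac s hs1
    obtain ⟨b, hb⟩ := exists_pow_C' (h' (Multiplicative.ofAdd 1))
    have : NeZero (2 ^ (n + 1 + 1)) := ⟨pow_ne_zero _ two_ne_zero⟩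
    have hred : h' = red 2 (n + 1) ^ b := by
      refine MonoidHom.ext fun x => ?_
      obtain ⟨k, rfl⟩ := exists_pow_C' x
      rw [map_pow, map_pow, MonoidHom.pow_apply, red_ofAdd_one, hb]
    refine ⟨(f.comp (kp 2 (2 ^ (n + 1 + 1 + 2)))) ^ b, ((levG_kp _).comp f).pow b,
      ((cycG_kp _).comp f).pow b, fun g hg => ?_⟩
    have h1 : red 2 (n + 1) (χ g) = s (κ ⟨g, hg⟩) := (hs ⟨g, hg⟩).symm
    rw [MonoidHom.comp_apply, MonoidHom.mul_apply, map_mul, h1, hh', MonoidHom.comp_apply, hred,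
      MonoidHom.inv_apply, MonoidHom.pow_apply, MonoidHom.pow_apply, map_inv, map_pow]
    exact mul_inv_cancel _

/-- **Characters of prime power order of the local Galois group are cyclotomic.** -/
theorem charStmt_of (hD : AtPStmt) (hE : AtTwoStmt) (q : ℕ)
    [hq : Fact q.Prime] : CharStmt q := by
  intro ℓ n hℓ
  have : Fact ℓ.Prime := ⟨hℓ⟩
  induction n with
  | zero =>
    intro χ _
    refine ⟨1, one_ne_zero, fun g _ => ?_⟩
    exact (pow_one (χ g)).symm.trans (pow_eq_one_C (χ g))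
  | succ n ih =>
    intro χ hχ
    obtain ⟨ψ, h1, h2, h3⟩ : ∃ ψ : GLoc q →* C (ℓ ^ (n + 1)), LevG ψ ∧ CycG ψ ∧
        UnrG ((red ℓ n).comp (χ * ψ⁻¹)) := by
      by_cases hqℓ : q = ℓ
      · subst hqℓ
        by_cases hq2 : q = 2
        · subst hq2
          exact two_step hE hχ
        · exact p_step hD hq2 hχ
      · exact tame_step hqℓ hχ
    have hL1 : LevG (χ * ψ⁻¹) := hχ.mul h1.inv
    have : NeZero (ℓ ^ (n + 1)) := ⟨pow_ne_zero _ hℓ.ne_zero⟩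
    obtain ⟨φ, hφ⟩ := exists_frob q
    obtain ⟨η, g1, g2, g3, g4⟩ := exists_unr_char (M := C (ℓ ^ (n + 1))) hφ
      (x := (χ * ψ⁻¹) φ) (orderOf_pos _).ne'
    have h5 : (red ℓ n).comp (χ * ψ⁻¹) = (red ℓ n).comp η :=
      eq_of_frob (hL1.comp _) h3 (g1.comp _) (g2.comp _) hφ (by
        rw [MonoidHom.comp_apply, MonoidHom.comp_apply, g4])
    obtain ⟨δ', d1, d2⟩ := exists_div (δ := χ * ψ⁻¹ * η⁻¹) (hL1.mul g1.inv) fun σ => by
      have h5 := DFunLike.congr_fun h5 σ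
      rw [MonoidHom.comp_apply, MonoidHom.comp_apply] at h5
      rw [MonoidHom.mul_apply, map_mul, h5, ← map_mul, MonoidHom.inv_apply, mul_inv_cancel, map_one]
    have h6 : CycG (χ * ψ⁻¹ * η⁻¹) := (ih δ' d1).of_ker_le d2
    have h7 : χ = χ * ψ⁻¹ * η⁻¹ * (η * ψ) := by
      rw [mul_assoc, inv_mul_cancel_left, inv_mul_cancel_right]
    rw [h7]
    exact h6.mul (g3.mul h2)

end Loc

end Fermat.Agent.Cor.KW
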