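import Fermat.Agent.Corollaries.KW.LocUnr
import Fermat.Agent.RTD.TameGen

set_option autoImplicit false

/-!
# The local Kronecker-Weber theorem: tame characters
-/

namespace Fermat.Agent.Cor.KW

open scoped Pointwise
open Fermat.Agent.Frob Fermat.Agent.Minkowski Fermat.Agent.TW Fermat.Agent.RTD

namespace Loc

variable {q : ℕ} [hq : Fact q.Prime] {M : Type*} [Group M]

/-- The inverse of the restriction on the inertia group. -/
noncomputable def invI (q : ℕ) [hq : Fact q.Prime] :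
    (padicPlace q).inertiaSubgroupIn ℚ →* GLoc q :=
  (MonoidHom.ofInjective (J_injective q)).symm.toMonoidHom.comp
    (Subgroup.inclusion (by rw [range_J]; exact inertia_le_decomp))

lemma J_invI (σ : (padicPlace q).inertiaSubgroupIn ℚ) : J q (invI q σ) = σ := by
  have h := (MonoidHom.ofInjective (J_injective q)).apply_symm_apply
    (Subgroup.inclusion (by rw [range_J]; exact inertia_le_decomp) σ)
  exact congrArg (fun x : (J q).range => (x : GQ)) h

lemma invI_eq {g : GLoc q} (hg : J q g ∈ (padicPlace q).inertiaSubgroupIn ℚ) :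
    invI q ⟨J q g, hg⟩ = g := J_injective q (J_invI _)

/-- **Tame generators.** -/
theorem exists_tame {ℓ : ℕ} (hℓ : ℓ.Prime) (hqℓ : q ≠ ℓ) :
    ∃ τ : GLoc q, J q τ ∈ (padicPlace q).inertiaSubgroupIn ℚ ∧
      ∀ (n : ℕ) (ψ : GLoc q →* C (ℓ ^ n)), LevG ψ → (ψ τ = 1 → UnrG ψ) ∧ ψ τ ^ (q - 1) = 1 := by
  have : Fact ℓ.Prime := ⟨hℓ⟩
  have hA := place_over q
  obtain ⟨σ, hσ⟩ := exists_isTameGen hq.out hℓ hA hqℓ
  obtain ⟨τ, rfl⟩ := exists_J_inertia hσ.1
  obtain ⟨φ, hφ⟩ := exists_frob q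
  refine ⟨τ, hσ.1, fun n ψ hψ => ?_⟩
  obtain ⟨L, hL, hLψ⟩ := hψ
  let f : (padicPlace q).inertiaSubgroupIn ℚ →* C (ℓ ^ n) := ψ.comp (invI q)
  have hf : ∀ (g : GLoc q) (hg : J q g ∈ (padicPlace q).inertiaSubgroupIn ℚ),
      f ⟨J q g, hg⟩ = ψ g := fun g hg => congrArg ψ (invI_eq hg)
  have hP : IsPGroup ℓ (C (ℓ ^ n)) := by
    refine IsPGroup.of_card (n := n) ?_
    rw [Nat.card_eq_of_bijective _ Multiplicative.toAdd.bijective, Nat.card_zmod]
  have hPf : IsPGroup ℓ f.range := hP.to_subgroup _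
  have hLf : ∀ i : (padicPlace q).inertiaSubgroupIn ℚ, (∀ x ∈ L, (i : GQ) x = x) → f i = 1 := by
    intro i hi
    refine hLψ _ fun x hx => ?_
    rw [J_invI]
    exact hi x hx
  constructor
  · intro h1 g hg
    have h2 := hσ.mem_zpowers hq.out hA hqℓ f hPf L hLf ⟨J q g, hg⟩
    rw [hf, hf, h1, Subgroup.zpowers_one_eq_bot, Subgroup.mem_bot] at h2
    exact h2
  · have h1 := tame_relation hq.out hA hqℓ hφ f hPf L hLf ⟨J q τ, hσ.1⟩
    have h3 : f ⟨J q φ * J q τ * (J q φ)⁻¹, conj_frob_mem hφ hσ.1⟩ = ψ τ := by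
      have h4 : J q (φ * τ * φ⁻¹) = J q φ * J q τ * (J q φ)⁻¹ := by
        rw [map_mul, map_mul, map_inv]
      have h5 : J q (φ * τ * φ⁻¹) ∈ (padicPlace q).inertiaSubgroupIn ℚ := by
        rw [h4]
        exact conj_frob_mem hφ hσ.1
      have h6 : f ⟨J q φ * J q τ * (J q φ)⁻¹, conj_frob_mem hφ hσ.1⟩ = f ⟨_, h5⟩ :=
        congrArg f (Subtype.ext h4.symm)
      rw [h6, hf, map_mul, map_mul, map_inv, mul_comm, inv_mul_cancel_left]
    rw [hf] at h1
    have h2 : ψ τ = ψ τ ^ q := h3.symm.trans h1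
    have h4 : ψ τ ^ (q - 1) * ψ τ = ψ τ := by
      rw [← pow_succ, Nat.sub_add_cancel hq.out.one_le, ← h2]
    exact mul_eq_right.mp h4

end Loc

end Fermat.Agent.Cor.KW
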