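import Fermat.Agent.Corollaries.KW.LocDefs
import Fermat.Agent.Corollaries.KW.Kap
import Fermat.Agent.Corollaries.KW.Cond
import Fermat.Agent.GW.LocalUnr

set_option autoImplicit false

/-!
# The local Kronecker-Weber theorem: unramified characters
-/

namespace Fermat.Agent.Cor.KW

open scoped Pointwise
open Fermat.Agent.Frob Fermat.Agent.Minkowski Fermat.Agent.TW

namespace Loc

variable {q : ℕ} [hq : Fact q.Prime] {M : Type*} [Group M] {N : Type*} [Group N]

lemma J_mem (g : GLoc q) : J q g ∈ (padicPlace q).decompositionSubgroup ℚ := by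
  rw [← range_J]
  exact ⟨g, rfl⟩

lemma exists_J {σ : GQ} (h : σ ∈ (padicPlace q).decompositionSubgroup ℚ) :
    ∃ g : GLoc q, J q g = σ := by
  rw [← range_J] at h
  exact h

lemma exists_J_inertia {σ : GQ} (h : σ ∈ (padicPlace q).inertiaSubgroupIn ℚ) :
    ∃ g : GLoc q, J q g = σ := exists_J (inertia_le_decomp h)

lemma exists_frob (q : ℕ) [hq : Fact q.Prime] :
    ∃ φ : GLoc q, (padicPlace q).IsFrobeniusAt (J q φ) q := by
  obtain ⟨σ, hσ⟩ := exists_isFrobeniusAt hq.out (place_over q)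
  obtain ⟨φ, rfl⟩ := exists_J hσ.mem_decompositionSubgroup
  exact ⟨φ, hσ⟩

/-- Unramified homomorphisms are determined by the value at a Frobenius element. -/
theorem exists_frob_pow {χ : GLoc q →* M} (hL : LevG χ) (hU : UnrG χ) {φ : GLoc q}
    (hφ : (padicPlace q).IsFrobeniusAt (J q φ) q) (g : GLoc q) : ∃ n : ℕ, χ g = χ φ ^ n := by
  obtain ⟨L, hL, h⟩ := hL
  obtain ⟨F, hLF, hfd, hgal⟩ := exists_galois_ge L
  obtain ⟨n, i, hi, h1⟩ := exists_frob_pow_mul_inertia hq.out (place_over q) hφ F (J_mem g)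
  obtain ⟨i', rfl⟩ := exists_J_inertia hi
  refine ⟨n, ?_⟩
  have h2 : χ ((φ ^ n * i')⁻¹ * g) = 1 := by
    refine h _ fun x hx => ?_
    have h3 := h1 x (hLF hx)
    rw [map_mul, map_inv, map_mul, map_pow]
    change (J q φ ^ n * J q i')⁻¹ (J q g x) = x
    rw [h3]
    exact (J q φ ^ n * J q i').symm_apply_apply x
  rw [map_mul, map_inv, inv_mul_eq_one, map_mul, map_pow, hU i' hi, mul_one] at h2
  exact h2.symm

/-- The cyclotomic characters of the local Galois group. -/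
noncomputable abbrev kp (q m : ℕ) [Fact q.Prime] [NeZero m] : GLoc q →* (ZMod m)ˣ :=
  (Kap.kap m).comp (J q)

lemma levG_kp (m : ℕ) [NeZero m] : LevG (kp q m) := levG_comp (Kap.lev_kap m)

lemma unrG_kp {m : ℕ} [NeZero m] (h : ¬ q ∣ m) : UnrG (kp q m) :=
  unrG_comp (Kap.unrAt_kap m hq.out h)

lemma cycG_kp (m : ℕ) [NeZero m] : CycG (kp q m) :=
  ⟨m, NeZero.ne m, fun _ hg => mem_Fix_iff_kap.mp hg⟩

lemma kp_frob {m : ℕ} [NeZero m] (h : ¬ q ∣ m) {φ : GLoc q}
    (hφ : (padicPlace q).IsFrobeniusAt (J q φ) q) : ((kp q m φ : (ZMod m)ˣ) : ZMod m) = q := by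
  have h1 : J q φ (Kap.zet m) = Kap.zet m ^ q := GalRep.frobenius_rootOfUnity (place_over q)
    ((Nat.Prime.coprime_iff_not_dvd hq.out).mpr h) (NeZero.ne m) hφ (Kap.zet_spec m).pow_eq_one
  exact Kap.kap_eq m h1

lemma not_dvd_pow_sub_one {N : ℕ} (hN : N ≠ 0) : ¬ q ∣ q ^ N - 1 := by
  intro h
  have h1 : 1 ≤ q ^ N := Nat.one_le_pow _ _ hq.out.pos
  have h2 : q ∣ q ^ N := dvd_pow_self q hN
  have h3 : q ∣ 1 := by
    have := (Nat.dvd_sub_iff_right h1 h2).mp h
    exact this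
  exact hq.out.one_lt.ne' (Nat.dvd_one.mp h3)

/-- `q ^ n ≡ 1` modulo `q ^ N - 1` exactly if `N ∣ n`. -/
lemma dvd_of_pow_sub_one {N n : ℕ} (h : q ^ N - 1 ∣ q ^ n - 1) : N ∣ n := by
  have h1 := Nat.pow_sub_one_gcd_pow_sub_one q N n
  have h2 : Nat.gcd (q ^ N - 1) (q ^ n - 1) = q ^ N - 1 := Nat.gcd_eq_left h
  rw [h2] at h1
  have h3 : q ^ N = q ^ Nat.gcd N n := by
    have h4 : 1 ≤ q ^ N := Nat.one_le_pow _ _ hq.out.pos
    have h5 : 1 ≤ q ^ Nat.gcd N n := Nat.one_le_pow _ _ hq.out.pos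
    omega
  have h4 : N = Nat.gcd N n := Nat.pow_right_injective hq.out.two_le h3
  rw [h4]
  exact Nat.gcd_dvd_right N n

lemma natCast_pow_eq_one_iff {N n : ℕ} : ((q : ℕ) : ZMod (q ^ N - 1)) ^ n = 1 ↔ N ∣ n := by
  have h1 : 1 ≤ q ^ n := Nat.one_le_pow _ _ hq.out.pos
  have h2 : ((q : ℕ) : ZMod (q ^ N - 1)) ^ n = 1 ↔ q ^ N - 1 ∣ q ^ n - 1 := by
    rw [← ZMod.natCast_eq_zero_iff, Nat.cast_sub h1, Nat.cast_pow, Nat.cast_one, sub_eq_zero]
  rw [h2]
  exact ⟨dvd_of_pow_sub_one, Nat.pow_sub_one_dvd_pow_sub_one q⟩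

lemma pow_sub_one_ne_zero {N : ℕ} (hN : N ≠ 0) : q ^ N - 1 ≠ 0 := by
  have := Nat.one_lt_pow hN hq.out.one_lt
  omega

/-- **Unramified characters are cyclotomic.** -/
theorem cycG_of_unrG [Finite M] {χ : GLoc q →* M} (hL : LevG χ) (hU : UnrG χ) : CycG χ := by
  have hN : Nat.card M ≠ 0 := Nat.card_pos.ne'
  have : NeZero (q ^ Nat.card M - 1) := ⟨pow_sub_one_ne_zero hN⟩
  refine ⟨q ^ Nat.card M - 1, NeZero.ne _, fun g hg => ?_⟩
  obtain ⟨φ, hφ⟩ := exists_frob q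
  obtain ⟨L, hL, h⟩ := hL
  obtain ⟨L', hL', h'⟩ := levG_kp (q := q) (q ^ Nat.card M - 1)
  have hLp : LevG (χ.prod (kp q (q ^ Nat.card M - 1))) := by
    refine ⟨L ⊔ L', IntermediateField.finiteDimensional_sup L L', fun g hg => ?_⟩
    rw [MonoidHom.prod_apply, h g fun x hx => hg x ((le_sup_left : L ≤ L ⊔ L') hx),
      h' g fun x hx => hg x ((le_sup_right : L' ≤ L ⊔ L') hx)]
    rfl
  have hUp : UnrG (χ.prod (kp q (q ^ Nat.card M - 1))) := fun g hg => by
    rw [MonoidHom.prod_apply, hU g hg, unrG_kp (not_dvd_pow_sub_one hN) g hg]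
    rfl
  obtain ⟨n, hn⟩ := exists_frob_pow hLp hUp hφ g
  have h1 : χ g = χ φ ^ n := congrArg Prod.fst hn
  have h2 : kp q (q ^ Nat.card M - 1) g = kp q (q ^ Nat.card M - 1) φ ^ n := congrArg Prod.snd hn
  have h3 : kp q (q ^ Nat.card M - 1) g = 1 := mem_Fix_iff_kap.mp hg
  rw [h3] at h2
  have h4 := congrArg (fun u : (ZMod (q ^ Nat.card M - 1))ˣ => (u : ZMod (q ^ Nat.card M - 1))) h2
  simp only [Units.val_pow_eq_pow_val, Units.val_one] at h4
  rw [kp_frob (not_dvd_pow_sub_one hN) hφ] at h4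
  obtain ⟨c, rfl⟩ := natCast_pow_eq_one_iff.mp h4.symm
  rw [h1, pow_mul, pow_card_eq_one', one_pow]

/-- Unramified characters are equal if they have the same value at a Frobenius element. -/
theorem eq_of_frob {χ ψ : GLoc q →* M} (hL : LevG χ) (hU : UnrG χ) (hL' : LevG ψ) (hU' : UnrG ψ)
    {φ : GLoc q} (hφ : (padicPlace q).IsFrobeniusAt (J q φ) q) (h : χ φ = ψ φ) : χ = ψ := by
  obtain ⟨L, hL, h1⟩ := hL
  obtain ⟨L', hL', h1'⟩ := hL'
  have hLp : LevG (χ.prod ψ) := by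
    refine ⟨L ⊔ L', IntermediateField.finiteDimensional_sup L L', fun g hg => ?_⟩
    rw [MonoidHom.prod_apply, h1 g fun x hx => hg x ((le_sup_left : L ≤ L ⊔ L') hx),
      h1' g fun x hx => hg x ((le_sup_right : L' ≤ L ⊔ L') hx)]
    rfl
  have hUp : UnrG (χ.prod ψ) := fun g hg => by
    rw [MonoidHom.prod_apply, hU g hg, hU' g hg]
    rfl
  refine MonoidHom.ext fun g => ?_
  obtain ⟨n, hn⟩ := exists_frob_pow hLp hUp hφ g
  have h2 : χ g = χ φ ^ n := congrArg Prod.fst hn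
  have h3 : ψ g = ψ φ ^ n := congrArg Prod.snd hn
  rw [h2, h3, h]

/-- There are unramified characters with every value of finite order at a Frobenius element. -/
theorem exists_unr_char {φ : GLoc q} (hφ : (padicPlace q).IsFrobeniusAt (J q φ) q) {x : M}
    (hx : orderOf x ≠ 0) : ∃ η : GLoc q →* M, LevG η ∧ UnrG η ∧ CycG η ∧ η φ = x := by
  have : NeZero (q ^ orderOf x - 1) := ⟨pow_sub_one_ne_zero hx⟩
  have hU := unrG_kp (q := q) (not_dvd_pow_sub_one hx)
  have hL := levG_kp (q := q) (q ^ orderOf x - 1)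
  let R := (kp q (q ^ orderOf x - 1)).range
  let r : GLoc q →* R := (kp q (q ^ orderOf x - 1)).rangeRestrict
  have hg : ∀ y : R, y ∈ Subgroup.zpowers (r φ) := by
    rintro ⟨_, g, rfl⟩
    obtain ⟨n, hn⟩ := exists_frob_pow hL hU hφ g
    have h5 : ((r φ ^ (n : ℤ) : R) : (ZMod (q ^ orderOf x - 1))ˣ) =
        kp q (q ^ orderOf x - 1) φ ^ n := by
      rw [zpow_natCast]
      rfl
    exact ⟨n, Subtype.ext (h5.trans hn.symm)⟩
  have hord : orderOf x ∣ orderOf (r φ) := by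
    have h1 : r φ ^ orderOf (r φ) = 1 := pow_orderOf_eq_one _
    have h2 := congrArg (fun y : R => (((y : (ZMod (q ^ orderOf x - 1))ˣ)) :
      ZMod (q ^ orderOf x - 1))) h1
    have h3 : (((r φ : R) : (ZMod (q ^ orderOf x - 1))ˣ) : ZMod (q ^ orderOf x - 1)) = q :=
      kp_frob (not_dvd_pow_sub_one hx) hφ
    simp only [Subgroup.coe_pow, Units.val_pow_eq_pow_val, h3, Subgroup.coe_one,
      Units.val_one] at h2
    exact natCast_pow_eq_one_iff.mp h2
  refine ⟨(monoidHomOfForallMemZpowers hg hord).comp r, ?_, ?_, ?_, ?_⟩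
  · refine LevG.comp ?_ _
    exact hL.of_ker_le (by rw [MonoidHom.ker_rangeRestrict])
  · refine UnrG.comp ?_ _
    exact hU.of_ker_le (by rw [MonoidHom.ker_rangeRestrict])
  · refine CycG.comp ?_ _
    exact (cycG_kp (q := q) (q ^ orderOf x - 1)).of_ker_le (by rw [MonoidHom.ker_rangeRestrict])
  · exact monoidHomOfForallMemZpowers_apply_gen hg hord

/-- **Krasner**: the restriction to `ℚ̄` is injective. -/
theorem J_injective (q : ℕ) [hq : Fact q.Prime] : Function.Injective (J q) := by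
  rw [injective_iff_map_eq_one]
  intro g hg
  refine AlgEquiv.ext fun x => ?_
  have h1 : (IntermediateField.adjoin ℚ_[q] {x}).fixingSubgroup ∈
      CFT.Bridge.galLevels ℚ_[q] (PadicAlgCl q) :=
    ⟨_, IntermediateField.adjoin.finiteDimensional (Algebra.IsIntegral.isIntegral x), le_rfl⟩
  rw [← CFT.Bridge.comap_localGaloisToGlobal_galLevels q] at h1
  obtain ⟨W, -, hW⟩ := h1
  have h2 : g ∈ (IntermediateField.adjoin ℚ_[q] {x}).fixingSubgroup := by
    refine hW ?_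
    rw [Subgroup.mem_comap, hg]
    exact W.one_mem
  exact (IntermediateField.mem_fixingSubgroup_iff _ g).mp h2 x
    (IntermediateField.mem_adjoin_simple_self _ x)

end Loc

end Fermat.Agent.Cor.KW
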