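import Fermat.Agent.Corollaries.KW.Defs
import Fermat.Agent.RTD.TameGen

set_option autoImplicit false

/-!
# Kronecker-Weber: tame inertia
-/

namespace Fermat.Agent.Cor.KW

open scoped Pointwise
open Fermat.Agent.Frob Fermat.Agent.Minkowski Fermat.Agent.TW Fermat.Agent.RTD

theorem tameStmt : TameStmt := by
  intro q p hq hp hqp
  have : Fact p.Prime := ⟨hp⟩
  obtain ⟨A, hA⟩ := exists_liesOverPrime q hq
  obtain ⟨τ, hτ⟩ := exists_isTameGen hq hp hA hqp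
  obtain ⟨φ, hφ⟩ := exists_isFrobeniusAt hq hA
  refine ⟨τ, ⟨A, hA, hτ.1⟩, fun n ψ hψ => ?_⟩
  obtain ⟨L, hL, hLψ⟩ := hψ
  let f : A.inertiaSubgroupIn ℚ →* C (p ^ n) := ψ.comp (A.inertiaSubgroupIn ℚ).subtype
  have hf : ∀ σ : A.inertiaSubgroupIn ℚ, f σ = ψ σ := fun _ => rfl
  have hP : IsPGroup p (C (p ^ n)) := by
    refine IsPGroup.of_card (n := n) ?_
    rw [Nat.card_eq_of_bijective _ Multiplicative.toAdd.bijective, Nat.card_zmod]
  have hPf : IsPGroup p f.range := hP.to_subgroup _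
  have hLf : ∀ i : A.inertiaSubgroupIn ℚ, (∀ x ∈ L, (i : GQ) x = x) → f i = 1 :=
    fun i hi => hLψ i hi
  constructor
  · intro h1
    refine unrAt_of_place hA hq fun σ hσ => ?_
    have h2 := hτ.mem_zpowers hq hA hqp f hPf L hLf ⟨σ, hσ⟩
    rw [hf, hf, h1, Subgroup.zpowers_one_eq_bot, Subgroup.mem_bot] at h2
    exact h2
  · have h1 := tame_relation hq hA hqp hφ f hPf L hLf ⟨τ, hτ.1⟩
    rw [hf, hf] at h1
    have h2 : ψ τ = ψ τ ^ q := by
      rw [← h1]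
      show ψ τ = ψ (φ * τ * φ⁻¹)
      rw [map_mul, map_mul, map_inv, mul_comm, inv_mul_cancel_left]
    have h3 : ψ τ ^ (q - 1) * ψ τ = ψ τ := by
      rw [← pow_succ, Nat.sub_add_cancel hq.one_le, ← h2]
    exact mul_eq_right.mp h3

end Fermat.Agent.Cor.KW
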