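import Fermat.Agent.Corollaries.KW.Recip
import Fermat.Agent.Corollaries.KW.Tame
import Fermat.Agent.Corollaries.KW.Homs

set_option autoImplicit false

/-!
# The `ℤ_p`-extension of `ℚ`

`existsUnique_zp` : for every prime number `p` the field `ℚ` has exactly one Galois extension (inside
`ℚ̄`) with Galois group `ℤ_p`.
-/

namespace Fermat.Agent.Cor.KW

open scoped Pointwise
open Fermat.Agent.Frob Fermat.Agent.Minkowski Fermat.Agent.TW

noncomputable section

namespace Zp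

local instance fact_primes (p : Nat.Primes) : Fact (p : ℕ).Prime := ⟨p.2⟩

/-! ### Limits of compatible characters -/

/-- Reduction of the cyclic groups. -/
def redC {M N : ℕ} (h : M ∣ N) : C N →* C M :=
  (ZMod.castHom h (ZMod M)).toAddMonoidHom.toMultiplicative

lemma redC_ofAdd_one {M N : ℕ} (h : M ∣ N) :
    redC h (Multiplicative.ofAdd 1) = Multiplicative.ofAdd 1 := by
  show Multiplicative.ofAdd (ZMod.castHom h (ZMod M) 1) = _
  rw [map_one]

section Lim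

variable {p : ℕ} [hp : Fact p.Prime] {G : Type*} [Group G] (η : (n : ℕ) → G →* C (p ^ n))
  (hη : ∀ (n : ℕ) (g : G), redC (pow_dvd_pow p (Nat.le_succ n)) (η (n + 1) g) = η n g)

include hη

lemma pow_dvd (g : G) (i : ℕ) : (p : ℤ) ^ i ∣
    ((η (i + 1) g).toAdd.val : ℤ) - ((η i g).toAdd.val : ℤ) := by
  have : NeZero (p ^ i) := ⟨pow_ne_zero _ hp.out.ne_zero⟩
  have : NeZero (p ^ (i + 1)) := ⟨pow_ne_zero _ hp.out.ne_zero⟩
  have h1 : (((η (i + 1) g).toAdd.val : ℕ) : ZMod (p ^ i)) = (η i g).toAdd := by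
    rw [← hη i g]
    show _ = ZMod.castHom (pow_dvd_pow p (Nat.le_succ i)) (ZMod (p ^ i)) (η (i + 1) g).toAdd
    rw [ZMod.castHom_apply, ZMod.cast_eq_val]
  rw [← Nat.cast_pow, ← ZMod.intCast_zmod_eq_zero_iff_dvd, Int.cast_sub, Int.cast_natCast,
    Int.cast_natCast, h1, ZMod.natCast_zmod_val, sub_self]

theorem exists_lim : ∃ χ : G →* Multiplicative ℤ_[p],
    ∀ (g : G) (n : ℕ), (χ g).toAdd.toZModPow n = (η n g).toAdd := by
  let z : G → ℤ_[p] := fun g => PadicInt.ofIntSeq _ (PadicInt.isCauSeq_padicNorm_of_pow_dvd_sub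
    (fun n => ((η n g).toAdd.val : ℤ)) p (pow_dvd η hη g))
  have hz : ∀ g n, (z g).toZModPow n = (η n g).toAdd := by
    intro g n
    have : NeZero (p ^ n) := ⟨pow_ne_zero _ hp.out.ne_zero⟩
    show (PadicInt.ofIntSeq _ _).toZModPow n = _
    rw [PadicInt.toZModPow_ofIntSeq_of_pow_dvd_sub _ _ (pow_dvd η hη g), Int.cast_natCast,
      ZMod.natCast_zmod_val]
  refine ⟨{ toFun := fun g => Multiplicative.ofAdd (z g), map_one' := ?_, map_mul' := ?_ }, hz⟩
  · refine congrArg Multiplicative.ofAdd (PadicInt.ext_of_toZModPow.mp fun n => ?_)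
    rw [hz, map_one, toAdd_one, map_zero]
  · intro g g'
    refine congrArg Multiplicative.ofAdd (PadicInt.ext_of_toZModPow.mp fun n => ?_)
    rw [hz, map_mul, toAdd_mul, ← hz, ← hz]
    exact (map_add _ _ _).symm

end Lim

/-- A homomorphism to `ℤ_p` is continuous if its reductions have open kernels. -/
lemma continuous_of_open {p : ℕ} [hp : Fact p.Prime] {χ : GQ →* Multiplicative ℤ_[p]}
    (h : ∀ n : ℕ, IsOpen {g : GQ | (χ g).toAdd.toZModPow n = 0}) : Continuous χ := by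
  refine continuous_of_continuousAt_one χ ?_
  rw [ContinuousAt, map_one]
  show Filter.Tendsto (fun g => (χ g).toAdd) (nhds 1) (nhds 0)
  rw [Metric.tendsto_nhds]
  intro ε hε
  obtain ⟨k, hk⟩ := PadicInt.exists_pow_neg_lt p hε
  have h1 : {g : GQ | (χ g).toAdd.toZModPow k = 0} ∈ nhds (1 : GQ) :=
    (h k).mem_nhds (by rw [Set.mem_ofPred_eq, map_one, toAdd_one, map_zero])
  filter_upwards [h1] with g hg
  refine lt_of_le_of_lt ?_ hk
  rw [dist_zero_right, PadicInt.norm_le_pow_iff_mem_span_pow, ← PadicInt.ker_toZModPow,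
    RingHom.mem_ker]
  exact hg

/-- The reductions of a continuous homomorphism. -/
def md {p : ℕ} [Fact p.Prime] (χ : GQ →* Multiplicative ℤ_[p]) (n : ℕ) : GQ →* C (p ^ n) :=
  ((PadicInt.toZModPow n : ℤ_[p] →+* ZMod (p ^ n)).toAddMonoidHom.toMultiplicative).comp χ

lemma md_apply {p : ℕ} [Fact p.Prime] (χ : GQ →* Multiplicative ℤ_[p]) (n : ℕ) (g : GQ) :
    (md χ n g).toAdd = (χ g).toAdd.toZModPow n := rfl

lemma lev_md {p : ℕ} [hp : Fact p.Prime] {χ : GQ →* Multiplicative ℤ_[p]} (hχ : Continuous χ)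
    (n : ℕ) : Lev (md χ n) := by
  have h1 : {x : Multiplicative ℤ_[p] | ‖x.toAdd‖ < (p : ℝ) ^ (-(n : ℤ) + 1)} ∈
      nhds (1 : Multiplicative ℤ_[p]) := by
    have h2 : Continuous fun x : Multiplicative ℤ_[p] => ‖x.toAdd‖ :=
      continuous_norm.comp continuous_toAdd
    refine (isOpen_Iio.preimage h2).mem_nhds ?_
    rw [Set.mem_preimage, toAdd_one, norm_zero]
    exact Set.mem_Iio.mpr (zpow_pos (by exact_mod_cast hp.out.pos) _)
  have h2 : χ ⁻¹' {x : Multiplicative ℤ_[p] | ‖x.toAdd‖ < (p : ℝ) ^ (-(n : ℤ) + 1)} ∈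
      nhds (1 : GQ) := by
    refine hχ.continuousAt.preimage_mem_nhds ?_
    rw [map_one]
    exact h1
  obtain ⟨L, hL, hLs⟩ := (krullTopology_mem_nhds_one_iff ℚ Qbar _).mp h2
  refine ⟨L, hL, fun σ hσ => ?_⟩
  have h3 : ‖(χ σ).toAdd‖ < (p : ℝ) ^ (-(n : ℤ) + 1) :=
    hLs ((IntermediateField.mem_fixingSubgroup_iff L σ).mpr hσ)
  rw [← PadicInt.norm_le_pow_iff_norm_lt_pow_add_one, PadicInt.norm_le_pow_iff_mem_span_pow,
    ← PadicInt.ker_toZModPow, RingHom.mem_ker] at h3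
  exact congrArg Multiplicative.ofAdd h3

lemma eq_one_of_md {p : ℕ} [hp : Fact p.Prime] {x : ℤ_[p]}
    (h : ∀ n : ℕ, x.toZModPow n = 0) : x = 0 :=
  PadicInt.ext_of_toZModPow.mp fun n => by rw [h, map_zero]

/-! ### The unit groups -/

section Units

variable {p : ℕ} [hp : Fact p.Prime]

lemma coprime_gam (p k : ℕ) : Nat.Coprime (1 + 2 * p) (p ^ k) := by
  refine Nat.Coprime.pow_right _ ?_
  rw [Nat.coprime_add_mul_right_left]
  exact Nat.coprime_one_left p

/-- The group `(ℤ / p ^ (k + 2))ˣ` is generated by `1 + 2 p`, `-1` and elements of order prime to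
`p`. -/
theorem unit_pow_mem (k : ℕ) {γ : (ZMod (p ^ (k + 2)))ˣ}
    (hγ : (γ : ZMod (p ^ (k + 2))) = ((1 + 2 * p : ℕ) : ZMod (p ^ (k + 2))))
    (u : (ZMod (p ^ (k + 2)))ˣ) : ∃ ε : ℕ, ((-1) ^ ε * u) ^ (p - 1) ∈ Subgroup.zpowers γ := by
  have : NeZero (p ^ (k + 2)) := ⟨pow_ne_zero _ hp.out.ne_zero⟩
  have hcard : Nat.card (ZMod (p ^ (k + 2)))ˣ = p ^ (k + 1) * (p - 1) := by
    rw [Nat.card_eq_fintype_card, ZMod.card_units_eq_totient,
      Nat.totient_prime_pow hp.out (by omega)]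
    rfl
  have hmul := (Subgroup.zpowers γ).card_mul_index
  rw [Nat.card_zpowers, hcard] at hmul
  by_cases hp2 : p = 2
  · subst hp2
    have h5 : (γ : ZMod (2 ^ (k + 2))) = 5 := by
      rw [hγ]
      norm_num
    have hord : orderOf γ = 2 ^ k := by
      rw [← ZMod.orderOf_five k, ← h5, orderOf_units]
    rw [hord] at hmul
    have hidx : (Subgroup.zpowers γ).index = 2 := by
      have h1 : 2 ^ (k + 1) * (2 - 1) = 2 ^ k * 2 := by rw [pow_succ]; ring
      rw [h1] at hmul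
      exact Nat.eq_of_mul_eq_mul_left (by positivity) hmul
    have hm1 : (-1 : (ZMod (2 ^ (k + 2)))ˣ) ∉ Subgroup.zpowers γ := by
      intro h
      rw [← mem_powers_iff_mem_zpowers] at h
      obtain ⟨m, hm⟩ := h
      have h2 := congrArg Units.val hm
      rw [Units.val_pow_eq_pow_val, h5] at h2
      exact Homs.five_pow_ne k m h2
    by_cases hu : u ∈ Subgroup.zpowers γ
    · exact ⟨0, by rw [pow_zero, one_mul]; exact (Subgroup.zpowers γ).pow_mem hu _⟩
    · refine ⟨1, ?_⟩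
      rw [pow_one, pow_one, Subgroup.mul_mem_iff_of_index_two hidx]
      exact iff_of_false hm1 hu
  · have hord : orderOf γ = p ^ (k + 1) := by
      have h1 := ZMod.orderOf_one_add_mul_prime hp.out hp2 2 (fun h => hp2 (by
        have h2 : (p : ℤ) ∣ ((2 : ℕ) : ℤ) := by exact_mod_cast h
        have h3 : p ∣ 2 := Int.natCast_dvd_natCast.mp h2
        exact (Nat.prime_dvd_prime_iff_eq hp.out Nat.prime_two).mp h3)) (k + 1)
      rw [← h1, ← orderOf_units, hγ]
      congr 1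
      push_cast
      ring
    rw [hord] at hmul
    have hidx : (Subgroup.zpowers γ).index = p - 1 :=
      Nat.eq_of_mul_eq_mul_left (pow_pos hp.out.pos _) hmul
    refine ⟨0, ?_⟩
    rw [pow_zero, one_mul]
    have h2 := Subgroup.pow_index_mem (Subgroup.zpowers γ) u
    rwa [hidx] at h2

end Units

/-! ### Determination by the value at `1 + 2 p` -/

section Det

variable {p : ℕ} [hp : Fact p.Prime]

/-- `σ` acts on the roots of unity of `p`-power order as `ζ ↦ ζ ^ (1 + 2 p)`. -/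
def IsGam (p : ℕ) (σ : GQ) : Prop :=
  ∀ (n : ℕ) (ζ : Qbar), ζ ^ p ^ n = 1 → σ ζ = ζ ^ (1 + 2 * p)

/-- Such automorphisms exist. -/
theorem exists_isGam (p : ℕ) [hp : Fact p.Prime] : ∃ σ : GQ, IsGam p σ := by
  obtain ⟨u, hu⟩ : IsUnit ((1 + 2 * p : ℕ) : ℤ_[p]) := by
    rw [PadicInt.isUnit_iff, PadicInt.norm_natCast_eq_one_iff]
    have h1 := coprime_gam p 1
    rw [pow_one] at h1
    exact h1.symm
  let P : Nat.Primes := ⟨p, hp.out⟩
  obtain ⟨σ, hσ⟩ := Recip.cyc_surjective (Function.update 1 P u)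
  refine ⟨σ, fun n ζ hζ => ?_⟩
  have h1 : Recip.chi P σ = u := by
    have h := congrFun hσ P
    rw [Function.update_self] at h
    exact h
  have h2 := Recip.chi_spec P n σ hζ
  rw [h1] at h2
  rw [h2]
  show ζ ^ ((u : ℤ_[p]).toZModPow n).val = _
  rw [hu, map_natCast, ZMod.val_natCast]
  exact (pow_eq_pow_mod _ hζ).symm

omit hp in
lemma kap_gam {σ : GQ} (h : IsGam p σ) (n : ℕ) [NeZero (p ^ n)] :
    ((Kap.kap (p ^ n) σ : (ZMod (p ^ n))ˣ) : ZMod (p ^ n)) = ((1 + 2 * p : ℕ) : ZMod (p ^ n)) :=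
  Kap.kap_eq _ (h n _ (Kap.zet_spec (p ^ n)).pow_eq_one)

theorem pow_mem_zpowers {M : Type*} [CommGroup M] {ψ : GQ →* M} {k : ℕ}
    (hk : Fix (p ^ (k + 2)) ≤ ψ.ker) (hc : ψ complexConjugation = 1) {σ₀ : GQ} (h₀ : IsGam p σ₀)
    (σ : GQ) : ψ σ ^ (p - 1) ∈ Subgroup.zpowers (ψ σ₀) := by
  have : NeZero (p ^ (k + 2)) := ⟨pow_ne_zero _ hp.out.ne_zero⟩
  obtain ⟨ε, hε⟩ := unit_pow_mem k (kap_gam h₀ (k + 2)) (Kap.kap (p ^ (k + 2)) σ)
  obtain ⟨j, hj⟩ := Subgroup.mem_zpowers_iff.mp hε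
  have h1 : σ₀ ^ j * ((complexConjugation ^ ε * σ) ^ (p - 1))⁻¹ ∈ Fix (p ^ (k + 2)) := by
    rw [mem_Fix_iff_kap, map_mul, map_inv, map_zpow, map_pow, map_mul, map_pow, Kap.kap_conj, hj,
      mul_inv_cancel]
  have h2 := hk h1
  rw [MonoidHom.mem_ker, map_mul, map_inv, map_zpow, map_pow, map_mul, map_pow, hc, one_pow,
    one_mul, mul_inv_eq_one] at h2
  exact Subgroup.mem_zpowers_iff.mpr ⟨j, h2⟩

lemma coprime_pred (p n : ℕ) [hp : Fact p.Prime] : Nat.Coprime (p - 1) (p ^ n) :=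
  Nat.Coprime.pow_right n ((Nat.coprime_self_sub_left hp.out.one_le).mpr (Nat.coprime_one_left p))

omit hp in
lemma pow_card_eq_one {n : ℕ} (x : C (p ^ n)) : x ^ (p ^ n) = 1 := by
  have h1 : x ^ (p ^ n) = Multiplicative.ofAdd (((p ^ n : ℕ) : ZMod (p ^ n)) * x.toAdd) := by
    rw [← nsmul_eq_mul]
    rfl
  rw [h1, ZMod.natCast_self, zero_mul]
  rfl

omit hp in
lemma eq_one_of_coprime {n m : ℕ} (hm : Nat.Coprime m (p ^ n)) {x : C (p ^ n)} (h : x ^ m = 1) :
    x = 1 := by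
  refine orderOf_eq_one_iff.mp (Nat.dvd_one.mp ?_)
  rw [← Nat.Coprime.gcd_eq_one hm]
  exact Nat.dvd_gcd (orderOf_dvd_of_pow_eq_one h) (orderOf_dvd_of_pow_eq_one (pow_card_eq_one x))

theorem eq_one_of {n k : ℕ} {ψ : GQ →* C (p ^ n)} (hk : Fix (p ^ (k + 2)) ≤ ψ.ker)
    (hc : ψ complexConjugation = 1) {σ₀ : GQ} (h₀ : IsGam p σ₀) (h : ψ σ₀ = 1) : ψ = 1 := by
  refine MonoidHom.ext fun σ => eq_one_of_coprime (coprime_pred p n) ?_
  have h1 := pow_mem_zpowers hk hc h₀ σ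
  rwa [h, Subgroup.zpowers_one_eq_bot, Subgroup.mem_bot] at h1

/-! ### Uniqueness -/

lemma eq_one_of_pow_int {x : Multiplicative ℤ_[p]} {n : ℕ} (hn : n ≠ 0) (h : x ^ n = 1) :
    x = 1 := by
  have h1 : (n : ℤ_[p]) * x.toAdd = 0 := by
    rw [← nsmul_eq_mul, ← toAdd_pow, h, toAdd_one]
  rcases mul_eq_zero.mp h1 with h2 | h2
  · exact absurd (Nat.cast_eq_zero.mp h2) hn
  · exact Multiplicative.toAdd.injective h2

lemma md_eq_one {χ : GQ →* Multiplicative ℤ_[p]} {σ : GQ} (h : χ σ = 1) (n : ℕ) :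
    md χ n σ = 1 := by
  refine Multiplicative.toAdd.injective ?_
  rw [md_apply, h, toAdd_one, map_zero, toAdd_one]

lemma eq_one_of_forall_md {χ : GQ →* Multiplicative ℤ_[p]} {σ : GQ}
    (h : ∀ n, md χ n σ = 1) : χ σ = 1 := by
  refine Multiplicative.toAdd.injective (eq_one_of_md fun n => ?_)
  rw [← md_apply, h, toAdd_one]

lemma conj_eq_one (χ : GQ →* Multiplicative ℤ_[p]) : χ complexConjugation = 1 := by
  refine eq_one_of_pow_int two_ne_zero ?_
  rw [← map_pow, complexConjugation_sq, map_one]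

lemma unrAt_md {χ : GQ →* Multiplicative ℤ_[p]} (hχ : Continuous χ) {q : ℕ} (hq : q.Prime)
    (hqp : q ≠ p) (n : ℕ) : UnrAt (md χ n) q := by
  obtain ⟨τ, -, hτ⟩ := tameStmt q p hq hp.out hqp
  have h1 : χ τ = 1 := by
    refine eq_one_of_pow_int (Nat.sub_ne_zero_of_lt hq.one_lt) ?_
    rw [← map_pow]
    refine Multiplicative.toAdd.injective (eq_one_of_md fun m => ?_)
    rw [← md_apply, map_pow, (hτ m (md χ m) (lev_md hχ m)).2, toAdd_one]
  exact (hτ n (md χ n) (lev_md hχ n)).1 (md_eq_one h1 n)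

lemma unrAt {χ : GQ →* Multiplicative ℤ_[p]} (hχ : Continuous χ) {q : ℕ} (hq : q.Prime)
    (hqp : q ≠ p) : UnrAt χ q :=
  fun A hA σ hσ => eq_one_of_forall_md fun n => unrAt_md hχ hq hqp n A hA σ hσ

lemma exists_Fix_le {χ : GQ →* Multiplicative ℤ_[p]} (hχ : Continuous χ) (n : ℕ) :
    ∃ k : ℕ, Fix (p ^ k) ≤ (md χ n).ker := by
  have : NeZero (p ^ n) := ⟨pow_ne_zero _ hp.out.ne_zero⟩
  obtain ⟨m, hm, hmS, hmk⟩ := exists_conductor_of_unrAt (lev_md hχ n) {p}
    (fun q hq hqp => unrAt_md hχ hq hqp n)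
  have hmp := Nat.eq_prime_pow_of_unique_prime_dvd hm (p := p) fun {d} hd hdm => hmS d hd hdm
  refine ⟨m.primeFactorsList.length, ?_⟩
  rwa [← hmp]

/-- A continuous homomorphism to `ℤ_p` is trivial on the automorphisms which fix all roots of unity
of `p`-power order. -/
lemma eq_one_of_Fix {χ : GQ →* Multiplicative ℤ_[p]} (hχ : Continuous χ) {σ : GQ}
    (h : ∀ k : ℕ, σ ∈ Fix (p ^ k)) : χ σ = 1 :=
  eq_one_of_forall_md fun n => by
    obtain ⟨k, hk⟩ := exists_Fix_le hχ n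
    exact hk (h k)

theorem char_eq_one {χ : GQ →* Multiplicative ℤ_[p]} (hχ : Continuous χ) {σ₀ : GQ}
    (h₀ : IsGam p σ₀) (h : χ σ₀ = 1) : χ = 1 := by
  refine MonoidHom.ext fun σ => Multiplicative.toAdd.injective (eq_one_of_md fun n => ?_)
  obtain ⟨k, hk⟩ := exists_Fix_le hχ n
  have h1 : Fix (p ^ (k + 2)) ≤ (md χ n).ker :=
    le_trans (Fix_le (pow_dvd_pow p (Nat.le_add_right _ 2))) hk
  rw [← md_apply, eq_one_of h1 (md_eq_one (conj_eq_one χ) n) h₀ (md_eq_one h n),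
    MonoidHom.one_apply, toAdd_one]

/-- Linear combinations of homomorphisms to `ℤ_p`. -/
def lin (a b : ℤ_[p]) (χ χ' : GQ →* Multiplicative ℤ_[p]) : GQ →* Multiplicative ℤ_[p] where
  toFun σ := Multiplicative.ofAdd (a * (χ σ).toAdd - b * (χ' σ).toAdd)
  map_one' := by
    rw [χ.map_one, χ'.map_one, toAdd_one, mul_zero, mul_zero, sub_zero, ofAdd_zero]
  map_mul' σ τ := by
    rw [← ofAdd_add, χ.map_mul, χ'.map_mul, toAdd_mul, toAdd_mul]
    congr 1
    ring

lemma lin_apply (a b : ℤ_[p]) (χ χ' : GQ →* Multiplicative ℤ_[p]) (σ : GQ) :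
    (lin a b χ χ' σ).toAdd = a * (χ σ).toAdd - b * (χ' σ).toAdd := rfl

lemma continuous_lin (a b : ℤ_[p]) {χ χ' : GQ →* Multiplicative ℤ_[p]} (hχ : Continuous χ)
    (hχ' : Continuous χ') : Continuous (lin a b χ χ') := by
  refine continuous_ofAdd.comp ?_
  exact (continuous_const.mul (continuous_toAdd.comp hχ)).sub
    (continuous_const.mul (continuous_toAdd.comp hχ'))

/-- Two continuous homomorphisms to `ℤ_p` are proportional. -/
theorem mul_eq_mul {χ χ' : GQ →* Multiplicative ℤ_[p]} (hχ : Continuous χ) (hχ' : Continuous χ')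
    {σ₀ : GQ} (h₀ : IsGam p σ₀) (σ : GQ) :
    (χ' σ₀).toAdd * (χ σ).toAdd = (χ σ₀).toAdd * (χ' σ).toAdd := by
  have h1 : lin (χ' σ₀).toAdd (χ σ₀).toAdd χ χ' = 1 := by
    refine char_eq_one (continuous_lin _ _ hχ hχ') h₀ (Multiplicative.toAdd.injective ?_)
    rw [lin_apply, mul_comm, sub_self, toAdd_one]
  have h2 := congrArg Multiplicative.toAdd (DFunLike.congr_fun h1 σ)
  rw [lin_apply, MonoidHom.one_apply, toAdd_one, sub_eq_zero] at h2
  exact h2

theorem ker_le {χ χ' : GQ →* Multiplicative ℤ_[p]} (hχ : Continuous χ) (hχ' : Continuous χ')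
    (h : χ ≠ 1) : χ.ker ≤ χ'.ker := by
  obtain ⟨σ₀, h₀⟩ := exists_isGam p
  have h1 : (χ σ₀).toAdd ≠ 0 := fun h1 => h (char_eq_one hχ h₀ (Multiplicative.toAdd.injective h1))
  intro σ hσ
  have h2 := mul_eq_mul hχ hχ' h₀ σ
  rw [MonoidHom.mem_ker.mp hσ, toAdd_one, mul_zero] at h2
  rcases mul_eq_zero.mp h2.symm with h3 | h3
  · exact absurd h3 h1
  · exact Multiplicative.toAdd.injective h3

/-! ### Existence -/

/-- Surjections onto the cyclic groups of `p`-power order, of conductor a power of `p`. -/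
theorem exists_surj (n : ℕ) : ∃ ψ : GQ →* C (p ^ n), Fix (p ^ (n + 2)) ≤ ψ.ker ∧
    ψ complexConjugation = 1 ∧ Function.Surjective ψ := by
  have : NeZero (p ^ (n + 2)) := ⟨pow_ne_zero _ hp.out.ne_zero⟩
  by_cases hp2 : p = 2
  · subst hp2
    obtain ⟨f, hf, hf1, -⟩ := Homs.two_part n
    refine ⟨f.comp (Kap.kap _), ?_, ?_, hf.comp (Kap.kap_surjective _)⟩
    · intro σ hσ
      rw [← Kap.kap_ker] at hσ
      rw [MonoidHom.mem_ker, MonoidHom.comp_apply, MonoidHom.mem_ker.mp hσ, map_one]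
    · rw [MonoidHom.comp_apply, Kap.kap_conj, hf1]
  · obtain ⟨f, hf⟩ := homStmt.2.1 p (n + 1) hp.out hp2
    refine ⟨(redC (pow_dvd_pow p (Nat.le_succ n))).comp (f.comp (Kap.kap _)), ?_, ?_, ?_⟩
    · intro σ hσ
      rw [← Kap.kap_ker] at hσ
      rw [MonoidHom.mem_ker, MonoidHom.comp_apply, MonoidHom.comp_apply, MonoidHom.mem_ker.mp hσ,
        map_one, map_one]
    · refine eq_one_of_coprime (m := 2) ?_ ?_
      · exact Nat.Coprime.pow_right n ((Nat.coprime_primes Nat.prime_two hp.out).mpr (Ne.symm hp2))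
      · rw [← map_pow, complexConjugation_sq, map_one]
    · have h1 : Function.Surjective (redC (pow_dvd_pow p (Nat.le_succ n))) := by
        intro x
        obtain ⟨y, hy⟩ := ZMod.castHom_surjective (pow_dvd_pow p (Nat.le_succ n)) x.toAdd
        exact ⟨Multiplicative.ofAdd y, congrArg Multiplicative.ofAdd hy⟩
      exact h1.comp (hf.comp (Kap.kap_surjective _))

theorem exists_norm {σ₀ : GQ} (h₀ : IsGam p σ₀) (n : ℕ) : ∃ ψ : GQ →* C (p ^ n),
    Fix (p ^ (n + 2)) ≤ ψ.ker ∧ ψ complexConjugation = 1 ∧ ψ σ₀ = Multiplicative.ofAdd 1 := by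
  obtain ⟨ψ, h1, h2, h3⟩ := exists_surj (p := p) n
  have h4 : IsUnit (ψ σ₀).toAdd := by
    obtain ⟨σ, hσ⟩ := h3 (Multiplicative.ofAdd 1)
    obtain ⟨j, hj⟩ := Subgroup.mem_zpowers_iff.mp (pow_mem_zpowers h1 h2 h₀ σ)
    rw [hσ] at hj
    have h5 : (j : ZMod (p ^ n)) * (ψ σ₀).toAdd = ((p - 1 : ℕ) : ZMod (p ^ n)) := by
      have h6 := congrArg Multiplicative.toAdd hj
      rw [toAdd_zpow, toAdd_pow, zsmul_eq_mul, nsmul_eq_mul, toAdd_ofAdd, mul_one] at h6
      exact h6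
    refine isUnit_of_mul_isUnit_right (x := (j : ZMod (p ^ n))) ?_
    rw [h5, ZMod.isUnit_iff_coprime]
    exact coprime_pred p n
  obtain ⟨u, hu⟩ := h4
  let g : C (p ^ n) →* C (p ^ n) := (AddMonoidHom.mulLeft ((u⁻¹ : (ZMod (p ^ n))ˣ) :
    ZMod (p ^ n))).toMultiplicative
  refine ⟨g.comp ψ, fun σ hσ => ?_, ?_, ?_⟩
  · rw [MonoidHom.mem_ker, MonoidHom.comp_apply, MonoidHom.mem_ker.mp (h1 hσ), map_one]
  · rw [MonoidHom.comp_apply, h2, map_one]
  · show Multiplicative.ofAdd (((u⁻¹ : (ZMod (p ^ n))ˣ) : ZMod (p ^ n)) * (ψ σ₀).toAdd) = _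
    rw [← hu, Units.inv_mul]

/-- The homomorphism onto `ℤ_p`. -/
theorem exists_char {σ₀ : GQ} (h₀ : IsGam p σ₀) : ∃ χ : GQ →* Multiplicative ℤ_[p],
    Continuous χ ∧ (χ σ₀).toAdd = 1 ∧ Function.Surjective χ := by
  choose η h1 h2 h3 using exists_norm h₀
  have hη : ∀ (n : ℕ) (g : GQ), redC (pow_dvd_pow p (Nat.le_succ n)) (η (n + 1) g) = η n g := by
    intro n g
    have h4 : ((redC (pow_dvd_pow p (Nat.le_succ n))).comp (η (n + 1))) / η n = 1 := by
      refine eq_one_of (k := n + 1) ?_ ?_ h₀ ?_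
      · intro σ hσ
        have h5 : η (n + 1) σ = 1 := h1 (n + 1) hσ
        have h6 : η n σ = 1 := h1 n (Fix_le (pow_dvd_pow p (by omega)) hσ)
        rw [MonoidHom.mem_ker, MonoidHom.div_apply, MonoidHom.comp_apply, h5, h6, map_one, div_one]
      · rw [MonoidHom.div_apply, MonoidHom.comp_apply, h2, h2, map_one, div_one]
      · rw [MonoidHom.div_apply, MonoidHom.comp_apply, h3, h3, redC_ofAdd_one, div_self']
    have h5 := DFunLike.congr_fun h4 g
    rwa [MonoidHom.div_apply, MonoidHom.comp_apply, MonoidHom.one_apply, div_eq_one] at h5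
  obtain ⟨χ, hχ⟩ := exists_lim η hη
  have hcont : Continuous χ := by
    refine continuous_of_open fun n => ?_
    have : NeZero (p ^ (n + 2)) := ⟨pow_ne_zero _ hp.out.ne_zero⟩
    have h4 : IsOpen ((η n).ker : Set GQ) :=
      ((Kap.lev_kap (p ^ (n + 2))).of_ker_le (by rw [Kap.kap_ker]; exact h1 n)).isOpen_ker
    refine (congrArg IsOpen ?_).mpr h4
    ext σ
    rw [Set.mem_ofPred_eq, hχ]
    exact ⟨fun h => Multiplicative.toAdd.injective h, fun h => congrArg Multiplicative.toAdd h⟩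
  have hone : (χ σ₀).toAdd = 1 := by
    refine PadicInt.ext_of_toZModPow.mp fun n => ?_
    rw [hχ, h3, toAdd_ofAdd, map_one]
  refine ⟨χ, hcont, hone, ?_⟩
  have hcl : IsClosed (Set.range fun σ => (χ σ).toAdd) :=
    (isCompact_range (continuous_toAdd.comp hcont)).isClosed
  have hnat : ∀ k : ℕ, (k : ℤ_[p]) ∈ Set.range fun σ => (χ σ).toAdd := by
    intro k
    refine ⟨σ₀ ^ k, ?_⟩
    show (χ (σ₀ ^ k)).toAdd = k
    rw [map_pow, toAdd_pow, hone, nsmul_eq_mul, mul_one]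
  have hall : Set.range (fun σ => (χ σ).toAdd) = Set.univ := by
    refine Set.eq_univ_of_univ_subset ?_
    rw [← PadicInt.denseRange_natCast.closure_range]
    refine closure_minimal ?_ hcl
    rintro _ ⟨k, rfl⟩
    exact hnat k
  intro x
  obtain ⟨σ, hσ⟩ : x.toAdd ∈ Set.range fun σ => (χ σ).toAdd := by
    rw [hall]
    exact Set.mem_univ _
  exact ⟨σ, Multiplicative.toAdd.injective hσ⟩

end Det

/-! ### Fields -/

section Fields

variable {p : ℕ} [hp : Fact p.Prime]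

/-- Quotients of a compact group with the same kernel. -/
theorem exists_equiv {G A B : Type*} [Group G] [TopologicalSpace G] [CompactSpace G]
    [Group A] [TopologicalSpace A] [T2Space A] [Group B] [TopologicalSpace B] [T2Space B]
    {f : G →* A} {g : G →* B} (hf : Continuous f) (hg : Continuous g)
    (hf' : Function.Surjective f) (hg' : Function.Surjective g) (h : f.ker = g.ker) :
    Nonempty (A ≃ₜ* B) := by
  let e : A ≃* B := (QuotientGroup.quotientKerEquivOfSurjective f hf').symm.trans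
    ((QuotientGroup.quotientMulEquivOfEq h).trans
      (QuotientGroup.quotientKerEquivOfSurjective g hg'))
  have he : ∀ x, e (f x) = g x := by
    intro x
    have h1 : (QuotientGroup.quotientKerEquivOfSurjective f hf').symm (f x) =
        QuotientGroup.mk x := by
      rw [MulEquiv.symm_apply_eq]
      rfl
    show QuotientGroup.quotientKerEquivOfSurjective g hg'
      (QuotientGroup.quotientMulEquivOfEq h
        ((QuotientGroup.quotientKerEquivOfSurjective f hf').symm (f x))) = _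
    rw [h1]
    rfl
  have he' : ∀ x, e.symm (g x) = f x := fun x => by rw [← he, e.symm_apply_apply]
  have hqf : Topology.IsQuotientMap f := hf.isClosedMap.isQuotientMap hf hf'
  have hqg : Topology.IsQuotientMap g := hg.isClosedMap.isQuotientMap hg hg'
  exact ⟨{ e with
    continuous_toFun := hqf.continuous_iff.mpr (by
      refine hg.congr fun x => ?_
      exact (he x).symm)
    continuous_invFun := hqg.continuous_iff.mpr (by
      refine hf.congr fun x => ?_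
      exact (he' x).symm) }⟩

end Fields

section General

variable {F : Type*} {E : Type*} [Field F] [Field E] [Algebra F E] [IsGalois F E]
  {A : Type*} [Group A] [TopologicalSpace A] [T2Space A]

omit [T2Space A] in
theorem exists_hom_of_equiv {K : IntermediateField F E} (_ : IsGalois F K)
    (e : (K ≃ₐ[F] K) ≃ₜ* A) :
    ∃ χ : (E ≃ₐ[F] E) →* A, Continuous χ ∧ Function.Surjective χ ∧
      χ.ker = K.fixingSubgroup := by
  refine ⟨e.toMulEquiv.toMonoidHom.comp (AlgEquiv.restrictNormalHom K),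
    e.continuous_toFun.comp (InfiniteGalois.restrictNormalHom_continuous _),
    e.toMulEquiv.surjective.comp (AlgEquiv.restrictNormalHom_surjective E), ?_⟩
  rw [← IntermediateField.restrictNormalHom_ker]
  ext σ
  rw [MonoidHom.mem_ker, MonoidHom.mem_ker]
  show e.toMulEquiv (AlgEquiv.restrictNormalHom K σ) = 1 ↔ _
  exact map_eq_one_iff e.toMulEquiv e.toMulEquiv.injective

omit [T2Space A] in
theorem eq_of_equiv {K K' : IntermediateField F E} (hK : IsGalois F K) (hK' : IsGalois F K')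
    (e : (K ≃ₐ[F] K) ≃ₜ* A) (e' : (K' ≃ₐ[F] K') ≃ₜ* A)
    (h : ∀ χ χ' : (E ≃ₐ[F] E) →* A, Continuous χ → Continuous χ' → Function.Surjective χ →
      Function.Surjective χ' → χ.ker ≤ χ'.ker) : K = K' := by
  obtain ⟨χ, hc, hs, hk⟩ := exists_hom_of_equiv hK e
  obtain ⟨χ', hc', hs', hk'⟩ := exists_hom_of_equiv hK' e'
  rw [← InfiniteGalois.fixedField_fixingSubgroup K, ← InfiniteGalois.fixedField_fixingSubgroup K',
    ← hk, ← hk']
  congr 1
  exact le_antisymm (h _ _ hc hc' hs hs') (h _ _ hc' hc hs' hs)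

theorem exists_field {χ : (E ≃ₐ[F] E) →* A} (hχ : Continuous χ) (hs : Function.Surjective χ) :
    ∃ K : IntermediateField F E, IsGalois F K ∧ Nonempty ((K ≃ₐ[F] K) ≃ₜ* A) ∧
      K.fixingSubgroup = χ.ker := by
  have hcl : IsClosed (χ.ker : Set (E ≃ₐ[F] E)) := by
    have h1 : (χ.ker : Set (E ≃ₐ[F] E)) = χ ⁻¹' {1} := rfl
    rw [h1]
    exact isClosed_singleton.preimage hχ
  have hfix : (IntermediateField.fixedField χ.ker).fixingSubgroup = χ.ker :=
    InfiniteGalois.fixingSubgroup_fixedField ⟨χ.ker, hcl⟩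
  have hn : (IntermediateField.fixedField χ.ker).fixingSubgroup.Normal := by
    rw [hfix]
    infer_instance
  have hG : IsGalois F (IntermediateField.fixedField χ.ker) :=
    (InfiniteGalois.normal_iff_isGalois _).mp hn
  exact ⟨_, hG, exists_equiv (InfiniteGalois.restrictNormalHom_continuous _) hχ
    (AlgEquiv.restrictNormalHom_surjective E) hs
    (by rw [IntermediateField.restrictNormalHom_ker, hfix]), hfix⟩

theorem existsUnique_field {χ : (E ≃ₐ[F] E) →* A} (hχ : Continuous χ)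
    (hs : Function.Surjective χ)
    (h : ∀ χ χ' : (E ≃ₐ[F] E) →* A, Continuous χ → Continuous χ' → Function.Surjective χ →
      Function.Surjective χ' → χ.ker ≤ χ'.ker) :
    ∃! K : IntermediateField F E, IsGalois F K ∧ Nonempty ((K ≃ₐ[F] K) ≃ₜ* A) := by
  refine existsUnique_of_exists_of_unique ?_ ?_
  · obtain ⟨K, h1, h2, -⟩ := exists_field hχ hs
    exact ⟨K, h1, h2⟩
  · rintro K K' ⟨hK, ⟨e⟩⟩ ⟨hK', ⟨e'⟩⟩
    exact eq_of_equiv hK hK' e e' h

end General

section More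

variable {p : ℕ} [hp : Fact p.Prime]

lemma ne_one_of_surj {χ : GQ →* Multiplicative ℤ_[p]} (hs : Function.Surjective χ) : χ ≠ 1 := by
  intro h
  obtain ⟨σ, hσ⟩ := hs (Multiplicative.ofAdd 1)
  rw [h, MonoidHom.one_apply] at hσ
  exact one_ne_zero (congrArg Multiplicative.toAdd hσ).symm

lemma isUnit_of_surj {χ : GQ →* Multiplicative ℤ_[p]} (hχ : Continuous χ)
    (hs : Function.Surjective χ) {σ₁ : GQ} (h₁ : IsGam p σ₁) : IsUnit (χ σ₁).toAdd := by
  obtain ⟨χ', hχ', h1, -⟩ := exists_char h₁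
  obtain ⟨σ, hσ⟩ := hs (Multiplicative.ofAdd 1)
  have h2 := mul_eq_mul hχ hχ' h₁ σ
  rw [h1, one_mul, hσ, toAdd_ofAdd] at h2
  exact IsUnit.of_mul_eq_one _ h2.symm

/-- The image of a closed subgroup which contains an element with unit value. -/
theorem image_eq_univ {χ : GQ →* Multiplicative ℤ_[p]} (hχ : Continuous χ) {H : Subgroup GQ}
    (hH : IsClosed (H : Set GQ)) {σ₁ : GQ} (h₁ : σ₁ ∈ H) (hu : IsUnit (χ σ₁).toAdd)
    (x : Multiplicative ℤ_[p]) : ∃ τ ∈ H, χ τ = x := by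
  obtain ⟨u, hu⟩ := hu
  let f : GQ → ℤ_[p] := fun σ => ((u⁻¹ : ℤ_[p]ˣ) : ℤ_[p]) * (χ σ).toAdd
  have hf : Continuous f := continuous_const.mul (continuous_toAdd.comp hχ)
  have hcl : IsClosed (f '' (H : Set GQ)) := (hH.isCompact.image hf).isClosed
  have hall : f '' (H : Set GQ) = Set.univ := by
    refine Set.eq_univ_of_univ_subset ?_
    rw [← PadicInt.denseRange_natCast.closure_range]
    refine closure_minimal ?_ hcl
    rintro _ ⟨k, rfl⟩
    refine ⟨σ₁ ^ k, H.pow_mem h₁ k, ?_⟩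
    show ((u⁻¹ : ℤ_[p]ˣ) : ℤ_[p]) * (χ (σ₁ ^ k)).toAdd = k
    rw [map_pow, toAdd_pow, ← hu, nsmul_eq_mul, mul_left_comm, Units.inv_mul, mul_one]
  obtain ⟨τ, hτ, h2⟩ : ((u⁻¹ : ℤ_[p]ˣ) : ℤ_[p]) * x.toAdd ∈ f '' (H : Set GQ) := by
    rw [hall]
    exact Set.mem_univ _
  exact ⟨τ, hτ, Multiplicative.toAdd.injective ((u⁻¹).isUnit.mul_left_cancel h2)⟩

/-- The inertia groups at `p` contain automorphisms which act as `1 + 2 p`. -/
theorem exists_isGam_inertia {A : ValuationSubring Qbar} (hA : A.LiesOverPrime p) :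
    ∃ σ ∈ A.inertiaSubgroupIn ℚ, IsGam p σ := by
  obtain ⟨σ₀, h₀⟩ := exists_isGam p
  let P : Nat.Primes := ⟨p, hp.out⟩
  have h1 : Function.update (1 : (q : Nat.Primes) → ℤ_[q]ˣ) P (Recip.chi P σ₀) ∈
      Recip.cyc '' (A.inertiaSubgroupIn ℚ : Set GQ) := by
    rw [Recip.image_inertia (ℓ := P) hA]
    intro q hq
    rw [Function.update_of_ne hq]
    rfl
  obtain ⟨σ, hσ, h2⟩ := h1
  refine ⟨σ, hσ, fun n ζ hζ => ?_⟩
  have h3 : Recip.chi P σ = Recip.chi P σ₀ := by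
    have h := congrFun h2 P
    rw [Function.update_self] at h
    exact h
  rw [Recip.chi_spec P n σ hζ, h3, ← Recip.chi_spec P n σ₀ hζ, h₀ n ζ hζ]

end More

end Zp

open Zp in
/-- **The `ℤ_p`-extension of `ℚ`**: for every prime number `p` the field `ℚ` has exactly one Galois
extension (in its algebraic closure) whose Galois group is the group `ℤ_p`. -/
theorem existsUnique_zp (p : ℕ) [Fact p.Prime] : ∃! K : IntermediateField ℚ (AlgebraicClosure ℚ),
    IsGalois ℚ K ∧ Nonempty ((K ≃ₐ[ℚ] K) ≃ₜ* Multiplicative ℤ_[p]) := by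
  obtain ⟨σ₀, h₀⟩ := exists_isGam p
  obtain ⟨χ, hχ, -, hs⟩ := exists_char h₀
  exact existsUnique_field hχ hs fun χ χ' hχ hχ' hs _ => ker_le hχ hχ' (ne_one_of_surj hs)

open Zp in
/-- **The continuous homomorphisms from `Gal(ℚ̄/ℚ)` to `ℤ_p` are a free `ℤ_p`-module of rank `1`.** -/
theorem zp_characters (p : ℕ) [Fact p.Prime] :
    ∃ χ : (AlgebraicClosure ℚ ≃ₐ[ℚ] AlgebraicClosure ℚ) →* Multiplicative ℤ_[p],
      Continuous χ ∧ Function.Surjective χ ∧
        ∀ ψ : (AlgebraicClosure ℚ ≃ₐ[ℚ] AlgebraicClosure ℚ) →* Multiplicative ℤ_[p],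
          Continuous ψ → ∃! a : ℤ_[p], ∀ σ, (ψ σ).toAdd = a * (χ σ).toAdd := by
  obtain ⟨σ₀, h₀⟩ := exists_isGam p
  obtain ⟨χ, hχ, h1, hs⟩ := exists_char h₀
  refine ⟨χ, hχ, hs, fun ψ hψ => ⟨(ψ σ₀).toAdd, fun σ => ?_, fun a ha => ?_⟩⟩
  · have h2 := mul_eq_mul hψ hχ h₀ σ
    rwa [h1, one_mul] at h2
  · rw [ha, h1, mul_one]

open Zp in
/-- **The `ℤ_p`-extension of `ℚ`** is contained in the field of all roots of unity of `p`-power order,
totally real, unramified outside `p` and totally ramified at `p`. -/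
theorem zp_extension (p : ℕ) [Fact p.Prime] (K : IntermediateField ℚ (AlgebraicClosure ℚ))
    (hK : IsGalois ℚ K) (e : (K ≃ₐ[ℚ] K) ≃ₜ* Multiplicative ℤ_[p]) :
    K ≤ IntermediateField.adjoin ℚ {ζ : AlgebraicClosure ℚ | ∃ n : ℕ, ζ ^ p ^ n = 1} ∧
    (∀ x ∈ K, complexConjugation x = x) ∧
    (∀ q : ℕ, q.Prime → q ≠ p → ∀ A : ValuationSubring (AlgebraicClosure ℚ), A.LiesOverPrime q →
      ∀ σ ∈ A.inertiaSubgroupIn ℚ, ∀ x ∈ K, σ x = x) ∧
    (∀ A : ValuationSubring (AlgebraicClosure ℚ), A.LiesOverPrime p →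
      ∀ σ : AlgebraicClosure ℚ ≃ₐ[ℚ] AlgebraicClosure ℚ, ∃ τ ∈ A.inertiaSubgroupIn ℚ,
        ∀ x ∈ K, τ x = σ x) := by
  obtain ⟨χ, hχ, hs, hk⟩ := exists_hom_of_equiv (F := ℚ) (E := Qbar) hK e
  have hfix : ∀ {σ : GQ}, χ σ = 1 → ∀ x ∈ K, σ x = x := by
    intro σ hσ
    rw [← IntermediateField.mem_fixingSubgroup_iff, ← hk]
    exact hσ
  refine ⟨fun x hx => ?_, hfix (conj_eq_one χ), fun q hq hqp A hA σ hσ =>
    hfix (unrAt hχ hq hqp A hA σ hσ), fun A hA σ => ?_⟩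
  · rw [← InfiniteGalois.fixedField_fixingSubgroup (IntermediateField.adjoin ℚ
      {ζ : AlgebraicClosure ℚ | ∃ n : ℕ, ζ ^ p ^ n = 1}), IntermediateField.mem_fixedField_iff]
    intro σ hσ
    rw [IntermediateField.mem_fixingSubgroup_iff] at hσ
    exact hfix (eq_one_of_Fix hχ fun k ζ hζ =>
      hσ ζ (IntermediateField.subset_adjoin ℚ _ ⟨k, hζ⟩)) x hx
  · obtain ⟨σ₁, h₁, h2⟩ := exists_isGam_inertia hA
    obtain ⟨τ, hτ, h3⟩ := image_eq_univ hχ (Recip.isClosed_inertia A) h₁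
      (isUnit_of_surj hχ hs h2) (χ σ)
    refine ⟨τ, hτ, fun x hx => ?_⟩
    have h4 : (τ⁻¹ * σ) x = x := hfix (by rw [map_mul, map_inv, h3, inv_mul_cancel]) x hx
    have h5 : τ ((τ⁻¹ * σ) x) = σ x := by
      rw [← AlgEquiv.mul_apply, mul_inv_cancel_left]
    rw [← h5, h4]

end

end Fermat.Agent.Cor.KW
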