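import Fermat.Agent.Corollaries.LocCount.Existence
import Fermat.Agent.Corollaries.KW.ZpExt

/-! # The `ℤ_p`-extensions of `ℚ_p`

`zp_characters_padic`: the continuous homomorphisms `Gal(ℚ̄_p/ℚ_p) → ℤ_p` are a free `ℤ_p`-module
of rank two. -/

set_option autoImplicit false

noncomputable section

namespace Fermat.Agent.Cor.LocZp

open Fermat.Agent.Cor.LocCount Fermat.Agent.Cor.KW
open Fermat.Agent.Frob

attribute [local instance] fact_prime_sub

/-- A continuous homomorphism to a commutative group factors through the abelianization. -/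
theorem exists_lift {G A B : Type*} [Group G] [TopologicalSpace G] [IsTopologicalGroup G]
    [CommGroup A] [TopologicalSpace A] {π : G →* A} (hs : Function.Surjective π)
    (hc : Continuous π) (ho : IsOpenMap π) (hk : π.ker ≤ (commutator G).topologicalClosure)
    [CommGroup B] [TopologicalSpace B] [T2Space B] {ψ : G →* B} (hψ : Continuous ψ) :
    ∃ φ : A →* B, Continuous φ ∧ ∀ g, φ (π g) = ψ g := by
  have hcl : IsClosed (ψ.ker : Set G) := isClosed_singleton.preimage hψ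
  have h1 : (commutator G).topologicalClosure ≤ ψ.ker :=
    Subgroup.topologicalClosure_minimal _ (Abelianization.commutator_subset_ker ψ) hcl
  refine ⟨π.liftOfSurjective hs ⟨ψ, hk.trans h1⟩, ?_, fun g =>
    π.liftOfRightInverse_comp_apply _ _ ⟨ψ, hk.trans h1⟩ g⟩
  rw [(IsOpenMap.isQuotientMap ho hc hs).continuous_iff]
  convert hψ using 1
  funext g
  exact π.liftOfRightInverse_comp_apply _ _ ⟨ψ, hk.trans h1⟩ g

variable {p : ℕ} [hp : Fact p.Prime]

lemma eq_one_of_levels {x : Multiplicative ℤ_[p]} (h : ∀ n : ℕ, x.toAdd.toZModPow n = 0) : x = 1 :=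
  Multiplicative.toAdd.injective (Zp.eq_one_of_md h)

/-- A continuous homomorphism `ℤ_pˣ → ℤ_p` is determined by its value at `1 + 2 p`. -/
theorem units_eq_one {φ : ℤ_[p]ˣ →* Multiplicative ℤ_[p]} (hφ : Continuous φ) {u₀ : ℤ_[p]ˣ}
    (hu₀ : (u₀ : ℤ_[p]) = ((1 + 2 * p : ℕ) : ℤ_[p])) (h : φ u₀ = 1) (u : ℤ_[p]ˣ) : φ u = 1 := by
  have hm1 : φ (-1) = 1 := by
    refine Zp.eq_one_of_pow_int two_ne_zero ?_
    rw [← map_pow, neg_one_sq, map_one]
  refine eq_one_of_levels fun n => ?_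
  -- the level
  have hO : IsOpen {v : ℤ_[p]ˣ | (φ v).toAdd.toZModPow n = 0} := by
    have h1 : IsOpen {x : ℤ_[p] | x.toZModPow n = 0} := by
      have h2 : {x : ℤ_[p] | x.toZModPow n = 0} = {x : ℤ_[p] | ‖x‖ < (p : ℝ) ^ (-(n : ℤ) + 1)} := by
        ext x
        rw [Set.mem_ofPred_eq, Set.mem_ofPred_eq, ← RingHom.mem_ker, PadicInt.ker_toZModPow,
          ← PadicInt.norm_le_pow_iff_mem_span_pow, PadicInt.norm_le_pow_iff_norm_lt_pow_add_one]
      rw [h2]
      exact isOpen_lt continuous_norm continuous_const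
    exact h1.preimage (continuous_toAdd.comp hφ)
  obtain ⟨m, hm⟩ := exists_level_units hO (by
    rw [Set.mem_ofPred_eq, map_one, toAdd_one, map_zero])
  have hm' : ∀ y : ℤ_[p]ˣ, red p (m + 2) y = 1 → (φ y).toAdd.toZModPow n = 0 := by
    intro y hy
    refine hm y (Units.ext ?_)
    have h1 : PadicInt.toZModPow (m + 2) (y : ℤ_[p]) = PadicInt.toZModPow (m + 2) (1 : ℤ_[p]) := by
      rw [map_one]
      exact congrArg Units.val hy
    have h2 := toZModPow_mono (Nat.le_add_right m 2) h1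
    rw [map_one] at h2
    exact h2
  obtain ⟨ε, hε⟩ := Zp.unit_pow_mem m (γ := red p (m + 2) u₀) (by
    change PadicInt.toZModPow (m + 2) (u₀ : ℤ_[p]) = _
    rw [hu₀, map_natCast]) (red p (m + 2) u)
  obtain ⟨j, hj⟩ := Subgroup.mem_zpowers_iff.mp hε
  have hred : LocCount.red p (m + 2) (((-1) ^ ε * u) ^ (p - 1) * (u₀ ^ j)⁻¹) = 1 := by
    have h1 : LocCount.red p (m + 2) (-1) = -1 := by
      refine Units.ext ?_
      change PadicInt.toZModPow (m + 2) (((-1 : ℤ_[p]ˣ) : ℤ_[p])) = _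
      rw [Units.val_neg, Units.val_one, map_neg, map_one, Units.val_neg, Units.val_one]
    rw [map_mul, map_inv, map_zpow, map_pow, map_mul, map_pow, h1, hj, mul_inv_cancel]
  have h1 := hm' _ hred
  have h5 : φ (((-1) ^ ε * u) ^ (p - 1) * (u₀ ^ j)⁻¹) = φ u ^ (p - 1) := by
    rw [map_mul φ, map_inv φ, map_zpow φ, map_pow φ, map_mul φ, map_pow φ, h, hm1, one_pow,
      one_zpow, one_mul, inv_one, mul_one]
  rw [h5, toAdd_pow, nsmul_eq_mul, map_mul, map_natCast] at h1
  have hu : IsUnit (((p - 1 : ℕ) : ZMod (p ^ n))) := by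
    rw [ZMod.isUnit_iff_coprime]
    exact Zp.coprime_pred p n
  exact (hu.mul_right_eq_zero).mp h1

/-- The logarithm: a continuous surjective homomorphism `ℤ_pˣ → ℤ_p`. -/
theorem exists_log (p : ℕ) [hp : Fact p.Prime] : ∃ (u₀ : ℤ_[p]ˣ)
    (θ : ℤ_[p]ˣ →* Multiplicative ℤ_[p]), (u₀ : ℤ_[p]) = ((1 + 2 * p : ℕ) : ℤ_[p]) ∧
      Continuous θ ∧ θ u₀ = Multiplicative.ofAdd 1 := by
  classical
  obtain ⟨u, hu⟩ : IsUnit ((1 + 2 * p : ℕ) : ℤ_[p]) := by
    rw [PadicInt.isUnit_iff, PadicInt.norm_natCast_eq_one_iff]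
    have h1 := Zp.coprime_gam p 1
    rw [pow_one] at h1
    exact h1.symm
  let P : Nat.Primes := ⟨p, hp.out⟩
  let u' : ℤ_[(P : ℕ)]ˣ := u
  obtain ⟨σ, hσ⟩ := Recip.cyc_surjective (Pi.mulSingle P u')
  have hgam : Zp.IsGam p σ := by
    intro n ζ hζ
    have h1 : Recip.chi P σ = u' := by
      have h := congrFun hσ P
      rw [Pi.mulSingle_eq_same] at h
      exact h
    have h2 := Recip.chi_spec P n σ hζ
    rw [h1] at h2
    rw [h2]
    show ζ ^ ((u : ℤ_[p]).toZModPow n).val = _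
    rw [hu, map_natCast, ZMod.val_natCast]
    exact (pow_eq_pow_mod _ hζ).symm
  obtain ⟨χ, hχ, hχσ, -⟩ := Zp.exists_char hgam
  obtain ⟨φ, hφ, hφχ⟩ := exists_lift (π := proj Recip.equiv) (proj_surjective _)
    (continuous_proj _) (isOpenMap_proj _) (le_of_eq (ker_proj _)) hχ
  let s : ℤ_[(P : ℕ)]ˣ →* ((q : Nat.Primes) → ℤ_[q]ˣ) :=
    MonoidHom.mulSingle (fun q : Nat.Primes => ℤ_[(q : ℕ)]ˣ) P
  have hs : Continuous s :=
    continuous_mulSingle (A := fun q : Nat.Primes => ℤ_[(q : ℕ)]ˣ) P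
  refine ⟨u, φ.comp s, hu, hφ.comp hs, ?_⟩
  change φ (Pi.mulSingle P u') = _
  rw [← hσ]
  have h1 : proj Recip.equiv σ = Recip.cyc σ := rfl
  rw [← h1, hφχ]
  exact Multiplicative.toAdd.injective hχσ

/-- A continuous homomorphism `G → ℤ_p`, `G` compact, with `1` in the image is surjective. -/
theorem surjective_of_one {G : Type*} [Group G] [TopologicalSpace G] [CompactSpace G]
    {θ : G →* Multiplicative ℤ_[p]} (hθ : Continuous θ) {g : G}
    (hg : θ g = Multiplicative.ofAdd 1) : Function.Surjective θ := by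
  rw [← Set.range_eq_univ]
  have h1 : IsClosed (Set.range θ) := (isCompact_range hθ).isClosed
  rw [Set.eq_univ_iff_forall]
  intro x
  have h2 : DenseRange (fun k : ℤ => Multiplicative.ofAdd ((k : ℤ_[p]))) :=
    PadicInt.denseRange_intCast
  refine h1.closure_subset_iff.mpr ?_ (h2 x)
  rintro _ ⟨k, rfl⟩
  refine ⟨g ^ k, ?_⟩
  rw [map_zpow, hg]
  refine Multiplicative.toAdd.injective ?_
  rw [toAdd_zpow, toAdd_ofAdd, toAdd_ofAdd, zsmul_eq_mul, mul_one]

/-- A continuous homomorphism to `ℤ_p` on the abelianized Galois group of `ℚ_p` which is trivial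
at `1 + 2 p` and at the Frobenius is trivial. -/
theorem ab_eq_one {φ : Ab p →* Multiplicative ℤ_[p]} (hφ : Continuous φ) {u₀ : ℤ_[p]ˣ}
    (hu₀ : (u₀ : ℤ_[p]) = ((1 + 2 * p : ℕ) : ℤ_[p])) (h : φ (u₀, 1) = 1)
    (h' : φ (1, Multiplicative.ofAdd 1) = 1) : φ = 1 := by
  have h1 : ∀ u : ℤ_[p]ˣ, φ (u, 1) = 1 := units_eq_one
    (φ := φ.comp (MonoidHom.inl ℤ_[p]ˣ ZHat)) 
    (hφ.comp (continuous_id.prodMk continuous_const)) hu₀ h
  have h2 : ∀ x : ℚ_[p]ˣ, φ (iota p x) = 1 := by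
    intro x
    obtain ⟨u, k, rfl⟩ := exists_jay x
    rw [map_mul, map_zpow, map_mul, map_zpow, iota_incl, iota_unif, h1, h', one_zpow, one_mul]
  refine MonoidHom.ext fun a => ?_
  exact congrFun (denseRange_iota.equalizer hφ continuous_const (funext h2)) a

/-- **The `ℤ_p`-characters of the Galois group of `ℚ_p`** are a free `ℤ_p`-module of rank two. -/
theorem zp_characters_padic (p : ℕ) [hp : Fact p.Prime] :
    ∃ χ₁ χ₂ : (PadicAlgCl p ≃ₐ[ℚ_[p]] PadicAlgCl p) →* Multiplicative ℤ_[p],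
      Continuous χ₁ ∧ Continuous χ₂ ∧ Function.Surjective (fun g => (χ₁ g, χ₂ g)) ∧
        (∀ g : PadicAlgCl p ≃ₐ[ℚ_[p]] PadicAlgCl p,
          (∀ (n : ℕ) (ζ : PadicAlgCl p), ζ ^ p ^ n = 1 → g ζ = ζ) → χ₁ g = 1) ∧
        (∀ g : PadicAlgCl p ≃ₐ[ℚ_[p]] PadicAlgCl p,
          (∀ x : PadicAlgCl p, ‖x‖ ≤ 1 → ‖g x - x‖ < 1) → χ₂ g = 1) ∧
        ∀ ψ : (PadicAlgCl p ≃ₐ[ℚ_[p]] PadicAlgCl p) →* Multiplicative ℤ_[p], Continuous ψ →
          ∃! a : ℤ_[p] × ℤ_[p], ∀ g,
            (ψ g).toAdd = a.1 * (χ₁ g).toAdd + a.2 * (χ₂ g).toAdd := by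
  obtain ⟨u₀, θ, hu₀, hθ, hθ₀⟩ := exists_log p
  let P : Nat.Primes := ⟨p, hp.out⟩
  let π : (PadicAlgCl p ≃ₐ[ℚ_[p]] PadicAlgCl p) →* Ab p := proj (cft p)
  have hπs : Function.Surjective π := proj_surjective _
  have hπc : Continuous π := continuous_proj _
  let ev : ZHat →* Multiplicative ℤ_[p] := 
    AddMonoidHom.toMultiplicative (Pi.evalAddMonoidHom (fun q : Nat.Primes => ℤ_[(q : ℕ)]) P)
  have hev : Continuous ev := by
    change Continuous fun x : (q : Nat.Primes) → ℤ_[(q : ℕ)] => x P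
    exact continuous_apply P
  let χ₁ : (PadicAlgCl p ≃ₐ[ℚ_[p]] PadicAlgCl p) →* Multiplicative ℤ_[p] :=
    (θ.comp (MonoidHom.fst _ _)).comp π
  let χ₂ : (PadicAlgCl p ≃ₐ[ℚ_[p]] PadicAlgCl p) →* Multiplicative ℤ_[p] :=
    (ev.comp (MonoidHom.snd _ _)).comp π
  have hχ₁ : Continuous χ₁ := (hθ.comp continuous_fst).comp hπc
  have hχ₂ : Continuous χ₂ := (hev.comp continuous_snd).comp hπc
  obtain ⟨ga, hga⟩ := hπs (u₀, 1)
  obtain ⟨gb, hgb⟩ := hπs (1, Multiplicative.ofAdd 1)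
  have h1a : (χ₁ ga).toAdd = 1 := by
    change (θ (π ga).1).toAdd = 1
    rw [hga, hθ₀, toAdd_ofAdd]
  have h1b : (χ₁ gb).toAdd = 0 := by
    change (θ (π gb).1).toAdd = 0
    rw [hgb, map_one, toAdd_one]
  have h2a : (χ₂ ga).toAdd = 0 := by
    change (ev (π ga).2).toAdd = 0
    rw [hga, map_one, toAdd_one]
  have h2b : (χ₂ gb).toAdd = 1 := by
    change (ev (π gb).2).toAdd = 1
    rw [hgb]
    rfl
  refine ⟨χ₁, χ₂, hχ₁, hχ₂, ?_, fun g hg => ?_, fun g hg => ?_, fun ψ hψ => ?_⟩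
  · rintro ⟨x, y⟩
    obtain ⟨u, hu⟩ := surjective_of_one hθ hθ₀ x
    have hevs : Function.Surjective ev := by
      intro y
      classical
      let y' : ℤ_[(P : ℕ)] := Multiplicative.toAdd y
      let f : (q : Nat.Primes) → ℤ_[(q : ℕ)] := fun q => if h : q = P then h ▸ y' else 0
      have h7 : f P = y' := dif_pos rfl
      exact ⟨Multiplicative.ofAdd f, congrArg Multiplicative.ofAdd h7⟩
    obtain ⟨b, hb⟩ := hevs y
    obtain ⟨g, hg⟩ := hπs (u, b)
    refine ⟨g, Prod.ext ?_ ?_⟩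
    · change θ (π g).1 = x
      rw [hg, hu]
    · change ev (π g).2 = y
      rw [hg, hb]
  · have h1 : (π g).1 = 1 := by
      refine Units.ext (PadicInt.ext_of_toZModPow.mp fun n => ?_)
      have : NeZero (p ^ n) := ⟨pow_ne_zero _ hp.out.ne_zero⟩
      obtain ⟨ζ, hζ⟩ := HasEnoughRootsOfUnity.exists_primitiveRoot (PadicAlgCl p) (p ^ n)
      have h2 := (KW.class_field_theory_padic p).choose_spec.1 g n ζ hζ.pow_eq_one
      change g ζ = ζ ^ (PadicInt.toZModPow n ((π g).1 : ℤ_[p])).val at h2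
      rw [hg n ζ hζ.pow_eq_one] at h2
      rw [Units.val_one, map_one]
      by_cases hn : p ^ n = 1
      · have : Subsingleton (ZMod (p ^ n)) := by
          rw [hn]
          infer_instance
        exact Subsingleton.elim _ _
      · have : Fact (1 < p ^ n) := ⟨lt_of_le_of_ne (Nat.one_le_pow _ _ hp.out.pos) (Ne.symm hn)⟩
        have h3 := hζ.pow_inj (i := 1) Fact.out (ZMod.val_lt _) (by rw [pow_one]; exact h2)
        refine ZMod.val_injective _ ?_
        rw [← h3, ZMod.val_one]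
    change θ (π g).1 = 1
    rw [h1, map_one]
  · have h1 := (KW.class_field_theory_padic p).choose_spec.2.2.1
    change (fun σ => cft p (QuotientGroup.mk σ)) '' _ = _ at h1
    have h2 : π g ∈ (fun σ : PadicAlgCl p ≃ₐ[ℚ_[p]] PadicAlgCl p =>
        cft p (QuotientGroup.mk σ)) '' {σ | ∀ x : PadicAlgCl p, ‖x‖ ≤ 1 → ‖σ x - x‖ < 1} :=
      ⟨g, hg, rfl⟩
    rw [h1] at h2
    have h3 : (π g).2 = 1 := h2
    change ev (π g).2 = 1
    rw [h3, map_one]
  · obtain ⟨φ, hφ, hφψ⟩ := exists_lift (π := π) hπs hπc (isOpenMap_proj _)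
      (le_of_eq (ker_proj _)) hψ
    refine ⟨((ψ ga).toAdd, (ψ gb).toAdd), fun g => ?_, ?_⟩
    · -- the difference
      let δ : Ab p →* Multiplicative ℤ_[p] :=
        { toFun := fun x => Multiplicative.ofAdd ((φ x).toAdd -
            ((ψ ga).toAdd * (θ x.1).toAdd + (ψ gb).toAdd * (ev x.2).toAdd))
          map_one' := by
            simp
          map_mul' := fun x y => by
            have e1 : (φ (x * y)).toAdd = (φ x).toAdd + (φ y).toAdd :=
              congrArg Multiplicative.toAdd (φ.map_mul x y)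
            have e2 : (θ (x * y).1).toAdd = (θ x.1).toAdd + (θ y.1).toAdd :=
              congrArg Multiplicative.toAdd (θ.map_mul x.1 y.1)
            have e3 : (ev (x * y).2).toAdd = (ev x.2).toAdd + (ev y.2).toAdd :=
              congrArg Multiplicative.toAdd (ev.map_mul x.2 y.2)
            rw [← ofAdd_add, e1, e2, e3]
            congr 1
            ring }
      have hδc : Continuous δ := by
        change Continuous fun x : Ab p => Multiplicative.ofAdd ((φ x).toAdd -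
            ((ψ ga).toAdd * (θ x.1).toAdd + (ψ gb).toAdd * (ev x.2).toAdd))
        refine continuous_ofAdd.comp ((continuous_toAdd.comp hφ).sub
          ((continuous_const.mul (continuous_toAdd.comp (hθ.comp continuous_fst))).add
            (continuous_const.mul (continuous_toAdd.comp (hev.comp continuous_snd)))))
      have hδa : δ (u₀, 1) = 1 := by
        refine Multiplicative.toAdd.injective ?_
        change (φ (u₀, 1)).toAdd -
            ((ψ ga).toAdd * (θ u₀).toAdd + (ψ gb).toAdd * (ev 1).toAdd) = 0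
        have e1 : (ev 1).toAdd = 0 := congrArg Multiplicative.toAdd ev.map_one
        have e2 : (θ u₀).toAdd = 1 := congrArg Multiplicative.toAdd hθ₀
        rw [← hga, hφψ, e1, e2]
        ring
      have hδb : δ (1, Multiplicative.ofAdd 1) = 1 := by
        refine Multiplicative.toAdd.injective ?_
        change (φ (1, Multiplicative.ofAdd 1)).toAdd -
            ((ψ ga).toAdd * (θ 1).toAdd + (ψ gb).toAdd * 1) = 0
        have e1 : (θ 1).toAdd = 0 := congrArg Multiplicative.toAdd θ.map_one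
        rw [← hgb, hφψ, e1]
        ring
      have hδ := ab_eq_one hδc hu₀ hδa hδb
      have h3 : (φ (π g)).toAdd - ((ψ ga).toAdd * (θ (π g).1).toAdd +
          (ψ gb).toAdd * (ev (π g).2).toAdd) = 0 :=
        congrArg Multiplicative.toAdd (DFunLike.congr_fun hδ (π g))
      rw [hφψ] at h3
      exact sub_eq_zero.mp h3
    · rintro ⟨a, b⟩ hab
      have ha := hab ga
      have hb := hab gb
      simp only [h1a, h1b, h2a, h2b, mul_one, mul_zero, add_zero, zero_add] at ha hb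
      exact Prod.ext ha.symm hb.symm

end Fermat.Agent.Cor.LocZp
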