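import Fermat.Agent.Corollaries.KW.LocZp

/-! # The `ℤ_p²`-extension of `ℚ_p`

`existsUnique_zp_sq`: `ℚ_p` has exactly one Galois extension with group `ℤ_p × ℤ_p`;
`le_of_zp`: it contains all `ℤ_p`-extensions of `ℚ_p`. -/

set_option autoImplicit false

namespace Fermat.Agent.Cor.LocZp

variable {p : ℕ} [hp : Fact p.Prime]

/-- The kernel of a surjective continuous homomorphism to `ℤ_p²`. -/
theorem ker_eq_of_surjective {G : Type*} [Group G] [TopologicalSpace G]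
    {χ₁ χ₂ : G →* Multiplicative ℤ_[p]}
    (hall : ∀ ψ : G →* Multiplicative ℤ_[p], Continuous ψ → ∃! a : ℤ_[p] × ℤ_[p], ∀ g,
      (ψ g).toAdd = a.1 * (χ₁ g).toAdd + a.2 * (χ₂ g).toAdd)
    {Χ : G →* Multiplicative ℤ_[p] × Multiplicative ℤ_[p]} (hc : Continuous Χ)
    (hs : Function.Surjective Χ) : Χ.ker = (χ₁.prod χ₂).ker := by
  obtain ⟨⟨a₁, b₁⟩, h₁, -⟩ := hall ((MonoidHom.fst _ _).comp Χ) (continuous_fst.comp hc)
  obtain ⟨⟨a₂, b₂⟩, h₂, -⟩ := hall ((MonoidHom.snd _ _).comp Χ) (continuous_snd.comp hc)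
  have h₁' : ∀ g, (Χ g).1.toAdd = a₁ * (χ₁ g).toAdd + b₁ * (χ₂ g).toAdd := h₁
  have h₂' : ∀ g, (Χ g).2.toAdd = a₂ * (χ₁ g).toAdd + b₂ * (χ₂ g).toAdd := h₂
  obtain ⟨g, hg⟩ := hs (Multiplicative.ofAdd 1, Multiplicative.ofAdd 0)
  obtain ⟨g', hg'⟩ := hs (Multiplicative.ofAdd 0, Multiplicative.ofAdd 1)
  have e1 := h₁' g
  have e2 := h₂' g
  have e3 := h₁' g'
  have e4 := h₂' g'
  rw [hg, toAdd_ofAdd] at e1 e2
  rw [hg', toAdd_ofAdd] at e3 e4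
  have hdet : (a₁ * b₂ - a₂ * b₁) *
      ((χ₁ g).toAdd * (χ₂ g').toAdd - (χ₁ g').toAdd * (χ₂ g).toAdd) = 1 := by
    linear_combination (-(a₂ * (χ₁ g').toAdd + b₂ * (χ₂ g').toAdd)) * e1 +
      (a₁ * (χ₁ g').toAdd + b₁ * (χ₂ g').toAdd) * e2 - e4
  have hne : a₁ * b₂ - a₂ * b₁ ≠ 0 := left_ne_zero_of_mul_eq_one hdet
  ext σ
  rw [MonoidHom.mem_ker, MonoidHom.mem_ker]
  constructor
  · intro h
    have f1 := h₁' σ
    have f2 := h₂' σ
    rw [h] at f1 f2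
    have f1' : a₁ * (χ₁ σ).toAdd + b₁ * (χ₂ σ).toAdd = 0 := f1.symm
    have f2' : a₂ * (χ₁ σ).toAdd + b₂ * (χ₂ σ).toAdd = 0 := f2.symm
    have g1 : (a₁ * b₂ - a₂ * b₁) * (χ₁ σ).toAdd = 0 := by
      linear_combination b₂ * f1' - b₁ * f2'
    have g2 : (a₁ * b₂ - a₂ * b₁) * (χ₂ σ).toAdd = 0 := by
      linear_combination a₁ * f2' - a₂ * f1'
    exact Prod.ext (Multiplicative.toAdd.injective ((mul_eq_zero.mp g1).resolve_left hne))
      (Multiplicative.toAdd.injective ((mul_eq_zero.mp g2).resolve_left hne))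
  · intro h
    have k1 : χ₁ σ = 1 := congrArg Prod.fst h
    have k2 : χ₂ σ = 1 := congrArg Prod.snd h
    refine Prod.ext (Multiplicative.toAdd.injective ?_) (Multiplicative.toAdd.injective ?_)
    · rw [h₁', k1, k2, toAdd_one, mul_zero, mul_zero, add_zero]
      rfl
    · rw [h₂', k1, k2, toAdd_one, mul_zero, mul_zero, add_zero]
      rfl

/-- **`ℚ_p` has exactly one Galois extension with group `ℤ_p × ℤ_p`.** -/
theorem existsUnique_zp_sq (p : ℕ) [hp : Fact p.Prime] :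
    ∃! K : IntermediateField ℚ_[p] (PadicAlgCl p), IsGalois ℚ_[p] K ∧
      Nonempty ((K ≃ₐ[ℚ_[p]] K) ≃ₜ* Multiplicative ℤ_[p] × Multiplicative ℤ_[p]) := by
  obtain ⟨χ₁, χ₂, h1, h2, hs, -, -, hall⟩ := zp_characters_padic p
  refine KW.Zp.existsUnique_field (χ := χ₁.prod χ₂) (h1.prodMk h2) hs
    fun Χ Χ' hc hc' hs hs' => le_of_eq ?_
  rw [ker_eq_of_surjective hall hc hs, ker_eq_of_surjective hall hc' hs']

/-- **It contains all `ℤ_p`-extensions of `ℚ_p`.** -/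
theorem le_of_zp (p : ℕ) [hp : Fact p.Prime] {K K' : IntermediateField ℚ_[p] (PadicAlgCl p)}
    (hK : IsGalois ℚ_[p] K)
    (e : (K ≃ₐ[ℚ_[p]] K) ≃ₜ* Multiplicative ℤ_[p] × Multiplicative ℤ_[p])
    (hK' : IsGalois ℚ_[p] K') (e' : (K' ≃ₐ[ℚ_[p]] K') ≃ₜ* Multiplicative ℤ_[p]) : K' ≤ K := by
  obtain ⟨χ₁, χ₂, h1, h2, hs, -, -, hall⟩ := zp_characters_padic p
  obtain ⟨Χ, hc, hs, hk⟩ := KW.Zp.exists_hom_of_equiv hK e
  obtain ⟨ψ, hc', -, hk'⟩ := KW.Zp.exists_hom_of_equiv hK' e'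
  rw [← InfiniteGalois.fixedField_fixingSubgroup K, ← InfiniteGalois.fixedField_fixingSubgroup K',
    ← hk, ← hk', ker_eq_of_surjective hall hc hs]
  refine IntermediateField.fixedField_antitone fun σ hσ => ?_
  obtain ⟨a, ha, -⟩ := hall ψ hc'
  have k1 : χ₁ σ = 1 := congrArg Prod.fst hσ
  have k2 : χ₂ σ = 1 := congrArg Prod.snd hσ
  refine MonoidHom.mem_ker.mpr (Multiplicative.toAdd.injective ?_)
  rw [ha, k1, k2, toAdd_one, mul_zero, mul_zero, add_zero]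

end Fermat.Agent.Cor.LocZp
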